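import Fermat.Agent.RT.Lifting.Defs
import Fermat.Agent.EC.Rep.Residual
import Fermat.Agent.RT.GammaH.Local
import Fermat.Agent.RT.Interface
import Fermat.Prelude.Def_Algebra_PatchingDatum
import Fermat.Prelude.Def_CuspForm_Newforms
import Fermat.Prelude.Def_GaloisRep_LocalConditions
import Fermat.Prelude.Def_GaloisRep_StrictOrdinary
import Fermat.Prelude.Def_GaloisRep_Flat
import Fermat.Prelude.Def_FLTPrelim_ModularRep
import Fermat.Prelude.Def_WeierstrassCurve_PeuRamifiee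

/-!
# The pieces of the lifting argument, as propositions

Each `…Property` is proved in a file of its own; `Lifting/Assembly` combines them.
-/

set_option autoImplicit false
set_option linter.style.haveILetI false

noncomputable section

namespace Fermat.Agent.RT.Lifting

open IsLocalRing MvPolynomial Module CongruenceSubgroup ModularFormClass
open Fermat.Agent.Deform Fermat.Agent.Arith Fermat.Agent.RT.GammaH Fermat.Agent.RT.Assembly

/-! ### Commutative algebra -/

/-- If `f = A X` is `m`-primary then `det A` spans the socle of `k[[X]] / (f)`. -/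
def SocleProperty : Prop :=
  ∀ (k : Type) [Field k] (n : ℕ) (A : Matrix (Fin n) (Fin n) (MvPowerSeries (Fin n) k))
    (f : Fin n → MvPowerSeries (Fin n) k), (∀ i, f i = ∑ j, A i j * MvPowerSeries.X j) →
    (∃ N : ℕ, maximalIdeal (MvPowerSeries (Fin n) k) ^ N ≤ Ideal.span (Set.range f)) →
    A.det ∉ Ideal.span (Set.range f) ∧
      ∀ g ∉ Ideal.span (Set.range f), ∃ h, g * h - A.det ∈ Ideal.span (Set.range f)

/-- The numerical criterion: `R` acts faithfully once some primitive eigen element of `M` is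
sent by eigen functionals to multiples of a bound for the derivations at `x`. -/
def FaithfulProperty : Prop :=
  ∀ (O : Type) [CommRing O] [IsDomain O] [IsDiscreteValuationRing O]
    [IsAdicComplete (maximalIdeal O) O] [Finite (ResidueField O)]
    (R : Type) [CommRing R] [IsLocalRing R] [Algebra O R] [Module.Finite O R],
    IsResAlg O R →
    ∀ (M : Type) [AddCommGroup M] [Module O M] [Module R M] [IsScalarTower O R M]
      [Module.Finite O M] [Module.Free O M] (x : R →ₐ[O] O) (D : O), D ≠ 0 → DerBound x D →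
      ∀ u : M, (∀ r : R, r • u = x r • u) → u ∉ maximalIdeal O • (⊤ : Submodule O M) →
        (∀ φ : M →ₗ[O] O, (∀ (r : R) (m : M), φ (r • m) = x r * φ m) → D ∣ φ u) →
        ∀ r : R, (∀ m : M, r • m = 0) → r = 0

/-- A reduced algebra with as many relations as variables has a congruence modulus at each point,
read on every free module. -/
def ModulusProperty : Prop :=
  ∀ (O : Type) [CommRing O] [IsDomain O] [IsDiscreteValuationRing O]
    [IsAdicComplete (maximalIdeal O) O] [Finite (ResidueField O)]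
    (R : Type) [CommRing R] [IsLocalRing R] [Algebra O R] [Module.Finite O R] [IsReduced R]
    (r : ℕ) (π : MvPowerSeries (Fin r) O →ₐ[O] R) (f : Fin r → MvPowerSeries (Fin r) O),
    Function.Surjective π → RingHom.ker π = Ideal.span (Set.range f) → IsResAlg O R →
    Module.Free O R →
    ∀ x : R →ₐ[O] O, ∃ η : O, η ≠ 0 ∧ DerBound x η ∧
      ∀ (M : Type) [AddCommGroup M] [Module O M] [Module R M] [IsScalarTower O R M],
        Module.Free R M → Module.Finite R M →
        ∀ (u : M) (φ : M →ₗ[O] O), (∀ r : R, r • u = x r • u) →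
          (∀ (r : R) (m : M), φ (r • m) = x r * φ m) → η ∣ φ u

/-- The limit of a patching datum. -/
def LimitProperty : Prop :=
  ∀ (O : Type) [CommRing O] [IsDomain O] [IsDiscreteValuationRing O]
    [IsAdicComplete (maximalIdeal O) O] [Finite (ResidueField O)] (p r : ℕ),
    (p : O) ∈ maximalIdeal O →
    ∀ (R : Type) [CommRing R] [Algebra O R] [Module.Finite O R]
      (M : Type) [AddCommGroup M] [Module O M] [Module R M] [IsScalarTower O R M]
      [Module.Finite O M] [Module.Free O M] [Nontrivial M],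
    Nonempty (Algebra.PatchingDatum O p r R M) →
    Module.Free R M ∧ Module.annihilator R M = ⊥ ∧
      ∃ (ψ : MvPowerSeries (Fin r) O →ₐ[O] R) (f : Fin r → MvPowerSeries (Fin r) O),
        Function.Surjective ψ ∧ RingHom.ker ψ = Ideal.span (Set.range f)

/-! ### The residual datum -/

variable {O : Type} [CommRing O] [IsDomain O] [IsDiscreteValuationRing O]
  [IsAdicComplete (maximalIdeal O) O]

/-- The residual representation, the excluded primes and the minimal level. -/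
structure IsResidualDatum (p : ℕ) (W : Rigid O) (ρbar : ResidualGaloisRep (ResidueField O))
    (bb : Basis (Fin 2) (ResidueField O) ρbar.V) (S : Finset ℕ) (abar : ℕ → ResidueField O)
    (N₀ : ℕ) : Prop where
  p_ne_two : p ≠ 2
  p_mem : (p : O) ∈ maximalIdeal O
  rb_eq : W.rb = matRes ρbar bb
  irreducible : ρbar.IsAbsolutelyIrreducible
  det : (GaloisRepAdic.ofResidualGaloisRep ρbar).DetIsCyclotomic p
  prime_mem : ∀ q ∈ S, q.Prime
  mem_S_p : p ∈ S
  mem_S_level : ∀ q : ℕ, q.Prime → q ∣ N₀ → q ∈ S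
  squarefree : Squarefree N₀
  trace_frobenius : ∀ ℓ : ℕ, ℓ.Prime → ℓ ∉ S → ∀ A : ValuationSubring QBar, A.LiesOverPrime ℓ →
    ∀ σ : Gal, A.IsFrobeniusAt σ ℓ → (W.rb σ).trace = abar ℓ
  unramified : ∀ ℓ : ℕ, ℓ.Prime → ℓ ≠ p → ¬ ℓ ∣ N₀ → ρbar.IsUnramifiedAt ℓ
  ramified : ∀ q : ℕ, q.Prime → q ≠ p → q ∣ N₀ → ¬ ρbar.IsUnramifiedAt q
  unipotent : ∀ q : ℕ, q.Prime → q ≠ p → q ∣ N₀ → ∀ A : ValuationSubring QBar,
    A.LiesOverPrime q → ∀ τ ∈ A.inertiaSubgroupIn ℚ, (W.rb τ).trace = 2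
  aux : ∀ L : ℕ, L ≠ 0 → ∃ ℓ : ℕ, ℓ.Prime ∧ ℓ ∉ S ∧ L ∣ ℓ - 1 ∧ abar ℓ ≠ 2
  congruent : IsCongruentLevel S abar N₀
  split : ∀ σ : Gal, ∃ α β : ResidueField O,
    (W.rb σ).trace = α + β ∧ (W.rb σ).det = α * β

/-- The system `a` reduces to `abar` outside `S`. -/
def IsResidualSystem (S : Finset ℕ) (abar : ℕ → ResidueField O) (a : ℕ → O) : Prop :=
  ∀ ℓ : ℕ, ℓ.Prime → ℓ ∉ S → residue O (a ℓ) = abar ℓ

/-- The system of a newform of level dividing `L`. -/
def IsClassicalSystem (ι : O →+* ℂ) (L : ℕ) (a : ℕ → O) : Prop :=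
  ∃ (M : ℕ) (_ : NeZero M) (g : CuspForm (Gamma0 M) 2), g.IsNewform ∧ M ∣ L ∧
    ∀ ℓ : ℕ, ℓ.Prime → ¬ ℓ ∣ M → qCoeff g ℓ = ι (a ℓ)

/-- The coefficients of the newforms of level dividing `L` lie in `O`. -/
def HasCoefficients (ι : O →+* ℂ) (L : ℕ) : Prop :=
  ∀ (M : ℕ) [NeZero M] (g : CuspForm (Gamma0 M) 2), g.IsNewform → M ∣ L →
    ∀ ℓ : ℕ, ℓ.Prime → ¬ ℓ ∣ M → ∃ x : O, ι x = qCoeff g ℓ

/-- `ρbar` in the basis of `W.rb` is the representation on the `p`-torsion of `E`. -/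
def IsResidualOf (E : WeierstrassCurve ℤ) (hΔ : E.Δ ≠ 0) (p : ℕ) [Fact p.Prime]
    [CharP (ResidueField O) p] (W : Rigid O) : Prop :=
  ∃ b : Basis (Fin 2) (ZMod p) (EC.Rep.residualRep E p hΔ).V,
    ∀ σ i j, W.rb σ i j = ZMod.castHom dvd_rfl (ResidueField O) (matRes _ b σ i j)

/-- `C` holds for the representation of every newform with residual representation `ρbar` whose
level satisfies `good`. -/
def PointCond (p : ℕ) (ρbar : ResidualGaloisRep (ResidueField O)) (C : CondAt O)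
    (good : ℕ → Prop) : Prop :=
  ∀ (M : ℕ) [NeZero M] (g : CuspForm (Gamma0 M) 2), g.IsNewform → good M →
    ∀ (O' : Type) [CommRing O'] [IsDomain O'] [IsDiscreteValuationRing O']
      [IsAdicComplete (maximalIdeal O') O'] [Finite (ResidueField O')] [CharZero O']
      [Algebra O O'] [Module.Finite O O'] [IsLocalHom (algebraMap O O')]
      (ρ : GaloisRepAdic O') (j : O' →+* ℂ), Function.Injective j →
      ρ.residual.IsEquiv (ρbar.baseChangeAlong (ResidueField.map (algebraMap O O'))) →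
      ρ.DetIsCyclotomic p →
      (∀ ℓ : ℕ, ℓ.Prime → ℓ ≠ p → ¬ ℓ ∣ M → ∀ A : ValuationSubring QBar, A.LiesOverPrime ℓ →
        ∀ σ : Gal, A.IsFrobeniusAt σ ℓ → j (LinearMap.trace O' ρ.V (ρ.ρ σ)) = qCoeff g ℓ) →
      C ρ

/-- The flat condition at `p`. -/
abbrev flatCond (p : ℕ) : CondAt O := fun _A _ _ _ ρ => ρ.IsFlatAt p

/-- The ordinary condition at `p`. -/
abbrev ordCond (p : ℕ) : CondAt O := fun _A _ _ _ ρ => ρ.IsOrdinaryAt p

/-- The Frobenius elements at `p` act on the unramified quotient by `α`. -/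
def IsOrdinaryRoot (p : ℕ) (r : Gal →* M2 O) (α : O) : Prop :=
  ∀ A : ValuationSubring QBar, A.LiesOverPrime p → ∃ P : (M2 O)ˣ,
    ∀ σ ∈ A.decompositionSubgroup ℚ, conjM P r σ 1 0 = 0 ∧
      (σ ∈ A.inertiaSubgroupIn ℚ → conjM P r σ 1 1 = 1) ∧
      (A.IsFrobeniusAt σ p → conjM P r σ 1 1 = α)

/-- Residually, inertia at `p` fixes a line pointwise modulo which it is trivial and some inertia
element acts there by a value different from `1`. -/
def IsDistinguishedOrdinary (p : ℕ) (ρbar : ResidualGaloisRep (ResidueField O)) : Prop :=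
  (GaloisRepAdic.ofResidualGaloisRep ρbar).IsOrdinaryAt p ∧
    ∀ A : ValuationSubring QBar, A.LiesOverPrime p →
      ∃ τ ∈ A.inertiaSubgroupIn ℚ, LinearMap.det (ρbar.ρ τ) ≠ 1

/-- Ordinary deformations to the dual numbers are strictly ordinary: `ρbar` is très ramifiée. -/
def IsTresRamified (p : ℕ) (ρbar : ResidualGaloisRep (ResidueField O)) : Prop :=
  letI := dualAlgebra O
  ∀ ρ : GaloisRepAdic (DualNumber (ResidueField O)),
    ρ.residual.IsEquiv
      (ρbar.baseChangeAlong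
        (((IsLocalRing.residue (DualNumber (ResidueField O))).comp
          (algebraMap (ResidueField O) (DualNumber (ResidueField O)))))) →
    ρ.DetIsCyclotomic p → ρ.IsOrdinaryAt p → ρ.IsStrictOrdinaryAt p

/-! ### The datum of a curve -/

/-- Removing a prime `q ≠ p` at which `E[p]` is unramified from a squarefree level: the statement
of milestone 38. -/
def LowerQInput (p : ℕ) [Fact p.Prime] : Prop :=
  ∀ (E : WeierstrassCurve ℤ) (hΔ : E.Δ ≠ 0), E.IsSemistableModel → E.ModRepIsIrreducible p →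
    ∀ (M q : ℕ), q.Prime → q ≠ p → q ∣ M → Squarefree M →
      (p ∣ M → (p : ℤ) ∣ E.Δ ∧ ¬ p ∣ padicValInt p E.Δ) →
      (EC.Rep.residualRep E p hΔ).IsUnramifiedAt q →
      E.IsResiduallyModularOfLevel p M → E.IsResiduallyModularOfLevel p (M / q)

/-- Removing `p ≥ 5` from a squarefree level when `E` is multiplicative at `p` with `E[p]` peu
ramifiée. -/
def LowerPInput (p : ℕ) : Prop :=
  ∀ (E : WeierstrassCurve ℤ), E.Δ ≠ 0 → E.IsSemistableModel → E.ModRepIsIrreducible p →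
    5 ≤ p → (p : ℤ) ∣ E.Δ → p ∣ padicValInt p E.Δ →
    ∀ M : ℕ, p ∣ M → Squarefree M →
      E.IsResiduallyModularOfLevel p M → E.IsResiduallyModularOfLevel p (M / p)

/-- The level at which lifting happens: the squares of the primes of bad reduction prime to `N₀`
and to `p`, and `p` itself when it is one of them. -/
def raisedLevel (E : WeierstrassCurve ℤ) (p N₀ : ℕ) : ℕ :=
  N₀ * (∏ v ∈ E.Δ.natAbs.primeFactors with ¬ v ∣ N₀ ∧ v ≠ p, v ^ 2) *
    if p ∣ E.Δ.natAbs ∧ ¬ p ∣ N₀ then p else 1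

/-- Coefficients, residual datum, minimal level and local type at `p` for a curve. -/
def SetupProperty : Prop :=
  ∀ (p : ℕ) [Fact p.Prime], (p = 3 ∨ p = 5) → ∀ (E : WeierstrassCurve ℤ) (hΔ : E.Δ ≠ 0),
    E.IsSemistableModel → E.ModRepIsIrreducible p →
    ∀ (M₀ : ℕ) [NeZero M₀], E.IsResiduallyModularOfLevel p M₀ → Squarefree M₀ →
    (E.IsGoodPrimeFor p → ¬ p ∣ M₀) → (p = 3 → p ∣ M₀ → (p : ℤ) ∣ E.Δ → ¬ p ∣ padicValInt p E.Δ) →
    ∃ (O : Type) (_ : CommRing O) (_ : IsDomain O) (_ : IsDiscreteValuationRing O)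
      (_ : IsAdicComplete (maximalIdeal O) O) (_ : Finite (ResidueField O)) (_ : CharZero O)
      (_ : CharP (ResidueField O) p) (W : Rigid O) (ρbar : ResidualGaloisRep (ResidueField O))
      (bb : Basis (Fin 2) (ResidueField O) ρbar.V) (N₀ : ℕ) (ι : O →+* ℂ),
      Function.Injective ι ∧
      IsResidualDatum p W ρbar bb (insert p E.Δ.natAbs.primeFactors)
        (fun ℓ => (E.apOfModel ℓ : ResidueField O)) N₀ ∧
      IsResidualOf E hΔ p W ∧ HasCoefficients ι (raisedLevel E p N₀) ∧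
      (∀ q : ℕ, q.Prime → q ∣ N₀ → (q : ℤ) ∣ E.Δ) ∧
      (p ∣ N₀ → IsTresRamified p ρbar)

/-! ### Minimal level -/

/-- `R = T` at the minimal level, in the form used: a congruence modulus of the system of the
minimal lift `r₀` bounding the minimal lifts over it. -/
def MinimalProperty [Finite (ResidueField O)] [CharZero O] (p : ℕ) [Fact p.Prime] (W : Rigid O)
    (ρbar : ResidualGaloisRep (ResidueField O)) (S : Finset ℕ) (N₀ : ℕ) (C : CondAt O)
    (good : ℕ → Prop) : Prop :=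
  IsPairCond ρbar C → PointCond p ρbar C good →
  (∀ M : ℕ, ¬ p ^ 2 ∣ M → (p ∣ M → p ∣ N₀) → good M) →
  TWSelmerInput p C W.rb N₀.primeFactors (N₀.primeFactors.erase p) ∅ S →
  ∀ (ι : O →+* ℂ), Function.Injective ι →
  ∀ (a : ℕ → O) (r₀ : Gal →* M2 O) (hO : IsResAlg O O),
    IsClassicalSystem ι N₀ a → IsTypeLift p W C N₀.primeFactors N₀.primeFactors hO r₀ →
    IsAttachedSystem (insert p N₀.primeFactors) r₀ a →
    ∃ η : O, η ≠ 0 ∧ CongruenceBound S N₀ a η ∧
      LiftBound p W C N₀.primeFactors N₀.primeFactors r₀ η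

/-- The localised module at a Taylor–Wiles level: free over the diamonds, with coinvariants the
localised classes of minimal level, `2 ^ m` times. -/
def TWModuleProperty [Finite (ResidueField O)] (p : ℕ) (W : Rigid O) (S : Finset ℕ)
    (abar : ℕ → ResidueField O) (N₀ : ℕ) [NeZero N₀] : Prop :=
  ∀ (e : OpRing O N₀ S), IsLocalizer (resIdeal S abar N₀) (Classes O S N₀) e →
  ∀ (m n : ℕ) (qv : Fin m → ℕ), IsTWSet p W.rb S n qv →
  ∀ (Δ : Type) [CommGroup Δ] [Finite Δ] (ψ : (ZMod (N₀ * ∏ i, qv i))ˣ →* Δ),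
    Function.Surjective ψ → IsPGroup p Δ →
    ∃ (H : RT.HeckeModule (O := O) (N₀ * ∏ i, qv i) ψ (S ∪ Finset.univ.image qv) abar)
      (π : H.M →ₗ[O] Fin (2 ^ m) → localPart O e (Classes O S N₀)),
      Function.Surjective π ∧
      (∀ x, π x = 0 ↔ x ∈ Submodule.span O (Set.range fun z : Δ × H.M => H.dia z.1 z.2 - z.2)) ∧
      ∀ (ℓ : ℕ) (hℓ : ℓ.Prime ∧ ℓ ∉ S ∪ Finset.univ.image qv) (x : H.M) (j : Fin (2 ^ m)),
        π (H.T ℓ x) j = localAct O e (Classes O S N₀)
          (X (Sum.inr ⟨ℓ, hℓ.1, fun h => hℓ.2 (Finset.mem_union_left _ h)⟩)) (π x j)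

/-! ### Raising the level -/

/-- Eigen classes of the system of a newform of level `M` come from level `M`, and an eigen
functional nonzero on a stable submodule gives an eigen class in it. -/
def EigenSupportProperty (S : Finset ℕ) (abar : ℕ → ResidueField O) : Prop :=
  ∀ (ι : O →+* ℂ), Function.Injective ι → ∀ (M L : ℕ) [NeZero M] [NeZero L] (a : ℕ → O)
    (g : CuspForm (Gamma0 M) 2), g.IsNewform → M ∣ L →
    (∀ ℓ : ℕ, ℓ.Prime → ¬ ℓ ∣ M → qCoeff g ℓ = ι (a ℓ)) →
    (∀ q : ℕ, q.Prime → q ∣ L → q ∈ S) → IsResidualSystem S abar a →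
    (∀ u ∈ eigVec S L a, ∃ c : O, c ≠ 0 ∧ c • u ∈ Submodule.span O
      {y | ∃ (d : ℕ) (_ : NeZero d) (h : d * M ∣ L), ∃ w ∈ eigVec S M a,
        degCls d O S h w = y}) ∧
    ∀ (V : Submodule O (Classes O S L)),
      (∀ i, ∀ v ∈ V, (X (Sum.inr i) : OpRing O L S) • v ∈ V) →
      ∀ φ, IsEigFun S L a φ → (∃ v ∈ V, φ v ≠ 0) → ∃ v ∈ V, v ≠ 0 ∧ v ∈ eigVec S L a

/-- The congruence bound from level `R` to level `R v ^ 2`. -/
def SquareStepProperty (p : ℕ) (S : Finset ℕ) (abar : ℕ → ResidueField O) : Prop :=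
  ∀ (ι : O →+* ℂ), Function.Injective ι → ∀ (R v : ℕ) [NeZero R] (a : ℕ → O) (D : O),
    v.Prime → ¬ v ∣ R → v ≠ p → v ∈ S → (∀ q : ℕ, q.Prime → q ∣ R → q ∈ S) →
    IsClassicalSystem ι R a → IsResidualSystem S abar a → CongruenceBound S R a D →
    CongruenceBound S (R * v ^ 2) a
      (D * (((v : O) - 1) * (((v : O) + 1) ^ 2 - a v ^ 2)))

/-- The congruence bound from level `R` to level `R p` for an ordinary system. -/
def PStepProperty (p : ℕ) (S : Finset ℕ) (abar : ℕ → ResidueField O) : Prop :=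
  ∀ (ι : O →+* ℂ), Function.Injective ι → ∀ (R : ℕ) [NeZero R] (a : ℕ → O) (D α : O),
    ¬ p ∣ R → p ∈ S → (∀ q : ℕ, q.Prime → q ∣ R → q ∈ S) →
    IsUnit α → α ^ 2 - a p * α + (p : O) = 0 →
    IsClassicalSystem ι R a → IsResidualSystem S abar a → CongruenceBound S R a D →
    CongruenceBound S (R * p) a (D * (α ^ 2 - 1))

/-- The bound on lifts when a set `V` of unramified primes is allowed. -/
def SigmaBoundProperty [Finite (ResidueField O)] (p : ℕ) [Fact p.Prime] (W : Rigid O)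
    (ρbar : ResidualGaloisRep (ResidueField O)) (C : CondAt O) : Prop :=
  IsPairCond ρbar C →
  ∀ (T U V : Finset ℕ) (r₀ : Gal →* M2 O) (hO : IsResAlg O O) (av : ℕ → O) (η : O),
    IsTypeLift p W C T U hO r₀ → Disjoint V T → p ∉ V → (∀ v ∈ V, v.Prime) →
    (∀ v ∈ V, ∀ A : ValuationSubring QBar, A.LiesOverPrime v →
      ∀ σ : Gal, A.IsFrobeniusAt σ v → (r₀ σ).trace = av v) →
    (∀ v ∈ V, av v ^ 2 ≠ ((v : O) + 1) ^ 2) → η ≠ 0 → LiftBound p W C T U r₀ η →
    LiftBound p W C (T ∪ V) U r₀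
      (η * ∏ v ∈ V, ((v : O) - 1) * (((v : O) + 1) ^ 2 - av v ^ 2))

/-- The bound on ordinary lifts from the bound on flat lifts. -/
def PBoundProperty [Finite (ResidueField O)] (p : ℕ) [Fact p.Prime] (W : Rigid O)
    (ρbar : ResidualGaloisRep (ResidueField O)) : Prop :=
  IsDistinguishedOrdinary p ρbar → IsPairCond ρbar (flatCond (O := O) p) →
  IsPairCond ρbar (ordCond (O := O) p) →
  ∀ (T U : Finset ℕ) (r₀ : Gal →* M2 O) (hO : IsResAlg O O) (α η : O),
    IsTypeLift p W (flatCond p) T U hO r₀ → IsOrdinaryRoot p r₀ α → α ^ 2 ≠ 1 → η ≠ 0 →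
    LiftBound p W (flatCond p) T U r₀ η →
    LiftBound p W (ordCond p) T U r₀ (η * (α ^ 2 - 1))

/-- A lift of a newform of level prime to `p` with ordinary residual representation is ordinary,
with the unit root of `X ^ 2 - a_p X + p` on the unramified quotient. -/
def UnitRootProperty (p : ℕ) : Prop :=
  ∀ (O : Type) [CommRing O] [IsDomain O] [IsDiscreteValuationRing O]
    [IsAdicComplete (maximalIdeal O) O] [Finite (ResidueField O)] [CharZero O],
  (p : O) ∈ maximalIdeal O →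
  ∀ (ι : O →+* ℂ), Function.Injective ι → ∀ (L : ℕ) [NeZero L] (a : ℕ → O) (ρ : GaloisRepAdic O),
    ¬ p ∣ L → IsClassicalSystem ι L a → ρ.residual.IsAbsolutelyIrreducible →
    IsDistinguishedOrdinary p ρ.residual → ρ.DetIsCyclotomic p →
    (∀ ℓ : ℕ, ℓ.Prime → ℓ ≠ p → ¬ ℓ ∣ L → ∀ A : ValuationSubring QBar, A.LiesOverPrime ℓ →
      ∀ σ : Gal, A.IsFrobeniusAt σ ℓ → LinearMap.trace O ρ.V (ρ.ρ σ) = a ℓ) →
    ρ.IsOrdinaryAt p ∧ ∃ α : O, IsUnit α ∧ α ^ 2 - a p * α + (p : O) = 0 ∧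
      ∀ b : Basis (Fin 2) O ρ.V, IsOrdinaryRoot p (matOf ρ b) α

/-! ### Galois side at the raised level -/

/-- Every congruent system of level dividing `L` has a lift of type `C`. -/
def HasTypeLifts (p : ℕ) (W : Rigid O) (S : Finset ℕ) (abar : ℕ → ResidueField O) (ι : O →+* ℂ)
    (C : CondAt O) (N₀ L : ℕ) : Prop :=
  ∀ (hO : IsResAlg O O) (a : ℕ → O), IsClassicalSystem ι L a → IsResidualSystem S abar a →
    ∃ r : Gal →* M2 O, IsTypeLift p W C L.primeFactors N₀.primeFactors hO r ∧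
      IsAttachedSystem (insert p L.primeFactors) r a

/-- A congruent system at the minimal level. -/
def SystemExistsProperty (S : Finset ℕ) (abar : ℕ → ResidueField O) (N₀ : ℕ) : Prop :=
  ∀ (ι : O →+* ℂ), Function.Injective ι → HasCoefficients ι N₀ →
    ∃ a : ℕ → O, IsClassicalSystem ι N₀ a ∧ IsResidualSystem S abar a

/-- The lifts attached to congruent systems. -/
def TypeLiftProperty (p : ℕ) (W : Rigid O) (ρbar : ResidualGaloisRep (ResidueField O))
    (S : Finset ℕ) (abar : ℕ → ResidueField O) (N₀ : ℕ) : Prop :=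
  ∀ (C : CondAt O) (good : ℕ → Prop), IsPairCond ρbar C → PointCond p ρbar C good →
  ∀ (ι : O →+* ℂ), Function.Injective ι → ∀ (L : ℕ) [NeZero L],
    (∀ q : ℕ, q.Prime → q ∣ L → q ∈ S) →
    (∀ q : ℕ, q.Prime → q ≠ p → q ∣ N₀ → ¬ q ^ 2 ∣ L) → (∀ M : ℕ, M ∣ L → good M) →
    HasTypeLifts p W S abar ι C N₀ L

/-- The algebra of all lifts at level `L`, acting on the localised classes. -/
def GaloisAlgebraProperty [Finite (ResidueField O)] (p : ℕ) (W : Rigid O)
    (ρbar : ResidualGaloisRep (ResidueField O)) (S : Finset ℕ) (abar : ℕ → ResidueField O)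
    (N₀ : ℕ) : Prop :=
  ∀ (C : CondAt O), IsPairCond ρbar C →
  ∀ (ι : O →+* ℂ), Function.Injective ι → ∀ (L : ℕ) [NeZero L], N₀ ∣ L →
    (∀ q : ℕ, q.Prime → q ∣ L → q ∈ S) → HasCoefficients ι L →
    HasTypeLifts p W S abar ι C N₀ L →
  ∀ (hO : IsResAlg O O) (a₀ a₁ : ℕ → O) (r₀ r₁ : Gal →* M2 O),
    IsTypeLift p W C L.primeFactors N₀.primeFactors hO r₀ →
    IsAttachedSystem (insert p L.primeFactors) r₀ a₀ →
    IsTypeLift p W C L.primeFactors N₀.primeFactors hO r₁ →
    IsAttachedSystem (insert p L.primeFactors) r₁ a₁ →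
  ∀ e : OpRing O L S, IsLocalizer (resIdeal S abar L) (Classes O S L) e →
  ∃ (R : Type) (_ : CommRing R) (_ : IsLocalRing R) (_ : Algebra O R) (_ : Module.Finite O R)
    (_ : IsReduced R) (x₀ x₁ : R →ₐ[O] O) (t : {ℓ : ℕ // ℓ.Prime ∧ ℓ ∉ S} → R)
    (act : R →ₐ[O] Module.End O (localPart O e (Classes O S L))),
    IsResAlg O R ∧ Algebra.adjoin O (Set.range t) = ⊤ ∧
    (∀ i, act (t i) = localAct O e (Classes O S L) (X (Sum.inr i))) ∧
    (∀ i, x₀ (t i) = a₀ i.1) ∧ (∀ i, x₁ (t i) = a₁ i.1) ∧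
    ∀ D : O, LiftBound p W C L.primeFactors N₀.primeFactors r₀ D → DerBound x₀ D

/-- The Tate module of the curve gives a lift of type flat or ordinary. -/
def CurveLiftProperty (p : ℕ) (W : Rigid O) (E : WeierstrassCurve ℤ) (N₀ : ℕ) : Prop :=
  ∀ (C : CondAt O) (hO : IsResAlg O O), (E.IsGoodPrimeFor p → C = flatCond p) →
    (¬ E.IsGoodPrimeFor p → C = ordCond p) →
    ∃ r : Gal →* M2 O, IsTypeLift p W C E.Δ.natAbs.primeFactors N₀.primeFactors hO r ∧
      IsAttachedSystem (insert p E.Δ.natAbs.primeFactors) r (fun ℓ => (E.apOfModel ℓ : O))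

end Fermat.Agent.RT.Lifting
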