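import Fermat.Agent.RT.Lifting.SetupCoeff
import Fermat.Agent.ConductorLevel.Raise
import Fermat.Agent.ConductorLevel.TwoDimensional
import Fermat.Agent.ConductorLevel.Compare
import Fermat.Agent.RT.Assembly.Residual
import Fermat.Agent.EC.Rep.IndexTwo
import Fermat.Agent.EC.Rep.Local.Unipotent
import Fermat.Agent.Arith.Chebotarev.Main
import Fermat.Agent.Arith.RootsOfUnity
import Fermat.Agent.Deform.Residual
import Mathlib.NumberTheory.Cyclotomic.CyclotomicCharacter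

/-!
# The datum of a semistable curve: minimal level, residual datum and coefficients

`setupProperty` proves `SetupProperty` from the two level lowering inputs and from the statement
that a multiplicative prime `p` with `p ∤ v_p (Δ)` is très ramifiée.
-/

set_option autoImplicit false
set_option linter.style.haveILetI false

noncomputable section

open WeierstrassCurve WeierstrassCurve.Affine WeierstrassCurve.Affine.Point
open scoped WeierstrassCurve.Affine

namespace Fermat.Agent.RT.Lifting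

open IsLocalRing Module CongruenceSubgroup ModularFormClass
open Fermat.Agent.Deform

local notation "Q̄" => AlgebraicClosure ℚ
local notation "GQ" => AlgebraicClosure ℚ ≃ₐ[ℚ] AlgebraicClosure ℚ

/-- Multiplicative reduction at `p` with `p ∤ v_p (Δ)` is très ramifiée. -/
def TresOfMultiplicative : Prop :=
  ∀ (p : ℕ) [Fact p.Prime], (p = 3 ∨ p = 5) → ∀ (E : WeierstrassCurve ℤ) (hΔ : E.Δ ≠ 0),
    E.IsSemistableModel → E.ModRepIsIrreducible p → (p : ℤ) ∣ E.Δ →
    ¬ (p : ℤ) ∣ (padicValInt p E.Δ : ℤ) →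
    ∀ (O : Type) [CommRing O] [IsDomain O] [IsDiscreteValuationRing O]
      [IsAdicComplete (maximalIdeal O) O] [Finite (ResidueField O)] [CharZero O]
      [CharP (ResidueField O) p] (W : Rigid O) (ρbar : ResidualGaloisRep (ResidueField O))
      (bb : Basis (Fin 2) (ResidueField O) ρbar.V),
      W.rb = matRes ρbar bb → IsResidualOf E hΔ p W → IsTresRamified p ρbar

variable {p : ℕ} [Fact p.Prime] {E : WeierstrassCurve ℤ} (hΔ : E.Δ ≠ 0)

include hΔ in
/-- An irreducible `E[p]` has Frobenius elements of trace different from `2` at primes congruent to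
`1` modulo any number. -/
theorem exists_prime_one_mod (hp2 : p ≠ 2) (hirr : E.ModRepIsIrreducible p) (S : Finset ℕ)
    (hS : ∀ ℓ : ℕ, ℓ.Prime → ℓ ∉ S → E.IsGoodPrimeFor ℓ ∧ ℓ ≠ p) {L : ℕ} (hL : L ≠ 0) :
    ∃ ℓ : ℕ, ℓ.Prime ∧ ℓ ∉ S ∧ L ∣ ℓ - 1 ∧ (E.apOfModel ℓ : ZMod p) ≠ 2 := by
  classical
  have hp : p.Prime := Fact.out
  haveI : NeZero (p * L) := ⟨mul_ne_zero hp.ne_zero hL⟩
  obtain ⟨ζ, hζ⟩ := HasEnoughRootsOfUnity.exists_primitiveRoot Q̄ (p * L)
  set ρ := EC.Rep.residualRep E p hΔ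
  set H : Subgroup GQ := (hζ.autToPow ℚ).ker
  have hmemH : ∀ g : GQ, g ∈ H → g ζ = ζ := fun g hg => by
    rw [← hζ.autToPow_spec ℚ g, MonoidHom.mem_ker.1 hg]
    rcases Nat.lt_or_ge 1 (p * L) with h | h
    · haveI : Fact (1 < p * L) := ⟨h⟩
      rw [Units.val_one, ZMod.val_one, pow_one]
    · exact absurd h (not_le.2 (lt_of_lt_of_le hp.one_lt
        (Nat.le_mul_of_pos_right p (Nat.pos_of_ne_zero hL))))
  have hn := EC.FrobTrace.card_rootsOfUnity_Qbar p
  have hdet1 : ∀ g ∈ H, LinearMap.det (ρ.ρ g) = 1 := fun g hg => by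
    rw [EC.Rep.det_residualRep hΔ hn, Arith.modularCyclotomicCharacter_eq_natCast hn (c := 1),
      Nat.cast_one]
    intro μ hμ
    obtain ⟨i, -, rfl⟩ := hζ.eq_pow_of_pow_eq_one (ξ := μ) (by rw [pow_mul, hμ, one_pow])
    show g (ζ ^ i) = (ζ ^ i) ^ 1
    rw [map_pow, hmemH g hg, pow_one]
  obtain ⟨g, hgH, hg2⟩ : ∃ g ∈ H, LinearMap.trace (ZMod p) ρ.V (ρ.ρ g) ≠ 2 := by
    by_contra hall
    push Not at hall
    refine ConductorLevel.false_of_irreducible_of_unipotent ρ.finrank_eq ρ.ρ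
      ((EC.Rep.isIrreducible_residualRep_iff hΔ).2 hirr) (EC.Rep.two_ne_zero_zmod hp2) H
      (fun a b => MonoidHom.mem_ker.2 (by simp [mul_assoc])) (fun g hg => ?_)
      (c := complexConjugation) complexConjugation_mul_self
      fun g => ?_
    · have h := LinearMap.aeval_self_charpoly (ρ.ρ g)
      rw [EC.FrobTrace.charpoly_of_finrank_eq_two ρ.finrank_eq, hall g hg, hdet1 g hg] at h
      simp [Algebra.algebraMap_eq_smul_one] at h
      simp only [two_smul] at h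
      linear_combination (norm := noncomm_ring) h
    · have hrel : ∀ f : GQ, ρ.ρ f * ρ.ρ f - LinearMap.trace (ZMod p) ρ.V (ρ.ρ f) • ρ.ρ f +
          LinearMap.det (ρ.ρ f) • 1 = 0 := fun f => by
        have h := LinearMap.aeval_self_charpoly (ρ.ρ f)
        rw [EC.FrobTrace.charpoly_of_finrank_eq_two ρ.finrank_eq] at h
        simpa [Algebra.algebraMap_eq_smul_one, sq] using h
      refine ⟨_, LinearMap.trace (ZMod p) ρ.V (ρ.ρ (complexConjugation * g)), _, ?_,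
        hrel g, ?_⟩
      · intro h0
        have h1 : LinearMap.det (ρ.ρ g) * LinearMap.det (ρ.ρ g⁻¹) = 1 := by
          rw [← map_mul, ← map_mul, mul_inv_cancel, map_one, map_one]
        rw [h0, zero_mul] at h1
        exact zero_ne_one h1
      · have h := hrel (complexConjugation * g)
        have hd : LinearMap.det (ρ.ρ (complexConjugation * g)) =
            -LinearMap.det (ρ.ρ g) := by
          rw [map_mul, map_mul, EC.Rep.det_residualRep_involution hΔ hp2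
            complexConjugation_mul_self EC.Rep.complexConjugation_ne_one,
            neg_one_mul]
        rw [hd, neg_smul, ← sub_eq_add_neg] at h
        exact h
  obtain ⟨L₀, hL₀, hLker⟩ := ρ.factorsThroughFiniteLevel
  haveI : FiniteDimensional ℚ (IntermediateField.adjoin ℚ {ζ}) :=
    IntermediateField.adjoin.finiteDimensional (Algebra.IsIntegral.isIntegral ζ)
  have hker : ∀ σ : GQ, (∀ x ∈ (L₀ ⊔ IntermediateField.adjoin ℚ {ζ} : IntermediateField ℚ Q̄),
      σ x = x) → (ρ.ρ.prod (hζ.autToPow ℚ)) σ = 1 := fun σ hσ => by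
    refine Prod.ext (hLker σ fun x hx => hσ x ((le_sup_left : L₀ ≤ L₀ ⊔ _) hx)) (Units.ext ?_)
    refine hζ.pow_inj (ZMod.val_lt _) (ZMod.val_lt _) ?_ |> fun h => ZMod.val_injective _ h
    show ζ ^ ((hζ.autToPow ℚ σ : ZMod (p * L))).val = _
    rw [hζ.autToPow_spec ℚ σ, hσ ζ ((le_sup_right : _ ≤ L₀ ⊔ _)
      (IntermediateField.mem_adjoin_simple_self ℚ ζ))]
    rcases Nat.lt_or_ge 1 (p * L) with h | h
    · haveI : Fact (1 < p * L) := ⟨h⟩
      rw [Prod.snd_one, Units.val_one, ZMod.val_one, pow_one]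
    · exact absurd h (not_le.2 (lt_of_lt_of_le hp.one_lt
        (Nat.le_mul_of_pos_right p (Nat.pos_of_ne_zero hL))))
  obtain ⟨ℓ, hℓ, hℓS, A, hA, σ, hσ, he⟩ := Arith.Chebotarev.exists_frobenius_eq
    (ρ.ρ.prod (hζ.autToPow ℚ)) _ hker g (S ∪ (p * L).primeFactors)
  simp only [Finset.mem_union, not_or] at hℓS
  obtain ⟨hgood, hℓp⟩ := hS ℓ hℓ hℓS.1
  refine ⟨ℓ, hℓ, hℓS.1, ?_, fun h2 => hg2 ?_⟩
  · have hnd : ¬ ℓ ∣ p * L := fun h => hℓS.2 (Nat.mem_primeFactors.2 ⟨hℓ, h, NeZero.ne _⟩)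
    have h1 : ζ ^ ℓ = ζ ^ 1 := by
      rw [← Arith.frobenius_root hA hℓ hσ hζ.pow_eq_one hnd, pow_one]
      refine hmemH σ (MonoidHom.mem_ker.2 ?_)
      rw [show hζ.autToPow ℚ σ = hζ.autToPow ℚ g from congrArg Prod.snd he]
      exact MonoidHom.mem_ker.1 hgH
    rw [(hζ.isOfFinOrder (NeZero.ne _)).pow_eq_pow_iff_modEq, ← hζ.eq_orderOf] at h1
    exact (dvd_mul_left L p).trans ((Nat.modEq_iff_dvd' hℓ.one_lt.le).1 h1.symm)
  · rw [← show ρ.ρ σ = ρ.ρ g from congrArg Prod.fst he, ← h2]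
    exact EC.FrobTrace.galoisTrace_frobenius E hℓ hgood hℓp hA hσ

variable (p E) in
/-- The primes of the minimal level. -/
def minimalPrimes : Finset ℕ := by
  classical
  exact E.Δ.natAbs.primeFactors.filter fun q =>
    if q = p then ¬ (p : ℤ) ∣ (padicValInt p E.Δ : ℤ)
    else ¬ (EC.Rep.residualRep E p hΔ).IsUnramifiedAt q

theorem mem_minimalPrimes_self :
    p ∈ minimalPrimes p E hΔ ↔ (p : ℤ) ∣ E.Δ ∧ ¬ (p : ℤ) ∣ (padicValInt p E.Δ : ℤ) := by
  classical
  rw [minimalPrimes, Finset.mem_filter, if_pos rfl, Nat.mem_primeFactors]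
  exact ⟨fun h => ⟨Int.natCast_dvd.2 h.1.2.1, h.2⟩,
    fun h => ⟨⟨Fact.out, Int.natCast_dvd.1 h.1, Int.natAbs_ne_zero.2 hΔ⟩, h.2⟩⟩

theorem mem_minimalPrimes {q : ℕ} (hq : q.Prime) (hqp : q ≠ p) :
    q ∈ minimalPrimes p E hΔ ↔ ¬ (EC.Rep.residualRep E p hΔ).IsUnramifiedAt q := by
  classical
  rw [minimalPrimes, Finset.mem_filter, if_neg hqp, Nat.mem_primeFactors, and_iff_right_iff_imp]
  intro h
  refine ⟨hq, ?_, Int.natAbs_ne_zero.2 hΔ⟩
  by_contra hd
  exact h (EC.Rep.isUnramifiedAt_residualRep hΔ hq (fun h' => hd (Int.natCast_dvd.1 h')) hqp)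

/-- The level can be brought down to the primes of `minimalPrimes`. -/
theorem exists_level_subset (hQ : LowerQInput p) (hP : LowerPInput p) (hp35 : p = 3 ∨ p = 5)
    (hss : E.IsSemistableModel) (hirr : E.ModRepIsIrreducible p)
: ∀ M : ℕ, Squarefree M →
      (E.IsGoodPrimeFor p → ¬ p ∣ M) →
      (p = 3 → p ∣ M → (p : ℤ) ∣ E.Δ → ¬ p ∣ padicValInt p E.Δ) →
      E.IsResiduallyModularOfLevel p M → ∃ M₁ : ℕ, Squarefree M₁ ∧
        E.IsResiduallyModularOfLevel p M₁ ∧ M₁.primeFactors ⊆ minimalPrimes p E hΔ := by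
  intro M
  induction M using Nat.strong_induction_on with
  | _ M ih =>
    intro hM hgoodp h3 hmod
    by_cases hall : M.primeFactors ⊆ minimalPrimes p E hΔ
    · exact ⟨M, hM, hmod, hall⟩
    -- `p` is removed first
    obtain ⟨q, hqM, hqT, hfirst⟩ : ∃ q ∈ M.primeFactors, q ∉ minimalPrimes p E hΔ ∧
        (q = p ∨ ¬ (p ∈ M.primeFactors ∧ p ∉ minimalPrimes p E hΔ)) := by
      by_cases hp' : p ∈ M.primeFactors ∧ p ∉ minimalPrimes p E hΔ
      · exact ⟨p, hp'.1, hp'.2, Or.inl rfl⟩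
      · obtain ⟨q, h1, h2⟩ := Finset.not_subset.1 hall
        exact ⟨q, h1, h2, Or.inr hp'⟩
    obtain ⟨hq, hqd, hM0⟩ := Nat.mem_primeFactors.1 hqM
    have hpT : q ≠ p → p ∣ M → (p : ℤ) ∣ E.Δ ∧ ¬ (p : ℤ) ∣ (padicValInt p E.Δ : ℤ) :=
      fun hqp h => (mem_minimalPrimes_self hΔ).1 (by_contra fun hn =>
        (hfirst.resolve_left hqp) ⟨Nat.mem_primeFactors.2 ⟨Fact.out, h, hM0⟩, hn⟩)
    refine ih (M / q) (Nat.div_lt_self (Nat.pos_of_ne_zero hM0) hq.one_lt)
      (hM.squarefree_of_dvd (Nat.div_dvd_of_dvd hqd))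
      (fun hg h => hgoodp hg (h.trans (Nat.div_dvd_of_dvd hqd)))
      (fun hp3 h => h3 hp3 (h.trans (Nat.div_dvd_of_dvd hqd))) ?_
    by_cases hqp : q = p
    · rw [hqp] at hqd hqT ⊢
      have hd : (p : ℤ) ∣ E.Δ := by
        by_contra hd
        exact hgoodp hd hqd
      have hv : (p : ℤ) ∣ (padicValInt p E.Δ : ℤ) := by
        by_contra h
        exact hqT ((mem_minimalPrimes_self hΔ).2 ⟨hd, h⟩)
      have h5 : 5 ≤ p := by
        rcases hp35 with h | h
        · exact absurd (Int.natCast_dvd_natCast.1 hv) (h3 h hqd hd)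
        · omega
      exact hP E hΔ hss hirr h5 hd (Int.natCast_dvd_natCast.1 hv) M hqd hM hmod
    · refine hQ E hΔ hss hirr M q hq hqp hqd hM (fun h => ?_) ?_ hmod
      · obtain ⟨h1, h2⟩ := hpT hqp h
        exact ⟨h1, fun h' => h2 (Int.natCast_dvd_natCast.2 h')⟩
      · by_contra h
        exact hqT ((mem_minimalPrimes hΔ hq hqp).2 h)

/-- The setup of the lifting argument. -/
theorem setupProperty (hQ : ∀ (p : ℕ) [Fact p.Prime], p = 3 ∨ p = 5 → LowerQInput p)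
    (hP : LowerPInput 5)
    (htres : TresOfMultiplicative) : SetupProperty := by
  classical
  intro p _ hp35 E hΔ hss hirr M₀ _ hmod hsq hgoodp h3
  have hp : p.Prime := Fact.out
  have hp2 : p ≠ 2 := by omega
  obtain ⟨M₁, hM₁, hmod₁, hsub⟩ := exists_level_subset hΔ (hQ p hp35) (fun E hΔ hss hirr h5 => by
    obtain rfl : p = 5 := by omega
    exact hP E hΔ hss hirr h5) hp35 hss hirr M₀ hsq hgoodp h3 hmod
  set T := minimalPrimes p E hΔ with hT
  have hTbad : ∀ q ∈ T, q ∈ E.Δ.natAbs.primeFactors := fun q hq => by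
    rw [hT, minimalPrimes, Finset.mem_filter] at hq
    exact hq.1
  have hTp : ∀ q ∈ T, q.Prime := fun q hq => Nat.prime_of_mem_primeFactors (hTbad q hq)
  set N₀ := ∏ q ∈ T, q with hN₀
  have hdvd : ∀ q : ℕ, q.Prime → (q ∣ N₀ ↔ q ∈ T) := fun q hq => by
    refine ⟨fun h => ?_, fun h => Finset.dvd_prod_of_mem _ h⟩
    obtain ⟨r, hr, hqr⟩ := hq.prime.exists_mem_finset_dvd h
    exact (Nat.prime_dvd_prime_iff_eq hq (hTp r hr)).1 hqr ▸ hr
  have hN₀0 : N₀ ≠ 0 := Finset.prod_ne_zero_iff.2 fun q hq => (hTp q hq).ne_zero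
  have hN₀sq : Squarefree N₀ := by
    refine Finset.squarefree_prod_of_pairwise_isCoprime ?_ fun q hq => (hTp q hq).squarefree
    intro a ha b hb hab
    exact Nat.coprime_iff_isRelPrime.1 ((Nat.coprime_primes (hTp a ha) (hTp b hb)).2 hab)
  have hM₁N : M₁ ∣ N₀ := by
    rw [← Nat.prod_primeFactors_of_squarefree hM₁, hN₀]
    exact Finset.prod_dvd_prod_of_subset _ _ _ hsub
  have hLne : raisedLevel E p N₀ ≠ 0 := by
    refine mul_ne_zero (mul_ne_zero hN₀0 (Finset.prod_ne_zero_iff.2 fun v hv => ?_)) ?_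
    · exact pow_ne_zero _ (Nat.prime_of_mem_primeFactors (Finset.mem_filter.1 hv).1).ne_zero
    · split
      · exact hp.ne_zero
      · exact one_ne_zero
  obtain ⟨O, i1, i2, i3, i4, i5, i6, i7, ι, hpO, hι, hcoef, hroot⟩ := exists_coefficients p hLne
  set k := ResidueField O
  let φ : ZMod p →+* k := ZMod.castHom dvd_rfl k
  let ρ₀ := EC.Rep.residualRep E p hΔ
  let b := Module.finBasisOfFinrankEq (ZMod p) ρ₀.V ρ₀.finrank_eq
  letI : Algebra (ZMod p) k := φ.toAlgebra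
  let ρbar : ResidualGaloisRep k := ρ₀.baseChangeAlong φ
  let bb : Basis (Fin 2) k ρbar.V := b.baseChange k
  have habs : ρbar.IsAbsolutelyIrreducible := by
    refine Assembly.isAbsolutelyIrreducible_baseChange ρ₀ fun K _ _ => ?_
    exact EC.Rep.baseChange_residualRep_isIrreducible hΔ hp2 hirr K
  obtain ⟨W, hW⟩ := exists_rigid ρbar habs bb
  have hWφ : ∀ σ, W.rb σ = (matRes ρ₀ b σ).map φ := fun σ => by
    rw [hW, matRes_baseChangeAlong φ ρ₀ b]
    rfl
  have hres : IsResidualOf E hΔ p W := ⟨b, fun σ i j => by rw [hWφ]; rfl⟩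
  have htr : ∀ σ, (W.rb σ).trace = φ (LinearMap.trace (ZMod p) ρ₀.V (ρ₀.ρ σ)) := fun σ => by
    rw [hWφ, LinearMap.trace_eq_matrix_trace (ZMod p) b, Matrix.trace, Matrix.trace, map_sum]
    rfl
  set S := insert p E.Δ.natAbs.primeFactors with hS
  have hSgood : ∀ ℓ : ℕ, ℓ.Prime → ℓ ∉ S → E.IsGoodPrimeFor ℓ ∧ ℓ ≠ p := fun ℓ hℓ h =>
    ⟨fun hd => h (Finset.mem_insert_of_mem (Nat.mem_primeFactors.2
      ⟨hℓ, Int.natCast_dvd.1 hd, Int.natAbs_ne_zero.2 hΔ⟩)),
      fun hd => h (hd ▸ Finset.mem_insert_self _ _)⟩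
  refine ⟨O, i1, i2, i3, i4, i5, i6, i7, W, ρbar, bb, N₀, ι, hι, ?_, hres, hcoef,
    fun q hq hd => Int.natCast_dvd.2 (Nat.dvd_of_mem_primeFactors (hTbad q ((hdvd q hq).1 hd))),
    fun hd => ?_⟩
  swap
  · obtain ⟨h1, h2⟩ := (mem_minimalPrimes_self hΔ).1 ((hdvd p hp).1 hd)
    exact htres p hp35 E hΔ hss hirr h1 h2 O W ρbar bb hW hres
  refine
    { p_ne_two := hp2
      p_mem := hpO
      rb_eq := hW
      irreducible := habs
      det := ⟨by simp, fun n σ a ha => ?_⟩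
      prime_mem := fun q hq => (Finset.mem_insert.1 hq).elim (fun h => h ▸ hp)
        Nat.prime_of_mem_primeFactors
      mem_S_p := Finset.mem_insert_self _ _
      mem_S_level := fun q hq hd => Finset.mem_insert_of_mem (hTbad q ((hdvd q hq).1 hd))
      squarefree := hN₀sq
      trace_frobenius := fun ℓ hℓ hℓS A hA σ hσ => ?_
      unramified := fun ℓ hℓ hℓp hℓN => ?_
      ramified := fun q hq hqp hd hunr => ?_
      unipotent := fun q hq hqp hd A hA τ hτ => ?_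
      aux := fun L hL => ?_
      congruent := ?_
      split := fun σ => ?_ }
  · have h := (EC.Rep.detIsCyclotomic_residualRep (p := p) hΔ).2 n σ a ha
    have h' := Ideal.mem_map_of_mem φ h
    rw [Ideal.map_span, Set.image_singleton, map_natCast, map_sub, map_natCast] at h'
    convert h' using 2
    exact LinearMap.det_baseChange _
  · rw [htr, show LinearMap.trace (ZMod p) ρ₀.V (ρ₀.ρ σ) = (E.apOfModel ℓ : ZMod p) from
      EC.FrobTrace.galoisTrace_frobenius E hℓ (hSgood ℓ hℓ hℓS).1 (hSgood ℓ hℓ hℓS).2 hA hσ,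
      map_intCast]
  · have h : ρ₀.IsUnramifiedAt ℓ := by
      by_contra h
      exact hℓN ((hdvd ℓ hℓ).2 ((mem_minimalPrimes hΔ hℓ hℓp).2 h))
    intro A hA σ hσ
    show LinearMap.baseChange k (ρ₀.ρ σ) = 1
    rw [h A hA σ hσ, LinearMap.baseChange_one]
  · refine (mem_minimalPrimes hΔ hq hqp).1 ((hdvd q hq).1 hd) fun A hA σ hσ => ?_
    refine EC.Rep.baseChange_injective (ρ := ρ₀) (K := k) ?_
    rw [LinearMap.baseChange_one]
    exact hunr A hA σ hσ
  · have h := EC.Rep.isUnipotentOnInertiaAt_residualRep hΔ hq hqp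
      (fun h => hss q hq h.2 h.1) A hA τ hτ
    rw [htr, show LinearMap.trace (ZMod p) ρ₀.V (ρ₀.ρ τ) = 2 from
      (ConductorLevel.trace_det_of_charpoly ρ₀.finrank_eq (a := 2) (d := 1)
        (h.trans (by simp only [map_ofNat, map_one]; ring))).1, map_ofNat]
  · obtain ⟨ℓ, hℓ, hℓS, hℓL, h2⟩ := exists_prime_one_mod hΔ hp2 hirr S hSgood hL
    refine ⟨ℓ, hℓ, hℓS, hℓL, fun h => h2 (φ.injective ?_)⟩
    rw [map_intCast, map_ofNat]
    exact h
  · obtain ⟨f, 𝔪, hf, h𝔪, hp𝔪, hcong⟩ := hmod₁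
    obtain ⟨g, hg, hgf⟩ := ConductorLevel.exists_raise hN₀sq hM₁N hf
    let : Field (integralClosure ℤ ℂ ⧸ 𝔪) := Ideal.Quotient.field 𝔪
    have hpF : CharP (integralClosure ℤ ℂ ⧸ 𝔪) p := by
      refine (CharP.charP_iff_prime_eq_zero hp).mpr ?_
      rw [← map_natCast (Ideal.Quotient.mk 𝔪), Ideal.Quotient.eq_zero_iff_mem]
      exact hp𝔪
    let : Algebra (ZMod p) (integralClosure ℤ ℂ ⧸ 𝔪) := ZMod.algebra _ p
    have : Algebra.IsIntegral (ZMod p) (integralClosure ℤ ℂ ⧸ 𝔪) :=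
      ⟨fun x => (Algebra.IsIntegral.isIntegral (R := ℤ) x).tower_top⟩
    let j : (integralClosure ℤ ℂ ⧸ 𝔪) →ₐ[ZMod p] AlgebraicClosure k := IsAlgClosed.lift
    refine ⟨g, hg, j.toRingHom.comp (Ideal.Quotient.mk 𝔪), fun ℓ hℓ hℓS a ha => ?_⟩
    have hℓN : ¬ ℓ ∣ N₀ := fun h => hℓS (Finset.mem_insert_of_mem (hTbad ℓ ((hdvd ℓ hℓ).1 h)))
    obtain ⟨a', ha', hmem⟩ := hcong ℓ hℓ (hSgood ℓ hℓ hℓS).1 (fun h => hℓN (h.trans hM₁N))
      (hSgood ℓ hℓ hℓS).2
    rw [show a = a' from Subtype.ext (ha.trans ((hgf ℓ hℓ hℓN).trans ha'.symm)),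
      RingHom.comp_apply, (Ideal.Quotient.mk_eq_mk_iff_sub_mem _ _).mpr hmem, map_intCast,
      map_intCast, map_intCast]
  · have hd : (W.rb σ).det = φ (matRes ρ₀ b σ).det := by
      rw [hWφ, RingHom.map_det]
      rfl
    obtain ⟨x, hx⟩ := hroot (LinearMap.trace (ZMod p) ρ₀.V (ρ₀.ρ σ)) (matRes ρ₀ b σ).det
    refine ⟨x, φ (LinearMap.trace (ZMod p) ρ₀.V (ρ₀.ρ σ)) - x, by rw [htr, add_sub_cancel], ?_⟩
    rw [hd]
    linear_combination hx

end Fermat.Agent.RT.Lifting
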