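import Fermat.Agent.RT.Lifting.Interface

/-!
# Transporting lifts, residual properties and conditions
-/

set_option autoImplicit false
set_option linter.style.haveILetI false
set_option linter.unusedSectionVars false

noncomputable section

namespace Fermat.Agent.RT.Lifting

open IsLocalRing Module MvPolynomial
open Fermat.Agent.Deform Fermat.Agent.Arith Fermat.Agent.RT.GammaH Fermat.Agent.RT.Assembly
open scoped TensorProduct

theorem isResAlg_self (O : Type) [CommRing O] [IsLocalRing O] : IsResAlg O O :=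
  ⟨⟨fun _ h => by simpa using h⟩, residue_surjective⟩

/-- The standard basis of a matrix representation. -/
def stdBasis {A : Type} [CommRing A] [IsLocalRing A] (r : Gal →* M2 A) (hc : IsCont r) :
    Basis (Fin 2) A (toRep r hc).V :=
  Pi.basisFun A (Fin 2)

theorem matOf_stdBasis {A : Type} [CommRing A] [IsLocalRing A] (r : Gal →* M2 A) (hc : IsCont r) :
    matOf (toRep r hc) (stdBasis r hc) = r := by
  ext σ i j
  rw [matOf_apply]
  change (Pi.basisFun A (Fin 2)).repr (Matrix.toLinAlgEquiv' (r σ) (Pi.basisFun A (Fin 2) j)) i = _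
  simp [Matrix.toLinAlgEquiv'_apply]

theorem trace_toRep {A : Type} [CommRing A] [IsLocalRing A] (r : Gal →* M2 A) (hc : IsCont r)
    (σ : Gal) : LinearMap.trace A (toRep r hc).V ((toRep r hc).ρ σ) = (r σ).trace :=
  Matrix.trace_toLin'_eq (r σ)

section Residual

variable {k : Type} [Field k] {ρ ρ' : ResidualGaloisRep k}

theorem isAbsolutelyIrreducible_of_isEquiv (h : ρ.IsEquiv ρ') (hρ : ρ'.IsAbsolutelyIrreducible) :
    ρ.IsAbsolutelyIrreducible := by
  obtain ⟨e⟩ := h
  let K := AlgebraicClosure k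
  let f : K ⊗[k] ρ.V ≃ₗ[K] K ⊗[k] ρ'.V := e.toLinearEquiv.baseChange k K ρ.V ρ'.V
  have hf : ∀ σ, f.toLinearMap ∘ₗ (ρ.ρ σ).baseChange K = (ρ'.ρ σ).baseChange K ∘ₗ f.toLinearMap :=
    fun σ => by
      ext v
      simp [f, e.map_apply]
  intro N hN
  rcases hρ (N.map f.toLinearMap) (fun σ x hx => by
      obtain ⟨w, hw, rfl⟩ := hx
      exact ⟨_, hN σ w hw, LinearMap.congr_fun (hf σ) w⟩) with h' | h'
  · exact Or.inl (Submodule.map_injective_of_injective f.injective
      (h'.trans (Submodule.map_bot _).symm))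
  · exact Or.inr (Submodule.map_injective_of_injective f.injective
      (h'.trans (by rw [Submodule.map_top, LinearEquiv.range])))

theorem det_apply_eq_of_isEquiv (h : ρ.IsEquiv ρ') (σ : Gal) :
    LinearMap.det (ρ'.ρ σ) = LinearMap.det (ρ.ρ σ) := by
  obtain ⟨e⟩ := h
  rw [← LinearMap.det_conj (ρ.ρ σ) e.toLinearEquiv]
  congr 1
  refine LinearMap.ext fun x => ?_
  rw [LinearMap.comp_apply, LinearMap.comp_apply, LinearEquiv.coe_coe, LinearEquiv.coe_coe,
    e.map_apply, LinearEquiv.apply_symm_apply]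

end Residual

variable {O : Type} [CommRing O] [IsDomain O] [IsDiscreteValuationRing O]
  [IsAdicComplete (maximalIdeal O) O]

theorem augment_self (hO : IsResAlg O O) (x : O) : augment hO x = residue O x := by
  haveI := hO.isLocalHom
  have h := map_augment hO x
  obtain ⟨y, hy⟩ := residue_surjective (augment hO x)
  rw [← hy, ResidueField.map_residue, Algebra.algebraMap_self, RingHom.id_apply] at h
  rw [← hy, h]

theorem residual_isEquiv {W : Rigid O} {ρbar : ResidualGaloisRep (ResidueField O)}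
    {bb : Basis (Fin 2) (ResidueField O) ρbar.V} (hW : W.rb = matRes ρbar bb) {hO : IsResAlg O O}
    {r : Gal →* M2 O} (hc : IsCont r) (hl : Lifts W hO r) :
    (toRep r hc).residual.IsEquiv ρbar := by
  refine isEquiv_of_matRes_eq ((stdBasis r hc).baseChange (ResidueField O)) bb
    ((matRes_residual (toRep r hc) (stdBasis r hc)).trans ?_)
  rw [← hW, matOf_stdBasis]
  ext σ i j
  rw [← hl σ i j, augment_self, mapM_apply]

theorem isDistinguishedOrdinary_of_isEquiv {p : ℕ}
    {ρbar ρ : ResidualGaloisRep (ResidueField O)} (hC : IsPairCond ρbar (ordCond (O := O) p))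
    (h : ρbar.IsEquiv ρ) (hd : IsDistinguishedOrdinary p ρbar) : IsDistinguishedOrdinary p ρ := by
  refine ⟨?_, fun A hA => ?_⟩
  · refine hC.of_isEquiv (ρ := GaloisRepAdic.ofResidualGaloisRep ρbar) ?_ hd.1
    obtain ⟨e⟩ := h
    exact ⟨⟨e.toLinearEquiv, e.map_apply⟩⟩
  · obtain ⟨τ, hτ, hne⟩ := hd.2 A hA
    exact ⟨τ, hτ, by rwa [det_apply_eq_of_isEquiv h]⟩

variable {p : ℕ} {W : Rigid O}

theorem IsTypeLift.mono {C : CondAt O} {T T' U : Finset ℕ} {A : Type} [CommRing A] [IsLocalRing A]
    [Algebra O A] {hA : IsResAlg O A} {r : Gal →* M2 A}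
    (hT : ∀ ℓ ∈ T, ℓ.Prime → ℓ ≠ p → ℓ ∈ T') (h : IsTypeLift p W C T U hA r) :
    IsTypeLift p W C T' U hA r :=
  { h with unramified := fun ℓ hℓ hℓp hℓT => h.unramified ℓ hℓ hℓp fun h' => hℓT (hT ℓ h' hℓ hℓp) }

theorem LiftBound.mono {C : CondAt O} {T T' U : Finset ℕ} {r₀ : Gal →* M2 O} {D : O}
    (hT : ∀ ℓ ∈ T', ℓ.Prime → ℓ ≠ p → ℓ ∈ T) (h : LiftBound p W C T U r₀ D) :
    LiftBound p W C T' U r₀ D := fun m _ hA s hs =>
  h m hA s fun r hr => ⟨(hs r hr).1.mono hT, (hs r hr).2⟩

theorem IsTypeLift.of_cond {C C' : CondAt O} {T U : Finset ℕ} {hO : IsResAlg O O}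
    {r : Gal →* M2 O} (h : IsTypeLift p W C T U hO r) (hC : C' (toRep r h.cont)) :
    IsTypeLift p W C' T U hO r :=
  { h with
    cond := ⟨O, inferInstance, inferInstance, inferInstance, inferInstance, AlgHom.id O O, r,
      h.cont, fun _ _ e => e, MonoidHom.ext fun σ => by ext i j; rfl, hC⟩ }

theorem IsClassicalSystem.mono {ι : O →+* ℂ} {L L' : ℕ} {a : ℕ → O} (h : L ∣ L')
    (ha : IsClassicalSystem ι L a) : IsClassicalSystem ι L' a :=
  let ⟨M, i, g, hg, hM, hq⟩ := ha
  ⟨M, i, g, hg, hM.trans h, hq⟩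

theorem HasCoefficients.mono {ι : O →+* ℂ} {L L' : ℕ} (h : L ∣ L') (hι : HasCoefficients ι L') :
    HasCoefficients ι L :=
  fun M _ g hg hM => hι M g hg (hM.trans h)

/-- Eigen classes of a system reducing to `abar` lie in the localised classes. -/
theorem smul_eq_self_of_mem_eigVec {S : Finset ℕ} {abar : ℕ → ResidueField O} {L : ℕ} [NeZero L]
    {a : ℕ → O} (ha : IsResidualSystem S abar a) {e : OpRing O L S}
    (he : IsLocalizer (resIdeal S abar L) (Classes O S L) e) {u : Classes O S L}
    (hu : u ∈ eigVec S L a) : e • u = u := by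
  set θ : OpRing O L S →ₐ[O] O :=
    aeval (Sum.elim (fun _ => (1 : O)) fun i => a i.1) with hθ
  have key : ∀ x : OpRing O L S, x • u = θ x • u := fun x => by
    induction x using MvPolynomial.induction_on with
    | C c => rw [← algebraMap_eq, algebraMap_smul, AlgHom.commutes, Algebra.algebraMap_self,
        RingHom.id_apply]
    | add x y hx hy => rw [add_smul, hx, hy, map_add, add_smul]
    | mul_X x i hx =>
      have hi : (X i : OpRing O L S) • u = θ (X i) • u := by
        rcases i with v | i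
        · rw [X_inl_smul, hθ, aeval_X, Sum.elim_inl, one_smul]
          exact diamond_top O v _
        · rw [hθ, aeval_X]
          exact hu i
      rw [mul_smul, hi, smul_comm, hx, smul_smul, map_mul, mul_comm]
  have hres : ∀ x, residue O (θ x) = opRes S abar L x := fun x => by
    induction x using MvPolynomial.induction_on with
    | C c => rw [← algebraMap_eq, AlgHom.commutes, AlgHom.commutes]; rfl
    | add x y hx hy => rw [map_add, map_add, hx, hy, map_add]
    | mul_X x i hx =>
      rw [map_mul, map_mul, hx, map_mul]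
      congr 1
      rcases i with v | i
      · rw [opRes_inl, hθ, aeval_X, Sum.elim_inl, map_one]
      · rw [opRes_inr, hθ, aeval_X]
        exact ha i.1 i.2.1 i.2.2
  have h1 : residue O (θ e) = 1 := by
    rw [hres, ← sub_eq_zero, ← map_one (opRes S abar L), ← map_sub]
    exact mem_resIdeal (S := S) (abar := abar).1 he.sub_one_mem
  by_cases hu0 : u = 0
  · rw [hu0, smul_zero]
  have h2 := he.idem u
  rw [key e, smul_comm, key e, smul_smul] at h2
  have h3 : (θ e * θ e - θ e) • u = 0 := by rw [sub_smul, h2, sub_self]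
  have hne : θ e ≠ 0 := fun h => one_ne_zero (h1.symm.trans (by rw [h, map_zero]))
  rcases smul_eq_zero.1 h3 with h4 | h4
  · rw [key e, show θ e = 1 from mul_left_cancel₀ hne (by rw [mul_one]; exact sub_eq_zero.1 h4),
      one_smul]
  · exact absurd h4 hu0

end Fermat.Agent.RT.Lifting
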