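import Fermat.Agent.RT.Lifting.CriterionCount

/-!
# Derivations at a point and the diagonal form of the relations

The linear parts of the relations have diagonal form with product dividing any bound for the
derivations; conversely the determinant of square relations bounds the derivations.
-/

set_option autoImplicit false
set_option linter.style.haveILetI false

noncomputable section

namespace Fermat.Agent.RT.Lifting.Criterion

open IsLocalRing Module

variable {O : Type} [CommRing O]

/-- The linear part of a polynomial. -/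
def lin {n : ℕ} : MvPolynomial (Fin n) O →ₗ[O] (Fin n → O) where
  toFun g j := MvPolynomial.constantCoeff (MvPolynomial.pderiv j g)
  map_add' g h := funext fun j => by simp
  map_smul' c g := funext fun j => by simp

theorem lin_apply {n : ℕ} (g : MvPolynomial (Fin n) O) (j : Fin n) :
    lin g j = MvPolynomial.constantCoeff (MvPolynomial.pderiv j g) := rfl

theorem lin_mul {n : ℕ} (g h : MvPolynomial (Fin n) O) :
    lin (g * h) = MvPolynomial.constantCoeff g • lin h + MvPolynomial.constantCoeff h • lin g :=
  funext fun j => by simp [lin_apply]; try ring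

theorem lin_linear {n : ℕ} (w : Fin n → O) :
    lin (∑ j, MvPolynomial.C (w j) * MvPolynomial.X j) = w :=
  funext fun j => by
    classical
    simp [lin_apply, MvPolynomial.pderiv_X, Pi.single_apply, map_sum, apply_ite]

theorem lin_sum_mul_X {n : ℕ} (A : Fin n → MvPolynomial (Fin n) O) :
    lin (∑ j, A j * MvPolynomial.X j) = fun j => MvPolynomial.constantCoeff (A j) :=
  funext fun j => by
    classical
    simp [lin_apply, MvPolynomial.pderiv_X, Pi.single_apply, map_sum, apply_ite]

variable [IsDomain O] [IsDiscreteValuationRing O] [Finite (ResidueField O)]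
variable {R : Type} [CommRing R] [Algebra O R]

/-- A bound for the derivations at `x` bounds the diagonal form of the linear parts. -/
theorem prod_dvd_of_derBound {n : ℕ} (π : MvPolynomial (Fin n) O →ₐ[O] R)
    (hπ : Function.Surjective π) (x : R →ₐ[O] O)
    (hx : ∀ g, x (π g) = MvPolynomial.constantCoeff g) {D : O} (hD : D ≠ 0) (hder : DerBound x D)
    (b : Basis (Fin n) O (Fin n → O)) (c : Fin n → O)
    (hc : ∀ g, π g = 0 → ∀ i, c i ∣ b.repr (lin g) i) :
    (∀ i, c i ≠ 0) ∧ ∏ i, c i ∣ D := by
  classical
  obtain ⟨ϖ, hϖ⟩ := IsDiscreteValuationRing.exists_irreducible O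
  obtain ⟨k, hk⟩ := not_pow_dvd hϖ hD
  choose e he using fun i => (if h : c i = 0 then ⟨0, fun h' => absurd h h'⟩
    else (exists_dvd_pow hϖ h).imp fun _ h' _ => h' : ∃ e, c i ≠ 0 → c i ∣ ϖ ^ e)
  let M := k + ∑ i, e i
  let c' : Fin n → O := fun i => if c i = 0 then ϖ ^ M else c i
  have hc'0 : ∀ i, c' i ≠ 0 := fun i => by
    simp only [c']
    split_ifs with h
    exacts [pow_ne_zero M hϖ.ne_zero, h]
  have hc'M : ∀ i, c' i ∣ ϖ ^ M := fun i => by
    simp only [c']
    split_ifs with h
    · exact dvd_rfl
    · refine (he i h).trans (pow_dvd_pow ϖ ?_)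
      have := Finset.single_le_sum (f := e) (fun j _ => Nat.zero_le _) (Finset.mem_univ i)
      omega
  have hc'c : ∀ g, π g = 0 → ∀ i, c' i ∣ b.repr (lin g) i := fun g hg i => by
    simp only [c']
    split_ifs with h
    · have := hc g hg i
      rw [h, zero_dvd_iff] at this
      rw [this]
      exact dvd_zero _
    · exact hc g hg i
  haveI := finite_quot_pow (O := O) M
  let J := O ⧸ maximalIdeal O ^ M
  have hcard : Nat.card (O ⧸ Ideal.span {∏ i, c' i}) ≤ Nat.card (O ⧸ Ideal.span {D}) := by
    let W := ∀ i, {w : J // c' i • w = 0}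
    haveI : Fintype W := Fintype.ofFinite W
    let lam : W → ((Fin n → O) →ₗ[O] J) := fun w => b.constr O fun i => (w i).1
    have hlam : ∀ (w : W) g, π g = 0 → lam w (lin g) = 0 := fun w g hg => by
      rw [Basis.constr_apply_fintype]
      refine Finset.sum_eq_zero fun i _ => ?_
      obtain ⟨t, ht⟩ := hc'c g hg i
      rw [Basis.equivFun_apply, ht, mul_comm, mul_smul, (w i).2, smul_zero]
    choose sec hsec using hπ
    have hδ : ∀ (w : W) g r, π g = r → lam w (lin (sec r)) = lam w (lin g) := fun w g r hg => by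
      rw [← sub_eq_zero, ← map_sub, ← map_sub]
      exact hlam w _ (by rw [map_sub, hsec, hg, sub_self])
    let δ : W → (R →ₗ[O] J) := fun w =>
      { toFun := fun r => lam w (lin (sec r))
        map_add' := fun r r' => by
          rw [hδ w (sec r + sec r') _ (by rw [map_add, hsec, hsec]), map_add, map_add]
        map_smul' := fun a r => by
          rw [hδ w (a • sec r) _ (by rw [map_smul, hsec]), map_smul, map_smul, RingHom.id_apply] }
    have hδπ : ∀ w g, δ w (π g) = lam w (lin g) := fun w g => hδ w g _ rfl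
    have hder' : ∀ w, IsDerAt x (δ w) := fun w a a' => by
      rw [← hsec a, ← hsec a', ← map_mul, hδπ, hδπ, hδπ, hx, hx, lin_mul, map_add, map_smul,
        map_smul]
    have hinj : Function.Injective δ := fun w w' hww => funext fun i => Subtype.ext <| by
      have h := LinearMap.congr_fun hww
        (π (∑ j, MvPolynomial.C ((b i) j) * MvPolynomial.X j))
      rw [hδπ, hδπ, lin_linear] at h
      simpa [lam, Basis.constr_basis] using h
    have h1 := hder M (Finset.univ.image δ) (by simp [hder'])
    rw [Finset.card_image_of_injective _ hinj, Finset.card_univ, ← Nat.card_eq_fintype_card,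
      Nat.card_pi] at h1
    rw [card_quot_prod _ _ fun i _ => hc'0 i]
    exact le_trans (Finset.prod_le_prod' fun i _ => le_card_torsion hϖ (hc'M i)) h1
  have hdvd := dvd_of_card_le hD hcard (Finset.prod_ne_zero_iff.2 fun i _ => hc'0 i)
  have hne : ∀ i, c i ≠ 0 := fun i hi => hk M (Nat.le_add_right _ _)
    ((dvd_trans (dvd_of_eq (by simp [c', hi])) (Finset.dvd_prod_of_mem c' (Finset.mem_univ i))).trans
      hdvd)
  refine ⟨hne, ?_⟩
  simpa [c', hne] using hdvd

/-- The determinant of relations among generators of the kernel bounds the derivations. -/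
theorem derBound_of_relations [IsLocalRing R] {n : ℕ} (x : R →ₐ[O] O) (y : Fin n → R)
    (hy : ∀ j, x (y j) = 0) (hgen : ∀ r, x r = 0 → r ∈ Ideal.span (Set.range y))
    (A : Matrix (Fin n) (Fin n) R) (hA : ∀ i, ∑ j, A i j * y j = 0)
    (hdet : x A.det ≠ 0) : DerBound x (x A.det) := by
  classical
  intro m s hs
  set A₀ : Matrix (Fin n) (Fin n) O := A.map x
  obtain ⟨b, c, hc, hcL⟩ := exists_diag (Submodule.span O (Set.range fun i => A₀ i))
  choose t ht using fun i k => hc (A₀ i) (Submodule.subset_span ⟨i, rfl⟩) k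
  have hfac : A₀ = (Matrix.of t) * Matrix.diagonal c * Matrix.of (fun k j => b k j) := by
    ext i j
    have h := congrFun (b.sum_repr (A₀ i)) j
    rw [Finset.sum_apply] at h
    rw [← h, Matrix.mul_apply]
    refine Finset.sum_congr rfl fun k _ => ?_
    rw [Matrix.mul_diagonal, Pi.smul_apply, smul_eq_mul, ht i k, Matrix.of_apply, Matrix.of_apply,
      mul_comm (c k)]
  have hxdet : x A.det = A₀.det := AlgHom.map_det x A
  have hdvd : ∏ k, c k ∣ x A.det := by
    rw [hxdet, hfac, Matrix.det_mul, Matrix.det_mul, Matrix.det_diagonal]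
    exact dvd_mul_of_dvd_left (dvd_mul_left _ _) _
  have hne : ∀ k, c k ≠ 0 := fun k hk => hdet (zero_dvd_iff.1
    ((dvd_of_eq hk.symm).trans ((Finset.dvd_prod_of_mem c (Finset.mem_univ k)).trans hdvd)))
  haveI := finite_quot_pow (O := O) m
  let J := O ⧸ maximalIdeal O ^ m
  let W := ∀ k, {w : J // c k • w = 0}
  haveI : Fintype W := Fintype.ofFinite W
  have hone : ∀ δ ∈ s, δ (1 : R) = 0 := fun δ hδ => by
    have h := hs δ hδ 1 1
    rw [mul_one, map_one x, one_smul] at h
    exact left_eq_add.1 h
  let lam : (R →ₗ[O] J) → ((Fin n → O) →ₗ[O] J) := fun δ =>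
    Fintype.linearCombination O fun j => δ (y j)
  have hlam : ∀ δ ∈ s, ∀ k, c k • lam δ (b k) = 0 := fun δ hδ k => by
    rw [← map_smul]
    refine Submodule.span_induction (p := fun v _ => lam δ v = 0) ?_ (map_zero _) ?_ ?_ (hcL k)
    · rintro _ ⟨i, rfl⟩
      have h := congrArg δ (hA i)
      rw [map_sum, map_zero] at h
      rw [Fintype.linearCombination_apply, ← h]
      refine Finset.sum_congr rfl fun j _ => ?_
      rw [hs δ hδ, hy, zero_smul, add_zero]
      rfl
    · intro u v _ _ hu hv
      rw [map_add, hu, hv, add_zero]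
    · intro a v _ hv
      rw [map_smul, hv, smul_zero]
  let Φ : s → W := fun δ k => ⟨lam δ.1 (b k), hlam δ.1 δ.2 k⟩
  have hΦ : Function.Injective Φ := fun δ δ' h => Subtype.ext <| LinearMap.ext fun r => by
    have hl : lam δ.1 = lam δ'.1 := b.ext fun k => congrArg Subtype.val (congrFun h k)
    have hyj : ∀ j, δ.1 (y j) = δ'.1 (y j) := fun j => by
      simpa [lam, Fintype.linearCombination_apply_single] using
        LinearMap.congr_fun hl (Pi.single j 1)
    have hI : ∀ r ∈ Ideal.span (Set.range y), δ.1 r = δ'.1 r := fun r hr => by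
      obtain ⟨a, rfl⟩ := Ideal.mem_span_range_iff_exists_fun.1 hr
      rw [map_sum, map_sum]
      refine Finset.sum_congr rfl fun j _ => ?_
      rw [hs δ.1 δ.2, hs δ'.1 δ'.2, hy, zero_smul, zero_smul, hyj]
    have h1 := hI _ (hgen (r - algebraMap O R (x r)) (by simp))
    rwa [map_sub, map_sub, Algebra.algebraMap_eq_smul_one, map_smul, map_smul, hone δ.1 δ.2,
      hone δ'.1 δ'.2, smul_zero, sub_zero, sub_zero] at h1
  calc s.card = Nat.card s := (Nat.card_eq_finsetCard s).symm
    _ ≤ Nat.card W := Nat.card_le_card_of_injective Φ hΦ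
    _ = ∏ k, Nat.card {w : J // c k • w = 0} := Nat.card_pi
    _ ≤ ∏ k, Nat.card (O ⧸ Ideal.span {c k}) :=
        Finset.prod_le_prod' fun k _ => card_torsion_le (hne k) m
    _ = Nat.card (O ⧸ Ideal.span {∏ k, c k}) := (card_quot_prod _ _ fun k _ => hne k).symm
    _ ≤ _ := card_quot_le_of_dvd hdvd hdet

end Fermat.Agent.RT.Lifting.Criterion
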