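import Fermat.Agent.RT.Lifting.Defs
import Fermat.Agent.Patching.PowerSeriesRegular
import Fermat.Agent.RT.Algebra.Finite

/-!
# Power series lemmas for the numerical criterion

Reduction modulo a uniformiser, primary ideals from monic leading forms, the determinant trick
and the ideal of a point.
-/

set_option autoImplicit false
set_option linter.style.haveILetI false

noncomputable section

namespace Fermat.Agent.RT.Lifting.Criterion

open IsLocalRing

section Series

variable {k : Type} [Field k] {n : ℕ}

theorem maximalIdeal_eq_span_X :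
    maximalIdeal (MvPowerSeries (Fin n) k) = Ideal.span (Set.range MvPowerSeries.X) := by
  ext f
  rw [Patching.mem_span_range_X_iff, IsLocalRing.mem_maximalIdeal, mem_nonunits_iff,
    MvPowerSeries.isUnit_iff_constantCoeff, isUnit_iff_ne_zero, not_not]

/-- A primary ideal contains a power of the maximal ideal as soon as it contains powers of the
variables. -/
theorem exists_pow_le_of_X_pow (I : Ideal (MvPowerSeries (Fin n) k))
    (h : ∀ j, ∃ a : ℕ, MvPowerSeries.X j ^ a ∈ I) :
    ∃ N : ℕ, maximalIdeal (MvPowerSeries (Fin n) k) ^ N ≤ I := by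
  rw [maximalIdeal_eq_span_X]
  refine Ideal.exists_pow_le_of_le_radical_of_fg (Ideal.span_le.2 ?_)
    (Submodule.fg_span (Set.finite_range _))
  rintro _ ⟨j, rfl⟩
  exact h j

open MvPolynomial in
/-- Polynomials with leading forms `X_i ^ N` cut out a primary ideal at the origin. -/
theorem exists_pow_le_of_leading (N : ℕ) (f h : Fin n → MvPolynomial (Fin n) k)
    (hh : ∀ i, (h i).totalDegree < N) (hf : ∀ i, f i = h i + X i ^ N) :
    ∃ M : ℕ, maximalIdeal (MvPowerSeries (Fin n) k) ^ M ≤
      Ideal.span (Set.range fun i => (f i : MvPowerSeries (Fin n) k)) := by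
  classical
  set I : Ideal (MvPolynomial (Fin n) k) := Ideal.span (Set.range f) with hI
  set V : Submodule k (MvPolynomial (Fin n) k ⧸ I) :=
    (restrictTotalDegree (Fin n) k (n * N)).map (Ideal.Quotient.mkₐ k I).toLinearMap with hV
  have hmk : ∀ (m : ℕ) (q : MvPolynomial (Fin n) k), q.totalDegree ≤ m →
      Ideal.Quotient.mkₐ k I q ∈ V := by
    intro m
    induction m using Nat.strong_induction_on with
    | _ m ih =>
      intro q hq
      rw [q.as_sum, map_sum]
      refine Submodule.sum_mem _ fun d hd => ?_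
      have hdm : d.degree ≤ m := le_trans (le_of_eq_of_le rfl (le_totalDegree hd)) hq
      by_cases hdn : d.degree ≤ n * N
      · refine ⟨monomial d (coeff d q), (mem_restrictTotalDegree ..).2 ?_, rfl⟩
        exact le_trans (totalDegree_monomial_le _ _) hdn
      obtain ⟨i, hi⟩ : ∃ i, N ≤ d i := by
        by_contra hcon
        push Not at hcon
        refine hdn ?_
        rw [Finsupp.degree_eq_sum]
        calc ∑ i, d i ≤ ∑ _i : Fin n, N := Finset.sum_le_sum fun i _ => (hcon i).le
          _ = n * N := by simp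
      have hsub : Finsupp.single i N ≤ d := Finsupp.single_le_iff.2 hi
      set d' := d - Finsupp.single i N with hd'
      have hdd : d' + Finsupp.single i N = d := tsub_add_cancel_of_le hsub
      have heq : monomial d (coeff d q) =
          monomial d' (coeff d q) * f i - monomial d' (coeff d q) * h i := by
        rw [hf, mul_add, add_sub_cancel_left, X_pow_eq_monomial, monomial_mul, mul_one, hdd]
      have hzero : Ideal.Quotient.mkₐ k I (monomial d' (coeff d q) * f i) = 0 :=
        Ideal.Quotient.eq_zero_iff_mem.2 (I.mul_mem_left _ (Ideal.subset_span ⟨i, rfl⟩))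
      rw [heq, map_sub, hzero, zero_sub]
      refine V.neg_mem (ih (m - 1) ?_ _ ?_)
      · omega
      · have hdeg : d.degree = d'.degree + N := by
          rw [← hdd, map_add, Finsupp.degree_single]
        have h1 := totalDegree_mul (monomial d' (coeff d q)) (h i)
        have h2 : (monomial d' (coeff d q)).totalDegree ≤ d'.degree := totalDegree_monomial_le _ _
        have := hh i
        omega
  have hVtop : V = ⊤ := eq_top_iff.2 fun z _ => by
    obtain ⟨q, rfl⟩ := Ideal.Quotient.mk_surjective z
    exact hmk _ q le_rfl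
  haveI : Module.Finite k (MvPolynomial (Fin n) k ⧸ I) := by
    refine Module.Finite.of_surjective
      ((Ideal.Quotient.mkₐ k I).toLinearMap ∘ₗ (restrictTotalDegree (Fin n) k (n * N)).subtype)
      fun z => ?_
    obtain ⟨q, hq, rfl⟩ := (show z ∈ V from hVtop ▸ Submodule.mem_top)
    exact ⟨⟨q, hq⟩, rfl⟩
  refine exists_pow_le_of_X_pow _ fun j => ?_
  obtain ⟨P, hPm, hP⟩ := Algebra.IsIntegral.isIntegral (R := k) (Ideal.Quotient.mk I (X j))
  obtain ⟨Q, hPQ, hQ⟩ := Polynomial.exists_eq_pow_rootMultiplicity_mul_and_not_dvd P hPm.ne_zero 0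
  rw [map_zero, sub_zero, Polynomial.X_dvd_iff] at hQ
  rw [map_zero, sub_zero] at hPQ
  set a := P.rootMultiplicity 0
  refine ⟨a, ?_⟩
  have hPI : Polynomial.aeval (X j : MvPolynomial (Fin n) k) P ∈ I := by
    rw [← Ideal.Quotient.eq_zero_iff_mem, ← Ideal.Quotient.mkₐ_eq_mk k,
      ← Polynomial.aeval_algHom_apply]
    exact hP
  set cps : MvPolynomial (Fin n) k →ₐ[k] MvPowerSeries (Fin n) k :=
    MvPolynomial.coeToMvPowerSeries.algHom k with hcps
  have hmap := Ideal.mem_map_of_mem cps.toRingHom hPI
  rw [hI, Ideal.map_span, ← Set.range_comp] at hmap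
  have hmap' : cps (Polynomial.aeval (X j) P) ∈
      Ideal.span (Set.range fun i => (f i : MvPowerSeries (Fin n) k)) := by
    refine le_of_eq (congrArg Ideal.span (congrArg Set.range (funext fun i => ?_))) hmap
    simp [hcps]
  rw [hPQ, map_mul (Polynomial.aeval (X j : MvPolynomial (Fin n) k)), map_pow, Polynomial.aeval_X,
    map_mul, map_pow, show cps (X j) =
      (MvPowerSeries.X j : MvPowerSeries (Fin n) k) by simp [hcps]] at hmap'
  refine (Ideal.mul_unit_mem_iff_mem _ ?_).1 hmap'
  rw [← Polynomial.aeval_algHom_apply, MvPowerSeries.isUnit_iff_constantCoeff, Polynomial.aeval_def,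
    Polynomial.hom_eval₂, isUnit_iff_ne_zero]
  have hcomp : (MvPowerSeries.constantCoeff (σ := Fin n) (R := k)).comp
      (algebraMap k (MvPowerSeries (Fin n) k)) = RingHom.id k := by
    ext c
    simp [MvPowerSeries.algebraMap_apply]
  rw [hcomp]
  simpa [hcps, Polynomial.coeff_zero_eq_eval_zero] using hQ

end Series

section Reduction

variable {O : Type} [CommRing O] [IsDomain O] [IsDiscreteValuationRing O] {σ : Type}

theorem exists_eq_C_mul_of_map_eq_zero {ϖ : O} (hϖ : Irreducible ϖ) {g : MvPowerSeries σ O}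
    (hg : MvPowerSeries.map (residue O) g = 0) : ∃ q, g = MvPowerSeries.C ϖ * q := by
  have h : ∀ d, ∃ a, MvPowerSeries.coeff d g = ϖ * a := fun d => by
    have h1 := congrArg (MvPowerSeries.coeff d) hg
    rw [MvPowerSeries.coeff_map, map_zero, residue_eq_zero_iff, hϖ.maximalIdeal_eq,
      Ideal.mem_span_singleton] at h1
    exact h1
  choose q hq using h
  refine ⟨q, MvPowerSeries.ext fun d => ?_⟩
  rw [MvPowerSeries.coeff_C_mul, hq d]
  rfl

theorem map_residue_surjective :
    Function.Surjective (MvPowerSeries.map (σ := σ) (residue O)) := fun g => by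
  choose a ha using fun d => residue_surjective (MvPowerSeries.coeff d g)
  refine ⟨a, MvPowerSeries.ext fun d => ?_⟩
  rw [MvPowerSeries.coeff_map]
  exact ha d

variable {R : Type} [CommRing R] [Algebra O R] {ι : Type} [Fintype ι]

/-- Modulo the uniformiser, the values of a series in the ideal of relations vanish. -/
theorem apply_mem_of_map_mem {ϖ : O} (hϖ : Irreducible ϖ) (γ : MvPowerSeries σ O →ₐ[O] R)
    (f : ι → MvPowerSeries σ O) (hf : ∀ i, γ (f i) = 0) {g : MvPowerSeries σ O}
    (hg : MvPowerSeries.map (residue O) g ∈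
      Ideal.span (Set.range fun i => MvPowerSeries.map (residue O) (f i))) :
    γ g ∈ Ideal.span {algebraMap O R ϖ} := by
  obtain ⟨c, hc⟩ := Ideal.mem_span_range_iff_exists_fun.1 hg
  choose c' hc' using fun i => map_residue_surjective (O := O) (σ := σ) (c i)
  obtain ⟨q, hq⟩ := exists_eq_C_mul_of_map_eq_zero hϖ
    (g := g - ∑ i, c' i * f i) (by simp [map_sum, hc', hc])
  have h := congrArg γ hq
  rw [map_sub, map_sum, map_mul, MvPowerSeries.c_eq_algebraMap, γ.commutes] at h
  simp only [map_mul, hf, mul_zero, Finset.sum_const_zero, sub_zero] at h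
  rw [h, Ideal.mem_span_singleton]
  exact dvd_mul_right _ _

end Reduction

/-- The determinant of the relations kills the coordinates. -/
theorem det_mul_eq_zero {P R : Type} [CommRing P] [CommRing R] (φ : P →+* R) {n : ℕ}
    (A : Matrix (Fin n) (Fin n) P) (f x : Fin n → P) (hA : ∀ i, f i = ∑ j, A i j * x j)
    (hf : ∀ i, φ (f i) = 0) (j : Fin n) : φ A.det * φ (x j) = 0 := by
  have h : (A.map φ).mulVec (φ ∘ x) = 0 := funext fun i => by
    rw [Pi.zero_apply, ← hf i, hA i, map_sum]
    simp [Matrix.mulVec, dotProduct]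
  have h2 := congrArg (Matrix.mulVec (A.map φ).adjugate) h
  rw [Matrix.mulVec_mulVec, Matrix.adjugate_mul, Matrix.smul_mulVec, Matrix.one_mulVec,
    Matrix.mulVec_zero] at h2
  rw [RingHom.map_det, RingHom.mapMatrix_apply]
  exact congrFun h2 j

section Point

variable {O : Type} [CommRing O] [IsDomain O] [IsDiscreteValuationRing O]
variable {R : Type} [CommRing R] [IsLocalRing R] [Algebra O R]

theorem ker_point_le (x : R →ₐ[O] O) {r : R} (h : x r = 0) : r ∈ maximalIdeal R :=
  (IsLocalRing.mem_maximalIdeal r).2 fun hu => not_isUnit_zero (h ▸ hu.map x)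

omit [IsLocalRing R] [IsDomain O] [IsDiscreteValuationRing O] in
/-- An element killing the kernel of a point has eigen values. -/
theorem mul_eq_of_kills (x : R →ₐ[O] O) {e : R} (he : ∀ r, x r = 0 → e * r = 0) (r : R) :
    e * r = algebraMap O R (x r) * e := by
  have h := he (r - algebraMap O R (x r)) (by simp)
  rw [mul_sub, sub_eq_zero] at h
  rw [h, mul_comm]

theorem exists_pow_maximalIdeal_le [Module.Finite O R] [IsLocalHom (algebraMap O R)] {ϖ : O}
    (hϖ : Irreducible ϖ) : ∃ N : ℕ, maximalIdeal R ^ N ≤ Ideal.span {algebraMap O R ϖ} := by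
  haveI : IsNoetherianRing R := IsNoetherianRing.of_finite O R
  refine Ideal.exists_pow_le_of_le_radical_of_fg ?_ (IsNoetherian.noetherian _)
  rw [Ideal.radical_eq_sInf]
  refine le_sInf fun P hP => ?_
  haveI := hP.2
  have hc : P.comap (algebraMap O R) = maximalIdeal O := by
    refine (eq_of_le_of_not_lt (IsLocalRing.le_maximalIdeal (Ideal.IsPrime.ne_top inferInstance))
      fun hlt => ?_)
    have hmem : ϖ ∈ P.comap (algebraMap O R) := hP.1 (Ideal.subset_span rfl)
    refine hlt.not_ge ?_
    rw [hϖ.maximalIdeal_eq, Ideal.span_le, Set.singleton_subset_iff]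
    exact hmem
  haveI : P.IsMaximal := Ideal.isMaximal_of_isIntegral_of_isMaximal_comap P
    (hc ▸ maximalIdeal.isMaximal O)
  rw [IsLocalRing.eq_maximalIdeal ‹P.IsMaximal›]

end Point

end Fermat.Agent.RT.Lifting.Criterion
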