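import Fermat.Agent.RT.Lifting.Interface
import Fermat.Agent.RT.Lifting.CriterionBound
import Fermat.Agent.RT.Lifting.CriterionSeries

/-!
# The congruence modulus of a complete intersection

`ModulusProperty` from the socle of a zero-dimensional complete intersection: the determinant of
the relations at the point.
-/

set_option autoImplicit false
set_option linter.style.haveILetI false

noncomputable section

namespace Fermat.Agent.RT.Lifting

open IsLocalRing Module Criterion Fermat.Agent.Deform

namespace Criterion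

variable {O : Type} [CommRing O] [IsDomain O] [IsDiscreteValuationRing O]
  [IsAdicComplete (maximalIdeal O) O]

/-- Modulo the coordinates of a point in the maximal ideal every series is constant. -/
theorem exists_sub_C_mem {r : ℕ} (a : Fin r → O) (ha : ∀ j, a j ∈ maximalIdeal O)
    (g : MvPowerSeries (Fin r) O) :
    ∃ c : O, g - MvPowerSeries.C c ∈
      Ideal.span (Set.range fun j => MvPowerSeries.X j - MvPowerSeries.C (a j)) := by
  classical
  let P := MvPowerSeries (Fin r) O
  set Q : Ideal P := Ideal.span (Set.range fun j => MvPowerSeries.X j - MvPowerSeries.C (a j))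
  have hmem : ∀ f : P, MvPowerSeries.constantCoeff f ∈ maximalIdeal O → f ∈ maximalIdeal P :=
    fun f hf => (IsLocalRing.mem_maximalIdeal _).2 fun hu => (IsLocalRing.mem_maximalIdeal _).1 hf
      (MvPowerSeries.isUnit_iff_constantCoeff.1 hu)
  have hQ : Q ≤ maximalIdeal P := Ideal.span_le.2 (by
    rintro _ ⟨j, rfl⟩
    exact hmem _ (by simpa using ha j))
  let T := P ⧸ Q
  haveI : Nontrivial T := Ideal.Quotient.nontrivial_iff.2 fun h =>
    (maximalIdeal.isMaximal P).ne_top (top_le_iff.1 (h ▸ hQ))
  haveI : IsLocalRing T := IsLocalRing.of_surjective' _ Ideal.Quotient.mk_surjective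
  haveI : IsHausdorff (maximalIdeal O) T := IsHausdorff.of_map (S := T) (J := maximalIdeal T) (by
    rw [Ideal.map_le_iff_le_comap]
    intro c hc
    have hc' : algebraMap O P c ∈ maximalIdeal P :=
      hmem _ (by rwa [← MvPowerSeries.c_eq_algebraMap, MvPowerSeries.constantCoeff_C])
    exact (IsLocalRing.eq_maximalIdeal (Ideal.comap_isMaximal_of_surjective
      (Ideal.Quotient.mk Q) Ideal.Quotient.mk_surjective (K := maximalIdeal T))).ge hc')
  have hgen : ∀ t : T, ∃ c : O, t - algebraMap O T c ∈
      maximalIdeal O • (⊤ : Submodule O T) := fun t => by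
    obtain ⟨f, rfl⟩ := Ideal.Quotient.mk_surjective t
    obtain ⟨h, hh⟩ := Ideal.mem_span_range_iff_exists_fun.1 (Patching.sub_C_mem_span_range_X f)
    refine ⟨MvPowerSeries.constantCoeff f, ?_⟩
    have hX : ∀ j, Ideal.Quotient.mk Q (h j * MvPowerSeries.X j) =
        a j • Ideal.Quotient.mk Q (h j) := fun j => by
      rw [show a j • Ideal.Quotient.mk Q (h j) = algebraMap O T (a j) * Ideal.Quotient.mk Q (h j)
          from Algebra.smul_def (A := T) _ _, IsScalarTower.algebraMap_apply O P T, Ideal.Quotient.algebraMap_eq,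
        ← map_mul, mul_comm, Ideal.Quotient.eq, ← sub_mul, ← MvPowerSeries.c_eq_algebraMap]
      exact Ideal.mul_mem_right _ _ (Ideal.subset_span ⟨j, rfl⟩)
    rw [IsScalarTower.algebraMap_apply O P T, Ideal.Quotient.algebraMap_eq, ← map_sub,
      ← MvPowerSeries.c_eq_algebraMap, ← hh, map_sum]
    exact Submodule.sum_mem _ fun j _ =>
      hX j ▸ Submodule.smul_mem_smul (ha j) Submodule.mem_top
  haveI : Module.Finite O (T ⧸ (maximalIdeal O • ⊤ : Submodule O T)) := by
    refine Module.Finite.of_surjective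
      ((maximalIdeal O • ⊤ : Submodule O T).mkQ ∘ₗ Algebra.linearMap O T) fun z => ?_
    obtain ⟨t, rfl⟩ := Submodule.mkQ_surjective _ z
    obtain ⟨c, hc⟩ := hgen t
    exact ⟨c, ((Submodule.Quotient.eq _).2 hc).symm⟩
  haveI : Module.Finite O T := Fermat.Agent.RT.Algebra.finite_of_quotient (maximalIdeal O)
  have htop : (⊤ : Submodule O T) ≤ LinearMap.range (Algebra.linearMap O T) :=
    Submodule.le_of_le_smul_of_le_jacobson_bot Module.Finite.fg_top
      (IsLocalRing.maximalIdeal_le_jacobson _) fun t _ => by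
        obtain ⟨c, hc⟩ := hgen t
        rw [← add_sub_cancel (algebraMap O T c) t]
        exact Submodule.add_mem_sup ⟨c, rfl⟩ hc
  obtain ⟨c, hc⟩ := htop (Submodule.mem_top (x := Ideal.Quotient.mk Q g))
  refine ⟨c, ?_⟩
  rw [← Ideal.Quotient.eq, ← hc, MvPowerSeries.c_eq_algebraMap]
  rfl

end Criterion

/-- The congruence modulus of a reduced complete intersection at a point. -/
theorem modulusProperty (hsoc : SocleProperty) : ModulusProperty := by
  intro O _ _ _ _ _ R _ _ _ _ _ r π f hπ hker hres hfree x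
  classical
  haveI := hres.isLocalHom
  obtain ⟨ϖ, hϖ⟩ := IsDiscreteValuationRing.exists_irreducible O
  let k := ResidueField O
  have hπf : ∀ i, π (f i) = 0 := fun i => by
    have h : f i ∈ RingHom.ker π := hker ▸ Ideal.subset_span ⟨i, rfl⟩
    exact h
  haveI : IsLocalHom (π : MvPowerSeries (Fin r) O →+* R) := .of_surjective _ hπ
  have hXm : ∀ j, π (MvPowerSeries.X j) ∈ maximalIdeal R := fun j =>
    map_nonunit (π : MvPowerSeries (Fin r) O →+* R) _ ((IsLocalRing.mem_maximalIdeal _).2
      fun hu => by simpa using MvPowerSeries.isUnit_iff_constantCoeff.1 hu)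
  have hxm : ∀ z ∈ maximalIdeal R, x z ∈ maximalIdeal O := fun z hz =>
    (IsLocalRing.mem_maximalIdeal _).2 fun hu => (IsLocalRing.mem_maximalIdeal _).1 hz (by
      by_contra hn
      have h1 : z - algebraMap O R (x z) ∈ maximalIdeal R := ker_point_le x (by simp)
      have h2 := (maximalIdeal R).sub_mem ((IsLocalRing.mem_maximalIdeal _).2 hn) h1
      rw [sub_sub_cancel] at h2
      exact (IsLocalRing.mem_maximalIdeal _).1 h2 (hu.map _))
  let a : Fin r → O := fun j => x (π (MvPowerSeries.X j))
  let Y : Fin r → MvPowerSeries (Fin r) O := fun j => MvPowerSeries.X j - MvPowerSeries.C (a j)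
  have hπC : ∀ c : O, π (MvPowerSeries.C c) = algebraMap O R c := fun c => by
    rw [MvPowerSeries.c_eq_algebraMap, π.commutes]
  have hxY : ∀ j, x (π (Y j)) = 0 := fun j => by simp [Y, a, hπC]
  have hmemY : ∀ g, x (π g) = 0 → g ∈ Ideal.span (Set.range Y) := fun g hg => by
    obtain ⟨c, hc⟩ := exists_sub_C_mem a (fun j => hxm _ (hXm j)) g
    obtain ⟨d, hd⟩ := Ideal.mem_span_range_iff_exists_fun.1 hc
    have h := congrArg (fun z => x (π z)) hd
    simp only [map_sum, map_mul, map_sub, hg, hπC, x.commutes] at h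
    have hc0 : c = 0 := by
      have h' : ∀ j, x (π (MvPowerSeries.X j)) - a j = 0 := fun j => sub_self _
      simp [h'] at h
      exact h
    rwa [hc0, map_zero, sub_zero] at hc
  choose A hA using fun i =>
    Ideal.mem_span_range_iff_exists_fun.1 (hmemY (f i) (by rw [hπf, map_zero]))
  let e := Matrix.det (Matrix.of A)
  have hgen : ∀ z, x z = 0 → z ∈ Ideal.span (Set.range fun j => π (Y j)) := fun z hz => by
    obtain ⟨g, rfl⟩ := hπ z
    obtain ⟨d, hd⟩ := Ideal.mem_span_range_iff_exists_fun.1 (hmemY g hz)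
    rw [← hd, map_sum]
    exact Ideal.sum_mem _ fun j _ => by
      rw [map_mul]
      exact Ideal.mul_mem_left _ _ (Ideal.subset_span ⟨j, rfl⟩)
  have hekill : ∀ z, x z = 0 → π e * z = 0 := fun z hz => by
    obtain ⟨d, rfl⟩ := Ideal.mem_span_range_iff_exists_fun.1 (hgen z hz)
    rw [Finset.mul_sum]
    refine Finset.sum_eq_zero fun j _ => ?_
    have h : π e * π (Y j) = 0 :=
      det_mul_eq_zero (π : MvPowerSeries (Fin r) O →+* R) (Matrix.of A) f Y
        (fun i => (hA i).symm) hπf j
    rw [mul_left_comm, h, mul_zero]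
  -- the determinant is not divisible by `ϖ`
  let red := MvPowerSeries.map (σ := Fin r) (residue O)
  have hres0 : residue O ϖ = 0 :=
    (residue_eq_zero_iff ϖ).2 ((IsLocalRing.mem_maximalIdeal ϖ).2 hϖ.not_isUnit)
  have hred : ∀ g h : MvPowerSeries (Fin r) O, π g = algebraMap O R ϖ * π h →
      red g ∈ Ideal.span (Set.range fun i => red (f i)) := fun g h hgh => by
    have hm : g - MvPowerSeries.C ϖ * h ∈ RingHom.ker π := by
      rw [RingHom.mem_ker, map_sub, map_mul, hπC, hgh, sub_self]
    rw [hker] at hm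
    have h2 := Ideal.mem_map_of_mem red hm
    rw [Ideal.map_span, ← Set.range_comp] at h2
    simpa [red, hres0, Function.comp_def] using h2
  have hne : ∀ z, π e ≠ algebraMap O R ϖ * z := fun z hz => by
    obtain ⟨h, rfl⟩ := hπ z
    refine (hsoc k r ((Matrix.of A).map red) (fun i => red (f i)) (fun i => ?_) ?_).1 ?_
    · have hY : ∀ j, red (Y j) = MvPowerSeries.X j := fun j => by
        simp [red, Y, (residue_eq_zero_iff (a j)).2 (hxm _ (hXm j))]
      rw [← hA i, map_sum]
      simp [hY, Matrix.map_apply]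
    · obtain ⟨N, hN⟩ := exists_pow_maximalIdeal_le (R := R) hϖ
      refine exists_pow_le_of_X_pow _ fun j => ⟨N, ?_⟩
      obtain ⟨z, hz⟩ := Ideal.mem_span_singleton.1 (hN (Ideal.pow_mem_pow (hXm j) N))
      obtain ⟨g, rfl⟩ := hπ z
      have h := hred (MvPowerSeries.X j ^ N) g (by rw [map_pow, hz])
      rwa [map_pow, show red (MvPowerSeries.X j) = MvPowerSeries.X j from MvPowerSeries.map_X _ _]
        at h
    · rw [← RingHom.mapMatrix_apply, ← RingHom.map_det]
      exact hred e h hz
  have hη0 : x (π e) ≠ 0 := fun h0 => by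
    refine hne 0 ?_
    rw [mul_zero]
    exact IsNilpotent.eq_zero ⟨2, by
      rw [sq, mul_eq_of_kills x hekill, h0, map_zero, zero_mul]⟩
  refine ⟨x (π e), hη0, ?_, ?_⟩
  · have hdet : π e = (((Matrix.of A).map π)).det := AlgHom.map_det π (Matrix.of A)
    rw [hdet] at hη0 ⊢
    refine derBound_of_relations x (fun j => π (Y j)) hxY hgen _ (fun i => ?_) hη0
    rw [← hπf i, ← hA i, map_sum]
    simp
  intro M _ _ _ _ _ _ u φ hu hφ
  let bM := Module.Free.chooseBasis R M
  have hcoord : ∀ i, x (π e) ∣ x (bM.repr u i) := fun i => by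
    set c := bM.repr u i
    have hkill : ∀ z : R, x z = 0 → c * z = 0 := fun z hz => by
      have h := congrArg (fun m => bM.repr m i) (hu z)
      simp only [hz, zero_smul, map_zero, map_smul, Finsupp.smul_apply, Finsupp.zero_apply,
        smul_eq_mul] at h
      rw [mul_comm]
      exact h
    have h1 := mul_eq_of_kills x hekill c
    have h2 := mul_eq_of_kills x hkill (π e)
    rw [mul_comm] at h1
    have h3 : x c • π e = x (π e) • c := by
      rw [Algebra.smul_def, Algebra.smul_def, ← h1, ← h2, mul_comm]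
    rcases ValuationRing.dvd_total (x (π e)) (x c) with h | ⟨t, ht⟩
    · exact h
    by_cases htu : IsUnit t
    · rw [ht, htu.mul_right_dvd]
    exfalso
    obtain ⟨t', rfl⟩ : ϖ ∣ t := by
      rw [← Ideal.mem_span_singleton, ← hϖ.maximalIdeal_eq]
      exact (IsLocalRing.mem_maximalIdeal t).2 htu
    have hxc : x c ≠ 0 := left_ne_zero_of_mul (ht ▸ hη0)
    rw [ht, mul_smul] at h3
    refine hne (algebraMap O R t' * c) ?_
    rw [smul_right_injective R hxc h3, Algebra.smul_def, map_mul, mul_assoc]
  rw [← bM.sum_repr u, map_sum]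
  refine Finset.dvd_sum fun i _ => ?_
  rw [hφ]
  exact Dvd.dvd.mul_right (hcoord i) _

end Fermat.Agent.RT.Lifting
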