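import Fermat.Agent.RT.Lifting.Interface
import Fermat.Agent.RT.Algebra.Limit
import Fermat.Agent.Patching.Descent

/-!
# The limit of a patching datum

`LimitProperty`: along an ultrafilter the maps `φ`, `ψ` and the actions of a patching datum
converge to a patching level with the zero ideal, to which the descent step applies.
-/

set_option autoImplicit false

noncomputable section

namespace Fermat.Agent.RT.Lifting.PatchLimit

open MvPowerSeries IsLocalRing Module
open Fermat.Agent.RT.Algebra (exists_ultralimit map_eq_zero_of_mem_pow_card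
  finite_residueField_mvPowerSeries finite_quotient_pow)

section General

/-- A pointwise limit of functions that are eventually ring maps is a ring map. -/
theorem exists_ringHom_of_eventually {A B : Type*} [Semiring A] [Semiring B] {C : ℕ → Type*}
    [∀ K, Semiring (C K)] (l : Filter ℕ) [l.NeBot] (q : ∀ K, B →+* C K)
    (sep : ∀ x y, (∀ K, q K x = q K y) → x = y) (F : ∀ K, ℕ → A → C K)
    (hF : ∀ K, ∀ᶠ n in l, ∃ H : A →+* C K, ∀ a, H a = F K n a)
    (g : A → B) (hg : ∀ a K, ∀ᶠ n in l, F K n a = q K (g a)) :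
    ∃ G : A →+* B, ∀ a, G a = g a :=
  ⟨{  toFun := g
      map_one' := sep _ _ fun K => by
        obtain ⟨n, ⟨H, hH⟩, h1⟩ := ((hF K).and (hg 1 K)).exists
        rw [← h1, ← hH, map_one, map_one]
      map_mul' := fun a b => sep _ _ fun K => by
        obtain ⟨n, ⟨⟨H, hH⟩, h1⟩, h2, h3⟩ :=
          (((hF K).and (hg (a * b) K)).and ((hg a K).and (hg b K))).exists
        rw [map_mul, ← h1, ← h2, ← h3, ← hH, ← hH, ← hH, map_mul]
      map_zero' := sep _ _ fun K => by
        obtain ⟨n, ⟨H, hH⟩, h1⟩ := ((hF K).and (hg 0 K)).exists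
        rw [← h1, ← hH, map_zero, map_zero]
      map_add' := fun a b => sep _ _ fun K => by
        obtain ⟨n, ⟨⟨H, hH⟩, h1⟩, h2, h3⟩ :=
          (((hF K).and (hg (a + b) K)).and ((hg a K).and (hg b K))).exists
        rw [map_add, ← h1, ← h2, ← h3, ← hH, ← hH, ← hH, map_add] }, fun _ => rfl⟩

variable {O : Type*} [CommRing O] [IsLocalRing O] [IsNoetherianRing O]
  [IsAdicComplete (maximalIdeal O) O] [Finite (ResidueField O)] (U : Ultrafilter ℕ)

/-- A sequence in `O` has a limit along an ultrafilter. -/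
theorem exists_lim_base (x : ℕ → O) :
    ∃ l : O, ∀ K, ∀ᶠ n in (U : Filter ℕ), x n - l ∈ maximalIdeal O ^ K := by
  have hstep : ∀ K, ∃ c : O, ∀ᶠ n in (U : Filter ℕ), x n - c ∈ maximalIdeal O ^ K := fun K => by
    have := finite_quotient_pow (O := O) K
    obtain ⟨q, hq⟩ := Ultrafilter.eq_pure_of_finite
      (U.map fun n => Ideal.Quotient.mk (maximalIdeal O ^ K) (x n))
    obtain ⟨c, rfl⟩ := Ideal.Quotient.mk_surjective q
    refine ⟨c, ?_⟩
    have : {Ideal.Quotient.mk (maximalIdeal O ^ K) c} ∈
        U.map fun n => Ideal.Quotient.mk (maximalIdeal O ^ K) (x n) := by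
      rw [hq]
      exact Set.mem_singleton _
    filter_upwards [Ultrafilter.mem_map.mp this] with n hn
    exact Ideal.Quotient.eq.mp hn
  choose c hc using hstep
  obtain ⟨l, hl⟩ := IsPrecomplete.prec (I := maximalIdeal O) (f := c) inferInstance
    fun {m n} hmn => by
      obtain ⟨i, hi, hj⟩ := ((hc m).and (hc n)).exists
      rw [SModEq.sub_mem, smul_eq_mul, Ideal.mul_top]
      simpa using sub_mem (Ideal.pow_le_pow_right hmn hj) hi
  refine ⟨l, fun K => ?_⟩
  filter_upwards [hc K] with n hn
  have h1 := hl K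
  rw [SModEq.sub_mem, smul_eq_mul, Ideal.mul_top] at h1
  simpa using add_mem hn h1

/-- A sequence in a finite `O`-module has a limit along an ultrafilter. -/
theorem exists_lim_finite {N : Type*} [AddCommGroup N] [Module O N] [Module.Finite O N]
    (x : ℕ → N) :
    ∃ l : N, ∀ K, ∀ᶠ n in (U : Filter ℕ),
      x n - l ∈ (maximalIdeal O ^ K • ⊤ : Submodule O N) := by
  obtain ⟨k, q, hq⟩ := Module.Finite.exists_fin' O N
  choose y hy using fun n => hq (x n)
  choose l hl using fun i => exists_lim_base U fun n => y n i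
  refine ⟨q l, fun K => ?_⟩
  have hev : ∀ᶠ n in (U : Filter ℕ), ∀ i, y n i - l i ∈ maximalIdeal O ^ K :=
    Filter.eventually_all.mpr fun i => hl i K
  filter_upwards [hev] with n hn
  rw [← hy n, ← map_sub, ← Finset.univ_sum_single (y n - l), map_sum]
  refine Submodule.sum_mem _ fun i _ => ?_
  have : (Pi.single i ((y n - l) i) : Fin k → O) = ((y n - l) i) • Pi.single i 1 := by
    rw [← Pi.single_smul, smul_eq_mul, mul_one]
  rw [this, map_smul]
  exact Submodule.smul_mem_smul (hn i) Submodule.mem_top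

end General

variable {O : Type} [CommRing O] [IsLocalRing O] {r : ℕ}

/-- The relations of the `n`-th level lie in the `n`-th power of the maximal ideal. -/
theorem span_le_pow {p : ℕ} (hp : (p : O) ∈ maximalIdeal O) (n : ℕ) :
    Ideal.span (Set.range fun j : Fin r => ((1 + X j) ^ (p ^ n) - 1 : MvPowerSeries (Fin r) O)) ≤
      maximalIdeal (MvPowerSeries (Fin r) O) ^ n := by
  refine le_trans ?_ (Ideal.pow_le_pow_right (Nat.le_succ n))
  rw [Ideal.span_le]
  rintro _ ⟨j, rfl⟩
  dsimp only [SetLike.mem_coe]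
  induction n with
  | zero =>
    simp only [pow_zero, pow_one, add_sub_cancel_left]
    exact (IsLocalRing.mem_maximalIdeal _).mpr fun h => by
      simpa using MvPowerSeries.isUnit_iff_constantCoeff.mp h
  | succ n ih =>
    set y : MvPowerSeries (Fin r) O := (1 + X j) ^ p ^ n with hy
    rw [show ((1 + X j) ^ p ^ (n + 1) : MvPowerSeries (Fin r) O) = y ^ p by
      rw [hy, ← pow_mul, ← pow_succ], ← geom_sum_mul y p,
      pow_succ' (maximalIdeal (MvPowerSeries (Fin r) O)) (n + 1)]
    refine Ideal.mul_mem_mul ?_ ih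
    rw [← residue_eq_zero_iff, map_sum]
    have h1 : residue (MvPowerSeries (Fin r) O) y = 1 := by
      have := Ideal.pow_le_self (Nat.succ_ne_zero n) ih
      rwa [← residue_eq_zero_iff, map_sub, map_one, sub_eq_zero] at this
    simp only [map_pow, h1, one_pow, Finset.sum_const, Finset.card_range, nsmul_eq_mul, mul_one]
    rw [← map_natCast (residue (MvPowerSeries (Fin r) O)), residue_eq_zero_iff,
      IsLocalRing.mem_maximalIdeal, mem_nonunits_iff, MvPowerSeries.isUnit_iff_constantCoeff,
      map_natCast, ← mem_nonunits_iff, ← IsLocalRing.mem_maximalIdeal]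
    exact hp

theorem constantCoeff_mem_pow {f : MvPowerSeries (Fin r) O} {K : ℕ}
    (h : f ∈ maximalIdeal (MvPowerSeries (Fin r) O) ^ K) :
    constantCoeff f ∈ maximalIdeal O ^ K := by
  have hle : (maximalIdeal (MvPowerSeries (Fin r) O)).map constantCoeff ≤ maximalIdeal O := by
    rw [Ideal.map_le_iff_le_comap]
    intro g hg
    exact (IsLocalRing.mem_maximalIdeal _).mpr fun hu =>
      (IsLocalRing.mem_maximalIdeal g).mp hg (MvPowerSeries.isUnit_iff_constantCoeff.mpr hu)
  have h1 := Ideal.mem_map_of_mem (constantCoeff (σ := Fin r) (R := O)) h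
  rw [Ideal.map_pow] at h1
  exact Ideal.pow_right_mono hle K h1

variable {R : Type} [CommRing R] [Algebra O R] {M : Type} [AddCommGroup M] [Module O M]
  [Module R M] [IsScalarTower O R M] {J : Ideal (MvPowerSeries (Fin r) O)}
  (L : Algebra.PatchingLevel O r R M J)

omit [IsLocalRing O] [Module O M] [IsScalarTower O R M] in
theorem psi_phi (c : MvPowerSeries (Fin r) O) :
    L.ψ (L.φ c) = algebraMap O R (constantCoeff c) := by
  have hker : Ideal.span (Set.range (X : Fin r → MvPowerSeries (Fin r) O)) ≤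
      RingHom.ker (L.ψ.comp L.φ) := by
    rw [Ideal.span_le]
    rintro _ ⟨i, rfl⟩
    exact L.ψ_φ_X i
  have h : L.ψ (L.φ (c - C (constantCoeff c))) = 0 :=
    hker (Fermat.Agent.Patching.sub_C_mem_span_range_X c)
  rw [map_sub, map_sub, sub_eq_zero] at h
  exact h.trans ((L.ψ.comp L.φ).commutes _)

omit [IsLocalRing O] in
theorem pi_sum (c : Fin L.d → MvPowerSeries (Fin r) O) :
    L.π (∑ i, L.φ (c i) • L.b i) = ∑ i, constantCoeff (c i) • L.π (L.b i) := by
  rw [map_sum]
  exact Finset.sum_congr rfl fun i _ => by rw [L.π_smul, psi_phi L, algebraMap_smul]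

omit [IsLocalRing O] in
/-- The images of the generators are a basis of `M` over `O`. -/
def levelBasis (hJ : ∀ f ∈ J, constantCoeff f = 0) : Basis (Fin L.d) O M := by
  refine Basis.mk (v := fun i => L.π (L.b i)) ?_ ?_
  · rw [Fintype.linearIndependent_iff]
    intro g hg i
    have h0 : L.π (∑ i, L.φ (C (g i)) • L.b i) = 0 := by
      rw [pi_sum]
      simpa using hg
    obtain ⟨c, hc, hc'⟩ : ∃ c : Fin L.d → MvPowerSeries (Fin r) O, (∀ i, constantCoeff (c i) = 0) ∧
        ∑ i, L.φ (C (g i)) • L.b i = ∑ i, L.φ (c i) • L.b i := by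
      have hx := (L.ker_π _).1 h0
      refine Submodule.smul_induction_on hx ?_ ?_
      · intro a ha y _
        induction ha using Submodule.span_induction generalizing y with
        | mem a ha =>
          obtain ⟨j, rfl⟩ := ha
          obtain ⟨c, rfl⟩ := L.b_span y
          exact ⟨fun i => X j * c i, fun i => by simp,
            by simp only [Finset.smul_sum, map_mul, mul_smul]⟩
        | zero => exact ⟨0, fun i => by simp, by simp⟩
        | add a b _ _ iha ihb =>
          obtain ⟨c, hc, e⟩ := iha y trivial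
          obtain ⟨c', hc', e'⟩ := ihb y trivial
          exact ⟨c + c', fun i => by simp [hc, hc'], by
            rw [add_smul, e, e']; simp [add_smul, Finset.sum_add_distrib]⟩
        | smul f a _ iha =>
          obtain ⟨c, hc, e⟩ := iha (f • y) trivial
          exact ⟨c, hc, by rw [smul_eq_mul, mul_comm, mul_smul, e]⟩
      · rintro x y ⟨c, hc, e⟩ ⟨c', hc', e'⟩
        exact ⟨c + c', fun i => by simp [hc, hc'], by
          rw [e, e']; simp [add_smul, Finset.sum_add_distrib]⟩
    have hrel := (L.b_rel fun i => C (g i) - c i).1 (by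
      simp only [map_sub, sub_smul, Finset.sum_sub_distrib, hc', sub_self]) i
    simpa [hc i] using hJ _ hrel
  · intro y _
    obtain ⟨x, rfl⟩ := L.π_surjective y
    obtain ⟨c, rfl⟩ := L.b_span x
    rw [pi_sum]
    exact Submodule.sum_mem _ fun i _ =>
      Submodule.smul_mem _ _ (Submodule.subset_span ⟨i, rfl⟩)

omit [IsLocalRing O] in
/-- Generators of a level lifting a given basis of `M`. -/
theorem exists_lift_basis (hJ : ∀ f ∈ J, constantCoeff f = 0) {d : ℕ} (e : Basis (Fin d) O M)
    [Nontrivial O] :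
    ∃ b : Fin d → L.N, (∀ i, L.π (b i) = e i) ∧
      (∀ x, ∃ c : Fin d → MvPowerSeries (Fin r) O, x = ∑ i, L.φ (c i) • b i) ∧
      ∀ c : Fin d → MvPowerSeries (Fin r) O, ∑ i, L.φ (c i) • b i = 0 → ∀ i, c i ∈ J := by
  classical
  set B := levelBasis L hJ with hB
  let G : Fin L.d → Fin d → MvPowerSeries (Fin r) O := fun i j => C (B.toMatrix e i j)
  let H : Fin d → Fin L.d → MvPowerSeries (Fin r) O := fun j i => C (e.toMatrix B j i)
  have hGH : ∀ i i', ∑ j, G i j * H j i' = if i = i' then 1 else 0 := fun i i' => by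
    have := congrFun (congrFun (B.toMatrix_mul_toMatrix_flip e) i) i'
    rw [Matrix.mul_apply, Matrix.one_apply] at this
    simp only [G, H, ← map_mul, ← map_sum, this]
    split_ifs <;> simp
  have hHG : ∀ j j', ∑ i, H j i * G i j' = if j = j' then 1 else 0 := fun j j' => by
    have := congrFun (congrFun (e.toMatrix_mul_toMatrix_flip B) j) j'
    rw [Matrix.mul_apply, Matrix.one_apply] at this
    simp only [G, H, ← map_mul, ← map_sum, this]
    split_ifs <;> simp
  refine ⟨fun j => ∑ i, L.φ (G i j) • L.b i, fun j => ?_, fun x => ?_, fun c hc j => ?_⟩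
  · rw [pi_sum]
    refine Eq.trans ?_ (B.sum_toMatrix_smul_self e j)
    refine Finset.sum_congr rfl fun i _ => ?_
    simp [G, hB, levelBasis]
  · obtain ⟨c, rfl⟩ := L.b_span x
    refine ⟨fun j => ∑ i', H j i' * c i', ?_⟩
    simp only [Finset.smul_sum, smul_smul, ← map_mul]
    rw [Finset.sum_comm]
    refine Finset.sum_congr rfl fun i _ => ?_
    rw [← Finset.sum_smul, ← map_sum]
    congr 2
    simp only [Finset.sum_mul]
    rw [Finset.sum_comm]
    simp only [mul_right_comm _ (c _), ← Finset.sum_mul, mul_comm (H _ _) (G _ _), hGH]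
    simp
  · have h1 := (L.b_rel fun i => ∑ j, G i j * c j).1 (by
      rw [← hc]
      simp only [Finset.smul_sum, smul_smul, map_sum, map_mul, Finset.sum_smul]
      rw [Finset.sum_comm]
      exact Finset.sum_congr rfl fun j _ => Finset.sum_congr rfl fun i _ => by rw [mul_comm])
    have h2 : c j = ∑ i, H j i * ∑ j', G i j' * c j' := by
      simp only [Finset.mul_sum]
      rw [Finset.sum_comm]
      simp [← mul_assoc, ← Finset.sum_mul, hHG]
    rw [h2]
    exact J.sum_mem fun i _ => J.mul_mem_left _ (h1 i)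

omit [IsLocalRing O] in
/-- A finite algebra modulo an ideal of finite index of the base is finite. -/
theorem finite_quotient_map [Module.Finite O R] (I : Ideal O) [Finite (O ⧸ I)] :
    Finite (R ⧸ I.map (algebraMap O R)) := by
  obtain ⟨k, q, hq⟩ := Module.Finite.exists_fin' O R
  refine Finite.of_surjective (α := Fin k → O ⧸ I)
    (fun c => Ideal.Quotient.mk _ (q fun i => (c i).out)) fun z => ?_
  obtain ⟨z, rfl⟩ := Ideal.Quotient.mk_surjective z
  obtain ⟨c, rfl⟩ := hq z
  refine ⟨fun i => Ideal.Quotient.mk I (c i), Ideal.Quotient.eq.mpr ?_⟩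
  rw [← map_sub, ← Finset.univ_sum_single (((fun i => (Ideal.Quotient.mk I (c i)).out)) - c),
    map_sum]
  refine Ideal.sum_mem _ fun i _ => ?_
  rw [show ∀ a : O, (Pi.single i a : Fin k → O) = a • Pi.single i 1 from fun a => by
    rw [← Pi.single_smul, smul_eq_mul, mul_one], map_smul, Algebra.smul_def]
  refine Ideal.mul_mem_right _ _ (Ideal.mem_map_of_mem _ ?_)
  exact Ideal.Quotient.eq.mp (Quotient.out_eq _)

/-- `d` copies of the power series ring, to carry the limit action. -/
def LimSpace (O : Type) (r d : ℕ) : Type := Fin d → MvPowerSeries (Fin r) O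

instance (O : Type) [CommRing O] (r d : ℕ) : AddCommGroup (LimSpace O r d) :=
  inferInstanceAs (AddCommGroup (Fin d → MvPowerSeries (Fin r) O))

/-- The identification of the copies with tuples. -/
def toLim (O : Type) [CommRing O] (r d : ℕ) :
    (Fin d → MvPowerSeries (Fin r) O) ≃+ LimSpace O r d :=
  AddEquiv.refl _

/-- A patching datum has a limit, a patching level with the zero ideal. -/
theorem exists_level_bot {O : Type} [CommRing O] [IsDomain O] [IsDiscreteValuationRing O]
    [IsAdicComplete (maximalIdeal O) O] [Finite (ResidueField O)] {p r : ℕ}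
    (hp : (p : O) ∈ maximalIdeal O) {R : Type} [CommRing R] [Algebra O R] [Module.Finite O R]
    {M : Type} [AddCommGroup M] [Module O M] [Module R M] [IsScalarTower O R M]
    [Module.Finite O M] [Module.Free O M] [Nontrivial M] (D : Algebra.PatchingDatum O p r R M) :
    Nonempty (Algebra.PatchingLevel O r R M ⊥) := by
  classical
  let P := MvPowerSeries (Fin r) O
  let d := finrank O M
  let e : Basis (Fin d) O M := Module.finBasis O M
  let U : Ultrafilter ℕ := Filter.hyperfilter ℕ
  have hU : ∀ j, ∀ᶠ n in (U : Filter ℕ), j ≤ n := fun j =>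
    Filter.hyperfilter_le_cofinite (by rw [Nat.cofinite_eq_atTop]; exact Filter.eventually_ge_atTop j)
  have hresP : Finite (ResidueField P) := finite_residueField_mvPowerSeries
  let q : ∀ j, P →+* P ⧸ maximalIdeal P ^ j := fun j => Ideal.Quotient.mk _
  have hfinP : ∀ j, Finite (P ⧸ maximalIdeal P ^ j) := fun j => finite_quotient_pow j
  have hqsep : ∀ x y : P, (∀ j, q j x = q j y) → x = y := fun x y h =>
    Fermat.Agent.RT.Algebra.eq_of_eventually_sub_mem U fun j =>
      Filter.Eventually.of_forall fun _ => Ideal.Quotient.eq.mp (h j)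
  have hJ0 : ∀ n, ∀ f ∈ Ideal.span (Set.range fun j : Fin r => ((1 + X j) ^ (p ^ n) - 1 : P)),
      constantCoeff f = 0 := fun n f hf => by
    have hle : Ideal.span (Set.range fun j : Fin r => ((1 + X j) ^ (p ^ n) - 1 : P)) ≤
        RingHom.ker (constantCoeff (σ := Fin r) (R := O)) := by
      rw [Ideal.span_le]
      rintro _ ⟨j, rfl⟩
      simp [RingHom.mem_ker, constantCoeff_X (R := O) j]
    exact hle hf
  choose b hbπ hbspan hbrel using fun n => exists_lift_basis (D.level n) (hJ0 n) e
  -- the map `φ`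
  choose φ₀ hφ₀ using fun f : P => exists_ultralimit U fun n => (D.level n).φ f
  obtain ⟨φ₁, hφ₁⟩ := exists_ringHom_of_eventually (U : Filter ℕ) q hqsep
    (fun j n f => q j ((D.level n).φ f))
    (fun j => Filter.Eventually.of_forall fun n =>
      ⟨(q j).comp ((D.level n).φ : P →+* P), fun _ => rfl⟩) φ₀
    (fun f j => (hφ₀ f j).mono fun n hn => Ideal.Quotient.eq.mpr hn)
  let φ : P →ₐ[O] P := { φ₁ with
    commutes' := fun a => hqsep _ _ fun j => by
      obtain ⟨n, hn⟩ := (hφ₀ (algebraMap O P a) j).exists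
      show q j (φ₁ (algebraMap O P a)) = _
      rw [hφ₁, ← Ideal.Quotient.eq.mpr hn, AlgHom.commutes] }
  have hφ : ∀ f j, ∀ᶠ n in (U : Filter ℕ), (D.level n).φ f - φ f ∈ maximalIdeal P ^ j :=
    fun f j => (hφ₀ f j).mono fun n hn => (hφ₁ f).symm ▸ hn
  -- the map `ψ`
  let I : ℕ → Ideal R := fun j => (maximalIdeal O ^ j).map (algebraMap O R)
  have hI : ∀ j (x : R), x ∈ (maximalIdeal O ^ j • ⊤ : Submodule O R) ↔ x ∈ I j := fun j x => by
    rw [Ideal.smul_top_eq_map, Submodule.restrictScalars_mem]
  have hfinR : ∀ j, Finite (R ⧸ I j) := fun j =>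
    haveI := finite_quotient_pow (O := O) j
    finite_quotient_map (maximalIdeal O ^ j)
  have hRsep : ∀ x y : R, (∀ j, Ideal.Quotient.mk (I j) x = Ideal.Quotient.mk (I j) y) → x = y :=
    fun x y h => sub_eq_zero.mp (IsHausdorff.haus (inferInstance : IsHausdorff (maximalIdeal O) R)
      _ fun j => SModEq.zero.mpr ((hI j _).mpr (Ideal.Quotient.eq.mp (h j))))
  choose ψ₀ hψ₀ using fun f : P => exists_lim_finite (O := O) U fun n => (D.level n).ψ f
  obtain ⟨ψ₁, hψ₁⟩ := exists_ringHom_of_eventually (U : Filter ℕ)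
    (fun j => Ideal.Quotient.mk (I j)) hRsep
    (fun j n f => Ideal.Quotient.mk (I j) ((D.level n).ψ f))
    (fun j => Filter.Eventually.of_forall fun n =>
      ⟨(Ideal.Quotient.mk (I j)).comp ((D.level n).ψ : P →+* R), fun _ => rfl⟩) ψ₀
    (fun f j => (hψ₀ f j).mono fun n hn => Ideal.Quotient.eq.mpr ((hI j _).mp hn))
  let ψ : P →ₐ[O] R := { ψ₁ with
    commutes' := fun a => hRsep _ _ fun j => by
      obtain ⟨n, hn⟩ := (hψ₀ (algebraMap O P a) j).exists
      show Ideal.Quotient.mk (I j) (ψ₁ (algebraMap O P a)) = _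
      rw [hψ₁, ← Ideal.Quotient.eq.mpr ((hI j _).mp hn), AlgHom.commutes] }
  have hψ : ∀ f j, ∀ᶠ n in (U : Filter ℕ),
      Ideal.Quotient.mk (I j) ((D.level n).ψ f) = Ideal.Quotient.mk (I j) (ψ f) :=
    fun f j => (hψ₀ f j).mono fun n hn =>
      Ideal.Quotient.eq.mpr ((hψ₁ f).symm ▸ (hI j _).mp hn)
  have hψcont : ∀ n j (f g : P), f - g ∈ maximalIdeal P ^ Nat.card (R ⧸ I j) →
      Ideal.Quotient.mk (I j) ((D.level n).ψ f) = Ideal.Quotient.mk (I j) ((D.level n).ψ g) := by
    intro n j f g h
    have := hfinR j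
    have h' := map_eq_zero_of_mem_pow_card
      ((Ideal.Quotient.mk (I j)).comp ((D.level n).ψ : P →+* R)) h
    rw [map_sub, sub_eq_zero] at h'
    exact h'
  have hψsurj : Function.Surjective ψ := fun z => by
    choose f hf using fun n => (D.level n).ψ_surjective z
    obtain ⟨g, hg⟩ := exists_ultralimit U f
    refine ⟨g, hRsep _ _ fun j => ?_⟩
    obtain ⟨n, h1, h2⟩ := ((hψ g j).and (hg (Nat.card (R ⧸ I j)))).exists
    rw [← h1, ← hψcont n j _ _ h2, hf]
  have hψφ : ∀ i, ψ (φ (X i)) = 0 := fun i => hRsep _ _ fun j => by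
    obtain ⟨n, h1, h2⟩ := ((hψ (φ (X i)) j).and (hφ (X i) (Nat.card (R ⧸ I j)))).exists
    rw [← h1, ← hψcont n j _ _ h2, (D.level n).ψ_φ_X]
  -- the action
  choose cb hcb using hbspan
  let A : ∀ n, P → Matrix (Fin d) (Fin d) P := fun n x i l => cb n (x • b n l) i
  have hA : ∀ n (x : P) l, x • b n l = ∑ i, (D.level n).φ (A n x i l) • b n i :=
    fun n x l => hcb n _
  let Q : ∀ j, Matrix (Fin d) (Fin d) P →+* Matrix (Fin d) (Fin d) (P ⧸ maximalIdeal P ^ j) :=
    fun j => (q j).mapMatrix
  have huniq : ∀ {n j : ℕ}, j ≤ n → ∀ A B : Matrix (Fin d) (Fin d) P,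
      (∀ l, ∑ i, (D.level n).φ (A i l) • b n i = ∑ i, (D.level n).φ (B i l) • b n i) →
        Q j A = Q j B := by
    intro n j hjn A B hAB
    ext i l
    refine Ideal.Quotient.eq.mpr (Ideal.pow_le_pow_right hjn (span_le_pow hp n ?_))
    refine hbrel n (fun i => A i l - B i l) ?_ i
    simp only [map_sub, sub_smul, Finset.sum_sub_distrib, hAB l, sub_self]
  have hscalar : ∀ n (c : P) l, ∑ i, (D.level n).φ (Matrix.scalar (Fin d) c i l) • b n i =
      (D.level n).φ c • b n l := fun n c l => by
    rw [Finset.sum_eq_single l]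
    · rw [Matrix.scalar_apply, Matrix.diagonal_apply_eq]
    · intro i _ hi
      rw [Matrix.scalar_apply, Matrix.diagonal_apply_ne _ hi, map_zero, zero_smul]
    · simp
  let h : ∀ {n j : ℕ}, j ≤ n → P →+* Matrix (Fin d) (Fin d) (P ⧸ maximalIdeal P ^ j) :=
    fun {n j} hjn =>
    { toFun := fun x => Q j (A n x)
      map_one' := by
        rw [← map_one (Q j), ← map_one (Matrix.scalar (Fin d) (α := P))]
        exact huniq hjn _ _ fun l => by rw [← hA, hscalar, map_one]
      map_mul' := fun x y => by
        rw [← map_mul]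
        refine huniq hjn _ _ fun l => ?_
        rw [← hA, mul_smul, hA n y l, Finset.smul_sum]
        simp only [Matrix.mul_apply, map_sum, Finset.sum_smul]
        rw [Finset.sum_comm]
        refine Finset.sum_congr rfl fun m _ => ?_
        rw [smul_comm x, hA n x m, Finset.smul_sum]
        exact Finset.sum_congr rfl fun i _ => by rw [smul_smul, mul_comm, map_mul]
      map_zero' := by
        rw [← map_zero (Q j)]
        exact huniq hjn _ _ fun l => by simp [← hA]
      map_add' := fun x y => by
        rw [← map_add]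
        exact huniq hjn _ _ fun l => by
          simp [← hA, Matrix.add_apply, add_smul, Finset.sum_add_distrib] }
  have hQsep : ∀ A B : Matrix (Fin d) (Fin d) P, (∀ j, Q j A = Q j B) → A = B := fun A B hAB =>
    Matrix.ext fun i l => hqsep _ _ fun j => congrFun (congrFun (hAB j) i) l
  choose Λ₀ hΛ₀ using fun (x : P) (i l : Fin d) => exists_ultralimit U fun n => A n x i l
  have hlim₀ : ∀ (x : P) (j : ℕ),
      ∀ᶠ n in (U : Filter ℕ), Q j (A n x) = Q j (Matrix.of (Λ₀ x)) := fun x j => by
    have : ∀ᶠ n in (U : Filter ℕ), ∀ i l, A n x i l - Λ₀ x i l ∈ maximalIdeal P ^ j := by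
      simp only [Filter.eventually_all]
      exact fun i l => hΛ₀ x i l j
    filter_upwards [this] with n hn
    exact Matrix.ext fun i l => Ideal.Quotient.eq.mpr (hn i l)
  obtain ⟨Λ, hΛ⟩ := exists_ringHom_of_eventually (U : Filter ℕ) Q hQsep
    (fun j n x => Q j (A n x)) (fun j => (hU j).mono fun n hn => ⟨h hn, fun _ => rfl⟩)
    (fun x => Matrix.of (Λ₀ x)) hlim₀
  have hlim : ∀ (x : P) (j : ℕ), ∀ᶠ n in (U : Filter ℕ), Q j (A n x) = Q j (Λ x) :=
    fun x j => (hlim₀ x j).mono fun n hn => hn.trans (by rw [hΛ])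
  have hΛφ : ∀ c, Λ (φ c) = Matrix.scalar (Fin d) c := fun c => hQsep _ _ fun j => by
    have := hfinP j
    let N := Nat.card (Matrix (Fin d) (Fin d) (P ⧸ maximalIdeal P ^ j))
    obtain ⟨n, ⟨hjn, h1⟩, h2⟩ := (((hU j).and (hlim (φ c) j)).and (hφ c N)).exists
    have h3 := map_eq_zero_of_mem_pow_card (h hjn) h2
    rw [map_sub, sub_eq_zero] at h3
    rw [← h1]
    exact h3.symm.trans (huniq hjn _ _ fun l => by rw [← hA, hscalar])
  -- semilinearity
  let ev : (Fin d → P) →ₗ[O] M :=
    { toFun := fun v => ∑ i, constantCoeff (v i) • e i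
      map_add' := fun v w => by simp [add_smul, Finset.sum_add_distrib]
      map_smul' := fun a v => by
        have hc : ∀ g : P, constantCoeff (a • g) = a * constantCoeff g := fun g => by
          rw [← coeff_zero_eq_constantCoeff_apply, map_smul, coeff_zero_eq_constantCoeff_apply,
            smul_eq_mul]
        simp [Finset.smul_sum, smul_smul, hc] }
  have hev : ∀ v, ev v = ∑ i, constantCoeff (v i) • e i := fun _ => rfl
  have hψe : ∀ f l, ψ f • e l = ∑ i, constantCoeff (Λ f i l) • e i := fun f l => by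
    refine sub_eq_zero.mp (IsHausdorff.haus (inferInstance : IsHausdorff (maximalIdeal O) M) _
      fun j => SModEq.zero.mpr ?_)
    obtain ⟨n, h1, h2⟩ := ((hψ f j).and (hlim f j)).exists
    have h3 : (D.level n).ψ f • e l = ∑ i, constantCoeff (A n f i l) • e i := by
      rw [← hbπ n l, ← (D.level n).π_smul, hA, map_sum]
      exact Finset.sum_congr rfl fun i _ => by
        rw [(D.level n).π_smul, psi_phi, algebraMap_smul, hbπ]
    rw [show ψ f • e l - ∑ i, constantCoeff (Λ f i l) • e i =
      (ψ f - (D.level n).ψ f) • e l +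
        ∑ i, (constantCoeff (A n f i l) - constantCoeff (Λ f i l)) • e i by
      simp only [sub_smul, Finset.sum_sub_distrib]; rw [h3]; abel]
    refine add_mem ?_ (Submodule.sum_mem _ fun i _ => Submodule.smul_mem_smul ?_ trivial)
    · have h4 := Submodule.mem_map_of_mem
        (f := (LinearMap.toSpanSingleton R M (e l)).restrictScalars O)
        ((hI j _).mpr (Ideal.Quotient.eq.mp h1.symm))
      rw [Submodule.map_smul''] at h4
      exact Submodule.smul_mono le_rfl le_top h4
    · rw [← map_sub]
      exact constantCoeff_mem_pow (Ideal.Quotient.eq.mp (congrFun (congrFun h2 i) l))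
  have hev_smul : ∀ f v, ev ((Λ f).mulVec v) = ψ f • ev v := fun f v => by
    simp only [hev, Matrix.mulVec, dotProduct, map_sum, map_mul, Finset.sum_smul,
      Finset.smul_sum, smul_comm (ψ f), hψe, smul_smul]
    rw [Finset.sum_comm]
    exact Finset.sum_congr rfl fun i _ => Finset.sum_congr rfl fun l _ => by rw [mul_comm]
  -- the level
  let act : P →+* Module.End P (Fin d → P) :=
    (Matrix.toLinAlgEquiv' (R := P) (n := Fin d)).toRingEquiv.toRingHom.comp Λ
  let _ : Module P (LimSpace O r d) := Module.compHom (Fin d → P) act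
  let τ : (Fin d → P) ≃+ LimSpace O r d := toLim O r d
  have hsmul : ∀ (x : P) (v : Fin d → P), x • τ v = τ ((Λ x).mulVec v) := fun _ _ => rfl
  have hφsmul : ∀ (x : P) (v : Fin d → P), φ x • τ v = τ (x • v) := fun x v => by
    rw [hsmul, hΛφ]
    congr 1
    funext i
    rw [Matrix.scalar_apply, Matrix.mulVec_diagonal, Pi.smul_apply, smul_eq_mul]
  have hsum : ∀ c : Fin d → P, ∑ i, φ (c i) • τ (Pi.single i 1) = τ c := fun c => by
    simp only [hφsmul, ← Pi.single_smul, smul_eq_mul, mul_one]
    rw [← map_sum, Finset.univ_sum_single]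
  exact ⟨{
    N := LimSpace O r d
    φ := φ
    ψ := ψ
    ψ_surjective := hψsurj
    ψ_φ_X := hψφ
    π := ev.toAddMonoidHom.comp τ.symm.toAddMonoidHom
    π_smul := fun f v => hev_smul f (τ.symm v)
    π_surjective := fun m => ⟨τ fun i => C (e.repr m i), by
      show ev (fun i => C (e.repr m i)) = m
      rw [hev]
      simp [e.sum_repr m]⟩
    ker_π := fun x => by
      obtain ⟨v, rfl⟩ := τ.surjective x
      constructor
      · intro hv
        have hv0 : ∀ i, constantCoeff (v i) = 0 :=
          Fintype.linearIndependent_iff.mp e.linearIndependent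
            (fun i => constantCoeff (v i)) hv
        rw [← hsum v]
        refine Submodule.sum_mem _ fun i _ => Submodule.smul_mem_smul ?_ Submodule.mem_top
        have := Ideal.mem_map_of_mem φ
          ((Fermat.Agent.Patching.mem_span_range_X_iff (v i)).mpr (hv0 i))
        rw [Ideal.map_span, ← Set.range_comp] at this
        exact this
      · intro hv
        have hker : Ideal.span (Set.range fun i : Fin r => φ (X i)) ≤ RingHom.ker ψ := by
          rw [Ideal.span_le]
          rintro _ ⟨i, rfl⟩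
          exact hψφ i
        refine Submodule.smul_induction_on hv (fun a ha y _ => ?_) fun x y hx hy => ?_
        · exact (hev_smul a (τ.symm y)).trans
            (by rw [RingHom.mem_ker.mp (hker ha), zero_smul])
        · rw [map_add, hx, hy, add_zero]
    d := d
    b := fun i => τ (Pi.single i 1)
    b_span := fun x => ⟨τ.symm x, by rw [hsum, AddEquiv.apply_symm_apply]⟩
    b_rel := fun c => by
      rw [hsum c, τ.map_eq_zero_iff]
      exact ⟨fun hc i => Ideal.mem_bot.mpr (congrFun hc i),
        fun hc => funext fun i => Ideal.mem_bot.mp (hc i)⟩ }⟩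

end Fermat.Agent.RT.Lifting.PatchLimit

namespace Fermat.Agent.RT.Lifting

theorem limitProperty : LimitProperty := by
  intro O _ _ _ _ _ p r hp R _ _ _ M _ _ _ _ _ _ _ ⟨D⟩
  obtain ⟨L⟩ := PatchLimit.exists_level_bot hp D
  obtain ⟨h1, h2, h3⟩ := Fermat.Agent.Patching.free_faithful_ker L
  exact ⟨h1, h2, L.ψ, fun i => L.φ (MvPowerSeries.X i), L.ψ_surjective, h3⟩

end Fermat.Agent.RT.Lifting
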