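import Mathlib.RingTheory.Regular.RegularSequence
import Mathlib.RingTheory.Ideal.KrullsHeightTheorem
import Mathlib.RingTheory.Ideal.AssociatedPrime.Finiteness

/-!
# The socle of a complete intersection is cyclic: transfer between systems of parameters

Two systems of parameters are joined by changing one entry at a time through a general system,
and each change preserves regularity and the cyclicity of the socle.
-/

set_option autoImplicit false

noncomputable section

open IsLocalRing RingTheory.Sequence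
open scoped Pointwise

namespace Fermat.Agent.RT.Lifting.SocleAux

variable {P : Type*} [CommRing P]

/-- `a` is a nonzero divisor modulo `J`. -/
def RegMod (J : Ideal P) (a : P) : Prop :=
  ∀ x, a * x ∈ J → x ∈ J

lemma mem_sup_singleton_iff {J : Ideal P} {b x : P} :
    x ∈ J ⊔ Ideal.span {b} ↔ ∃ u, x - u * b ∈ J := by
  rw [Submodule.mem_sup]
  constructor
  · rintro ⟨j, hj, z, hz, rfl⟩
    obtain ⟨u, rfl⟩ := Ideal.mem_span_singleton'.1 hz
    exact ⟨u, by simpa using hj⟩
  · rintro ⟨u, hu⟩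
    exact ⟨_, hu, u * b, Ideal.mem_span_singleton'.2 ⟨u, rfl⟩, by ring⟩

lemma isWeaklyRegular_concat_iff (l : List P) (c : P) :
    IsWeaklyRegular P (l ++ [c]) ↔ IsWeaklyRegular P l ∧ RegMod (Ideal.ofList l) c := by
  rw [isWeaklyRegular_append_iff, isWeaklyRegular_singleton_iff,
    isSMulRegular_quotient_iff_mem_of_smul_mem]
  simp only [smul_eq_mul, Ideal.mul_top, RegMod]

lemma ofList_concat (l : List P) (c : P) :
    Ideal.ofList (l ++ [c]) = Ideal.ofList l ⊔ Ideal.span {c} := by
  rw [Ideal.ofList_append, Ideal.ofList_singleton]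

lemma ofList_congr_perm {l l' : List P} (h : l.Perm l') : Ideal.ofList l = Ideal.ofList l' :=
  congrArg Ideal.span (Set.ext fun _ => h.mem_iff)

variable [IsLocalRing P]

/-- The socle of `P / I` is cyclic. -/
def SocleCyclic (I : Ideal P) : Prop :=
  ∃ s, (∀ z ∈ maximalIdeal P, z * s ∈ I) ∧
    ∀ x, (∀ z ∈ maximalIdeal P, z * x ∈ I) → ∃ u, x - u * s ∈ I

/-- Changing one generator keeps the socle cyclic. -/
lemma SocleCyclic.exchange {J : Ideal P} {a b : P} (ha : RegMod J a) (hb : RegMod J b)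
    (ham : a ∈ maximalIdeal P) (hbm : b ∈ maximalIdeal P)
    (h : SocleCyclic (J ⊔ Ideal.span {a})) : SocleCyclic (J ⊔ Ideal.span {b}) := by
  obtain ⟨s, hs, hcyc⟩ := h
  obtain ⟨s', hs'⟩ := mem_sup_singleton_iff.1 (hs b hbm)
  refine ⟨s', fun z hz => ?_, fun x hx => ?_⟩
  · obtain ⟨w, hw⟩ := mem_sup_singleton_iff.1 (hs z hz)
    refine mem_sup_singleton_iff.2 ⟨w, ha _ ?_⟩
    have hid : a * (z * s' - w * b) = b * (z * s - w * a) - z * (b * s - s' * a) := by ring
    rw [hid]
    exact J.sub_mem (J.mul_mem_left _ hw) (J.mul_mem_left _ hs')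
  · obtain ⟨y, hy⟩ := mem_sup_singleton_iff.1 (hx a ham)
    have hy' : ∀ z ∈ maximalIdeal P, z * y ∈ J ⊔ Ideal.span {a} := fun z hz => by
      obtain ⟨w, hw⟩ := mem_sup_singleton_iff.1 (hx z hz)
      refine mem_sup_singleton_iff.2 ⟨w, hb _ ?_⟩
      have hid : b * (z * y - w * a) = a * (z * x - w * b) - z * (a * x - y * b) := by ring
      rw [hid]
      exact J.sub_mem (J.mul_mem_left _ hw) (J.mul_mem_left _ hy)
    obtain ⟨u, hu⟩ := hcyc y hy'
    obtain ⟨v, hv⟩ := mem_sup_singleton_iff.1 hu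
    refine ⟨u, mem_sup_singleton_iff.2 ⟨v, ha _ ?_⟩⟩
    have hid : a * (x - u * s' - v * b) =
        (a * x - y * b) + b * (y - u * s - v * a) + u * (b * s - s' * a) := by ring
    rw [hid]
    exact J.add_mem (J.add_mem hy (J.mul_mem_left _ hv)) (J.mul_mem_left _ hs')

/-- If some element of the maximal ideal is regular modulo `J`, so is any element completing `J`
to a primary ideal. -/
lemma regMod_of_pow_le {J : Ideal P} {a c : P} (hc : c ∈ maximalIdeal P) (hreg : RegMod J c)
    {N : ℕ} (hN : maximalIdeal P ^ N ≤ J ⊔ Ideal.span {a}) : RegMod J a := by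
  intro x hx
  obtain ⟨w, hw⟩ := mem_sup_singleton_iff.1 (hN (Ideal.pow_mem_pow hc N))
  have hcN : c ^ N * x ∈ J := by
    have hid : c ^ N * x = (c ^ N - w * a) * x + w * (a * x) := by ring
    rw [hid]
    exact J.add_mem (J.mul_mem_right _ hw) (J.mul_mem_left _ hx)
  clear hN hw
  induction N with
  | zero => simpa using hcN
  | succ N ih => exact ih (hreg _ (by rwa [pow_succ', mul_assoc] at hcN))

variable [IsNoetherianRing P]

omit [IsLocalRing P] in
lemma exists_mem_of_not_regMod (J : Ideal P) (c : P) (h : ¬ RegMod J c) :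
    ∃ q ∈ associatedPrimes P (P ⧸ J), c ∈ q := by
  simp only [RegMod, not_forall] at h
  obtain ⟨x, hx, hxJ⟩ := h
  have hc : c ∈ {r : P | ∃ m : P ⧸ J, m ≠ 0 ∧ r • m = 0} :=
    ⟨Ideal.Quotient.mk J x, by simpa [Ideal.Quotient.eq_zero_iff_mem] using hxJ,
      by
        rw [← Ideal.Quotient.mk_eq_mk, ← Submodule.Quotient.mk_smul, Ideal.Quotient.mk_eq_mk,
          Ideal.Quotient.eq_zero_iff_mem]
        exact hx⟩
  rw [← biUnion_associatedPrimes_eq_zero_divisors] at hc
  simpa using hc

/-- If `m` is minimal over `(J, a)`, the primes above `J` other than `m` are minimal. -/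
lemma mem_minimalPrimes_of_ne {J p : Ideal P} [p.IsPrime] {a : P} {N : ℕ}
    (hJ : J ≤ p) (hp : p ≠ maximalIdeal P) (hle : J ⊔ Ideal.span {a} ≤ maximalIdeal P)
    (hN : maximalIdeal P ^ N ≤ J ⊔ Ideal.span {a}) : p ∈ J.minimalPrimes := by
  have hpm : p < maximalIdeal P :=
    lt_of_le_of_ne (le_maximalIdeal (Ideal.IsPrime.ne_top ‹_›)) hp
  refine ⟨⟨‹_›, hJ⟩, fun q ⟨hq, hJq⟩ hqp => ?_⟩
  by_contra hpq
  have hlt : q < p := lt_of_le_not_ge hqp hpq
  have hmin : maximalIdeal P ∈ (J ⊔ Ideal.span {a}).minimalPrimes :=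
    ⟨⟨inferInstance, hle⟩, fun r ⟨hr, hle'⟩ _ => hr.le_of_pow_le (hN.trans hle')⟩
  have h1 := Ideal.map_height_le_one_of_mem_minimalPrimes hmin
  have hker : ∀ r : Ideal P, J ≤ r → RingHom.ker (Ideal.Quotient.mk J) ≤ r :=
    fun r h => J.mk_ker.trans_le h
  have := Ideal.map_isPrime_of_surjective Ideal.Quotient.mk_surjective (hker q hJq)
  have := Ideal.map_isPrime_of_surjective Ideal.Quotient.mk_surjective (hker p hJ)
  have := Ideal.map_isPrime_of_surjective Ideal.Quotient.mk_surjective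
    (hker _ (le_sup_left.trans hle))
  have hmono : ∀ r r' : Ideal P, J ≤ r → J ≤ r' → r < r' →
      r.map (Ideal.Quotient.mk J) < r'.map (Ideal.Quotient.mk J) := fun r r' hr hr' h =>
    lt_of_le_of_ne (Ideal.map_mono h.le) fun he => h.ne <| by
      have := congrArg (Ideal.comap (Ideal.Quotient.mk J)) he
      simpa [Ideal.comap_map_of_surjective _ Ideal.Quotient.mk_surjective,
        ← RingHom.ker_eq_comap_bot, sup_eq_left.2 hr, sup_eq_left.2 hr'] using this
  have h2 := Ideal.height_strict_mono_of_isPrime (hmono q p hJq hJ hlt)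
  have h3 := Ideal.height_strict_mono_of_isPrime (hmono p _ hJ (le_sup_left.trans hle) hpm)
  have h4 : (p.map (Ideal.Quotient.mk J)).height = 0 := Order.lt_one_iff.1 (h3.trans_le h1)
  simp [h4] at h2

/-- An element regular modulo `J₁` which completes `J₂` to a primary ideal. -/
lemma exists_regMod_pow_le {J₁ J₂ : Ideal P} {x a : P} (hxm : x ∈ maximalIdeal P)
    (hx : RegMod J₁ x) {N : ℕ} (hle : J₂ ⊔ Ideal.span {a} ≤ maximalIdeal P)
    (hN : maximalIdeal P ^ N ≤ J₂ ⊔ Ideal.span {a}) :
    ∃ c ∈ maximalIdeal P, RegMod J₁ c ∧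
      ∃ M : ℕ, maximalIdeal P ^ M ≤ J₂ ⊔ Ideal.span {c} := by
  let S : Set (Ideal P) :=
    associatedPrimes P (P ⧸ J₁) ∪ (J₂.minimalPrimes \ {maximalIdeal P})
  have hS : S.Finite := (associatedPrimes.finite P (P ⧸ J₁)).union
    (J₂.finite_minimalPrimes_of_isNoetherianRing.subset Set.sdiff_subset)
  have hprime : ∀ q ∈ S, q.IsPrime := by
    rintro q (hq | hq)
    exacts [hq.1, hq.1.isPrime]
  have hne : ¬ ((maximalIdeal P : Set P) ⊆ ⋃ q ∈ S, (q : Set P)) := by
    intro hsub
    obtain ⟨q, hq, hmq⟩ := (Ideal.subset_union_prime_finite hS (f := id) (maximalIdeal P)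
      (maximalIdeal P) fun i hi _ _ => hprime i hi).1 hsub
    obtain rfl : maximalIdeal P = q :=
      (maximalIdeal.isMaximal P).eq_of_le (hprime q hq).ne_top hmq
    rcases hq with hq | hq
    · have hzero : x ∈ ⋃ q ∈ associatedPrimes P (P ⧸ J₁), (q : Set P) :=
        Set.mem_biUnion hq hxm
      rw [biUnion_associatedPrimes_eq_zero_divisors] at hzero
      obtain ⟨m, hm0, hm⟩ := hzero
      obtain ⟨y, rfl⟩ := Ideal.Quotient.mk_surjective m
      refine hm0 (Ideal.Quotient.eq_zero_iff_mem.2 (hx y ?_))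
      rwa [← Ideal.Quotient.mk_eq_mk, ← Submodule.Quotient.mk_smul, Ideal.Quotient.mk_eq_mk,
        Ideal.Quotient.eq_zero_iff_mem] at hm
    · exact hq.2 rfl
  obtain ⟨c, hcm, hc⟩ := Set.not_subset.1 hne
  simp only [Set.mem_iUnion, SetLike.mem_coe, not_exists] at hc
  refine ⟨c, hcm, ?_, ?_⟩
  · by_contra h
    obtain ⟨q, hq, hcq⟩ := exists_mem_of_not_regMod J₁ c h
    exact hc q (Or.inl hq) hcq
  · refine Ideal.exists_pow_le_of_le_radical_of_fg ?_ (IsNoetherian.noetherian _)
    rw [Ideal.radical_eq_sInf]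
    refine le_sInf ?_
    rintro p ⟨hp, hpp⟩
    by_cases hpm : p = maximalIdeal P
    · exact hpm.ge
    · have := hpp
      exact absurd (hp (Ideal.mem_sup_right (Ideal.mem_span_singleton_self c)))
        (hc p (Or.inr ⟨mem_minimalPrimes_of_ne (le_sup_left.trans hp) hpm hle hN, hpm⟩))

/-- Regularity and cyclicity of the socle pass from one primary system to another, changed in
their last entries. -/
lemma transfer_socleCyclic : ∀ (u t cs : List P), u.length = t.length →
    (∀ z ∈ cs ++ u, z ∈ maximalIdeal P) → (∀ z ∈ cs ++ t, z ∈ maximalIdeal P) →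
    IsWeaklyRegular P (cs ++ u) → SocleCyclic (Ideal.ofList (cs ++ u)) →
    (∃ N : ℕ, maximalIdeal P ^ N ≤ Ideal.ofList (cs ++ t)) →
    IsWeaklyRegular P (cs ++ t) ∧ SocleCyclic (Ideal.ofList (cs ++ t))
  | [], t, cs, hlen, _, _, hreg, hsoc, _ => by
    obtain rfl : t = [] := List.length_eq_zero_iff.1 hlen.symm
    exact ⟨hreg, hsoc⟩
  | x :: u, [], cs, hlen, _, _, _, _, _ => by simp at hlen
  | x :: u, a :: t, cs, hlen, humem, htmem, hreg, hsoc, hprim => by
    obtain ⟨N, hN⟩ := hprim
    have hpu : List.Perm (cs ++ x :: u) (cs ++ u ++ [x]) :=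
      List.perm_middle.trans (List.perm_append_singleton x (cs ++ u)).symm
    have hpt : List.Perm (cs ++ a :: t) (cs ++ t ++ [a]) :=
      List.perm_middle.trans (List.perm_append_singleton a (cs ++ t)).symm
    have hum : ∀ z ∈ cs ++ u, z ∈ maximalIdeal P := fun z hz =>
      humem z (by simp only [List.mem_append, List.mem_cons] at hz ⊢; tauto)
    have htm : ∀ z ∈ cs ++ t, z ∈ maximalIdeal P := fun z hz =>
      htmem z (by simp only [List.mem_append, List.mem_cons] at hz ⊢; tauto)
    obtain ⟨hregJ, hx⟩ := (isWeaklyRegular_concat_iff _ _).1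
      (isWeaklyRegular_of_perm_of_subset_maximalIdeal hreg hpu humem)
    rw [ofList_congr_perm hpu, ofList_concat] at hsoc
    rw [ofList_congr_perm hpt, ofList_concat] at hN
    have hxm : x ∈ maximalIdeal P := humem x (by simp)
    have ham : a ∈ maximalIdeal P := htmem a (by simp)
    have hle : Ideal.ofList (cs ++ t) ⊔ Ideal.span {a} ≤ maximalIdeal P :=
      sup_le (Ideal.span_le.2 htm) ((Ideal.span_singleton_le_iff_mem _).2 ham)
    obtain ⟨c, hcm, hcreg, M, hM⟩ := exists_regMod_pow_le hxm hx hle hN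
    have hsoc' := hsoc.exchange hx hcreg hxm hcm
    have hcu : List.Perm (cs ++ u ++ [c]) ((cs ++ [c]) ++ u) := by
      simpa [List.append_assoc] using (List.perm_append_comm (l₁ := u) (l₂ := [c])).append_left cs
    have hct : List.Perm (cs ++ t ++ [c]) ((cs ++ [c]) ++ t) := by
      simpa [List.append_assoc] using (List.perm_append_comm (l₁ := t) (l₂ := [c])).append_left cs
    have hu' : ∀ z ∈ cs ++ u ++ [c], z ∈ maximalIdeal P := fun z hz => by
      rcases List.mem_append.1 hz with h | h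
      · exact hum z h
      · rwa [List.mem_singleton.1 h]
    have ht' : ∀ z ∈ cs ++ t ++ [c], z ∈ maximalIdeal P := fun z hz => by
      rcases List.mem_append.1 hz with h | h
      · exact htm z h
      · rwa [List.mem_singleton.1 h]
    obtain ⟨h1, h2⟩ := transfer_socleCyclic u t (cs ++ [c]) (by simpa using hlen)
      (fun z hz => hu' z (hcu.mem_iff.2 hz)) (fun z hz => ht' z (hct.mem_iff.2 hz))
      (isWeaklyRegular_of_perm_of_subset_maximalIdeal
        ((isWeaklyRegular_concat_iff _ _).2 ⟨hregJ, hcreg⟩) hcu hu')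
      (by rwa [← ofList_congr_perm hcu, ofList_concat])
      ⟨M, by rwa [← ofList_congr_perm hct, ofList_concat]⟩
    obtain ⟨ht1, hct'⟩ := (isWeaklyRegular_concat_iff _ _).1
      (isWeaklyRegular_of_perm_of_subset_maximalIdeal h1 hct.symm
        (fun z hz => ht' z (hct.mem_iff.2 hz)))
    rw [← ofList_congr_perm hct, ofList_concat] at h2
    have hareg : RegMod (Ideal.ofList (cs ++ t)) a := regMod_of_pow_le hcm hct' hN
    refine ⟨isWeaklyRegular_of_perm_of_subset_maximalIdeal
      ((isWeaklyRegular_concat_iff _ _).2 ⟨ht1, hareg⟩) hpt.symm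
      (fun z hz => htmem z (hpt.mem_iff.2 hz)), ?_⟩
    rw [ofList_congr_perm hpt, ofList_concat]
    exact h2.exchange hct' hareg hcm ham

end Fermat.Agent.RT.Lifting.SocleAux
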