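import Fermat.Agent.Patching.PowerSeriesRegular
import Fermat.Agent.RT.Lifting.Interface
import Fermat.Agent.RT.Lifting.SocleExchange
import Mathlib.LinearAlgebra.Matrix.Adjugate

/-!
# The Jacobian-type determinant spans the socle of a zero-dimensional complete intersection
-/

set_option autoImplicit false

noncomputable section

open IsLocalRing RingTheory.Sequence Matrix

namespace Fermat.Agent.RT.Lifting.SocleAux

variable {σ : Type*} {k : Type*} [CommRing k]

/-- The series in the ideal of `X_j ^ N`, `j ∈ s`, are those without monomials below all `N`. -/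
lemma mem_span_X_pow_image_iff (N : ℕ) (s : Finset σ) (f : MvPowerSeries σ k) :
    f ∈ Ideal.span ((fun j => (MvPowerSeries.X j : MvPowerSeries σ k) ^ N) '' ↑s) ↔
      ∀ m : σ →₀ ℕ, (∀ j ∈ s, m j < N) → MvPowerSeries.coeff m f = 0 := by
  classical
  induction s using Finset.induction generalizing f with
  | empty =>
    simp only [Finset.coe_empty, Set.image_empty, Ideal.span_empty, Ideal.mem_bot,
      Finset.notMem_empty, false_implies, implies_true, true_implies]
    exact ⟨fun h m => by simp [h], fun h => MvPowerSeries.ext fun m => by simp [h m]⟩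
  | @insert a s ha ih =>
    rw [Finset.coe_insert, Set.image_insert_eq, Ideal.mem_span_insert]
    constructor
    · rintro ⟨c, z, hz, rfl⟩ m hm
      rw [map_add, (ih z).1 hz m fun j hj => hm j (Finset.mem_insert_of_mem hj), add_zero]
      exact MvPowerSeries.X_pow_dvd_iff.1 (dvd_mul_left _ c) m (hm a (Finset.mem_insert_self a s))
    · intro hf
      let g : MvPowerSeries σ k := fun m => if m a < N then 0 else MvPowerSeries.coeff m f
      have hg : ∀ m, MvPowerSeries.coeff m g = if m a < N then 0 else MvPowerSeries.coeff m f :=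
        fun m => rfl
      obtain ⟨c, hc⟩ : (MvPowerSeries.X a : MvPowerSeries σ k) ^ N ∣ g :=
        MvPowerSeries.X_pow_dvd_iff.2 fun m hm => by simp [hg, hm]
      refine ⟨c, f - g, (ih _).2 fun m hm => ?_, by rw [mul_comm c, ← hc]; abel⟩
      rw [map_sub, hg]
      split_ifs with h
      · rw [sub_zero]
        exact hf m fun j hj => by
          rcases Finset.mem_insert.1 hj with rfl | hj
          exacts [h, hm j hj]
      · simp

/-- A variable is regular modulo powers of other variables. -/
lemma mem_of_X_mul_mem {N : ℕ} {s : Finset σ} {i : σ} (hi : i ∉ s) {f : MvPowerSeries σ k}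
    (h : MvPowerSeries.X i * f ∈
      Ideal.span ((fun j => (MvPowerSeries.X j : MvPowerSeries σ k) ^ N) '' ↑s)) :
    f ∈ Ideal.span ((fun j => (MvPowerSeries.X j : MvPowerSeries σ k) ^ N) '' ↑s) := by
  rw [mem_span_X_pow_image_iff] at h ⊢
  intro m hm
  have := h (Finsupp.single i 1 + m) fun j hj => by
    have hne : j ≠ i := fun e => hi (e ▸ hj)
    simp [Finsupp.single_eq_of_ne, hne, hm j hj]
  rwa [MvPowerSeries.X_def, MvPowerSeries.coeff_add_monomial_mul, one_mul] at this

variable {n : ℕ}

/-- A variable times a determinant lies in any ideal containing the image of the variables. -/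
lemma det_mul_mem {R : Type*} [CommRing R] (E : Matrix (Fin n) (Fin n) R) (v : Fin n → R)
    {J : Ideal R} (h : ∀ l, (E *ᵥ v) l ∈ J) (j : Fin n) : E.det * v j ∈ J := by
  have h1 : E.det * v j = (E.adjugate *ᵥ (E *ᵥ v)) j := by
    rw [Matrix.mulVec_mulVec, Matrix.adjugate_mul, Matrix.smul_mulVec, Matrix.one_mulVec,
      Pi.smul_apply, smul_eq_mul]
  rw [h1]
  show ∑ l, E.adjugate j l * (E *ᵥ v) l ∈ J
  exact Ideal.sum_mem _ fun l _ => J.mul_mem_left _ (h l)

/-- Two matrices expressing `X_i ^ N` in the variables have congruent determinants. -/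
lemma det_sub_det_mem (N : ℕ) (C D : Matrix (Fin n) (Fin n) (MvPowerSeries (Fin n) k))
    (hC : ∀ i, (C *ᵥ MvPowerSeries.X) i = MvPowerSeries.X i ^ N)
    (hD : ∀ i, (D *ᵥ MvPowerSeries.X) i = MvPowerSeries.X i ^ N) :
    C.det - D.det ∈ Ideal.span ((fun j => (MvPowerSeries.X j : MvPowerSeries (Fin n) k) ^ N) ''
      ↑(Finset.univ : Finset (Fin n))) := by
  classical
  suffices ∀ (s : Finset (Fin n)) (C : Matrix (Fin n) (Fin n) (MvPowerSeries (Fin n) k)),
      (∀ i, (C *ᵥ MvPowerSeries.X) i = MvPowerSeries.X i ^ N) → (∀ i ∉ s, C i = D i) →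
      C.det - D.det ∈ Ideal.span ((fun j => (MvPowerSeries.X j : MvPowerSeries (Fin n) k) ^ N) ''
        ↑(Finset.univ : Finset (Fin n))) from
    this Finset.univ C hC fun i hi => absurd (Finset.mem_univ i) hi
  intro s
  induction s using Finset.induction with
  | empty =>
    intro C _ h
    rw [show C = D from funext fun i => h i (Finset.notMem_empty i)]
    simp
  | @insert a s ha ih =>
    intro C hC h
    have hC' : ∀ i, (C.updateRow a (D a) *ᵥ MvPowerSeries.X) i = MvPowerSeries.X i ^ N := by
      intro i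
      by_cases hia : i = a
      · subst hia
        rw [← hD i]
        simp [Matrix.mulVec]
      · rw [← hC i]
        simp [Matrix.mulVec, Matrix.updateRow_ne hia]
    have hs := ih (C.updateRow a (D a)) hC' fun i hi => by
      by_cases hia : i = a
      · subst hia; simp
      · rw [Matrix.updateRow_ne hia]
        exact h i (by simp [hia, hi])
    have hsplit : C.det =
        (C.updateRow a (C a - D a)).det + (C.updateRow a (D a)).det := by
      rw [← Matrix.det_updateRow_add, sub_add_cancel, Matrix.updateRow_eq_self]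
    rw [hsplit, add_sub_assoc]
    refine Ideal.add_mem _ (Ideal.span_mono (Set.image_mono (Finset.coe_subset.2
      (Finset.subset_univ (Finset.univ.erase a)))) ?_) hs
    refine mem_of_X_mul_mem (i := a) (by simp) ?_
    rw [mul_comm]
    refine det_mul_mem _ _ (fun l => ?_) a
    by_cases hla : l = a
    · subst hla
      have h0 : (C.updateRow l (C l - D l) *ᵥ MvPowerSeries.X) l =
          (C *ᵥ MvPowerSeries.X) l - (D *ᵥ MvPowerSeries.X) l := by
        simp [Matrix.mulVec, dotProduct, sub_mul, Finset.sum_sub_distrib]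
      rw [h0, hC, hD, sub_self]
      exact Ideal.zero_mem _
    · have h0 : (C.updateRow a (C a - D a) *ᵥ MvPowerSeries.X) l =
          (C *ᵥ MvPowerSeries.X) l := by
        simp [Matrix.mulVec, Matrix.updateRow_ne hla]
      rw [h0, hC]
      exact Ideal.subset_span ⟨l, by simp [hla], rfl⟩

variable [Nontrivial k]

/-- The top monomial avoids the ideal of the powers of the variables. -/
lemma prod_X_pow_notMem (N : ℕ) :
    (∏ i, (MvPowerSeries.X i : MvPowerSeries (Fin n) k) ^ N) ∉
      Ideal.span ((fun j => (MvPowerSeries.X j : MvPowerSeries (Fin n) k) ^ (N + 1)) ''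
        ↑(Finset.univ : Finset (Fin n))) := by
  classical
  rw [mem_span_X_pow_image_iff]
  intro h
  have hprod : (∏ i, (MvPowerSeries.X i : MvPowerSeries (Fin n) k) ^ N) =
      MvPowerSeries.monomial (∑ i, Finsupp.single i N) 1 := by
    simp_rw [MvPowerSeries.X_pow_eq]
    induction (Finset.univ : Finset (Fin n)) using Finset.induction with
    | empty => simp
    | @insert a s ha ih =>
      rw [Finset.prod_insert ha, Finset.sum_insert ha, ih, MvPowerSeries.monomial_mul_monomial,
        one_mul]
  have := h (∑ i, Finsupp.single i N) fun j _ => by simp [Finsupp.single_apply]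
  rw [hprod, MvPowerSeries.coeff_monomial_same] at this
  exact one_ne_zero this

end Fermat.Agent.RT.Lifting.SocleAux

namespace Fermat.Agent.RT.Lifting

open Fermat.Agent.Patching SocleAux

theorem socleProperty : SocleProperty := by
  intro k _ n A f hf ⟨N, hN⟩
  classical
  have hAf : A *ᵥ MvPowerSeries.X = f := funext fun i => (hf i).symm
  have hm : maximalIdeal (MvPowerSeries (Fin n) k) =
      Ideal.span (Set.range (MvPowerSeries.X : Fin n → MvPowerSeries (Fin n) k)) := by
    ext x
    rw [mem_maximalIdeal, mem_nonunits_iff, MvPowerSeries.isUnit_iff_constantCoeff,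
      mem_span_range_X_iff, isUnit_iff_ne_zero, not_not]
  have hXm : ∀ i, (MvPowerSeries.X i : MvPowerSeries (Fin n) k) ∈
      maximalIdeal (MvPowerSeries (Fin n) k) := fun i => hm ▸ Ideal.subset_span ⟨i, rfl⟩
  have hfm : ∀ i, f i ∈ maximalIdeal (MvPowerSeries (Fin n) k) := fun i => by
    rw [hf i]
    exact Ideal.sum_mem _ fun j _ => Ideal.mul_mem_left _ _ (hXm j)
  have hI : Ideal.ofList (List.ofFn f) = Ideal.span (Set.range f) := by
    simp [Ideal.ofList, Set.range, List.mem_ofFn]
  have hI0 := ofList_ofFn_X (A := k) n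
  rw [← hm] at hI0
  have hregX : IsWeaklyRegular (MvPowerSeries (Fin n) k)
      (List.ofFn (MvPowerSeries.X : Fin n → MvPowerSeries (Fin n) k)) := by
    have h := isWeaklyRegular_paramSeq n (ϖ := (1 : k)) fun x y hxy => by simpa using hxy
    rw [paramSeq, isWeaklyRegular_append_iff] at h
    exact h.1
  have hsocX : SocleCyclic (Ideal.ofList
      (List.ofFn (MvPowerSeries.X : Fin n → MvPowerSeries (Fin n) k))) := by
    rw [hI0]
    exact ⟨1, fun z hz => by simpa using hz, fun x _ => ⟨x, by simp⟩⟩
  have hsoc := (transfer_socleCyclic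
    (List.ofFn (MvPowerSeries.X : Fin n → MvPowerSeries (Fin n) k)) (List.ofFn f) []
    (by simp) (by simpa [List.mem_ofFn] using hXm) (by simpa [List.mem_ofFn] using hfm)
    (by simpa using hregX) (by simpa using hsocX) ⟨N, by simpa [hI] using hN⟩).2
  rw [List.nil_append, hI] at hsoc
  -- `det A` is not in the ideal
  have hdet : A.det ∉ Ideal.span (Set.range f) := by
    intro hA
    have hB : ∀ i, ∃ c : Fin n → MvPowerSeries (Fin n) k,
        ∑ j, c j * f j = MvPowerSeries.X i ^ (N + 1) := fun i =>
      Ideal.mem_span_range_iff_exists_fun.1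
        (hN (Ideal.pow_le_pow_right N.le_succ (Ideal.pow_mem_pow (hXm i) _)))
    choose B hB using hB
    let G : Ideal (MvPowerSeries (Fin n) k) :=
      Ideal.span ((fun j => (MvPowerSeries.X j : MvPowerSeries (Fin n) k) ^ (N + 1)) ''
        ↑(Finset.univ : Finset (Fin n)))
    let B' : Matrix (Fin n) (Fin n) (MvPowerSeries (Fin n) k) := Matrix.of B
    have hBf : ∀ i, (B' *ᵥ f) i = MvPowerSeries.X i ^ (N + 1) := hB
    have h1 : B'.det * A.det ∈ G := by
      obtain ⟨c, hc⟩ := Ideal.mem_span_range_iff_exists_fun.1 hA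
      rw [← hc, Finset.mul_sum]
      refine Ideal.sum_mem _ fun j _ => ?_
      rw [mul_left_comm]
      refine Ideal.mul_mem_left _ _ (det_mul_mem B' f (fun l => ?_) j)
      rw [hBf]
      exact Ideal.subset_span ⟨l, by simp, rfl⟩
    have h2 := det_sub_det_mem (N + 1) (B' * A)
      (Matrix.diagonal fun i => (MvPowerSeries.X i : MvPowerSeries (Fin n) k) ^ N)
      (fun i => by rw [← Matrix.mulVec_mulVec, hAf, hBf])
      (fun i => by rw [Matrix.mulVec_diagonal, pow_succ])
    rw [Matrix.det_mul, Matrix.det_diagonal] at h2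
    have h3 := G.sub_mem h1 h2
    rw [sub_sub_cancel] at h3
    exact prod_X_pow_notMem N h3
  refine ⟨hdet, fun g hg => ?_⟩
  obtain ⟨s, hs, hcyc⟩ := hsoc
  have hsocA : ∀ z ∈ maximalIdeal (MvPowerSeries (Fin n) k),
      z * A.det ∈ Ideal.span (Set.range f) := by
    intro z hz
    rw [hm] at hz
    obtain ⟨c, rfl⟩ := Ideal.mem_span_range_iff_exists_fun.1 hz
    rw [Finset.sum_mul]
    refine Ideal.sum_mem _ fun j _ => ?_
    rw [mul_assoc, mul_comm (MvPowerSeries.X j)]
    refine Ideal.mul_mem_left _ _ (det_mul_mem A _ (fun l => ?_) j)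
    rw [hAf]
    exact Ideal.subset_span ⟨l, rfl⟩
  have hunit : ∀ x u, x ∉ Ideal.span (Set.range f) → x - u * s ∈ Ideal.span (Set.range f) →
      IsUnit u := by
    intro x u hx hu
    by_contra hnu
    refine hx ?_
    rw [← sub_add_cancel x (u * s)]
    exact Ideal.add_mem _ hu (hs u ((mem_maximalIdeal _).2 hnu))
  obtain ⟨v, hv⟩ := hcyc _ hsocA
  have hex : ∃ M : ℕ, ∀ z ∈ maximalIdeal (MvPowerSeries (Fin n) k) ^ M,
      z * g ∈ Ideal.span (Set.range f) := ⟨N, fun z hz => Ideal.mul_mem_right _ _ (hN hz)⟩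
  obtain ⟨M, hM⟩ : ∃ M, Nat.find hex = M + 1 := by
    refine Nat.exists_eq_succ_of_ne_zero fun h0 => hg ?_
    have := Nat.find_spec hex
    rw [h0] at this
    simpa using this 1 (by simp)
  have hmin := Nat.find_min hex (m := M) (by omega)
  push Not at hmin
  obtain ⟨h, hh, hhg⟩ := hmin
  obtain ⟨u, hu⟩ := hcyc (h * g) fun z hz => by
    have := Nat.find_spec hex (z * h) (by rw [hM, pow_succ']; exact Ideal.mul_mem_mul hz hh)
    rwa [mul_assoc] at this
  obtain ⟨u', rfl⟩ := hunit _ u hhg hu
  refine ⟨v * ↑u'⁻¹ * h, ?_⟩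
  have hid : g * (v * ↑u'⁻¹ * h) - A.det =
      v * ↑u'⁻¹ * (h * g - ↑u' * s) - (A.det - v * s) := by
    calc g * (v * ↑u'⁻¹ * h) - A.det
        = v * ↑u'⁻¹ * (h * g - ↑u' * s) - (A.det - v * (↑u'⁻¹ * ↑u') * s) := by ring
      _ = _ := by rw [Units.inv_mul, mul_one]
  rw [hid]
  exact Ideal.sub_mem _ (Ideal.mul_mem_left _ _ hu) hv

end Fermat.Agent.RT.Lifting
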