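import Fermat.Agent.RT.Lifting.Interface
import Fermat.Agent.RT.Assembly.RankBound
import Fermat.Agent.CFT.TWPrimes.Residual
import Fermat.Agent.GaloisReps.UnipotentModel
import Fermat.Agent.Semistable.Unipotent.Main
import Fermat.Agent.Semistable.Toric.Model

/-!
# The localised module at the Taylor–Wiles levels

The corestriction of the Hecke module of `ker ψ` followed by the identification of the localised
classes of level `N₀ q₁ ⋯ q_m` with `2 ^ m` copies of those of level `N₀`.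
-/

set_option autoImplicit false

noncomputable section

namespace Fermat.Agent.RT.Lifting

open IsLocalRing Module MvPolynomial
open Fermat.Agent.Deform Fermat.Agent.Arith Fermat.Agent.RT.GammaH Fermat.Agent.RT.Assembly
open Fermat.Agent.GaloisReps (HeckeGaloisModel heckeGaloisModel)

variable {O : Type} [CommRing O] [IsDomain O] [IsDiscreteValuationRing O]
  [IsAdicComplete (maximalIdeal O) O] {p : ℕ} [Fact p.Prime] [CharP (ResidueField O) p]
  {W : Rigid O} {ρbar : ResidualGaloisRep (ResidueField O)}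
  {bb : Basis (Fin 2) (ResidueField O) ρbar.V} {S : Finset ℕ} {abar : ℕ → ResidueField O} {N₀ : ℕ}

omit [Fact p.Prime] in
theorem IsResidualDatum.trace_rho (hd : IsResidualDatum p W ρbar bb S abar N₀) (σ : Gal) :
    LinearMap.trace (ResidueField O) ρbar.V (ρbar.ρ σ) = (W.rb σ).trace := by
  rw [hd.rb_eq, LinearMap.trace_eq_matrix_trace (ResidueField O) bb]
  rfl

/-- The characteristic polynomials at the Frobenius elements outside `S`. -/
theorem IsResidualDatum.charpolys (hd : IsResidualDatum p W ρbar bb S abar N₀) :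
    Glue.HasCharpolys S abar ρbar := by
  intro ℓ hℓ hℓS A hA σ hσ
  have hℓp : ¬ ℓ ∣ p := fun h => hℓS
    ((Nat.prime_dvd_prime_iff_eq hℓ Fact.out).1 h ▸ hd.mem_S_p)
  have hdet : (matRes ρbar bb σ).det = (ℓ : ResidueField O) :=
    CFT.TWPrimes.det_matRes_of_detIsCyclotomic ρbar bb p hd.det σ ℓ
      fun μ hμ => frobenius_root hA hℓ hσ hμ hℓp
  rw [EC.FrobTrace.charpoly_of_finrank_eq_two ρbar.finrank_eq, hd.trace_rho,
    hd.trace_frobenius ℓ hℓ hℓS A hA σ hσ, ← hdet, ← LinearMap.det_toMatrix bb]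
  rfl

/-- Non-Eisenstein outside any finite set. -/
theorem IsResidualDatum.exists_not_eisenstein (hd : IsResidualDatum p W ρbar bb S abar N₀)
    (T : Finset ℕ) : ∃ ℓ : ℕ, ℓ.Prime ∧ ℓ ∉ T ∧ abar ℓ ≠ 1 + (ℓ : ResidueField O) := by
  classical
  set U := T.filter Nat.Prime
  have hU : ∏ t ∈ U, t ≠ 0 :=
    Finset.prod_ne_zero_iff.2 fun t ht => (Finset.mem_filter.1 ht).2.ne_zero
  obtain ⟨ℓ, hℓ, -, hdvd, hne⟩ := hd.aux (p * ∏ t ∈ U, t)
    (mul_ne_zero (Fact.out : p.Prime).ne_zero hU)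
  refine ⟨ℓ, hℓ, fun hT => ?_, ?_⟩
  · have h1 : ℓ ∣ ℓ - 1 := (Dvd.dvd.mul_left
      (Finset.dvd_prod_of_mem _ (Finset.mem_filter.2 ⟨hT, hℓ⟩)) p).trans hdvd
    have h2 := hℓ.two_le
    have := Nat.le_of_dvd (by omega) h1
    omega
  · have h2 : ((ℓ - 1 : ℕ) : ResidueField O) = 0 :=
      (CharP.cast_eq_zero_iff _ p _).2 ((dvd_mul_right p _).trans hdvd)
    rw [Nat.cast_sub hℓ.one_le, Nat.cast_one, sub_eq_zero] at h2
    rwa [h2, one_add_one_eq_two]

/-- The models have unipotent and toric inertia at the primes exactly dividing the level. -/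
theorem special_heckeGaloisModel (M : ℕ) [NeZero M] (v : ℕ) (hv : v.Prime) (hvp : v ≠ p)
    (hvM : v ∣ M) (hv2 : ¬ v ^ 2 ∣ M) :
    NewformLocal.UnipotentAt (heckeGaloisModel M p) v ∧
      NewformLocal.ToricSquareAt (heckeGaloisModel M p) v := by
  have : Fact v.Prime := ⟨hv⟩
  exact ⟨GaloisReps.unipotentAt_modelOfCongruence _ hv hvp
    (Semistable.Unipotent.torsionUnipotentAt hv hvM hv2), Semistable.Toric.toricSquareAt hvp hv2⟩

variable [Finite (ResidueField O)] [CharZero O] [NeZero N₀]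

/-- **The localised module at the Taylor–Wiles levels.** -/
theorem twModuleProperty (hd : IsResidualDatum p W ρbar bb S abar N₀) :
    TWModuleProperty p W S abar N₀ := by
  classical
  intro e he m n qv hQ Δ _ _ ψ hψ hΔ
  set T := S ∪ Finset.univ.image qv with hTdef
  set L := N₀ * ∏ i, qv i
  have hLsq : Squarefree L := squarefree_mul_prod hd.squarefree hd.mem_S_level hQ
  have : NeZero L := ⟨hLsq.ne_zero⟩
  have hLT : ∀ ℓ : ℕ, ℓ.Prime → ℓ ∣ L → ℓ ∈ T := fun ℓ hℓ h => by
    rcases prime_dvd_mul_prod hQ hℓ h with h | ⟨i, rfl⟩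
    · exact Finset.mem_union_left _ (hd.mem_S_level ℓ hℓ h)
    · exact Finset.mem_union_right _ (Finset.mem_image.mpr ⟨i, Finset.mem_univ i, rfl⟩)
  have hEis := hd.exists_not_eisenstein T
  obtain ⟨H, eL, π₀, heL, -, hπs, hπk, hπT⟩ := exists_heckeModule_cores (abar := abar) hd.p_ne_two
    hLsq hψ hΔ hLT hEis
  obtain ⟨e₀, he₀⟩ := exists_isLocalizer (O := O) (resIdeal T abar N₀) (Classes O T N₀)
  obtain ⟨Φ, hΦ⟩ := exists_twEquiv (exists_injective_complex O) hEis he₀ m qv L rfl hLsq hLT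
    (fun i => isAuxiliary_of_regular hd.charpolys (fun M _ => heckeGaloisModel M p)
      special_heckeGaloisModel Finset.subset_union_left hLsq (hQ.prime i) (hQ.notMem i)
      (hQ.ne_p i) fun A hA σ hσ => by rw [hd.trace_rho]; exact hQ.regular i A hA σ hσ) eL heL
  -- from the system outside `S ∪ Q` to the system outside `S`
  have hrig : IsRigidPair abar N₀ S T := fun g hg φ hφ ℓ hℓ hℓS a ha =>
    congr_of_congr_outside_gen hd.charpolys
      (fun N p _ _ => GaloisReps.nonempty_heckeGaloisModel N p) hg φ T hφ hℓ hℓS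
      (fun h => hℓS (hd.mem_S_level ℓ hℓ h)) (fun h => hℓS (h ▸ hd.mem_S_p)) ha
  have hiff := mem_localPart_castMod_iff (Finset.subset_union_left : S ⊆ T)
    (exists_injective_complex O) hd.squarefree
    (fun v hv h => Finset.mem_union_left _ (hd.mem_S_level v hv h)) hEis hrig he₀ he
  set c := castMod O (⊤ : Subgroup (ZMod N₀)ˣ) S T O
  let cl : localPart O e₀ (Classes O T N₀) →ₗ[O] localPart O e (Classes O S N₀) :=
    (c.toLinearMap.comp (Submodule.subtype _)).codRestrict _ fun x => (hiff x).2 x.2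
  have hcls : Function.Surjective cl := fun y => by
    obtain ⟨x, hx⟩ := c.surjective (y : Classes O S N₀)
    exact ⟨⟨x, (hiff x).1 (by rw [hx]; exact y.2)⟩, Subtype.ext hx⟩
  have hcli : Function.Injective cl := fun x y h =>
    Subtype.ext (c.injective (Subtype.ext_iff.1 h :))
  let π : H.M →ₗ[O] Fin (2 ^ m) → localPart O e (Classes O S N₀) :=
    (cl.compLeft (Fin (2 ^ m))).comp (Φ.toLinearMap.comp π₀)
  refine ⟨H, π, fun y => ?_, fun x => ?_, fun ℓ hℓ x j => ?_⟩
  · choose z hz using fun j => hcls (y j)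
    obtain ⟨w, hw⟩ := hπs (Φ.symm z)
    refine ⟨w, funext fun j => ?_⟩
    show cl (Φ (π₀ w) j) = y j
    rw [hw, LinearEquiv.apply_symm_apply, hz]
  · rw [← hπk]
    refine ⟨fun h => Φ.injective ((funext fun j => hcli ?_).trans (map_zero Φ).symm), fun h => ?_⟩
    · exact (congrFun h j).trans (map_zero cl).symm
    · funext j
      show cl (Φ (π₀ x) j) = 0
      rw [h, map_zero, Pi.zero_apply, map_zero]
  · show cl (Φ (π₀ (H.T ℓ x)) j) = localAct O e _ _ (cl (Φ (π₀ x) j))
    rw [hπT ℓ hℓ, hΦ]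
    refine Subtype.ext ?_
    show c ((X (Sum.inr ⟨ℓ, hℓ⟩) : OpRing O N₀ T) • (Φ (π₀ x) j : Classes O T N₀)) = _
    rw [← inclOp_smul (Finset.subset_union_left : S ⊆ T), inclOp, rename_X]
    rfl

end Fermat.Agent.RT.Lifting
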