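import Fermat.Agent.ConductorLevel.Assembly
import Fermat.Prelude.Def_WeierstrassCurve_Mlc1RowStatement

/-!
# From a newform with the traces of the curve to the conductor level
-/

set_option autoImplicit false

noncomputable section

namespace Fermat.Agent.RT.Lifting

open WeierstrassCurve CongruenceSubgroup ModularFormClass
open Fermat.Agent.ConductorLevel

/-- A newform with the traces of `W` outside `p` and the bad primes, of cube-free level not divisible
by `p ^ 2`, gives modularity of exactly the conductor level. -/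
theorem exact_of_newform (h35 : NewformRepInput) (h36 : NewformCarayolInput)
    {W : WeierstrassCurve ℤ} (hΔ : W.Δ ≠ 0) (hss : W.IsSemistableModel) {p : ℕ} [Fact p.Prime]
    (hp2 : p ≠ 2) (hirr : W.ModRepIsIrreducible p) {L M : ℕ} [NeZero M]
    {g : CuspForm (Gamma0 M) 2} (hg : g.IsNewform) (hML : M ∣ L)
    (hLS : ∀ q : ℕ, q.Prime → q ∣ L → q ∈ insert p W.Δ.natAbs.primeFactors)
    (hp2L : ¬ p ^ 2 ∣ L) (hL3 : ∀ q : ℕ, q.Prime → q ≠ p → ¬ q ^ 3 ∣ L)
    (hgW : ∀ ℓ : ℕ, ℓ.Prime → ℓ ∉ insert p W.Δ.natAbs.primeFactors →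
      qCoeff g ℓ = (W.apOfModel ℓ : ℂ)) :
    Mlc1IsModularModelOfExactConductorLevel W := by
  classical
  set S : Finset ℕ := insert p W.Δ.natAbs.primeFactors with hSdef
  have hMS : ∀ q : ℕ, q.Prime → q ∣ M → q ∈ S := fun q hq hd => hLS q hq (hd.trans hML)
  have hS : ∀ ℓ : ℕ, ℓ.Prime → ℓ ∉ S → W.IsGoodPrimeFor ℓ := fun ℓ hℓ h hd =>
    h (Finset.mem_insert_of_mem
      (Nat.mem_primeFactors.2 ⟨hℓ, Int.natCast_dvd.1 hd, Int.natAbs_ne_zero.2 hΔ⟩))
  have hsq : ∀ q : ℕ, q.Prime → ¬ q ^ 2 ∣ M := fun q hq => by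
    by_cases hqp : q = p
    · exact fun h => hp2L (hqp ▸ h.trans hML)
    · exact not_sq_dvd_level h36 hss hΔ hg hp2 hirr (Finset.mem_insert_self _ _) hMS hS hgW hq hqp
        fun h => hL3 q hq hqp (h.trans hML)
  have hbad : ∀ q : ℕ, q.Prime → q ∣ M → (q : ℤ) ∣ W.Δ := by
    intro q hq hqM
    by_contra hgood
    obtain ⟨lam, hlam, hne⟩ : ∃ lam : ℕ, lam.Prime ∧ q ≠ lam := by
      by_cases h2 : q = 2
      · exact ⟨3, Nat.prime_three, by omega⟩
      · exact ⟨2, Nat.prime_two, h2⟩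
    have := Fact.mk hlam
    exact not_good_of_dvd_level h35 hΔ hg (S := insert lam S)
      (fun r hr hd => Finset.mem_insert_of_mem (hMS r hr hd))
      (fun ℓ hℓ h => hS ℓ hℓ fun h' => h (Finset.mem_insert_of_mem h'))
      (fun ℓ hℓ h => hgW ℓ hℓ fun h' => h (Finset.mem_insert_of_mem h'))
      (Finset.mem_insert_self _ _) hq hne hqM (hsq q hq) hgood
  have hMc : M ∣ W.conductorLevel := by
    have e1 : ∏ q ∈ M.primeFactors, q = M :=
      Nat.prod_primeFactors_of_squarefree (Nat.squarefree_iff_prime_squarefree.2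
        fun q hq h => hsq q hq (by rwa [sq]))
    have e2 : ∏ q ∈ W.conductorLevel.primeFactors, q = W.conductorLevel :=
      Nat.prod_primeFactors_of_squarefree W.squarefree_conductorLevel
    rw [← e1, ← e2]
    refine Finset.prod_dvd_prod_of_subset _ _ _ fun q hq => ?_
    have hq' := Nat.prime_of_mem_primeFactors hq
    exact Nat.mem_primeFactors.2 ⟨hq', (W.prime_dvd_conductorLevel_iff hΔ hq').2
      (hbad q hq' (Nat.dvd_of_mem_primeFactors hq)), W.conductorLevel_pos.ne'⟩
  obtain ⟨h, hh, hhg⟩ := exists_raise W.squarefree_conductorLevel hMc hg.1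
  refine ⟨W.conductorLevel, W.conductorLevel_pos, W.squarefree_conductorLevel,
    fun q hq => W.prime_dvd_conductorLevel_iff hΔ hq, h, hh, fun q hq hgood hqL => ?_⟩
  rw [hhg q hq hqL]
  exact qCoeff_eq_of_good h35 hΔ hg hMS hS hgW hq hgood fun hd => hqL (hd.trans hMc)

end Fermat.Agent.RT.Lifting
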