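import Fermat.Agent.RT.Lifting.Interface

/-!
# The levels at which lifting happens
-/

set_option autoImplicit false

noncomputable section

namespace Fermat.Agent.RT.Lifting

variable {E : WeierstrassCurve ℤ} {p N₀ : ℕ}

/-- The primes of bad reduction prime to `N₀` and to `p`. -/
def raisedPrimes (E : WeierstrassCurve ℤ) (p N₀ : ℕ) : Finset ℕ :=
  {v ∈ E.Δ.natAbs.primeFactors | ¬ v ∣ N₀ ∧ v ≠ p}

theorem raisedLevel_eq : raisedLevel E p N₀ = N₀ * (∏ v ∈ raisedPrimes E p N₀, v ^ 2) *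
    if p ∣ E.Δ.natAbs ∧ ¬ p ∣ N₀ then p else 1 := rfl

theorem mem_raisedPrimes (hΔ : E.Δ ≠ 0) {v : ℕ} :
    v ∈ raisedPrimes E p N₀ ↔ v.Prime ∧ (v : ℤ) ∣ E.Δ ∧ ¬ v ∣ N₀ ∧ v ≠ p := by
  rw [raisedPrimes, Finset.mem_filter, Nat.mem_primeFactors, Int.natCast_dvd]
  exact ⟨fun h => ⟨h.1.1, h.1.2.1, h.2⟩,
    fun h => ⟨⟨h.1, h.2.1, Int.natAbs_ne_zero.2 hΔ⟩, h.2.2⟩⟩

theorem dvd_prod_sq_iff {q : ℕ} (hq : q.Prime) {V : Finset ℕ}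
    (hV : ∀ v ∈ V, v.Prime) : q ∣ ∏ v ∈ V, v ^ 2 ↔ q ∈ V := by
  rw [hq.prime.dvd_finsetProd_iff]
  refine ⟨fun ⟨v, hv, h⟩ => ?_, fun h => ⟨q, h, dvd_pow_self q two_ne_zero⟩⟩
  exact (Nat.prime_dvd_prime_iff_eq hq (hV v hv)).1 (hq.dvd_of_dvd_pow h) ▸ hv

theorem not_cube_dvd_prod_sq {q : ℕ} (hq : q.Prime) {V : Finset ℕ} (hV : ∀ v ∈ V, v.Prime) :
    ¬ q ^ 3 ∣ ∏ v ∈ V, v ^ 2 := by
  intro h
  have hqV : q ∈ V := (dvd_prod_sq_iff hq hV).1 ((dvd_pow_self q three_ne_zero).trans h)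
  have hV' : ∀ v ∈ V.erase q, v.Prime := fun v hv => hV v (Finset.mem_of_mem_erase hv)
  rw [← Finset.mul_prod_erase _ _ hqV, pow_succ] at h
  exact Finset.notMem_erase q V ((dvd_prod_sq_iff hq hV').1
    (Nat.dvd_of_mul_dvd_mul_left (pow_pos hq.pos 2) h))

theorem prod_sq_ne_zero {V : Finset ℕ} (hV : ∀ v ∈ V, v.Prime) : ∏ v ∈ V, v ^ 2 ≠ 0 :=
  Finset.prod_ne_zero_iff.2 fun v hv => pow_ne_zero 2 (hV v hv).ne_zero

/-- The arithmetic of the raised level. -/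
structure LevelFacts (E : WeierstrassCurve ℤ) (p N₀ : ℕ) : Prop where
  ne_zero : raisedLevel E p N₀ ≠ 0
  minimal_dvd : N₀ ∣ raisedLevel E p N₀
  primeFactors : (raisedLevel E p N₀).primeFactors = E.Δ.natAbs.primeFactors
  not_sq_of_dvd_minimal : ∀ q : ℕ, q.Prime → q ≠ p → q ∣ N₀ → ¬ q ^ 2 ∣ raisedLevel E p N₀
  not_p_sq : ¬ p ^ 2 ∣ raisedLevel E p N₀
  not_cube : ∀ q : ℕ, q.Prime → q ≠ p → ¬ q ^ 3 ∣ raisedLevel E p N₀

theorem levelFacts (hp : p.Prime) (hΔ : E.Δ ≠ 0) (hN : Squarefree N₀)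
    (hN₀ : ∀ q : ℕ, q.Prime → q ∣ N₀ → (q : ℤ) ∣ E.Δ) : LevelFacts E p N₀ := by
  set V := raisedPrimes E p N₀ with hVdef
  have hV : ∀ v ∈ V, v.Prime := fun v hv => ((mem_raisedPrimes hΔ).1 hv).1
  set Q := if p ∣ E.Δ.natAbs ∧ ¬ p ∣ N₀ then p else 1 with hQdef
  have hQ : ∀ q : ℕ, q.Prime → (q ∣ Q ↔ q = p ∧ p ∣ E.Δ.natAbs ∧ ¬ p ∣ N₀) := fun q hq => by
    rw [hQdef]
    split_ifs with h
    · rw [Nat.prime_dvd_prime_iff_eq hq hp]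
      exact ⟨fun e => ⟨e, h⟩, fun e => e.1⟩
    · simp only [Nat.dvd_one]
      exact ⟨fun e => absurd e hq.one_lt.ne', fun e => absurd e.2 h⟩
  have hX : ∀ q : ℕ, q.Prime → (q ∣ ∏ v ∈ V, v ^ 2 ↔ q ∈ V) := fun q hq =>
    dvd_prod_sq_iff hq hV
  have hL : raisedLevel E p N₀ = N₀ * (∏ v ∈ V, v ^ 2) * Q := rfl
  have hne : raisedLevel E p N₀ ≠ 0 := by
    rw [hL]
    refine mul_ne_zero (mul_ne_zero hN.ne_zero (prod_sq_ne_zero hV)) ?_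
    rw [hQdef]
    split_ifs
    · exact hp.ne_zero
    · exact one_ne_zero
  have hcop : ∀ q : ℕ, q.Prime → ∀ k n : ℕ, ¬ q ∣ n → ∀ m : ℕ, q ^ k ∣ m * n → q ^ k ∣ m :=
    fun q hq k n hn m h => ((hq.coprime_iff_not_dvd.2 hn).pow_left k).dvd_of_dvd_mul_right h
  have hsf : ∀ q : ℕ, q.Prime → ¬ q ^ 2 ∣ N₀ := fun q hq h =>
    hq.not_isUnit (hN q (by rwa [← sq]))
  refine ⟨hne, ⟨_, (mul_assoc _ _ _).symm.trans hL.symm |>.symm⟩, ?_, ?_, ?_, ?_⟩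
  · ext q
    rw [Nat.mem_primeFactors, Nat.mem_primeFactors, hL]
    refine ⟨fun ⟨hq, h, _⟩ => ⟨hq, ?_, Int.natAbs_ne_zero.2 hΔ⟩, fun ⟨hq, h, _⟩ => ⟨hq, ?_, hL ▸ hne⟩⟩
    · rcases hq.dvd_mul.1 h with h | h
      · rcases hq.dvd_mul.1 h with h | h
        · exact Int.natCast_dvd.1 (hN₀ q hq h)
        · exact Int.natCast_dvd.1 ((mem_raisedPrimes hΔ).1 ((hX q hq).1 h)).2.1
      · obtain ⟨rfl, h', -⟩ := (hQ q hq).1 h
        exact h'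
    · by_cases h1 : q ∣ N₀
      · exact dvd_mul_of_dvd_left (dvd_mul_of_dvd_left h1 _) _
      · by_cases h2 : q = p
        · subst h2
          exact dvd_mul_of_dvd_right ((hQ q hq).2 ⟨rfl, h, h1⟩) _
        · exact dvd_mul_of_dvd_left (dvd_mul_of_dvd_right
            ((hX q hq).2 ((mem_raisedPrimes hΔ).2 ⟨hq, Int.natCast_dvd.2 h, h1, h2⟩)) _) _
  · intro q hq hqp hqN h
    rw [hL] at h
    exact hsf q hq (hcop q hq 2 _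
      (fun e => ((mem_raisedPrimes hΔ).1 ((hX q hq).1 e)).2.2.1 hqN) _
      (hcop q hq 2 Q (fun e => hqp ((hQ q hq).1 e).1) _ h))
  · intro h
    rw [hL] at h
    have hpX : ¬ p ∣ ∏ v ∈ V, v ^ 2 := fun e =>
      ((mem_raisedPrimes hΔ).1 ((hX p hp).1 e)).2.2.2 rfl
    by_cases hpQ : p ∣ Q
    · have hQp : Q = p := by rw [hQdef, if_pos ((hQ p hp).1 hpQ).2]
      rw [hQp, sq] at h
      rcases hp.dvd_mul.1 (Nat.dvd_of_mul_dvd_mul_right hp.pos h) with h' | h'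
      · exact ((hQ p hp).1 hpQ).2.2 h'
      · exact hpX h'
    · exact hsf p hp (hcop p hp 2 _ hpX _ (hcop p hp 2 Q hpQ _ h))
  · intro q hq hqp h
    rw [hL] at h
    have h' := hcop q hq 3 Q (fun e => hqp ((hQ q hq).1 e).1) _ h
    by_cases hqN : q ∣ N₀
    · exact hsf q hq ((pow_dvd_pow q (by norm_num)).trans (hcop q hq 3 _
        (fun e => ((mem_raisedPrimes hΔ).1 ((hX q hq).1 e)).2.2.1 hqN) _ h'))
    · rw [mul_comm] at h'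
      exact not_cube_dvd_prod_sq hq hV (hcop q hq 3 _ hqN _ h')

end Fermat.Agent.RT.Lifting
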