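import Fermat.Agent.RT.Lifting.Criterion
import Fermat.Agent.RT.Lifting.Levels
import Fermat.Agent.RT.Lifting.Conductor
import Fermat.Agent.RT.Lift.Bound
import Fermat.Agent.Top.Inputs

/-!
# Modularity lifting from the pieces

`DatumFacts` collects what is proved for a residual datum of a curve; with the numerical criterion
and the facts on newforms it gives `Top.LiftingSquarefreeInput`.
-/

set_option autoImplicit false
set_option linter.style.haveILetI false
set_option linter.unusedSectionVars false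

noncomputable section

namespace Fermat.Agent.RT.Lifting

open IsLocalRing Module CongruenceSubgroup ModularFormClass
open Fermat.Agent.Deform Fermat.Agent.Arith Fermat.Agent.RT.GammaH Fermat.Agent.RT.Assembly
open Fermat.Agent.ConductorLevel (NewformRepInput NewformCarayolInput)

variable {O : Type} [CommRing O] [IsDomain O] [IsDiscreteValuationRing O]
  [IsAdicComplete (maximalIdeal O) O] [Finite (ResidueField O)] [CharZero O]

/-- What is proved for the residual datum of a curve. -/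
structure DatumFacts (p : ℕ) [Fact p.Prime] (W : Rigid O)
    (ρbar : ResidualGaloisRep (ResidueField O)) (S : Finset ℕ) (abar : ℕ → ResidueField O) (N₀ : ℕ)
    (E : WeierstrassCurve ℤ) : Prop where
  flat_pair : IsPairCond ρbar (flatCond (O := O) p)
  flat_point : PointCond p ρbar (flatCond p) fun M => ¬ p ∣ M
  ordinary : (p : ℤ) ∣ E.Δ → IsDistinguishedOrdinary p ρbar
  ord_pair : IsDistinguishedOrdinary p ρbar → IsPairCond ρbar (ordCond (O := O) p)
  ord_point : IsDistinguishedOrdinary p ρbar → PointCond p ρbar (ordCond p) fun M => ¬ p ^ 2 ∣ M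
  selmer_flat : ¬ p ∣ N₀ →
    TWSelmerInput p (flatCond (O := O) p) W.rb N₀.primeFactors (N₀.primeFactors.erase p) ∅ S
  selmer_ord : p ∣ N₀ →
    TWSelmerInput p (ordCond (O := O) p) W.rb N₀.primeFactors (N₀.primeFactors.erase p) ∅ S
  systemExists : SystemExistsProperty S abar N₀
  typeLift : TypeLiftProperty p W ρbar S abar N₀
  minimal : ∀ (C : CondAt O) (good : ℕ → Prop), MinimalProperty p W ρbar S N₀ C good
  squareStep : SquareStepProperty p S abar
  pStep : PStepProperty p S abar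
  sigmaBound : ∀ C : CondAt O, SigmaBoundProperty p W ρbar C
  pBound : PBoundProperty p W ρbar
  galoisAlgebra : GaloisAlgebraProperty p W ρbar S abar N₀
  curveLift : CurveLiftProperty p W E N₀

omit [Finite (ResidueField O)] [CharZero O] in
/-- The congruence bound after all the steps at the unramified bad primes. -/
theorem congruenceBound_prod {p : ℕ} {S : Finset ℕ} {abar : ℕ → ResidueField O}
    (hstep : SquareStepProperty p S abar) {ι : O →+* ℂ} (hι : Function.Injective ι) {N : ℕ}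
    (hN : N ≠ 0) {a : ℕ → O} {η : O} (hNS : ∀ q : ℕ, q.Prime → q ∣ N → q ∈ S)
    (ha : IsClassicalSystem ι N a) (hr : IsResidualSystem S abar a)
    (hb : CongruenceBound S N a η) (V : Finset ℕ)
    (hV : ∀ v ∈ V, v.Prime ∧ ¬ v ∣ N ∧ v ≠ p ∧ v ∈ S) :
    CongruenceBound S (N * ∏ v ∈ V, v ^ 2) a
      (η * ∏ v ∈ V, ((v : O) - 1) * (((v : O) + 1) ^ 2 - a v ^ 2)) := by
  classical
  induction V using Finset.induction_on with
  | empty =>
    rw [Finset.prod_empty, Finset.prod_empty, mul_one, mul_one]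
    exact hb
  | insert v V hv ih =>
    obtain ⟨hvp, hvN, hvne, hvS⟩ := hV v (Finset.mem_insert_self v V)
    have hV' : ∀ w ∈ V, w.Prime ∧ ¬ w ∣ N ∧ w ≠ p ∧ w ∈ S := fun w hw =>
      hV w (Finset.mem_insert_of_mem hw)
    haveI : NeZero (N * ∏ w ∈ V, w ^ 2) :=
      ⟨mul_ne_zero hN (prod_sq_ne_zero fun w hw => (hV' w hw).1)⟩
    have h := hstep ι hι (N * ∏ w ∈ V, w ^ 2) v a _ hvp (fun hd => ?_) hvne hvS
      (fun q hq hd => ?_) (ha.mono (Dvd.intro _ rfl)) hr (ih hV')
    · rw [Finset.prod_insert hv, Finset.prod_insert hv]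
      convert h using 1 <;> ring
    · rcases hvp.dvd_mul.1 hd with h | h
      · exact hvN h
      · exact hv ((dvd_prod_sq_iff hvp fun w hw => (hV' w hw).1).1 h)
    · rcases hq.dvd_mul.1 hd with h | h
      · exact hNS q hq h
      · exact (hV' q ((dvd_prod_sq_iff hq fun w hw => (hV' w hw).1).1 h)).2.2.2

/-- Modularity of the curve from the facts at its residual datum. -/
theorem modular_of_datum (hfaith : FaithfulProperty) (h35 : NewformRepInput)
    (h36 : NewformCarayolInput) {p : ℕ} [Fact p.Prime] [CharP (ResidueField O) p]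
    (hunit : UnitRootProperty p) {E : WeierstrassCurve ℤ} (hΔ : E.Δ ≠ 0)
    (hss : E.IsSemistableModel) (hirr : E.ModRepIsIrreducible p) {W : Rigid O}
    {ρbar : ResidualGaloisRep (ResidueField O)} {bb : Basis (Fin 2) (ResidueField O) ρbar.V}
    {N₀ : ℕ}
    (hdat : IsResidualDatum p W ρbar bb (insert p E.Δ.natAbs.primeFactors)
      (fun ℓ => (E.apOfModel ℓ : ResidueField O)) N₀)
    (hbadN : ∀ q : ℕ, q.Prime → q ∣ N₀ → (q : ℤ) ∣ E.Δ)
    (hf : DatumFacts p W ρbar (insert p E.Δ.natAbs.primeFactors)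
      (fun ℓ => (E.apOfModel ℓ : ResidueField O)) N₀ E)
    {ι : O →+* ℂ} (hι : Function.Injective ι) (hcoef : HasCoefficients ι (raisedLevel E p N₀)) :
    Mlc1IsModularModelOfExactConductorLevel E := by
  classical
  have hp : p.Prime := Fact.out
  set S := insert p E.Δ.natAbs.primeFactors with hSdef
  set abar : ℕ → ResidueField O := fun ℓ => (E.apOfModel ℓ : ResidueField O) with habar
  set L := raisedLevel E p N₀ with hLdef
  have LF := levelFacts (p := p) hp hΔ hdat.squarefree hbadN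
  haveI : NeZero N₀ := ⟨hdat.squarefree.ne_zero⟩
  haveI : NeZero L := ⟨LF.ne_zero⟩
  set V := raisedPrimes E p N₀ with hVdef
  have hVmem : ∀ v ∈ V, v.Prime ∧ (v : ℤ) ∣ E.Δ ∧ ¬ v ∣ N₀ ∧ v ≠ p := fun v hv =>
    (mem_raisedPrimes hΔ).1 hv
  have hVS : ∀ v ∈ V, v.Prime ∧ ¬ v ∣ N₀ ∧ v ≠ p ∧ v ∈ S := fun v hv =>
    ⟨(hVmem v hv).1, (hVmem v hv).2.2.1, (hVmem v hv).2.2.2, Finset.mem_insert_of_mem
      (Nat.mem_primeFactors.2 ⟨(hVmem v hv).1, Int.natCast_dvd.1 (hVmem v hv).2.1,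
        Int.natAbs_ne_zero.2 hΔ⟩)⟩
  have hLS : ∀ q : ℕ, q.Prime → q ∣ L → q ∈ S := fun q hq hd =>
    Finset.mem_insert_of_mem (LF.primeFactors ▸ Nat.mem_primeFactors.2 ⟨hq, hd, LF.ne_zero⟩)
  have hsqN : ∀ q : ℕ, q.Prime → ¬ q ^ 2 ∣ N₀ := fun q hq h =>
    hq.not_isUnit (hdat.squarefree q (by rwa [← sq]))
  have hO := isResAlg_self O
  -- the condition at the minimal level
  obtain ⟨C, good, hC, hpt, hgood, hsel, hCflat, hCord⟩ : ∃ (C : CondAt O) (good : ℕ → Prop),
      IsPairCond ρbar C ∧ PointCond p ρbar C good ∧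
      (∀ M : ℕ, ¬ p ^ 2 ∣ M → (p ∣ M → p ∣ N₀) → good M) ∧
      TWSelmerInput p C W.rb N₀.primeFactors (N₀.primeFactors.erase p) ∅ S ∧
      (¬ p ∣ N₀ → C = flatCond p) ∧ (p ∣ N₀ → C = ordCond p) := by
    by_cases hpN : p ∣ N₀
    · have hd := hf.ordinary (hbadN p hp hpN)
      exact ⟨_, _, hf.ord_pair hd, hf.ord_point hd, fun M h _ => h, hf.selmer_ord hpN,
        fun h => absurd hpN h, fun _ => rfl⟩
    · exact ⟨_, _, hf.flat_pair, hf.flat_point, fun M _ h hM => hpN (h hM), hf.selmer_flat hpN,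
        fun _ => rfl, fun h => absurd h hpN⟩
  -- the minimal system and its lift
  have hcoef₀ : HasCoefficients ι N₀ := hcoef.mono LF.minimal_dvd
  obtain ⟨a₀, ha₀, hres⟩ := hf.systemExists ι hι hcoef₀
  have hN₀S : ∀ q : ℕ, q.Prime → q ∣ N₀ → q ∈ S := fun q hq h =>
    hdat.mem_S_level q hq h
  obtain ⟨r₀, hr₀, hatt₀⟩ := hf.typeLift C good hC hpt ι hι N₀ hN₀S
    (fun q hq _ _ => hsqN q hq)
    (fun M hM => hgood M (fun h => hsqN p hp (h.trans hM)) fun h => h.trans hM) hO a₀ ha₀ hres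
  obtain ⟨η, hη, hcong₀, hlift₀⟩ :=
    hf.minimal C good hC hpt hgood hsel ι hι a₀ r₀ hO ha₀ hr₀ hatt₀
  -- the classical inequality
  have hne : ∀ v : ℕ, v.Prime → ¬ v ∣ N₀ → a₀ v ^ 2 ≠ ((v : O) + 1) ^ 2 := by
    intro v hv hvN h
    obtain ⟨M, _, g, hg, hM, hq⟩ := ha₀
    refine Lift.qCoeff_sq_ne hv (fun hd => hvN (hd.trans hM)) hg.1 ?_
    rw [hq v hv fun hd => hvN (hd.trans hM), ← map_pow, h, map_pow, map_add, map_natCast,
      map_one]
  -- the bounds at the unramified bad primes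
  set P : O := ∏ v ∈ V, ((v : O) - 1) * (((v : O) + 1) ^ 2 - a₀ v ^ 2) with hP
  have hP0 : P ≠ 0 := Finset.prod_ne_zero_iff.2 fun v hv => mul_ne_zero
    (sub_ne_zero.2 (by exact_mod_cast (hVmem v hv).1.one_lt.ne'))
    (sub_ne_zero.2 (Ne.symm (hne v (hVmem v hv).1 (hVmem v hv).2.2.1)))
  have hcongR : CongruenceBound S (N₀ * ∏ v ∈ V, v ^ 2) a₀ (η * P) :=
    congruenceBound_prod hf.squareStep hι (NeZero.ne N₀) hN₀S ha₀ hres hcong₀ V hVS
  have hboundR : LiftBound p W C (N₀.primeFactors ∪ V) N₀.primeFactors r₀ (η * P) :=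
    hf.sigmaBound C hC _ _ V r₀ hO a₀ η hr₀
      (Finset.disjoint_left.2 fun v hv h => (hVmem v hv).2.2.1 (Nat.dvd_of_mem_primeFactors h))
      (fun h => (hVmem p h).2.2.2 rfl) (fun v hv => (hVmem v hv).1)
      (fun v hv A hA σ hσ => hatt₀ v (hVmem v hv).1
        (fun h => (Finset.mem_insert.1 h).elim (hVmem v hv).2.2.2
          fun h => (hVmem v hv).2.2.1 (Nat.dvd_of_mem_primeFactors h)) A hA σ hσ)
      (fun v hv => hne v (hVmem v hv).1 (hVmem v hv).2.2.1) hη hlift₀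
  -- the primes of the raised level
  have hTL : ∀ ℓ ∈ N₀.primeFactors, ℓ.Prime → ℓ ≠ p → ℓ ∈ L.primeFactors := fun ℓ h hℓ _ =>
    Nat.mem_primeFactors.2 ⟨hℓ, (Nat.dvd_of_mem_primeFactors h).trans LF.minimal_dvd, LF.ne_zero⟩
  have hLT : ∀ ℓ ∈ L.primeFactors, ℓ.Prime → ℓ ≠ p → ℓ ∈ N₀.primeFactors ∪ V := by
    intro ℓ h hℓ hℓp
    rw [LF.primeFactors] at h
    by_cases hN : ℓ ∣ N₀
    · exact Finset.mem_union_left _ (Nat.mem_primeFactors.2 ⟨hℓ, hN, NeZero.ne N₀⟩)
    · exact Finset.mem_union_right _ ((mem_raisedPrimes hΔ).2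
        ⟨hℓ, Int.natCast_dvd.2 (Nat.dvd_of_mem_primeFactors h), hN, hℓp⟩)
  -- the condition and the bounds at the raised level
  obtain ⟨C', good', D, hC', hpt', hgood', hD, hcongL, hboundL, hr₀L, hC'flat, hC'ord⟩ :
      ∃ (C' : CondAt O) (good' : ℕ → Prop) (D : O), IsPairCond ρbar C' ∧
        PointCond p ρbar C' good' ∧ (∀ M : ℕ, M ∣ L → good' M) ∧ D ≠ 0 ∧
        CongruenceBound S L a₀ D ∧ LiftBound p W C' L.primeFactors N₀.primeFactors r₀ D ∧
        IsTypeLift p W C' L.primeFactors N₀.primeFactors hO r₀ ∧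
        (E.IsGoodPrimeFor p → C' = flatCond p) ∧ (¬ E.IsGoodPrimeFor p → C' = ordCond p) := by
    by_cases hstep : p ∣ E.Δ.natAbs ∧ ¬ p ∣ N₀
    · -- flat at the minimal level, ordinary at the raised level
      obtain ⟨hpΔ, hpN⟩ := hstep
      obtain rfl := hCflat hpN
      have hd := hf.ordinary (Int.natCast_dvd.2 hpΔ)
      have hordC := hf.ord_pair hd
      have hequiv : (toRep r₀ hr₀.cont).residual.IsEquiv ρbar :=
        residual_isEquiv hdat.rb_eq hr₀.cont hr₀.lifts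
      obtain ⟨hord, α, hαu, hαeq, hroot⟩ := hunit O hdat.p_mem ι hι N₀ a₀ (toRep r₀ hr₀.cont) hpN
        ha₀ (isAbsolutelyIrreducible_of_isEquiv hequiv hdat.irreducible)
        (isDistinguishedOrdinary_of_isEquiv hordC (Nonempty.map (fun e => e.symm) hequiv) hd)
        hr₀.det fun ℓ hℓ hℓp hℓN A hA σ hσ => by
          rw [trace_toRep]
          exact hatt₀ ℓ hℓ (fun h => (Finset.mem_insert.1 h).elim hℓp
            fun h => hℓN (Nat.dvd_of_mem_primeFactors h)) A hA σ hσ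
      have hα : α ^ 2 ≠ 1 := fun h => hne p hp hpN <| by
        linear_combination (-(a₀ p ^ 2) + (a₀ p * α + (p : O) + 1)) * h -
          (a₀ p * α + (p : O) + 1) * hαeq
      have hroot' : IsOrdinaryRoot p r₀ α := by
        simpa only [matOf_stdBasis] using hroot (stdBasis r₀ hr₀.cont)
      have hηP : η * P ≠ 0 := mul_ne_zero hη hP0
      haveI : NeZero (N₀ * ∏ v ∈ V, v ^ 2) :=
        ⟨mul_ne_zero (NeZero.ne N₀) (prod_sq_ne_zero fun v hv => (hVmem v hv).1)⟩
      have hpV : ¬ p ∣ N₀ * ∏ v ∈ V, v ^ 2 := fun h => by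
        rcases hp.dvd_mul.1 h with h | h
        · exact hpN h
        · exact (hVmem p ((dvd_prod_sq_iff hp fun v hv => (hVmem v hv).1).1 h)).2.2.2 rfl
      have hLeq : N₀ * (∏ v ∈ V, v ^ 2) * p = L := by
        rw [hLdef, raisedLevel_eq, if_pos ⟨hpΔ, hpN⟩]
      refine ⟨ordCond p, _, η * P * (α ^ 2 - 1), hordC, hf.ord_point hd,
        fun M hM h => LF.not_p_sq (h.trans hM), mul_ne_zero hηP (sub_ne_zero.2 hα), ?_, ?_, ?_,
        fun h => absurd (Int.natCast_dvd.2 hpΔ) h, fun _ => rfl⟩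
      · have h := hf.pStep ι hι (N₀ * ∏ v ∈ V, v ^ 2) a₀ (η * P) α hpV (Finset.mem_insert_self _ _)
          (fun q hq h => hLS q hq (h.trans (Dvd.intro _ hLeq))) hαu hαeq
          (ha₀.mono (Dvd.intro _ rfl)) hres hcongR
        rwa [hLeq] at h
      · refine (hf.pBound hd hf.flat_pair hordC (N₀.primeFactors ∪ V) N₀.primeFactors r₀ hO α
          (η * P) (hr₀.mono fun ℓ h _ _ => Finset.mem_union_left _ h) hroot' hα hηP hboundR).mono hLT
      · exact (hr₀.mono hTL).of_cond hord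
    · -- the same condition
      have hQ : (if p ∣ E.Δ.natAbs ∧ ¬ p ∣ N₀ then p else 1) = 1 := if_neg hstep
      have hLeq : N₀ * (∏ v ∈ V, v ^ 2) = L := by
        rw [hLdef, raisedLevel_eq, hQ, mul_one]
      refine ⟨C, good, η * P, hC, hpt, fun M hM => hgood M (fun h => LF.not_p_sq (h.trans hM))
        (fun h => ?_), mul_ne_zero hη hP0, hLeq ▸ hcongR, hboundR.mono hLT, hr₀.mono hTL, ?_, ?_⟩
      · by_contra hpN
        exact hstep ⟨Nat.dvd_of_mem_primeFactors (LF.primeFactors ▸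
          Nat.mem_primeFactors.2 ⟨hp, h.trans hM, LF.ne_zero⟩), hpN⟩
      · exact fun h => hCflat fun hd => h (hbadN p hp hd)
      · intro h
        refine hCord ?_
        by_contra hpN
        exact hstep ⟨Int.natCast_dvd.1 (not_not.1 h), hpN⟩
  -- the lift of the curve
  obtain ⟨r₁, hr₁, hatt₁⟩ := hf.curveLift C' hO hC'flat hC'ord
  rw [← LF.primeFactors] at hr₁ hatt₁
  have hlifts : HasTypeLifts p W S abar ι C' N₀ L :=
    hf.typeLift C' good' hC' hpt' ι hι L hLS LF.not_sq_of_dvd_minimal hgood'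
  -- an auxiliary prime
  obtain ⟨ℓ, hℓ, hℓS, hℓ1, hℓ2⟩ := hdat.aux (L * p) (mul_ne_zero LF.ne_zero hp.ne_zero)
  have hℓp : (ℓ : ResidueField O) = 1 := by
    have h1 : ((ℓ - 1 : ℕ) : ResidueField O) = 0 :=
      (CharP.cast_eq_zero_iff _ p _).2 ((dvd_mul_left p L).trans hℓ1)
    rwa [Nat.cast_sub hℓ.one_le, Nat.cast_one, sub_eq_zero] at h1
  have haux : ∃ l : ℕ, l.Prime ∧ l ∉ S ∧ L ∣ l - 1 ∧ abar l ≠ 1 + (l : ResidueField O) :=
    ⟨ℓ, hℓ, hℓS, (dvd_mul_right L p).trans hℓ1, by rw [hℓp, one_add_one_eq_two]; exact hℓ2⟩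
  obtain ⟨M, g, hg, hML, hgq⟩ := exists_newform_of_bounds hfaith hf.galoisAlgebra hC'
    LF.minimal_dvd hLS haux hι hcoef hlifts hr₀L
    (fun l hl h => hatt₀ l hl fun h' => h ((Finset.mem_insert.1 h').elim
      (fun e => e ▸ Finset.mem_insert_self _ _)
      fun e => Finset.mem_insert_of_mem (Nat.mem_primeFactors.2
        ⟨hl, (Nat.dvd_of_mem_primeFactors e).trans LF.minimal_dvd, LF.ne_zero⟩)))
    hr₁ hatt₁ hres hD hcongL hboundL
  haveI : NeZero M := ⟨fun h => LF.ne_zero (Nat.eq_zero_of_zero_dvd (h ▸ hML))⟩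
  exact exact_of_newform h35 h36 hΔ hss hdat.p_ne_two hirr hg hML hLS LF.not_p_sq LF.not_cube
    fun l hl hlS => by rw [hgq l hl hlS, map_intCast]

/-- Every residual datum of a curve has the facts. -/
def DatumProperty : Prop :=
  ∀ (p : ℕ) [Fact p.Prime], (p = 3 ∨ p = 5) →
  ∀ (O : Type) [CommRing O] [IsDomain O] [IsDiscreteValuationRing O]
    [IsAdicComplete (maximalIdeal O) O] [Finite (ResidueField O)] [CharZero O]
    [CharP (ResidueField O) p] (W : Rigid O) (ρbar : ResidualGaloisRep (ResidueField O))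
    (bb : Basis (Fin 2) (ResidueField O) ρbar.V) (N₀ : ℕ) (E : WeierstrassCurve ℤ) (hΔ : E.Δ ≠ 0),
    E.IsSemistableModel → E.ModRepIsIrreducible p →
    IsResidualDatum p W ρbar bb (insert p E.Δ.natAbs.primeFactors)
      (fun ℓ => (E.apOfModel ℓ : ResidueField O)) N₀ →
    IsResidualOf E hΔ p W → (∀ q : ℕ, q.Prime → q ∣ N₀ → (q : ℤ) ∣ E.Δ) →
    (p ∣ N₀ → IsTresRamified p ρbar) →
    DatumFacts p W ρbar (insert p E.Δ.natAbs.primeFactors)
      (fun ℓ => (E.apOfModel ℓ : ResidueField O)) N₀ E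

/-- Modularity lifting from a squarefree residual level, from the pieces. -/
theorem liftingSquarefree_of_pieces (hsetup : SetupProperty) (hdatum : DatumProperty)
    (hfaith : FaithfulProperty) (hunit : ∀ p : ℕ, p.Prime → UnitRootProperty p)
    (h35 : NewformRepInput) (h36 : NewformCarayolInput) : Top.LiftingSquarefreeInput := by
  intro p hp E hΔ hss hirr M₀ _ hres hsq hgood htres
  haveI : Fact p.Prime := ⟨by rcases hp with rfl | rfl <;> norm_num⟩
  obtain ⟨O, _, _, _, _, _, _, _, W, ρbar, bb, N₀, ι, hι, hdat, hof, hcoef, hbad, htr⟩ :=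
    hsetup p hp E hΔ hss hirr M₀ hres hsq hgood fun h hd => by
      subst h
      exact htres rfl hd
  exact modular_of_datum hfaith h35 h36 (hunit p Fact.out) hΔ hss hirr hdat hbad
    (hdatum p hp O W ρbar bb N₀ E hΔ hss hirr hdat hof hbad htr) hι hcoef

end Fermat.Agent.RT.Lifting
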