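import Fermat.Agent.RT.GammaH.Boundary

/-!
# The boundary at a prime congruent to `1` modulo the level

For any level `L` and a prime `ℓ ≡ 1 (mod L)` the operator `T_ℓ` is multiplication by `ℓ + 1` at
every cusp, hence `T_ℓ - 1 - ℓ` maps every homomorphism to a parabolic one.
-/

set_option autoImplicit false

noncomputable section

namespace Fermat.Agent.RT.Lifting

open CongruenceSubgroup Matrix.SpecialLinearGroup MvPolynomial ModularCurve.Period
open Fermat.Agent.RT.GammaH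
open scoped MatrixGroups

variable {L : ℕ} {K : Subgroup (ZMod L)ˣ}

/-- The value of `T_ℓ φ` at a parabolic element, for `ℓ ≡ 1 (mod L)`. -/
theorem hecke_cusp_of_congr_one {ℓ : ℕ} [hℓ : Fact ℓ.Prime] (hℓL : ¬ ℓ ∣ L)
    (h1 : (L : ℤ) ∣ (ℓ : ℤ) - 1) (R : Type) [Semiring R] (A : Type) [AddCommGroup A] [Module R A]
    (φ : Additive (gammaH L K) →+ A) (g : SL(2, ℤ))
    (hX : g * ModularGroup.T ^ (L : ℤ) * g⁻¹ ∈ gammaH L K) :
    hecke L K ℓ R φ (Additive.ofMul ⟨_, hX⟩) =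
      diamond L K R 1 φ (Additive.ofMul ⟨_, hX⟩) +
        ℓ • diamond L K R 1 φ (Additive.ofMul ⟨_, hX⟩) := by
  have hℓ0 : (ℓ : ℤ) ≠ 0 := Int.natCast_ne_zero.2 hℓ.out.ne_zero
  obtain ⟨k, hk⟩ := h1
  set rep : Option (Fin ℓ) → GLR := fun i => mapGL ℝ (gamma0Elt (1 : (ZMod L)ˣ)⁻¹) *
    (mapGL ℝ g * cuspBeta (L : ℤ) 0 0 hℓ0 i * (mapGL ℝ g)⁻¹) with hrep
  have hcast : ∀ E D : ℤ, (L : ℤ) ∣ D - 1 → (L : ℤ) ∣ E - D →
      (E : ZMod L) = ((1 : (ZMod L)ˣ) : ZMod L) := fun E D hD hE => by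
    have h := (ZMod.intCast_eq_intCast_iff_dvd_sub 1 E L).2 (by simpa using dvd_add hE hD)
    simpa using h.symm
  have hmem : ∀ i, rep i ∈ heckeSet L K ℓ := by
    intro i
    rcases i with _ | j
    · exact cuspRep_mem (d := 1) (d' := (L : ℤ)) (one_mul _).symm (one_dvd _)
        (by simpa using hℓ0) (mul_one _)
        ⟨g 1 1 * k, by linear_combination (g 1 1) * hk⟩
        fun E _ hE => hcast E 1 (by simp) hE
    · exact cuspRep_mem (d := 1) (d' := (L : ℤ)) (one_mul _).symm (one_dvd _)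
        (by simpa using hℓ0) (one_mul _)
        ⟨-(g 1 1 * k) - g 1 0 * (j : ℕ), by linear_combination -(g 1 1) * hk⟩
        fun E _ hE => hcast E ℓ ⟨k, hk⟩ hE
  have hℓw : IsCoprime (ℓ : ℤ) (L : ℤ) :=
    Nat.isCoprime_iff_coprime.2 ((Nat.Prime.coprime_iff_not_dvd hℓ.out).2 hℓL)
  have hinj : ∀ i i', rep i * (rep i')⁻¹ ∈ img (gammaH L K) → i = i' := by
    intro i i' hm
    obtain ⟨γ, -, hγ⟩ := hm
    refine cuspBeta_injective (B₀ := 0) (B₁ := 0) (hℓ0 := hℓ0) hℓw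
      (H := g⁻¹ * (gamma0Elt (1 : (ZMod L)ˣ)⁻¹)⁻¹ * γ * gamma0Elt (1 : (ZMod L)ˣ)⁻¹ * g) ?_
    rw [map_mul, map_mul, map_mul, map_mul, map_inv, map_inv, hγ, hrep]
    group
  have hreps : IsReps (gammaH L K) (heckeSet L K ℓ) rep :=
    isReps_hRep.of_card hmem hinj (by
      rw [Nat.card_eq_fintype_card, card_hIdx hℓL, Nat.card_eq_fintype_card, Fintype.card_option,
        Fintype.card_fin])
  have hadm : Admissible (gammaH L K) (gammaH L K) rep :=
    hreps.admissible fun _ hz γ => heckeSet_mul_gammaH hz γ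
  have hval : ∀ i, rep i * mapGL ℝ (g * ModularGroup.T ^ (L : ℤ) * g⁻¹) *
      (rep (i.map (finRotate ℓ)))⁻¹ = mapGL ℝ (gamma0Elt (1 : (ZMod L)ˣ)⁻¹ *
        (g * ModularGroup.T ^ ((L : ℤ) * cuspEps ℓ i) * g⁻¹) *
          (gamma0Elt (1 : (ZMod L)ˣ)⁻¹)⁻¹) := fun i => by
    simp only [hrep, map_mul, map_inv, mul_assoc, inv_mul_cancel_left, mul_inv_rev, inv_inv]
    rw [← mul_assoc (cuspBeta (L : ℤ) 0 0 hℓ0 i), cuspBeta_mul_T]
    simp [mul_assoc]
  have hperm : IsPerm (gammaH L K) rep (mapGL ℝ (g * ModularGroup.T ^ (L : ℤ) * g⁻¹))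
      (fun i => i.map (finRotate ℓ)) := by
    refine ⟨Finite.injective_iff_bijective.1 (Option.map_injective (finRotate ℓ).injective),
      fun i => ?_⟩
    rw [hval]
    refine mapGL_mem_img.2 (gammaH_conj (gamma0Elt_mem _) ?_)
    rw [zpow_mul, ← conj_zpow]
    exact Subgroup.zpow_mem _ hX _
  refine (DFunLike.congr_fun (LinearMap.congr_fun (hecke_eq_opOf R hadm hreps) φ) _).trans ?_
  refine (opOf_apply_of_isPerm hadm φ ⟨_, hX⟩ hperm).trans ?_
  refine (Finset.sum_congr rfl fun i _ => (congrArg (onImg φ) (hval i)).trans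
    (onImg_conj_T R φ hX 1 (cuspEps ℓ i))).trans ?_
  rw [Fintype.sum_option, add_comm]
  refine congrArg₂ (· + ·) ?_ (natCast_zsmul _ _)
  have hlast : ℓ - 1 < ℓ := Nat.sub_lt hℓ.out.pos one_pos
  rw [Finset.sum_eq_single ⟨ℓ - 1, hlast⟩]
  · simp [cuspEps, show ℓ - 1 + 1 = ℓ by omega]
  · intro j _ hj
    have : (j : ℕ) + 1 ≠ ℓ := fun h => hj (Fin.ext (by simp; omega))
    simp [cuspEps, this]
  · simp

variable {O : Type} [CommRing O] [IsLocalRing O] (S : Finset ℕ)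
  (abar : ℕ → IsLocalRing.ResidueField O)

/-- An operator outside the residual ideal sending every homomorphism to a parabolic one, at any
level. -/
theorem exists_parabolicOp_of_congr [NeZero L] (hneg : -1 ∈ K) {ℓ : ℕ} (hℓ : ℓ.Prime)
    (hℓS : ℓ ∉ S) (hℓL : ¬ ℓ ∣ L) (h1 : L ∣ ℓ - 1)
    (hEis : abar ℓ ≠ 1 + (ℓ : IsLocalRing.ResidueField O)) :
    ∃ P : OpRing O L S, P ∉ resIdeal S abar L ∧
      ∀ (A : Type) [AddCommGroup A] [Module O A] [IsAddTorsionFree A] (φ : HomMod O S K A),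
        IsParabolicHom (gammaH L K) (toHomMod.symm (P • φ)) := by
  have : Fact ℓ.Prime := ⟨hℓ⟩
  have h1' : (L : ℤ) ∣ (ℓ : ℤ) - 1 := by
    have := Int.natCast_dvd_natCast.2 h1
    rwa [Nat.cast_sub hℓ.one_le, Nat.cast_one] at this
  refine ⟨X (Sum.inr ⟨ℓ, hℓ, hℓS⟩) - X (Sum.inl 1) - (ℓ : OpRing O L S) * X (Sum.inl 1), ?_,
    fun A _ _ _ φ => isParabolicHom_of_cusps hneg fun g hg => ?_⟩
  · rw [mem_resIdeal, map_sub, map_sub, map_mul, map_natCast, opRes_inl, opRes_inr, mul_one,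
      sub_sub, sub_eq_zero]
    exact hEis
  · have hF : (X (Sum.inr ⟨ℓ, hℓ, hℓS⟩) - X (Sum.inl 1) -
        (ℓ : OpRing O L S) * X (Sum.inl 1) : OpRing O L S) • φ =
        (toHomMod (hecke L K ℓ O φ - diamond L K O 1 φ - ℓ • diamond L K O 1 φ) :
          HomMod O S K A) := by
      simp only [sub_smul, mul_smul]
      rw [Nat.cast_smul_eq_nsmul (OpRing O L S), X_inr_smul, X_inl_smul]
      rfl
    rw [hF]
    show (hecke L K ℓ O φ - diamond L K O 1 φ - ℓ • diamond L K O 1 φ)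
      (Additive.ofMul ⟨_, hg⟩) = 0
    rw [AddMonoidHom.sub_apply, AddMonoidHom.sub_apply,
      hecke_cusp_of_congr_one hℓL h1' O A φ g hg]
    simp

end Fermat.Agent.RT.Lifting
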