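import Fermat.Agent.RT.Lifting.Boundary
import Fermat.Agent.RT.GammaH.EigenForm
import Fermat.Agent.RT.GammaH.EigenVector

/-!
# From a character of the localised operators to a newform

A character of the operators which kills what kills the localised classes of level `L` is the
eigensystem of a newform of level dividing `L`. No condition on `L` is needed.
-/

set_option autoImplicit false

noncomputable section

namespace Fermat.Agent.RT.Lifting

open CongruenceSubgroup MvPolynomial IsLocalRing ModularFormClass ModularCurve.Period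
open Fermat.Agent.RT.GammaH
open Fermat.Agent.HeckeDuality (eulerWeight)
open scoped MatrixGroups ModularForm

variable {L : ℕ} [NeZero L]

/-- A form with trivial nebentype as a form on `Γ₀(L)`. -/
def toGamma0 (f : FormH L (⊤ : Subgroup (ZMod L)ˣ)) (hf : IsChiForm (1 : (ZMod L)ˣ →* ℂˣ) f) :
    CuspForm (Gamma0 L) 2 :=
  DeligneSerre.mkCuspForm (Gamma0 L) 2 f
    (fun γ hγ => by
      rw [slash_eq_of_mem_gamma0 hf hγ
          (u := (DeligneSerre.isUnit_lowerRight hγ).unit) (IsUnit.unit_spec _).symm,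
        MonoidHom.one_apply, Units.val_one, one_smul])
    (CuspFormClass.holo f) fun γ => CuspFormClass.zero_at_infty_slash f γ

@[simp] theorem coe_toGamma0 (f : FormH L (⊤ : Subgroup (ZMod L)ˣ))
    (hf : IsChiForm (1 : (ZMod L)ˣ →* ℂˣ) f) : ⇑(toGamma0 f hf) = ⇑f := rfl

theorem toDir_one_natCast {ℓ : ℕ} (hℓ : ℓ.Prime) :
    toDir (1 : (ZMod L)ˣ →* ℂˣ) (ℓ : ZMod L) * ℓ = eulerWeight L ℓ := by
  unfold eulerWeight
  by_cases h : ℓ ∣ L
  · rw [if_pos h, MulChar.map_nonunit _ fun hu => hℓ.coprime_iff_not_dvd.1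
      ((ZMod.isUnit_iff_coprime ℓ L).1 hu) h, zero_mul]
  · have hu : IsUnit (ℓ : ZMod L) :=
      (ZMod.isUnit_iff_coprime ℓ L).2 (hℓ.coprime_iff_not_dvd.2 h)
    rw [if_neg h, ← hu.unit_spec, toDir_coe, MonoidHom.one_apply, Units.val_one, one_mul]

variable {O : Type} [CommRing O] [IsDomain O] [IsDiscreteValuationRing O] [Algebra O ℂ]
  {S : Finset ℕ} {abar : ℕ → ResidueField O}

/-- The newform of a character of the localised operators. -/
theorem exists_newform_of_character (hS : ∀ v : ℕ, v.Prime → v ∣ L → v ∈ S)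
    (hinj : Function.Injective (algebraMap O ℂ))
    (haux : ∃ ℓ : ℕ, ℓ.Prime ∧ ℓ ∉ S ∧ L ∣ ℓ - 1 ∧ abar ℓ ≠ 1 + (ℓ : ResidueField O))
    {e : OpRing O L S}
    (he : IsLocalizer (resIdeal S abar L) (HomMod O S (⊤ : Subgroup (ZMod L)ˣ) O) e)
    (θ : OpRing O L S →ₐ[O] ℂ)
    (hθ : ∀ a, localAct O e (HomMod O S (⊤ : Subgroup (ZMod L)ˣ) O) a = 0 → θ a = 0) :
    ∃ (M : ℕ) (g : CuspForm (Gamma0 M) 2), g.IsNewform ∧ M ∣ L ∧
      ∀ i : {ℓ : ℕ // ℓ.Prime ∧ ℓ ∉ S}, qCoeff g i.1 = θ (X (Sum.inr i)) := by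
  have hneg : (-1 : (ZMod L)ˣ) ∈ (⊤ : Subgroup (ZMod L)ˣ) := Subgroup.mem_top _
  obtain ⟨ℓ, hℓp, hℓS, hℓ1, hℓ⟩ := haux
  obtain ⟨P, hP, hpar⟩ := exists_parabolicOp_of_congr (K := (⊤ : Subgroup (ZMod L)ˣ)) S abar hneg
    hℓp hℓS (fun h => hℓS (hS ℓ hℓp h)) hℓ1 hℓ
  obtain ⟨φ, hφ0, hφ, heig⟩ := exists_eigvec hinj he hP (hpar ℂ) θ hθ
  have hdia : ∀ u, diamond L ⊤ ℂ u φ = ((1 : (ZMod L)ˣ →* ℂˣ) u : ℂ) • φ := fun u => by
    rw [MonoidHom.one_apply, Units.val_one, one_smul]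
    exact diamond_top ℂ u φ
  set a : ℕ → ℂ := fun l => if h : l.Prime ∧ l ∉ S then θ (X (Sum.inr ⟨l, h⟩)) else 0 with ha
  obtain ⟨f, lam, hf, hf1, hseq, -, hla⟩ := exists_eigenForm (S := S) (a := a) hneg hφ hφ0 hdia
    fun l _ hlS => by
      have h := heig (X (Sum.inr ⟨l, Fact.out, hlS⟩))
      rw [opC_inr] at h
      rw [h, ha]
      simp only [dif_pos (⟨Fact.out, hlS⟩ : l.Prime ∧ l ∉ S)]
  set G := toGamma0 f hf with hGdef
  have hcoe : ∀ n, qCoeff G n = qCoeff f n := fun _ => rfl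
  have hG1 : qCoeff G 1 = 1 := (hcoe 1).trans hf1
  have hne : G ≠ 0 := fun h => by
    rw [h] at hG1
    exact zero_ne_one
      ((((Newforms.coeffLin (N := L) (k := 2) 1).map_zero).symm).trans hG1)
  have hG : G.IsNormalizedEigenform := by
    have h := HeckeDuality.isNormalizedEigenform_of_eigen hne lam fun q hq =>
      (Newforms.hOp_eq_smul_iff hq G _).2 fun n => by
        simp only [hcoe]
        have := hseq q hq n
        rwa [nebWeight, toDir_one_natCast hq] at this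
    simpa [hG1] using h.2.1
  obtain ⟨M, g, hML, hg, hgf⟩ := Newforms.exists_newform hG
  refine ⟨M, g, hg, hML, fun i => ?_⟩
  rw [hgf i.1 i.2.1 fun h => i.2.2 (hS i.1 i.2.1 h), hcoe]
  have h := hseq i.1 i.2.1 1
  rw [if_neg i.2.1.not_dvd_one, hf1, one_mul, add_zero, mul_one, hla i.1 i.2.1 i.2.2] at h
  rw [h, ha]
  simp only [dif_pos i.2]

end Fermat.Agent.RT.Lifting
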