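import Fermat.Agent.RT.Lifting.Transfer
import Fermat.Agent.RT.Lifting.EigenClass

/-!
# Applying the numerical criterion at a raised level

From equal bounds on the congruences and on the lifts at a level `L`, every lift of that level and
type is modular.
-/

set_option autoImplicit false
set_option linter.style.haveILetI false
set_option linter.unusedSectionVars false

noncomputable section

namespace Fermat.Agent.RT.Lifting

open IsLocalRing Module MvPolynomial CongruenceSubgroup ModularFormClass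
open Fermat.Agent.Deform Fermat.Agent.Arith Fermat.Agent.RT.GammaH Fermat.Agent.RT.Assembly

variable {O : Type} [CommRing O] [IsDomain O] [IsDiscreteValuationRing O]
  [IsAdicComplete (maximalIdeal O) O] [Finite (ResidueField O)] [CharZero O]

/-- A lift of the type of `r₀` at level `L` is modular once the bounds agree. -/
theorem exists_newform_of_bounds (hfaith : FaithfulProperty) {p : ℕ} {W : Rigid O}
    {ρbar : ResidualGaloisRep (ResidueField O)} {S : Finset ℕ} {abar : ℕ → ResidueField O}
    {N₀ L : ℕ} [NeZero L] (hGA : GaloisAlgebraProperty p W ρbar S abar N₀) {C : CondAt O}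
    (hC : IsPairCond ρbar C) (hN₀ : N₀ ∣ L) (hLS : ∀ q : ℕ, q.Prime → q ∣ L → q ∈ S)
    (haux : ∃ ℓ : ℕ, ℓ.Prime ∧ ℓ ∉ S ∧ L ∣ ℓ - 1 ∧ abar ℓ ≠ 1 + (ℓ : ResidueField O))
    {ι : O →+* ℂ} (hι : Function.Injective ι) (hcoef : HasCoefficients ι L)
    (hlifts : HasTypeLifts p W S abar ι C N₀ L) {hO : IsResAlg O O} {a₀ a₁ : ℕ → O}
    {r₀ r₁ : Gal →* M2 O}
    (h₀ : IsTypeLift p W C L.primeFactors N₀.primeFactors hO r₀)
    (ha₀ : IsAttachedSystem (insert p L.primeFactors) r₀ a₀)
    (h₁ : IsTypeLift p W C L.primeFactors N₀.primeFactors hO r₁)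
    (ha₁ : IsAttachedSystem (insert p L.primeFactors) r₁ a₁)
    (hres : IsResidualSystem S abar a₀) {D : O} (hD : D ≠ 0) (hcong : CongruenceBound S L a₀ D)
    (hbound : LiftBound p W C L.primeFactors N₀.primeFactors r₀ D) :
    ∃ (M : ℕ) (g : CuspForm (Gamma0 M) 2), g.IsNewform ∧ M ∣ L ∧
      ∀ ℓ : ℕ, ℓ.Prime → ℓ ∉ S → qCoeff g ℓ = ι (a₁ ℓ) := by
  classical
  haveI : (resIdeal S abar L).IsMaximal :=
    RingHom.ker_isMaximal_of_surjective _ (opRes_surjective (S := S) (abar := abar) (L := L))
  obtain ⟨e, he⟩ := exists_isLocalizer (O := O) (resIdeal S abar L) (Classes O S L)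
  obtain ⟨R, _, _, _, _, _, x₀, x₁, t, act, hR, hgen, hact, hx₀, hx₁, hder⟩ :=
    hGA C hC ι hι L hN₀ hLS hcoef hlifts hO a₀ a₁ r₀ r₁ h₀ ha₀ h₁ ha₁ e he
  set P := localPart O e (Classes O S L) with hPdef
  haveI : Module.Finite O P :=
    Module.Finite.of_injective P.subtype Subtype.val_injective
  letI : Module R P := Module.compHom P act.toRingHom
  have hsmul : ∀ (r : R) (m : P), r • m = act r m := fun _ _ => rfl
  haveI : IsScalarTower O R P := ⟨fun c r m => by rw [hsmul, hsmul, map_smul]; rfl⟩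
  obtain ⟨u₀, hu₀, ⟨γ, hγ⟩, hu₀φ⟩ := hcong
  set u : P := ⟨u₀, smul_eq_self_of_mem_eigVec hres he hu₀⟩ with hu
  -- `u` is an eigen element
  have heig : ∀ r : R, r • u = x₀ r • u := by
    intro r
    have hr : r ∈ Algebra.adjoin O (Set.range t) := by rw [hgen]; trivial
    induction hr using Algebra.adjoin_induction with
    | mem y hy =>
      obtain ⟨i, rfl⟩ := hy
      refine Subtype.ext ?_
      rw [hsmul, hact, coe_localAct_apply, hx₀]
      exact hu₀ i
    | algebraMap c => rw [algebraMap_smul, AlgHom.commutes]; rfl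
    | add y z _ _ hy hz => rw [add_smul, hy, hz, map_add, add_smul]
    | mul y z _ _ hy hz => rw [mul_smul, hz, smul_comm, hy, smul_smul, map_mul, mul_comm]
  -- `u` is primitive
  have hprim : u ∉ maximalIdeal O • (⊤ : Submodule O P) := by
    intro hmem
    refine (mem_maximalIdeal (u₀ γ)).1 ?_ hγ
    refine Submodule.smul_induction_on (p := fun x : P => (x : Classes O S L) γ ∈ maximalIdeal O)
      hmem (fun c hc x _ => ?_) fun x y hx hy => ?_
    · show c • (x : Classes O S L) γ ∈ _
      exact Ideal.mul_mem_right _ _ hc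
    · show (x : Classes O S L) γ + (y : Classes O S L) γ ∈ _
      exact add_mem hx hy
  -- eigen functionals
  have hφD : ∀ φ : P →ₗ[O] O, (∀ (r : R) (m : P), φ (r • m) = x₀ r * φ m) → D ∣ φ u := by
    intro φ hφ
    let π : Classes O S L →ₗ[O] P :=
      { toFun := fun v => ⟨e • v, he.smul_self_mem v⟩
        map_add' := fun v w => Subtype.ext (smul_add e v w)
        map_smul' := fun c v => Subtype.ext (smul_comm e c v) }
    have hπ : π u₀ = u := Subtype.ext (smul_eq_self_of_mem_eigVec hres he hu₀)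
    rw [← hπ]
    refine hu₀φ (φ.comp π) fun i v => ?_
    show φ (π ((X (Sum.inr i) : OpRing O L S) • v)) = a₀ i.1 * φ (π v)
    have hv : π ((X (Sum.inr i) : OpRing O L S) • v) = t i • π v := Subtype.ext (by
      rw [hsmul, hact, coe_localAct_apply]
      exact smul_comm e (X (Sum.inr i) : OpRing O L S) v)
    rw [hv, hφ, hx₀]
  -- the action is faithful
  have hinj : ∀ r : R, (∀ m : P, r • m = 0) → r = 0 :=
    hfaith O R hR P x₀ D hD (hder D hbound) u heig hprim hφD
  -- the character of the second lift kills what kills the localised classes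
  set θ₁ : OpRing O L S →ₐ[O] R := aeval (Sum.elim (fun _ => 1) t) with hθ₁
  have hcomp : act.comp θ₁ = localAct O e (Classes O S L) := by
    refine MvPolynomial.algHom_ext fun i => ?_
    rw [AlgHom.comp_apply, hθ₁, aeval_X]
    rcases i with v | i
    · rw [Sum.elim_inl, map_one]
      refine LinearMap.ext fun m => Subtype.ext ?_
      rw [coe_localAct_apply, X_inl_smul]
      exact (diamond_top O v _).symm
    · exact hact i
  letI : Algebra O ℂ := ι.toAlgebra
  let j : O →ₐ[O] ℂ := Algebra.ofId O ℂ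
  obtain ⟨M, g, hg, hML, hgθ⟩ := exists_newform_of_character hLS hι haux he
    ((j.comp x₁).comp θ₁) fun a ha => by
      have h0 : θ₁ a = 0 := hinj _ fun m => by
        rw [hsmul, ← AlgHom.comp_apply, hcomp, ha]
        rfl
      rw [AlgHom.comp_apply, h0, map_zero]
  refine ⟨M, g, hg, hML, fun ℓ hℓ hℓS => ?_⟩
  rw [hgθ ⟨ℓ, hℓ, hℓS⟩, AlgHom.comp_apply, AlgHom.comp_apply, hθ₁, aeval_X, Sum.elim_inr, hx₁]
  rfl

end Fermat.Agent.RT.Lifting
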