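import Fermat.Agent.RT.Lifting.Defs

/-!
# Diagonal forms and cardinalities over a discrete valuation ring

A submodule of `Oⁿ` in diagonal form, the cardinalities of the quotients `O / (c)` and of the
`c`-torsion of `O / 𝔪 ^ m`.
-/

set_option autoImplicit false
set_option linter.style.haveILetI false

noncomputable section

namespace Fermat.Agent.RT.Lifting.Criterion

open IsLocalRing Module

variable {O : Type} [CommRing O] [IsDomain O] [IsDiscreteValuationRing O]

/-- A submodule of `Oⁿ` has diagonal form in some basis. -/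
theorem exists_diag {n : ℕ} (L : Submodule O (Fin n → O)) :
    ∃ (b : Basis (Fin n) O (Fin n → O)) (c : Fin n → O),
      (∀ ℓ ∈ L, ∀ i, c i ∣ b.repr ℓ i) ∧ ∀ i, c i • b i ∈ L := by
  classical
  obtain ⟨r, snf⟩ := L.smithNormalForm (Pi.basisFun O (Fin n))
  refine ⟨snf.bM, Function.extend snf.f snf.a 0, fun ℓ hℓ i => ?_, fun i => ?_⟩
  · by_cases hi : i ∈ Set.range snf.f
    · obtain ⟨j, rfl⟩ := hi
      rw [snf.f.injective.extend_apply,
        show snf.bM.repr ℓ (snf.f j) = _ from snf.repr_apply_embedding_eq_repr_smul (m := ⟨ℓ, hℓ⟩),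
        map_smul, Finsupp.smul_apply, smul_eq_mul]
      exact dvd_mul_right _ _
    · rw [show snf.bM.repr ℓ i = 0 from snf.repr_eq_zero_of_notMem_range ⟨ℓ, hℓ⟩ hi]
      exact dvd_zero _
  · by_cases hi : i ∈ Set.range snf.f
    · obtain ⟨j, rfl⟩ := hi
      rw [snf.f.injective.extend_apply, ← snf.snf j]
      exact (snf.bN j).2
    · rw [Function.extend_apply' _ _ _ (by simpa using hi), Pi.zero_apply, zero_smul]
      exact L.zero_mem

/-- Every nonzero element has a multiple which is a power of an irreducible one. -/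
theorem exists_dvd_pow {ϖ : O} (hϖ : Irreducible ϖ) {c : O} (hc : c ≠ 0) : ∃ k, c ∣ ϖ ^ k := by
  obtain ⟨k, hk⟩ := IsDiscreteValuationRing.associated_pow_irreducible hc hϖ
  exact ⟨k, hk.dvd⟩

theorem not_pow_dvd {ϖ : O} (hϖ : Irreducible ϖ) {D : O} (hD : D ≠ 0) :
    ∃ k, ∀ m, k ≤ m → ¬ ϖ ^ m ∣ D := by
  obtain ⟨k, hk⟩ := IsDiscreteValuationRing.associated_pow_irreducible hD hϖ
  refine ⟨k + 1, fun m hm hdvd => hϖ.not_isUnit ?_⟩
  have h : ϖ ^ k * ϖ ∣ ϖ ^ k * 1 := by
    rw [← pow_succ, mul_one]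
    exact ((pow_dvd_pow ϖ hm).trans hdvd).trans hk.dvd
  exact isUnit_of_dvd_one ((mul_dvd_mul_iff_left (pow_ne_zero k hϖ.ne_zero)).1 h)

theorem maximalIdeal_pow_eq {ϖ : O} (hϖ : Irreducible ϖ) (m : ℕ) :
    maximalIdeal O ^ m = Ideal.span {ϖ ^ m} := by
  rw [hϖ.maximalIdeal_eq, Ideal.span_singleton_pow]

variable [Finite (ResidueField O)]

theorem finite_quot {c : O} (hc : c ≠ 0) : Finite (O ⧸ Ideal.span {c}) := by
  obtain ⟨ϖ, hϖ⟩ := IsDiscreteValuationRing.exists_irreducible O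
  obtain ⟨k, hk⟩ := IsDiscreteValuationRing.associated_pow_irreducible hc hϖ
  rw [Ideal.span_singleton_eq_span_singleton.2 hk, ← maximalIdeal_pow_eq hϖ]
  haveI : Finite (O ⧸ maximalIdeal O) := ‹Finite (ResidueField O)›
  exact Ideal.finite_quotient_pow (IsNoetherian.noetherian _) k

theorem finite_quot_pow (m : ℕ) : Finite (O ⧸ maximalIdeal O ^ m) := by
  obtain ⟨ϖ, hϖ⟩ := IsDiscreteValuationRing.exists_irreducible O
  rw [maximalIdeal_pow_eq hϖ]
  exact finite_quot (pow_ne_zero m hϖ.ne_zero)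

omit [IsDiscreteValuationRing O] [Finite (ResidueField O)] in
/-- `#O/(ab) = #O/(a) · #O/(b)`. -/
theorem card_quot_mul {a : O} (b : O) (ha : a ≠ 0) :
    Nat.card (O ⧸ Ideal.span {a * b}) =
      Nat.card (O ⧸ Ideal.span {a}) * Nat.card (O ⧸ Ideal.span {b}) := by
  have hle : Ideal.span {b} ≤ LinearMap.ker
      ((Submodule.mkQ (Ideal.span {a * b})) ∘ₗ LinearMap.mulLeft O a) := fun x hx => by
    obtain ⟨y, rfl⟩ := Ideal.mem_span_singleton.1 hx
    rw [LinearMap.mem_ker, LinearMap.comp_apply, LinearMap.mulLeft_apply, Submodule.mkQ_apply,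
      Submodule.Quotient.mk_eq_zero, Ideal.mem_span_singleton, ← mul_assoc]
    exact dvd_mul_right _ _
  let incl : (O ⧸ Ideal.span {b}) →ₗ[O] O ⧸ Ideal.span {a * b} := Submodule.liftQ _ _ hle
  have hab : Ideal.span {a * b} ≤ Ideal.span {a} := Ideal.span_singleton_le_span_singleton.2
    (dvd_mul_right a b)
  let proj : (O ⧸ Ideal.span {a * b}) →ₗ[O] O ⧸ Ideal.span {a} := Submodule.factor hab
  have hinj : Function.Injective incl := by
    rw [← LinearMap.ker_eq_bot, eq_bot_iff]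
    intro x hx
    obtain ⟨x, rfl⟩ := Submodule.Quotient.mk_surjective _ x
    have hx' : Submodule.Quotient.mk (p := Ideal.span {a * b}) (a * x) = 0 := hx
    rw [Submodule.Quotient.mk_eq_zero, Ideal.mem_span_singleton] at hx'
    rw [Submodule.mem_bot, Submodule.Quotient.mk_eq_zero, Ideal.mem_span_singleton]
    exact (mul_dvd_mul_iff_left ha).1 hx'
  have hsurj : Function.Surjective proj := Submodule.factor_surjective hab
  have hex : LinearMap.range incl = LinearMap.ker proj := by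
    ext z
    obtain ⟨z, rfl⟩ := Submodule.Quotient.mk_surjective _ z
    constructor
    · rintro ⟨w, hw⟩
      obtain ⟨w, rfl⟩ := Submodule.Quotient.mk_surjective _ w
      rw [← hw]
      show Submodule.Quotient.mk (p := Ideal.span {a}) (a * w) = 0
      rw [Submodule.Quotient.mk_eq_zero, Ideal.mem_span_singleton]
      exact dvd_mul_right _ _
    · intro hz
      have hz' : Submodule.Quotient.mk (p := Ideal.span {a}) z = 0 := hz
      rw [Submodule.Quotient.mk_eq_zero, Ideal.mem_span_singleton] at hz'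
      obtain ⟨y, rfl⟩ := hz'
      exact ⟨Submodule.Quotient.mk y, rfl⟩
  rw [Submodule.card_eq_card_quotient_mul_card (LinearMap.ker proj),
    Nat.card_congr (proj.quotKerEquivOfSurjective hsurj).toEquiv, ← hex,
    ← Nat.card_congr (LinearEquiv.ofInjective incl hinj).toEquiv, mul_comm]

omit [IsDiscreteValuationRing O] [Finite (ResidueField O)] in
theorem card_quot_prod {ι : Type} (s : Finset ι) (c : ι → O) (hc : ∀ i ∈ s, c i ≠ 0) :
    Nat.card (O ⧸ Ideal.span {∏ i ∈ s, c i}) = ∏ i ∈ s, Nat.card (O ⧸ Ideal.span {c i}) := by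
  classical
  induction s using Finset.induction with
  | empty =>
    haveI : Subsingleton (O ⧸ Ideal.span {(1 : O)}) :=
      Ideal.Quotient.subsingleton_iff.2 Ideal.span_singleton_one
    rw [Finset.prod_empty, Finset.prod_empty, Nat.card_of_subsingleton (0 : O ⧸ Ideal.span {(1 : O)})]
  | @insert i s hi ih =>
    rw [Finset.prod_insert hi, Finset.prod_insert hi, card_quot_mul _ (hc i (by simp)),
      ih fun j hj => hc j (Finset.mem_insert_of_mem hj)]

theorem card_quot_le_of_dvd {a d : O} (h : a ∣ d) (hd : d ≠ 0) :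
    Nat.card (O ⧸ Ideal.span {a}) ≤ Nat.card (O ⧸ Ideal.span {d}) :=
  haveI := finite_quot hd
  Nat.card_le_card_of_surjective _
    (Submodule.factor_surjective (Ideal.span_singleton_le_span_singleton.2 h))

theorem dvd_of_card_le {a d : O} (hd : d ≠ 0)
    (h : Nat.card (O ⧸ Ideal.span {a}) ≤ Nat.card (O ⧸ Ideal.span {d})) (ha : a ≠ 0) : a ∣ d := by
  rcases ValuationRing.dvd_total a d with h' | ⟨t, rfl⟩
  · exact h'
  by_cases ht : IsUnit t
  · exact (ht.mul_right_dvd).2 dvd_rfl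
  exfalso
  have ht0 : t ≠ 0 := right_ne_zero_of_mul ha
  haveI := finite_quot hd
  haveI := finite_quot ht0
  haveI : Nontrivial (O ⧸ Ideal.span {t}) := Ideal.Quotient.nontrivial_iff.2 fun h' =>
    ht (Ideal.span_singleton_eq_top.1 h')
  rw [card_quot_mul t hd] at h
  exact absurd h (not_le.2 (lt_mul_of_one_lt_right Nat.card_pos Finite.one_lt_card))

/-- The `c`-torsion of `O / 𝔪 ^ m` has at most `#O/(c)` elements. -/
theorem card_torsion_le {c : O} (hc : c ≠ 0) (m : ℕ) :
    Nat.card {w : O ⧸ maximalIdeal O ^ m // c • w = 0} ≤ Nat.card (O ⧸ Ideal.span {c}) := by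
  obtain ⟨ϖ, hϖ⟩ := IsDiscreteValuationRing.exists_irreducible O
  haveI := finite_quot hc
  haveI := finite_quot_pow (O := O) m
  rcases ValuationRing.dvd_total c (ϖ ^ m) with ⟨d, hd⟩ | hle
  · have hd0 : ∀ z : O, c • Ideal.Quotient.mk (maximalIdeal O ^ m) (z * d) = 0 := fun z => by
      rw [Algebra.smul_def, Ideal.Quotient.algebraMap_eq, ← map_mul,
        Ideal.Quotient.eq_zero_iff_mem, maximalIdeal_pow_eq hϖ, Ideal.mem_span_singleton]
      exact ⟨z, by rw [hd]; ring⟩
    refine Nat.card_le_card_of_surjective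
      (fun q => ⟨Ideal.Quotient.mk (maximalIdeal O ^ m) (Quotient.out q * d), hd0 _⟩) ?_
    rintro ⟨w, hw⟩
    obtain ⟨w, rfl⟩ := Ideal.Quotient.mk_surjective w
    rw [Algebra.smul_def, Ideal.Quotient.algebraMap_eq, ← map_mul,
      Ideal.Quotient.eq_zero_iff_mem, maximalIdeal_pow_eq hϖ, Ideal.mem_span_singleton, hd] at hw
    obtain ⟨z, rfl⟩ := (mul_dvd_mul_iff_left hc).1 hw
    refine ⟨Ideal.Quotient.mk _ z, Subtype.ext ?_⟩
    have hz : Quotient.out (Ideal.Quotient.mk (Ideal.span {c}) z) - z ∈ Ideal.span {c} := by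
      rw [← Ideal.Quotient.eq]
      exact Quotient.out_eq _
    obtain ⟨e, he⟩ := Ideal.mem_span_singleton.1 hz
    show Ideal.Quotient.mk _ (Quotient.out (Ideal.Quotient.mk (Ideal.span {c}) z) * d) =
      Ideal.Quotient.mk _ (d * z)
    rw [Ideal.Quotient.eq, maximalIdeal_pow_eq hϖ, Ideal.mem_span_singleton, hd]
    exact ⟨e, by linear_combination d * he⟩
  · calc Nat.card {w : O ⧸ maximalIdeal O ^ m // c • w = 0}
        ≤ Nat.card (O ⧸ maximalIdeal O ^ m) :=
          Nat.card_le_card_of_injective _ Subtype.val_injective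
      _ ≤ _ := by
          rw [maximalIdeal_pow_eq hϖ]
          exact card_quot_le_of_dvd hle hc

/-- For `c ∣ ϖ ^ m` the `c`-torsion of `O / 𝔪 ^ m` has at least `#O/(c)` elements. -/
theorem le_card_torsion {ϖ : O} (hϖ : Irreducible ϖ) {c : O} {m : ℕ} (h : c ∣ ϖ ^ m) :
    Nat.card (O ⧸ Ideal.span {c}) ≤ Nat.card {w : O ⧸ maximalIdeal O ^ m // c • w = 0} := by
  haveI := finite_quot_pow (O := O) m
  obtain ⟨d, hd⟩ := h
  have hc : c ≠ 0 := left_ne_zero_of_mul (hd ▸ pow_ne_zero m hϖ.ne_zero)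
  have hd' : d ≠ 0 := right_ne_zero_of_mul (hd ▸ pow_ne_zero m hϖ.ne_zero)
  have hd0 : ∀ z : O, c • Ideal.Quotient.mk (maximalIdeal O ^ m) (z * d) = 0 := fun z => by
    rw [Algebra.smul_def, Ideal.Quotient.algebraMap_eq, ← map_mul,
      Ideal.Quotient.eq_zero_iff_mem, maximalIdeal_pow_eq hϖ, Ideal.mem_span_singleton]
    exact ⟨z, by rw [hd]; ring⟩
  refine Nat.card_le_card_of_injective
    (fun q => ⟨Ideal.Quotient.mk (maximalIdeal O ^ m) (Quotient.out q * d), hd0 _⟩) fun q q' hqq => ?_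
  have h1 := congrArg Subtype.val hqq
  simp only [Ideal.Quotient.eq, maximalIdeal_pow_eq hϖ, Ideal.mem_span_singleton, hd] at h1
  rw [← Quotient.out_eq q, ← Quotient.out_eq q']
  refine Ideal.Quotient.eq.2 (Ideal.mem_span_singleton.2 ?_)
  rwa [← sub_mul, mul_dvd_mul_iff_right hd'] at h1

end Fermat.Agent.RT.Lifting.Criterion
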