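import Fermat.Agent.RT.Lifting.Interface
import Fermat.Agent.RT.Lifting.CriterionBound
import Fermat.Agent.RT.Lifting.CriterionSeries
import Fermat.Agent.RT.Lifting.CriterionModulus
import Fermat.Agent.RT.Assembly.Coords
import Fermat.Prelude.Thm_IsLocalRing_isAdicComplete_of_module_finite

/-!
# The numerical criterion and the congruence modulus

`FaithfulProperty` and `ModulusProperty` from the socle of a zero-dimensional complete
intersection.
-/

set_option autoImplicit false
set_option linter.style.haveILetI false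

noncomputable section

namespace Fermat.Agent.RT.Lifting

open IsLocalRing Module Criterion Fermat.Agent.Deform

/-- The numerical criterion: the module is faithful. -/
theorem faithfulProperty (hsoc : SocleProperty) : FaithfulProperty := by
  intro O _ _ _ _ _ R _ _ _ _ hres M _ _ _ _ _ _ x D hD hder u hu humem hφ a ha
  classical
  haveI := hres.isLocalHom
  haveI : IsNoetherianRing R := IsNoetherianRing.of_finite O R
  haveI : IsAdicComplete (maximalIdeal R) R := IsLocalRing.isAdicComplete_of_module_finite (𝒪 := O)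
  obtain ⟨ϖ, hϖ⟩ := IsDiscreteValuationRing.exists_irreducible O
  haveI : IsNoetherian O R := inferInstance
  -- coordinates generating the kernel of the point over `O`
  obtain ⟨n, y, hy⟩ := Submodule.fg_iff_exists_fin_generating_family.1
    (IsNoetherian.noetherian (LinearMap.ker x.toLinearMap))
  have hxy : ∀ j, x (y j) = 0 := fun j => by
    have h : y j ∈ LinearMap.ker x.toLinearMap := hy ▸ Submodule.subset_span ⟨j, rfl⟩
    exact h
  have hspan : ∀ r, x r = 0 → r ∈ Submodule.span O (Set.range y) := fun r hr => by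
    rw [hy]
    exact hr
  let π : MvPolynomial (Fin n) O →ₐ[O] R := MvPolynomial.aeval y
  have hπX : ∀ j, π (MvPolynomial.X j) = y j := fun j => MvPolynomial.aeval_X y j
  have hxπ : ∀ g, x (π g) = MvPolynomial.constantCoeff g := fun g => by
    have h : x.comp π = MvPolynomial.aeval (fun _ => (0 : O)) :=
      MvPolynomial.algHom_ext fun j => by simp [hπX, hxy]
    simpa [MvPolynomial.aeval_def, MvPolynomial.eval₂_zero'_apply] using AlgHom.congr_fun h g
  have hπ : Function.Surjective π := fun r => by
    obtain ⟨w, hw⟩ := (Submodule.mem_span_range_iff_exists_fun O).1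
      (hspan (r - algebraMap O R (x r)) (by simp))
    refine ⟨MvPolynomial.C (x r) + ∑ j, MvPolynomial.C (w j) * MvPolynomial.X j, ?_⟩
    simp only [map_add, map_sum, map_mul, hπX, ← MvPolynomial.algebraMap_eq, π.commutes]
    simp only [← Algebra.smul_def, hw]
    abel
  -- the diagonal form of the linear parts
  obtain ⟨b, c, hc, hcL⟩ := exists_diag ((LinearMap.ker π.toLinearMap).map lin)
  obtain ⟨hcne, hprod⟩ := prod_dvd_of_derBound π hπ x hxπ hD hder b c
    fun g hg => hc _ ⟨g, hg, rfl⟩
  choose f₀ hf₀π hf₀ using hcL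
  -- high powers of the variables in the square of the ideal of the point
  obtain ⟨N₀, hN₀⟩ := exists_pow_maximalIdeal_le (R := R) hϖ
  have hpow : ∀ j, ∃ p, π (MvPolynomial.X j ^ (N₀ + 1) - MvPolynomial.C ϖ * p) = 0 ∧
      MvPolynomial.constantCoeff p = 0 := fun j => by
    obtain ⟨r, hr⟩ := Ideal.mem_span_singleton.1 (hN₀ (Ideal.pow_le_pow_right N₀.le_succ
      (Ideal.pow_mem_pow (ker_point_le x (hxy j)) (N₀ + 1))))
    obtain ⟨p, rfl⟩ := hπ r
    refine ⟨p, by rw [map_sub, map_pow, map_mul, hπX, ← MvPolynomial.algebraMap_eq, π.commutes,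
      hr, sub_self], ?_⟩
    have h := congrArg x hr
    rw [map_pow, hxy, zero_pow (by omega), map_mul, x.commutes, hxπ, Algebra.algebraMap_self,
      RingHom.id_apply] at h
    exact (mul_eq_zero.1 h.symm).resolve_left hϖ.ne_zero
  choose p hpπ hp0 using hpow
  let k := ResidueField O
  let s := (Finset.univ.sup fun i => (MvPolynomial.map (residue O) (f₀ i)).totalDegree) + 1
  let q : Fin n → MvPolynomial (Fin n) O := fun i =>
    MvPolynomial.X i ^ (N₀ + 1) - MvPolynomial.C ϖ * p i
  let f : Fin n → MvPolynomial (Fin n) O := fun i =>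
    f₀ i + q i * (q i * MvPolynomial.X i ^ s)
  have hq0 : ∀ i, MvPolynomial.constantCoeff (q i) = 0 := fun i => by simp [q, hp0]
  have hfπ : ∀ i, π (f i) = 0 := fun i => by
    have h : π (f₀ i) = 0 := hf₀π i
    simp [f, h, q, hpπ i]
  have hflin : ∀ i, lin (f i) = c i • b i := fun i => by
    simp [f, lin_mul, hq0, hf₀]
  have hfX : ∀ i, ∃ A : Fin n → MvPolynomial (Fin n) O, f i = ∑ j, A j * MvPolynomial.X j :=
    fun i => by
    have h0 : MvPolynomial.constantCoeff (f i) = 0 := by rw [← hxπ, hfπ, map_zero]
    have h : f i ∈ MvPolynomial.idealOfVars (Fin n) O ^ 1 :=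
      (MvPolynomial.mem_pow_idealOfVars_iff' ..).2 fun d hd => by
        rw [Nat.lt_one_iff, Finsupp.degree_eq_zero_iff] at hd
        subst hd
        exact h0
    rw [pow_one] at h
    obtain ⟨A, hA⟩ := Ideal.mem_span_range_iff_exists_fun.1 h
    exact ⟨A, hA.symm⟩
  choose A hA using hfX
  let e := Matrix.det (Matrix.of A)
  have hη : MvPolynomial.constantCoeff e = (∏ i, c i) * (Matrix.of fun i j => b i j).det := by
    rw [RingHom.map_det, ← Matrix.det_diagonal (d := c), ← Matrix.det_mul]
    congr 1
    ext i j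
    have h := congrFun ((lin_sum_mul_X (A i)).symm.trans ((hA i).symm ▸ hflin i)) j
    rw [Matrix.diagonal_mul]
    simpa using h
  have hdetb : IsUnit (Matrix.of fun i j => b i j).det := by
    have h := (Pi.basisFun O (Fin n)).isUnit_det b
    rw [Pi.basisFun_det] at h
    exact h
  have hηD : MvPolynomial.constantCoeff e ∣ D := by
    rw [hη]
    exact (hdetb.mul_right_dvd).2 hprod
  have hη0 : MvPolynomial.constantCoeff e ≠ 0 := by
    rw [hη]
    exact mul_ne_zero (Finset.prod_ne_zero_iff.2 fun i _ => hcne i) hdetb.ne_zero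
  have hekill : ∀ r, x r = 0 → π e * r = 0 := fun r hr => by
    refine Submodule.span_induction (p := fun r _ => π e * r = 0) ?_ (mul_zero _) ?_ ?_ (hspan r hr)
    · rintro _ ⟨j, rfl⟩
      have h := det_mul_eq_zero π.toRingHom (Matrix.of A) f MvPolynomial.X hA hfπ j
      simpa [hπX] using h
    · intro v w _ _ hv hw
      rw [mul_add, hv, hw, add_zero]
    · intro o v _ hv
      rw [mul_smul_comm, hv, smul_zero]
  -- the determinant is not divisible by `ϖ` on the module
  have hinjϖ : Function.Injective fun m : M => ϖ • m := smul_right_injective M hϖ.ne_zero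
  have hne : ∃ m : M, ∀ m' : M, π e • m ≠ ϖ • m' := by
    by_contra hall
    push Not at hall
    choose θ hθ using hall
    let θl : M →ₗ[O] M :=
      { toFun := θ
        map_add' := fun m m' => hinjϖ <| by
          simp only [smul_add, ← hθ]
        map_smul' := fun o m => hinjϖ <| by
          simp only [RingHom.id_apply, ← hθ, smul_comm ϖ o, smul_comm (π e) o] }
    have hθl : ∀ m, ϖ • θl m = π e • m := fun m => (hθ m).symm
    let bM := Module.Free.chooseBasis O M
    obtain ⟨i₀, hi₀⟩ : ∃ i, IsUnit (bM.repr u i) := by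
      by_contra hcon
      push Not at hcon
      refine humem ?_
      rw [← bM.sum_repr u]
      exact Submodule.sum_mem _ fun i _ =>
        Submodule.smul_mem_smul ((IsLocalRing.mem_maximalIdeal _).2 (hcon i)) Submodule.mem_top
    obtain ⟨w, hw⟩ := hi₀
    let φ : M →ₗ[O] O := ((↑w⁻¹ : O) • bM.coord i₀) ∘ₗ θl
    have hφeig : ∀ (r : R) (m : M), φ (r • m) = x r * φ m := fun r m => by
      have h : θl (r • m) = x r • θl m := hinjϖ <| by
        simp only
        rw [hθl, smul_comm ϖ, hθl, smul_smul, mul_eq_of_kills x hekill r, mul_smul,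
          algebraMap_smul]
      show ((↑w⁻¹ : O) • bM.coord i₀) (θl (r • m)) = _
      rw [h, map_smul, smul_eq_mul]
      rfl
    have hu' : ϖ • θl u = MvPolynomial.constantCoeff e • u := by rw [hθl, hu, hxπ]
    have hval : ϖ * φ u = MvPolynomial.constantCoeff e := by
      have h := congrArg ((↑w⁻¹ : O) • bM.coord i₀) hu'
      rw [map_smul, map_smul] at h
      show ϖ * ((↑w⁻¹ : O) • bM.coord i₀) (θl u) = _
      rw [← smul_eq_mul, h, LinearMap.smul_apply, Basis.coord_apply, ← hw]
      simp
    obtain ⟨t, ht⟩ := hηD.trans (hφ φ hφeig)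
    refine hϖ.not_isUnit (IsUnit.of_mul_eq_one t (mul_left_cancel₀ hη0 ?_))
    rw [ht] at hval
    linear_combination hval
  obtain ⟨m₀, hm₀⟩ := hne
  -- reduce to series over the residue field
  obtain ⟨γ, hγX⟩ := Assembly.exists_evalHom (O := O) y fun j => ker_point_le x (hxy j)
  have hγ : ∀ g : MvPolynomial (Fin n) O, γ (g : MvPowerSeries (Fin n) O) = π g := fun g => by
    have h : γ.comp (MvPolynomial.coeToMvPowerSeries.algHom O) = π :=
      MvPolynomial.algHom_ext fun j => by
        simp [MvPolynomial.coeToMvPowerSeries.algHom_apply, hγX, hπX]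
    simpa [MvPolynomial.coeToMvPowerSeries.algHom_apply] using AlgHom.congr_fun h g
  let red := MvPowerSeries.map (σ := Fin n) (residue O)
  let fbar : Fin n → MvPowerSeries (Fin n) k := fun i => red (f i)
  let Abar : Matrix (Fin n) (Fin n) (MvPowerSeries (Fin n) k) :=
    fun i j => red (A i j : MvPowerSeries (Fin n) O)
  have hcoe : ∀ g : MvPolynomial (Fin n) O,
      red (g : MvPowerSeries (Fin n) O) = (MvPolynomial.map (residue O) g : _) := fun g =>
    MvPowerSeries.ext fun d => by simp [red, MvPowerSeries.coeff_map, MvPolynomial.coeff_map]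
  obtain ⟨-, hsocle⟩ := hsoc k n Abar fbar (fun i => by
      show red (f i) = _
      rw [hA i, ← MvPolynomial.coeToMvPowerSeries.ringHom_apply, map_sum, map_sum]
      simp [Abar, red]) (by
      obtain ⟨T, hT⟩ := exists_pow_le_of_leading (N₀ + 1 + (N₀ + 1 + s))
        (fun i => MvPolynomial.map (residue O) (f i)) (fun i => MvPolynomial.map (residue O) (f₀ i))
        (fun i => by
          have := Finset.le_sup
            (f := fun i => (MvPolynomial.map (residue O) (f₀ i)).totalDegree) (Finset.mem_univ i)
          simp only [s]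
          omega)
        (fun i => by
          have : residue O ϖ = 0 :=
            (residue_eq_zero_iff ϖ).2 ((IsLocalRing.mem_maximalIdeal ϖ).2 hϖ.not_isUnit)
          simp [f, q, this, pow_add])
      refine ⟨T, ?_⟩
      convert hT using 4 with i
      exact hcoe _)
  have hdiv : ∀ a : R, (∀ m : M, a • m = 0) → ∃ r, a = algebraMap O R ϖ * r := fun a ha => by
    obtain ⟨g, rfl⟩ := hπ a
    by_cases hg : red g ∈ Ideal.span (Set.range fbar)
    · have h := apply_mem_of_map_mem hϖ γ (fun i => (f i : MvPowerSeries (Fin n) O))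
        (fun i => by rw [hγ, hfπ]) hg
      rw [hγ, Ideal.mem_span_singleton] at h
      exact h
    · exfalso
      obtain ⟨h, hh⟩ := hsocle _ hg
      obtain ⟨h', rfl⟩ := map_residue_surjective (O := O) h
      have hdet : Abar.det = red (e : MvPowerSeries (Fin n) O) := by
        show Abar.det = (red.comp MvPolynomial.coeToMvPowerSeries.ringHom) e
        rw [RingHom.map_det]
        rfl
      rw [hdet, ← map_mul, ← map_sub] at hh
      have h2 := apply_mem_of_map_mem hϖ γ (fun i => (f i : MvPowerSeries (Fin n) O))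
        (fun i => by rw [hγ, hfπ]) hh
      rw [map_sub, map_mul, hγ, hγ, Ideal.mem_span_singleton] at h2
      obtain ⟨t, ht⟩ := h2
      refine hm₀ (-(t • m₀)) ?_
      rw [show π e = π g * γ h' - algebraMap O R ϖ * t by rw [← ht, sub_sub_cancel], sub_smul,
        mul_smul, ha, zero_sub, smul_neg, mul_smul, algebraMap_smul]
  have hall : ∀ N : ℕ, ∃ r : R, a = algebraMap O R ϖ ^ N * r ∧ ∀ m : M, r • m = 0 := by
    intro N
    induction N with
    | zero => exact ⟨a, by simp, ha⟩
    | succ N ih =>
      obtain ⟨r, hr, hrm⟩ := ih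
      obtain ⟨r', rfl⟩ := hdiv r hrm
      refine ⟨r', by rw [hr, pow_succ, mul_assoc], fun m => hinjϖ ?_⟩
      have h := hrm m
      rw [mul_smul, algebraMap_smul] at h
      simpa using h
  refine IsHausdorff.haus' (I := maximalIdeal R) _ fun N => ?_
  obtain ⟨r, hr, -⟩ := hall N
  rw [SModEq.zero, smul_eq_mul, Ideal.mul_top, hr]
  exact Ideal.mul_mem_right _ _ (Ideal.pow_mem_pow
    (map_nonunit (algebraMap O R) ϖ ((IsLocalRing.mem_maximalIdeal ϖ).2 hϖ.not_isUnit)) N)

end Fermat.Agent.RT.Lifting
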