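import Fermat.Agent.EC.Rep.Local.Flat
import Fermat.Agent.GaloisReps.Flat

/-!
# Flatness of the Tate module with larger coefficients

At a prime of good reduction the base change of the `p`-adic Tate module to a local ring with
finite residue field is flat.
-/

set_option autoImplicit false
set_option linter.style.haveILetI false

noncomputable section

open scoped WeierstrassCurve.Affine TensorProduct
open WeierstrassCurve Fermat.Agent.Arith Fermat.Agent.FiniteFlat

namespace Fermat.Agent.RT.Lifting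

open IsLocalRing

/-- An ideal of finite index contains a power of any element of the maximal ideal. -/
theorem exists_pow_mem_of_finite_quotient {R : Type} [CommRing R] [IsLocalRing R] (I : Ideal R)
    [Finite (R ⧸ I)] {x : R} (hx : x ∈ maximalIdeal R) : ∃ k : ℕ, x ^ k ∈ I := by
  obtain ⟨i, j, hne, h⟩ :=
    Finite.exists_ne_map_eq_of_infinite fun k : ℕ => Ideal.Quotient.mk I (x ^ k)
  have key : ∀ i j : ℕ, i < j → Ideal.Quotient.mk I (x ^ i) = Ideal.Quotient.mk I (x ^ j) →
      x ^ i ∈ I := by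
    intro i j hij h
    obtain ⟨d, rfl⟩ := Nat.exists_eq_add_of_lt hij
    have hu : IsUnit (1 - x ^ (d + 1)) :=
      IsLocalRing.isUnit_one_sub_self_of_mem_nonunits _
        (mem_nonunits_iff.mpr fun hu => hx ((isUnit_pow_iff d.succ_ne_zero).mp hu))
    rw [Ideal.Quotient.mk_eq_mk_iff_sub_mem,
      show x ^ i - x ^ (i + d + 1) = x ^ i * (1 - x ^ (d + 1)) by ring] at h
    exact (Ideal.mul_unit_mem_iff_mem _ hu).mp h
  rcases lt_or_gt_of_ne hne with hlt | hlt
  · exact ⟨i, key i j hlt h⟩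
  · exact ⟨j, key j i hlt h.symm⟩

open EC.Rep in
/-- The base change of the Tate module is flat at a good prime. -/
theorem isFlatAt_tateRep_baseChange {W : WeierstrassCurve ℤ} {p : ℕ} [Fact p.Prime] (hΔ : W.Δ ≠ 0)
    (hgood : W.IsGoodPrimeFor p) {B : Type} [CommRing B] [IsLocalRing B]
    [Finite (ResidueField B)] (f : ℤ_[p] →+* B) (hf : IsLocalHom f) :
    ((tateRep W p hΔ).baseChangeAlong f hf).IsFlatAt p := by
  classical
  have hp : p.Prime := Fact.out
  refine isFlatAt_of_galOrder _ p inferInstance fun I hI => ?_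
  letI := f.toAlgebra
  have hpm : (p : B) ∈ maximalIdeal B := by
    rw [← map_natCast f]
    haveI := hf
    exact map_nonunit f _ (by
      rw [PadicInt.maximalIdeal_eq_span_p]; exact Ideal.mem_span_singleton_self _)
  obtain ⟨k, hk⟩ := exists_pow_mem_of_finite_quotient I hpm
  obtain ⟨G⟩ := exists_galOrder_torsion_pow (W := W) hp hgood k
  haveI := finite_torsPt hΔ (pow_ne_zero k hp.ne_zero)
  obtain ⟨Gpi⟩ := GaloisReps.nonempty_galOrder_pi G (B ⧸ I)
  haveI := Fintype.ofFinite (B ⧸ I)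
  set V0 := (tateRep W p hΔ).V with hV0
  set N : Submodule B (B ⊗[ℤ_[p]] V0) := I • (⊤ : Submodule B (B ⊗[ℤ_[p]] V0)) with hN
  have hlift : ∀ x : TorsPt W (p ^ k), ∃ v, tateRed hΔ k v = Subtype.val x := fun x =>
    exists_tateRed_eq hΔ k (by
      have := (Submodule.mem_torsionBy_iff _ _).mp x.2
      push_cast at this
      exact this)
  choose v hv using hlift
  have hker : ∀ (c : B) (w w' : V0), tateRed hΔ k w = tateRed hΔ k w' →
      Submodule.Quotient.mk (p := N) (c ⊗ₜ[ℤ_[p]] w) = Submodule.Quotient.mk (c ⊗ₜ[ℤ_[p]] w') := by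
    intro c w w' e
    rw [Submodule.Quotient.eq, ← TensorProduct.tmul_sub]
    obtain ⟨h1, h2⟩ := (tateRed_eq_zero_iff hΔ k (w - w')).mp (by rw [map_sub, e, sub_self])
    obtain ⟨c₁, hc₁⟩ := Ideal.mem_span_singleton'.mp h1
    obtain ⟨c₂, hc₂⟩ := Ideal.mem_span_singleton'.mp h2
    have e2 : w - w' = (p : ℤ_[p]) ^ k • (show V0 from (c₁, c₂)) :=
      Prod.ext (hc₁.symm.trans (mul_comm _ _)) (hc₂.symm.trans (mul_comm _ _))
    rw [e2, TensorProduct.tmul_smul, ← algebraMap_smul B ((p : ℤ_[p]) ^ k), map_pow, map_natCast]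
    exact Submodule.smul_mem_smul hk Submodule.mem_top
  have hsc : ∀ (c c' : B) (w : V0), c - c' ∈ I →
      Submodule.Quotient.mk (p := N) (c ⊗ₜ[ℤ_[p]] w) = Submodule.Quotient.mk (c' ⊗ₜ[ℤ_[p]] w) := by
    intro c c' w hcc
    rw [Submodule.Quotient.eq, ← TensorProduct.sub_tmul,
      show (c - c') ⊗ₜ[ℤ_[p]] w = (c - c') • ((1 : B) ⊗ₜ[ℤ_[p]] w) by
        rw [TensorProduct.smul_tmul', smul_eq_mul, mul_one]]
    exact Submodule.smul_mem_smul hcc Submodule.mem_top
  let s : B ⧸ I → B := Function.surjInv Ideal.Quotient.mk_surjective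
  have hs : ∀ c, Ideal.Quotient.mk I (s c) = c := Function.surjInv_eq _
  let π : (B ⧸ I → TorsPt W (p ^ k)) →+ (B ⊗[ℤ_[p]] V0) ⧸ N :=
    AddMonoidHom.mk' (fun m => ∑ c, Submodule.Quotient.mk (s c ⊗ₜ[ℤ_[p]] v (m c))) fun m m' => by
      rw [← Finset.sum_add_distrib]
      refine Finset.sum_congr rfl fun c _ => ?_
      rw [← Submodule.Quotient.mk_add, ← TensorProduct.tmul_add]
      refine hker _ _ _ ?_
      rw [map_add, hv, hv, hv]
      rfl
  have hπ : ∀ m, π m = ∑ c, Submodule.Quotient.mk (s c ⊗ₜ[ℤ_[p]] v (m c)) := fun m => rfl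
  refine ⟨B ⧸ I → TorsPt W (p ^ k), inferInstance, inferInstance, inferInstance, Gpi, π,
    fun q => ?_, fun σ m => ?_⟩
  · obtain ⟨w, rfl⟩ := Submodule.Quotient.mk_surjective _ q
    revert w
    show ∀ w : B ⊗[ℤ_[p]] V0, ∃ m, π m = Submodule.Quotient.mk w
    intro w
    induction w using TensorProduct.induction_on with
    | zero => exact ⟨0, map_zero π⟩
    | tmul c x =>
      refine ⟨Pi.single (Ideal.Quotient.mk I c) ⟨tateRed hΔ k x, ?_⟩, ?_⟩
      · rw [Submodule.mem_torsionBy_iff]; push_cast; exact pow_smul_tateRed hΔ k x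
      · rw [hπ, Fintype.sum_eq_single (Ideal.Quotient.mk I c) fun d hd => ?_]
        · rw [Pi.single_eq_same]
          refine (hsc _ c _ ?_).trans (hker c _ x (hv _))
          rw [← Ideal.Quotient.mk_eq_mk_iff_sub_mem, hs]
        · rw [Pi.single_eq_of_ne hd, hker (s d) (v 0) 0 (by rw [hv, map_zero]; rfl),
            TensorProduct.tmul_zero, Submodule.Quotient.mk_zero]
    | add x y hx hy =>
      obtain ⟨m, hm⟩ := hx
      obtain ⟨m', hm'⟩ := hy
      exact ⟨m + m', by rw [map_add, hm, hm', Submodule.Quotient.mk_add]⟩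
  · show (∑ c, Submodule.Quotient.mk (p := N) (s c ⊗ₜ[ℤ_[p]] v ((σ • m) c))) =
      ((tateRep W p hΔ).baseChangeAlong f hf).levelAction I σ
        (∑ c, Submodule.Quotient.mk (p := N) (s c ⊗ₜ[ℤ_[p]] v (m c)))
    refine Eq.trans ?_ (map_sum (((tateRep W p hΔ).baseChangeAlong f hf).levelAction I σ) _ _).symm
    refine Finset.sum_congr rfl fun c _ => ?_
    show _ = Submodule.Quotient.mk (p := N) (((tateRep W p hΔ).ρ σ).baseChange B
      (s c ⊗ₜ[ℤ_[p]] v (m c)))
    rw [LinearMap.baseChange_tmul]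
    refine hker _ _ _ ?_
    rw [red_tateRep, hv, hv]
    rfl

end Fermat.Agent.RT.Lifting
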