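import Fermat.Agent.RT.Lifting.Interface
import Fermat.Agent.RT.Lifting.CurveLiftFlat
import Fermat.Agent.RT.Assembly.RepLemmas
import Fermat.Agent.EC.Rep.Local.StrictOrdinary
import Fermat.Agent.EC.Rep.Local.Unipotent
import Fermat.Agent.EC.Rep.Tate.DetCyclotomic
import Fermat.Agent.GaloisReps.PadicHom
import Fermat.Agent.CFT.Tangent.BaseChange

/-!
# The lift of type flat or ordinary given by the Tate module

`curveLiftProperty` proves `CurveLiftProperty`: the Tate module of a semistable curve, with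
coefficients extended to `O` and normalised, is a lift of its residual representation, flat at `p`
when `p` is good and ordinary at `p` otherwise.
-/

set_option autoImplicit false
set_option linter.style.haveILetI false

noncomputable section

open scoped WeierstrassCurve.Affine TensorProduct

namespace Fermat.Agent.RT.Lifting

open IsLocalRing Module
open Fermat.Agent.Deform Fermat.Agent.RT.Assembly

section Transport

variable {A : Type} [CommRing A] [IsLocalRing A] {ρ ρ' : GaloisRepAdic A} {p : ℕ}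

/-- Ordinarity does not depend on the representative of an isomorphism class. -/
theorem curve_isOrdinaryAt_of_isEquiv (h : ρ.IsEquiv ρ') (ho : ρ.IsOrdinaryAt p) :
    ρ'.IsOrdinaryAt p := by
  obtain ⟨e⟩ := h
  intro P hP
  obtain ⟨L, ⟨b, rfl⟩, hD, hI⟩ := ho P hP
  refine ⟨(A ∙ b 0).map (e.toLinearEquiv : ρ.V →ₗ[A] ρ'.V), ⟨b.map e.toLinearEquiv, ?_⟩,
    fun σ hσ v hv => ?_, fun σ hσ v => ?_⟩
  · rw [Submodule.map_span, Set.image_singleton, Basis.map_apply]
    rfl
  · obtain ⟨w, hw, rfl⟩ := Submodule.mem_map.mp hv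
    exact ⟨ρ.ρ σ w, hD σ hσ w hw, e.map_apply σ w⟩
  · obtain ⟨w, rfl⟩ := e.toLinearEquiv.surjective v
    refine ⟨ρ.ρ σ w - w, hI σ hσ w, ?_⟩
    rw [map_sub]
    exact congrArg (· - _) (e.map_apply σ w)

end Transport

variable {O : Type} [CommRing O] [IsDomain O] [IsDiscreteValuationRing O]
  [IsAdicComplete (maximalIdeal O) O] {p : ℕ} [Fact p.Prime] [CharP (ResidueField O) p]
  {E : WeierstrassCurve ℤ} (hΔ : E.Δ ≠ 0)

omit [IsAdicComplete (maximalIdeal O) O] in
include hΔ in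
/-- The matrices of the Tate module reduce to those of `E[p]` in some basis. -/
theorem exists_basis_residual_matOf (f : ℤ_[p] →+* O) :
    ∃ b : Basis (Fin 2) (ZMod p) (EC.Rep.residualRep E p hΔ).V, ∀ σ i j,
      residue O (f (matOf (EC.Rep.tateRep E p hΔ) (Basis.finTwoProd ℤ_[p]) σ i j)) =
        ZMod.castHom dvd_rfl (ResidueField O) (matRes _ b σ i j) := by
  classical
  obtain ⟨b, hP, hQ⟩ := (EC.Rep.exists_curve_tateBasis E p hΔ).choose_spec
  refine ⟨b, fun σ i j => ?_⟩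
  let bT : Basis (Fin 2) ℤ_[p] (EC.Rep.tateRep E p hΔ).V := Basis.finTwoProd ℤ_[p]
  have hb : ∀ j, EC.Rep.tateRed hΔ 1 (bT j) = Subtype.val (b j) := by
    rw [Fin.forall_fin_two]
    constructor
    · refine Eq.trans ?_ ((one_zsmul _).trans hP)
      show (EC.Rep.tateBasis E p hΔ).red 1 (Basis.finTwoProd ℤ_[p] 0) =
        (1 : ℤ) • (EC.Rep.tateBasis E p hΔ).P 1
      rw [Basis.finTwoProd_zero,
        show ((1, 0) : ℤ_[p] × ℤ_[p]) = (((1 : ℤ) : ℤ_[p]), ((0 : ℤ) : ℤ_[p])) by simp,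
        EC.Rep.TateBasis.red_intCast]
      simp
    · refine Eq.trans ?_ ((one_zsmul _).trans hQ)
      show (EC.Rep.tateBasis E p hΔ).red 1 (Basis.finTwoProd ℤ_[p] 1) =
        (1 : ℤ) • (EC.Rep.tateBasis E p hΔ).Q 1
      rw [Basis.finTwoProd_one,
        show ((0, 1) : ℤ_[p] × ℤ_[p]) = (((0 : ℤ) : ℤ_[p]), ((1 : ℤ) : ℤ_[p])) by simp,
        EC.Rep.TateBasis.red_intCast]
      simp
  choose a ha using fun i => EC.Rep.TateBasis.exists_int_sub_mem 1
    (matOf (EC.Rep.tateRep E p hΔ) bT σ i j)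
  have hcol : (EC.Rep.residualRep E p hΔ).ρ σ (b j) =
      (a 0 : ZMod p) • b 0 + (a 1 : ZMod p) • b 1 := by
    rw [Int.cast_smul_eq_zsmul, Int.cast_smul_eq_zsmul]
    refine Subtype.ext ?_
    show σ • (Subtype.val (b j) : EC.Rep.PtQ E) =
      a 0 • (Subtype.val (b 0) : EC.Rep.PtQ E) + a 1 • (Subtype.val (b 1) : EC.Rep.PtQ E)
    have hsum : (EC.Rep.tateRep E p hΔ).ρ σ (bT j) =
        matOf (EC.Rep.tateRep E p hΔ) bT σ 0 j • bT 0 +
          matOf (EC.Rep.tateRep E p hΔ) bT σ 1 j • bT 1 := by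
      conv_lhs => rw [← bT.sum_repr ((EC.Rep.tateRep E p hΔ).ρ σ (bT j))]
      rw [Fin.sum_univ_two, matOf_apply, matOf_apply]
    rw [← hb, ← hb, ← hb, ← EC.Rep.red_tateRep, hsum, map_add, EC.Rep.tateRed_smul hΔ (ha 0),
      EC.Rep.tateRed_smul hΔ (ha 1)]
  have hi : matRes (EC.Rep.residualRep E p hΔ) b σ i j = (a i : ZMod p) := by
    rw [matRes_apply, hcol]
    fin_cases i <;> simp
  rw [hi, map_intCast]
  obtain ⟨c, hc⟩ := Ideal.mem_span_singleton'.mp (ha i)
  rw [pow_one] at hc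
  rw [eq_add_of_sub_eq hc.symm, map_add, map_add, map_mul, map_mul, map_natCast, map_natCast,
    map_intCast, map_intCast, CharP.cast_eq_zero, mul_zero, zero_add]

variable [Finite (ResidueField O)] {W : Rigid O} {ρbar : ResidualGaloisRep (ResidueField O)}
  {bb : Basis (Fin 2) (ResidueField O) ρbar.V}

omit [Finite (ResidueField O)] in
include hΔ in
/-- The Tate module over `O` is residually the given representation. -/
theorem residual_tateRep_isEquiv (f : ℤ_[p] →+* O) (hf : IsLocalHom f)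
    (hW : W.rb = matRes ρbar bb) (hres : IsResidualOf E hΔ p W) :
    ((EC.Rep.tateRep E p hΔ).baseChangeAlong f hf).residual.IsEquiv
      (ρbar.baseChangeAlong (ResidueField.map (algebraMap O O))) := by
  obtain ⟨b, hb⟩ := hres
  obtain ⟨b', hb'⟩ := exists_basis_residual_matOf hΔ f
  set ψ := ZMod.castHom (dvd_refl p) (ResidueField O)
  set ρk := (EC.Rep.residualRep E p hΔ).baseChangeAlong ψ
  have h1 : ((EC.Rep.tateRep E p hΔ).baseChangeAlong f hf).residual.IsEquiv ρk := by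
    letI := f.toAlgebra
    let bT : Basis (Fin 2) ℤ_[p] (EC.Rep.tateRep E p hΔ).V := Basis.finTwoProd ℤ_[p]
    let bO : Basis (Fin 2) O ((EC.Rep.tateRep E p hΔ).baseChangeAlong f hf).V := bT.baseChange O
    refine isEquiv_of_matRes_eq (bO.baseChange (ResidueField O))
      (letI := ψ.toAlgebra; b'.baseChange (ResidueField O)) ?_
    refine (matRes_residual _ bO).trans ((congrArg (mapM (residue O))
      (matOf_baseChangeAlong f hf (EC.Rep.tateRep E p hΔ) bT)).trans ?_)
    rw [matRes_baseChangeAlong]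
    ext σ i j
    exact hb' σ i j
  have h2 : ρbar.IsEquiv ρk := by
    refine isEquiv_of_matRes_eq bb (letI := ψ.toAlgebra; b.baseChange (ResidueField O)) ?_
    rw [matRes_baseChangeAlong, ← hW]
    ext σ i j
    exact hb σ i j
  have h3 : ρbar.IsEquiv (ρbar.baseChangeAlong (ResidueField.map (algebraMap O O))) := by
    refine isEquiv_of_matRes_eq bb
      (letI := (ResidueField.map (algebraMap O O)).toAlgebra; bb.baseChange (ResidueField O)) ?_
    rw [matRes_baseChangeAlong]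
    ext σ i j
    rw [mapM_apply]
    obtain ⟨x, hx⟩ := residue_surjective (matRes ρbar bb σ i j)
    rw [← hx, ResidueField.map_residue]
    rfl
  obtain ⟨e1⟩ := h1
  obtain ⟨e2⟩ := h2
  obtain ⟨e3⟩ := h3
  exact ⟨(e1.trans e2.symm).trans e3⟩

/-- The Tate module gives a lift of type flat or ordinary. -/
theorem curveLiftProperty {S : Finset ℕ} {abar : ℕ → ResidueField O} {N₀ : ℕ}
    (hdat : IsResidualDatum p W ρbar bb S abar N₀) (hres : IsResidualOf E hΔ p W)
    (hss : E.IsSemistableModel) : CurveLiftProperty p W E N₀ := by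
  intro C hO hflat hord
  have hp : p.Prime := Fact.out
  obtain ⟨f⟩ := GaloisReps.exists_padicHom O hdat.p_mem
  have hfl : IsLocalHom f := ⟨fun x hx => by
    by_contra hu
    have hx' : x ∈ maximalIdeal ℤ_[p] := hu
    rw [PadicInt.maximalIdeal_eq_span_p] at hx'
    obtain ⟨c, rfl⟩ := Ideal.mem_span_singleton'.mp hx'
    rw [map_mul, map_natCast] at hx
    exact hdat.p_mem (isUnit_of_mul_isUnit_right hx)⟩
  set ρ := (EC.Rep.tateRep E p hΔ).baseChangeAlong f hfl with hρ
  haveI : IsLocalHom (algebraMap O O) := hO.isLocalHom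
  obtain ⟨r, hc, hl, hn, he, hchar, htr, hdet⟩ := exists_normalised hdat.rb_eq hO ρ
    (residual_tateRep_isEquiv hΔ f hfl hdat.rb_eq hres)
  have hdetc : ρ.DetIsCyclotomic p :=
    CFT.Tangent.DetIsCyclotomic.baseChange f hfl (EC.Rep.detIsCyclotomic_tateRep hΔ)
  have hgood : ∀ ℓ : ℕ, ℓ.Prime → ℓ ∉ E.Δ.natAbs.primeFactors → E.IsGoodPrimeFor ℓ := by
    intro ℓ hℓ hmem hdvd
    exact hmem (Nat.mem_primeFactors.mpr
      ⟨hℓ, Int.natCast_dvd.mp hdvd, Int.natAbs_ne_zero.mpr hΔ⟩)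
  refine ⟨r, ⟨hc, hl, hn, ⟨hdetc.1, fun n σ a ha => ?_⟩, ?_, fun ℓ hℓ hℓp hℓT A' hA' τ hτ => ?_,
    fun q hq hqp A' hA' τ hτ => ?_⟩, fun ℓ hℓ hℓS A' hA' σ hσ => ?_⟩
  · rw [det_toRep, hdet]
    exact hdetc.2 n σ a ha
  · refine ⟨O, inferInstance, inferInstance, inferInstance, inferInstance, AlgHom.id O O, r, hc,
      Function.injective_id, ?_, ?_⟩
    · ext σ i j
      rfl
    · by_cases hg : E.IsGoodPrimeFor p
      · rw [hflat hg]
        exact isFlatAt_of_isEquiv he (isFlatAt_tateRep_baseChange hΔ hg f hfl)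
      · rw [hord hg]
        have hdvd : (p : ℤ) ∣ E.Δ := not_not.mp hg
        exact curve_isOrdinaryAt_of_isEquiv he (CFT.Tangent.IsStrictOrdinaryAt.baseChange f hfl
          (EC.Rep.isStrictOrdinaryAt_tateRep hΔ hdat.p_ne_two hdvd (hss p hp hdvd))).isOrdinaryAt
  · exact matrix_eq_one_of_isEquiv he (CFT.Tangent.IsUnramifiedAt.baseChange f hfl
      (EC.Rep.isUnramifiedAt_tateRep hΔ hℓ (hgood ℓ hℓ hℓT) hℓp) A' hA' τ hτ)
  · have hq' : q.Prime := (Nat.mem_primeFactors.mp hq).1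
    have h1 : LinearMap.charpoly (ρ.ρ τ) = (Polynomial.X - 1) ^ 2 :=
      CFT.Tangent.IsUnipotentOnInertiaAt.baseChange f hfl
        (EC.Rep.isUnipotentOnInertiaAt_tateRep hΔ hq' hqp fun h => hss q hq' h.2 h.1) A' hA' τ hτ
    rw [trace_eq_add_of_charpoly (a := 1) (b := 1) (X := r τ)
      (by rw [hchar, h1, map_one, sq]), one_add_one_eq_two]
  · simp only [Finset.mem_insert, not_or] at hℓS
    rw [htr]
    letI := f.toAlgebra
    show LinearMap.trace O _ (((EC.Rep.tateRep E p hΔ).ρ σ).baseChange O) = _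
    rw [LinearMap.trace_baseChange]
    refine (congrArg f
      (EC.Rep.tateRep_trace_det_frobenius hΔ hℓ (hgood ℓ hℓ hℓS.2) hℓS.1 hA' hσ).1).trans ?_
    exact map_intCast f _

end Fermat.Agent.RT.Lifting
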