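import Fermat.Agent.RT.Assembly.Normalise
import Fermat.Agent.RT.GammaH.Action

/-!
# Vocabulary of the lifting argument

Eigen classes in `Hom(Γ₀(L), O)` for a system of eigenvalues, the congruence bound at a level,
degeneracy homomorphisms, derivations at a point and lifts with conditions read on the algebra
they generate.
-/

set_option autoImplicit false
set_option linter.style.haveILetI false

noncomputable section

namespace Fermat.Agent.RT.Lifting

open IsLocalRing MvPolynomial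
open Fermat.Agent.Deform Fermat.Agent.Arith Fermat.Agent.RT.GammaH Fermat.Agent.RT.Assembly
open scoped MatrixGroups

section Eigen

variable {O : Type} [CommRing O]

/-- `Hom(Γ₀(L), O)` over the operators outside `S`. -/
abbrev Classes (O : Type) [CommRing O] (S : Finset ℕ) (L : ℕ) : Type :=
  HomMod O S (⊤ : Subgroup (ZMod L)ˣ) O

variable (S : Finset ℕ) (L : ℕ) (a : ℕ → O)

/-- The classes on which every `T_ℓ`, `ℓ ∉ S`, is multiplication by `a ℓ`. -/
def eigVec : Submodule O (Classes O S L) where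
  carrier := {u | ∀ i : {ℓ : ℕ // ℓ.Prime ∧ ℓ ∉ S}, (X (Sum.inr i) : OpRing O L S) • u = a i.1 • u}
  zero_mem' i := by rw [smul_zero, smul_zero]
  add_mem' hu hv i := by rw [smul_add, smul_add, hu i, hv i]
  smul_mem' c u hu i := by rw [smul_comm, hu i, smul_comm]

/-- A functional through which every `T_ℓ`, `ℓ ∉ S`, is multiplication by `a ℓ`. -/
def IsEigFun (φ : Classes O S L →ₗ[O] O) : Prop :=
  ∀ (i : {ℓ : ℕ // ℓ.Prime ∧ ℓ ∉ S}) (u : Classes O S L),
    φ ((X (Sum.inr i) : OpRing O L S) • u) = a i.1 * φ u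

/-- Some primitive eigen class is sent to a multiple of `D` by every eigen functional. -/
def CongruenceBound (D : O) : Prop :=
  ∃ u ∈ eigVec S L a, (∃ γ, IsUnit (u γ)) ∧ ∀ φ, IsEigFun S L a φ → D ∣ φ u

variable {S L a}

theorem mem_eigVec {u : Classes O S L} :
    u ∈ eigVec S L a ↔ ∀ i : {ℓ : ℕ // ℓ.Prime ∧ ℓ ∉ S},
      (X (Sum.inr i) : OpRing O L S) • u = a i.1 • u := Iff.rfl

theorem CongruenceBound.of_dvd {D D' : O} (h : CongruenceBound S L a D) (hD : D' ∣ D) :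
    CongruenceBound S L a D' :=
  let ⟨u, hu, hu', hφ⟩ := h
  ⟨u, hu, hu', fun φ h => hD.trans (hφ φ h)⟩

theorem CongruenceBound.eigVec_ne_bot [Nontrivial O] {D : O} (h : CongruenceBound S L a D) :
    eigVec S L a ≠ ⊥ := by
  obtain ⟨u, hu, ⟨γ, hγ⟩, -⟩ := h
  intro hbot
  rw [hbot, Submodule.mem_bot] at hu
  rw [hu] at hγ
  exact not_isUnit_zero hγ

end Eigen

section Degeneracy

/-- `(a, b; c, e) ↦ (a, d b; c / d, e)`: conjugation by `diag(d, 1)`. -/
def degMat (d : ℕ) (g : Matrix (Fin 2) (Fin 2) ℤ) : Matrix (Fin 2) (Fin 2) ℤ :=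
  !![g 0 0, d * g 0 1; g 1 0 / d, g 1 1]

variable {M L : ℕ} (d : ℕ)

theorem dvd_lowerLeft (h : d * M ∣ L) (g : gammaH L (⊤ : Subgroup (ZMod L)ˣ)) :
    ((d * M : ℕ) : ℤ) ∣ (g : SL(2, ℤ)) 1 0 :=
  (Int.natCast_dvd_natCast.2 h).trans ((ZMod.intCast_zmod_eq_zero_iff_dvd _ _).1 g.2.1)

/-- The homomorphism `Γ₀(L) → Γ₀(M)` given by `diag(d, 1)`, for `d M ∣ L`. -/
def degHom [NeZero d] (h : d * M ∣ L) :
    gammaH L (⊤ : Subgroup (ZMod L)ˣ) →* gammaH M (⊤ : Subgroup (ZMod M)ˣ) := by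
  have hd : (d : ℤ) ≠ 0 := Int.natCast_ne_zero.2 (NeZero.ne d)
  have hc : ∀ g : gammaH L (⊤ : Subgroup (ZMod L)ˣ),
      ((g : SL(2, ℤ)) 1 0 / d) * d = (g : SL(2, ℤ)) 1 0 :=
    fun g => Int.ediv_mul_cancel ((Dvd.intro (M : ℤ) rfl).trans (by
      have := dvd_lowerLeft d h g; push_cast at this; exact this))
  have hdet : ∀ g : gammaH L (⊤ : Subgroup (ZMod L)ˣ),
      (degMat d ((g : SL(2, ℤ)) : Matrix (Fin 2) (Fin 2) ℤ)).det = 1 := fun g => by
    have h1 := (g : SL(2, ℤ)).det_coe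
    rw [Matrix.det_fin_two] at h1
    rw [degMat, Matrix.det_fin_two_of]
    linear_combination h1 - (g : SL(2, ℤ)) 0 1 * hc g
  let f : gammaH L (⊤ : Subgroup (ZMod L)ˣ) → SL(2, ℤ) :=
    fun g => (⟨degMat d ((g : SL(2, ℤ)) : Matrix (Fin 2) (Fin 2) ℤ), hdet g⟩ :
      Matrix.SpecialLinearGroup (Fin 2) ℤ)
  have hf : ∀ g i j, f g i j = degMat d ((g : SL(2, ℤ)) : Matrix (Fin 2) (Fin 2) ℤ) i j :=
    fun _ _ _ => rfl
  have hmem : ∀ g, f g ∈ gammaH M (⊤ : Subgroup (ZMod M)ˣ) := fun g => by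
    rw [gammaH_top, CongruenceSubgroup.Gamma0_mem, ZMod.intCast_zmod_eq_zero_iff_dvd, hf]
    obtain ⟨k, hk⟩ := dvd_lowerLeft d h g
    refine ⟨k, mul_right_cancel₀ hd ?_⟩
    simp only [degMat, Matrix.of_apply, Matrix.cons_val', Matrix.cons_val_zero, Matrix.cons_val_one,
      Matrix.cons_val_fin_one]
    rw [hc g, hk]
    push_cast
    ring
  refine MonoidHom.mk' (fun g => ⟨f g, hmem g⟩) fun g g' => Subtype.ext ?_
  have e1 := hc g
  have e2 := hc g'
  have e3 := hc (g * g')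
  rw [Subgroup.coe_mul]
  ext i j
  rw [Matrix.SpecialLinearGroup.coe_mul, Matrix.mul_apply, Fin.sum_univ_two]
  simp only [hf]
  rw [Subgroup.coe_mul, Matrix.SpecialLinearGroup.coe_mul] at e3
  fin_cases i <;> fin_cases j <;>
    simp [degMat, Matrix.mul_apply, Fin.sum_univ_two] at e3 ⊢
  · linear_combination -((g : SL(2, ℤ)) 0 1) * e2
  · ring
  · refine mul_right_cancel₀ hd ?_
    linear_combination e3 - ((g' : SL(2, ℤ)) 0 0) * e1 - ((g : SL(2, ℤ)) 1 1) * e2
  · linear_combination -((g' : SL(2, ℤ)) 0 1) * e1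

variable {O : Type} [CommRing O]

/-- The degeneracy map on classes. -/
def degCls (O : Type) [CommRing O] (S : Finset ℕ) [NeZero d] (h : d * M ∣ L) :
    Classes O S M →ₗ[O] Classes O S L where
  toFun φ := toHomMod (O := O) ((toHomMod (O := O)).symm φ |>.comp (degHom d h).toAdditive)
  map_add' _ _ := rfl
  map_smul' _ _ := rfl

theorem degCls_apply (S : Finset ℕ) [NeZero d] (h : d * M ∣ L) (φ : Classes O S M)
    (γ : gammaH L (⊤ : Subgroup (ZMod L)ˣ)) :
    degCls d O S h φ (Additive.ofMul γ) = φ (Additive.ofMul (degHom d h γ)) := rfl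

end Degeneracy

section Derivations

variable {O : Type} [CommRing O] [IsLocalRing O] {R : Type} [CommRing R] [Algebra O R]

/-- An `O`-linear derivation at the point `x`. -/
def IsDerAt (x : R →ₐ[O] O) {J : Type} [AddCommGroup J] [Module O J] (δ : R →ₗ[O] J) : Prop :=
  ∀ a b, δ (a * b) = x a • δ b + x b • δ a

/-- There are at most as many derivations at `x` into any `O / 𝔪 ^ m` as elements of `O / D`. -/
def DerBound (x : R →ₐ[O] O) (D : O) : Prop :=
  ∀ (m : ℕ) (s : Finset (R →ₗ[O] O ⧸ maximalIdeal O ^ m)),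
    (∀ δ ∈ s, IsDerAt x δ) → s.card ≤ Nat.card (O ⧸ Ideal.span {D})

end Derivations

section Lifts

variable {O : Type} [CommRing O] [IsDomain O] [IsDiscreteValuationRing O]
  [IsAdicComplete (maximalIdeal O) O]

/-- A condition usable on products and on subalgebras. -/
structure IsPairCond (ρbar : ResidualGaloisRep (ResidueField O)) (C : CondAt O) : Prop
    extends IsLocalCond ρbar C where
  pair : ∀ ⦃A B₁ B₂ : Type⦄ [CommRing A] [IsLocalRing A] [Algebra O A] [Module.Finite O A]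
    [IsLocalHom (algebraMap O A)] [CommRing B₁] [IsLocalRing B₁] [Algebra O B₁]
    [Module.Finite O B₁] [CommRing B₂] [IsLocalRing B₂] [Algebra O B₂] [Module.Finite O B₂]
    (φ₁ : A →ₐ[O] B₁) (φ₂ : A →ₐ[O] B₂) (h₁ : IsLocalHom (φ₁ : A →+* B₁))
    (h₂ : IsLocalHom (φ₂ : A →+* B₂)) (ρ : GaloisRepAdic A),
    (∀ a, φ₁ a = 0 → φ₂ a = 0 → a = 0) →
    ρ.residual.IsEquiv (ρbar.baseChangeAlong (ResidueField.map (algebraMap O A))) →
    C (ρ.baseChangeAlong (φ₁ : A →+* B₁) h₁) → C (ρ.baseChangeAlong (φ₂ : A →+* B₂) h₂) → C ρ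

/-- The condition holds on some finite algebra over which the representation is defined. -/
def CondOn (C : CondAt O) {A : Type} [CommRing A] [Algebra O A] (r : Gal →* M2 A) : Prop :=
  ∃ (B : Type) (_ : CommRing B) (_ : IsLocalRing B) (_ : Algebra O B) (_ : Module.Finite O B)
    (φ : B →ₐ[O] A) (rB : Gal →* M2 B) (hc : IsCont rB),
    Function.Injective φ ∧ mapM (φ : B →+* A) rB = r ∧ C (toRep rB hc)

variable (p : ℕ) (W : Rigid O)

/-- A normalised lift with cyclotomic determinant, unramified outside `T ∪ {p}`, with unipotent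
inertia at `U`, and of type `C` at `p`. -/
structure IsTypeLift (C : CondAt O) (T U : Finset ℕ) {A : Type} [CommRing A] [IsLocalRing A]
    [Algebra O A] (hA : IsResAlg O A) (r : Gal →* M2 A) : Prop where
  cont : IsCont r
  lifts : Lifts W hA r
  normal : IsNormal W r
  det : (toRep r cont).DetIsCyclotomic p
  cond : CondOn C r
  unramified : ∀ ℓ : ℕ, ℓ.Prime → ℓ ≠ p → ℓ ∉ T → ∀ A' : ValuationSubring QBar,
    A'.LiesOverPrime ℓ → ∀ τ ∈ A'.inertiaSubgroupIn ℚ, r τ = 1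
  unipotent : ∀ q ∈ U, q ≠ p → ∀ A' : ValuationSubring QBar, A'.LiesOverPrime q →
    ∀ τ ∈ A'.inertiaSubgroupIn ℚ, (r τ).trace = 2

/-- At most `D` lifts of type `(C, T, U)` to `O ⊕ O / 𝔪 ^ m` over the lift `r₀`, for every `m`. -/
def LiftBound (C : CondAt O) (T U : Finset ℕ) (r₀ : Gal →* M2 O) (D : O) : Prop :=
  ∀ (m : ℕ) [IsLocalRing (TrivSqZeroExt O (O ⧸ maximalIdeal O ^ m))]
    (hA : IsResAlg O (TrivSqZeroExt O (O ⧸ maximalIdeal O ^ m)))
    (s : Finset (Gal →* M2 (TrivSqZeroExt O (O ⧸ maximalIdeal O ^ m)))),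
    (∀ r ∈ s, IsTypeLift p W C T U hA r ∧
      mapM ((TrivSqZeroExt.fstHom O O (O ⧸ maximalIdeal O ^ m)) :
        TrivSqZeroExt O (O ⧸ maximalIdeal O ^ m) →+* O) r = r₀) →
    s.card ≤ Nat.card (O ⧸ Ideal.span {D})

/-- `a` gives the traces of Frobenius elements outside `S`. -/
def IsAttachedSystem {A : Type} [CommRing A] (S : Finset ℕ) (r : Gal →* M2 A) (a : ℕ → A) : Prop :=
  ∀ ℓ : ℕ, ℓ.Prime → ℓ ∉ S → ∀ A' : ValuationSubring QBar, A'.LiesOverPrime ℓ →
    ∀ σ : Gal, A'.IsFrobeniusAt σ ℓ → (r σ).trace = a ℓ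

end Lifts

end Fermat.Agent.RT.Lifting
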