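import Fermat.Agent.RT.Lifting.GalAlg.Entries
import Fermat.Agent.RT.Lifting.GalAlg.Cond
import Fermat.Agent.RT.Lifting.GalAlg.Systems
import Fermat.Agent.Deform.Burnside

/-!
# The algebra of all lifts at a level: `GaloisAlgebraProperty`
-/

set_option autoImplicit false
set_option linter.style.haveILetI false

noncomputable section

namespace Fermat.Agent.RT.Lifting

open IsLocalRing MvPolynomial Module
open Fermat.Agent.Deform Fermat.Agent.Arith Fermat.Agent.RT.GammaH Fermat.Agent.RT.Assembly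
open Fermat.Agent.CFT.Tangent
open GalAlg

variable {O : Type} [CommRing O] [IsDomain O] [IsDiscreteValuationRing O]
  [IsAdicComplete (maximalIdeal O) O]

omit [IsAdicComplete (maximalIdeal O) O] in
theorem GalAlg.eq_of_forall_sub_mem {p : ℕ} (hp : (p : O) ∈ maximalIdeal O) {c d : O}
    (h : ∀ n : ℕ, ∃ a : O, c - a ∈ Ideal.span {((p ^ n : ℕ) : O)} ∧
      d - a ∈ Ideal.span {((p ^ n : ℕ) : O)}) : c = d := by
  refine sub_eq_zero.1 (IsHausdorff.haus' (I := maximalIdeal O) _ fun n => ?_)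
  rw [SModEq.zero, smul_eq_mul, Ideal.mul_top]
  obtain ⟨a, hc, hd⟩ := h n
  have h1 := sub_mem hc hd
  rw [sub_sub_sub_cancel_right] at h1
  refine (Ideal.span_singleton_le_iff_mem _).2 ?_ h1
  rw [Nat.cast_pow]
  exact Ideal.pow_mem_pow hp n

/-- **The algebra of all lifts at a level.** -/
theorem galoisAlgebraProperty [Finite (ResidueField O)] {p : ℕ} {W : Rigid O}
    {ρbar : ResidualGaloisRep (ResidueField O)} {bb : Basis (Fin 2) (ResidueField O) ρbar.V}
    {S : Finset ℕ} {abar : ℕ → ResidueField O} {N₀ : ℕ}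
    (hd : IsResidualDatum p W ρbar bb S abar N₀) :
    GaloisAlgebraProperty p W ρbar S abar N₀ := by
  intro C hC ι hι L _ hN₀L hS hcoef hlift hO a₀ a₁ r₀ r₁ ht₀ ha₀ ht₁ ha₁ e he
  classical
  have hpp : p.Prime := hd.prime_mem p hd.mem_S_p
  haveI : Fact p.Prime := ⟨hpp⟩
  -- the auxiliary prime
  obtain ⟨ℓ₀, hℓ₀, hℓ₀S, hdvd, hℓ₀a⟩ := hd.aux (L * p) (mul_ne_zero (NeZero.ne L) hpp.ne_zero)
  have hkp : (p : ResidueField O) = 0 := by
    rw [← map_natCast (residue O), residue_eq_zero_iff]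
    exact hd.p_mem
  have hne₀ : abar ℓ₀ ≠ 1 + (ℓ₀ : ResidueField O) := by
    obtain ⟨k, hk⟩ := (Dvd.intro_left L rfl).trans hdvd
    have hcast : (ℓ₀ : ResidueField O) = 1 := by
      rw [show ℓ₀ = p * k + 1 by have := hℓ₀.two_le; omega, Nat.cast_add, Nat.cast_mul, hkp,
        zero_mul, zero_add, Nat.cast_one]
    rw [hcast]
    norm_num
    exact hℓ₀a
  -- the systems and their lifts
  obtain ⟨J, hJ, aJ, haJ, hker⟩ := exists_systems (abar := abar) ι hι hS hcoef hℓ₀ hℓ₀S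
    ((Dvd.intro p rfl).trans hdvd) hne₀ he
  choose rJ htJ haJ' using fun j => hlift hO (aJ j) (haJ j).1 (haJ j).2
  let a : Fin 2 ⊕ J → ℕ → O := Sum.elim ![a₀, a₁] aJ
  let r : Fin 2 ⊕ J → Gal →* M2 O := Sum.elim ![r₀, r₁] rJ
  have ht : ∀ i, IsTypeLift p W C L.primeFactors N₀.primeFactors hO (r i) := by
    rintro (i | j)
    · fin_cases i
      exacts [ht₀, ht₁]
    · exact htJ j
  have ha : ∀ i, IsAttachedSystem (insert p L.primeFactors) (r i) (a i) := by
    rintro (i | j)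
    · fin_cases i
      exacts [ha₀, ha₁]
    · exact haJ' j
  let v : {ℓ : ℕ // ℓ.Prime ∧ ℓ ∉ S} → (Fin 2 ⊕ J → O) := fun ℓ i => a i ℓ.1
  have hfam : IsLiftFamily r v W hO :=
    ⟨fun i => (ht i).cont, fun i => (ht i).lifts, fun i => (ht i).normal,
      fun i ℓ A hA σ hσ => ha i ℓ.1 ℓ.2.1 (fun hm => ℓ.2.2 (by
        rcases Finset.mem_insert.1 hm with h | h
        · rw [h]; exact hd.mem_S_p
        · exact hS _ ℓ.2.1 (Nat.dvd_of_mem_primeFactors h))) A hA σ hσ⟩
  have h2 : IsUnit (2 : O) := by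
    rw [← residue_ne_zero_iff_isUnit, map_ofNat]
    intro h20
    have h1 : ((Nat.gcd p 2 : ℕ) : ResidueField O) = 0 := by
      obtain ⟨x, y, hxy⟩ : ∃ x y : ℤ, ((Nat.gcd p 2 : ℕ) : ℤ) = p * x + 2 * y :=
        ⟨_, _, Nat.gcd_eq_gcd_ab p 2⟩
      have := congrArg (Int.cast : ℤ → ResidueField O) hxy
      push_cast at this
      rw [this, hkp, h20]
      ring
    rw [(Nat.coprime_primes hpp Nat.prime_two).2 hd.p_ne_two, Nat.cast_one] at h1
    exact one_ne_zero h1
  have hW : ∃ σ, W.rb σ 0 1 ≠ 0 := by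
    by_contra hcon
    push Not at hcon
    have htop := span_matrix_eq_top ρbar hd.irreducible bb
    have hle : Submodule.span (ResidueField O)
        (Set.range fun σ => LinearMap.toMatrixAlgEquiv bb (ρbar.ρ σ)) ≤
        LinearMap.ker (Matrix.entryLinearMap (ResidueField O) (ResidueField O)
          (0 : Fin 2) (1 : Fin 2)) := by
      rw [Submodule.span_le]
      rintro _ ⟨σ, rfl⟩
      have h1 := hcon σ
      rw [hd.rb_eq] at h1
      exact h1
    rw [htop] at hle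
    have h1 : (Matrix.single (0 : Fin 2) (1 : Fin 2) (1 : ResidueField O)) 0 1 = 0 :=
      hle (Submodule.mem_top (x := Matrix.single (0 : Fin 2) (1 : Fin 2) (1 : ResidueField O)))
    simp at h1
  -- the algebra and the representation over it
  haveI := hfam.isLocalRing
  haveI := finite_subalgebra (sysAlg v)
  haveI : IsReduced (sysAlg v) := isReduced_of_injective (sysAlg v).val Subtype.val_injective
  have hR : IsResAlg O (sysAlg v) := hfam.isResAlg
  have hmem := hfam.entry_mem h2 hW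
  set ρ := corestrict (sysAlg v) (prodRep r) hmem with hρ
  let pt : Fin 2 ⊕ J → sysAlg v →ₐ[O] O := fun i =>
    (Pi.evalAlgHom O (fun _ : Fin 2 ⊕ J => O) i).comp (sysAlg v).val
  have hpt : ∀ i, mapM (pt i : sysAlg v →+* O) ρ = r i := fun i => by
    ext σ b c; rfl
  have hext : ∀ {M N : M2 (sysAlg v)},
      (∀ i b c, pt i (M b c) = pt i (N b c)) → M = N := fun h =>
    Matrix.ext fun b c => Subtype.ext (funext fun i => h i b c)
  have hptl : ∀ i, IsLocalHom (pt i : sysAlg v →+* O) := fun i =>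
    IsLocalHom.of_surjective _ fun o => ⟨algebraMap O _ o, (pt i).commutes o⟩
  have hc : IsCont ρ := hfam.isCont_corestrict hmem
  have hl : Lifts W hR ρ := Lifts.of_map (pt (Sum.inl 0)) (hptl _) (by
    rw [hpt]; exact (ht (Sum.inl 0)).lifts)
  have hn : IsNormal W ρ := IsNormal.of_injective (sysAlg v).val Subtype.val_injective (by
    rw [mapM_corestrict]; exact hfam.isNormal_prodRep)
  have hv : ∀ ℓ, (⟨v ℓ, Algebra.subset_adjoin ⟨ℓ, rfl⟩⟩ : sysAlg v) ∈
      Algebra.adjoin O (entries ρ) := fun ℓ => by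
    obtain ⟨A, hA⟩ := exists_liesOverPrime ℓ.2.1
    obtain ⟨σ, hσ⟩ := exists_isFrobeniusAt hA ℓ.2.1
    have e : (⟨v ℓ, Algebra.subset_adjoin ⟨ℓ, rfl⟩⟩ : sysAlg v) = ρ σ 0 0 + ρ σ 1 1 :=
      Subtype.ext (funext fun i => by
        show a i ℓ.1 = r i σ 0 0 + r i σ 1 1
        rw [← Matrix.trace_fin_two, hfam.trace i ℓ A hA σ hσ])
    rw [e]
    exact add_mem (Algebra.subset_adjoin ⟨(σ, 0, 0), rfl⟩) (Algebra.subset_adjoin ⟨(σ, 1, 1), rfl⟩)
  let t : {ℓ : ℕ // ℓ.Prime ∧ ℓ ∉ S} → sysAlg v := fun ℓ =>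
    ⟨v ℓ, Algebra.subset_adjoin ⟨ℓ, rfl⟩⟩
  have hadj : Algebra.adjoin O (Set.range t) = ⊤ := by
    apply Subalgebra.map_injective (f := (sysAlg v).val) Subtype.val_injective
    rw [AlgHom.map_adjoin, Algebra.map_top, Subalgebra.range_val, ← Set.range_comp]
    rfl
  have hgen : Algebra.adjoin O (entries ρ) = ⊤ := by
    rw [eq_top_iff, ← hadj]
    refine Algebra.adjoin_le ?_
    rintro _ ⟨ℓ, rfl⟩
    exact hv ℓ
  have hcyc : ∀ i (n : ℕ) (σ : Gal) (b : ℕ), (∀ μ : QBar, μ ^ p ^ n = 1 → σ μ = μ ^ b) →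
      (r i σ).det - b ∈ Ideal.span {((p ^ n : ℕ) : O)} := fun i n σ b hb => by
    have := (ht i).det.2 n σ b hb
    rwa [det_toRep] at this
  have hdeteq : ∀ i σ, (r i σ).det = (r₀ σ).det := fun i σ =>
    eq_of_forall_sub_mem hd.p_mem fun n => by
      haveI : NeZero (p ^ n) := ⟨pow_ne_zero n hpp.ne_zero⟩
      obtain ⟨b, hb⟩ := exists_pow_eq_on_roots (p ^ n) σ
      exact ⟨b, hcyc i n σ b hb, hcyc (Sum.inl 0) n σ b hb⟩
  have hdet : ∀ σ, (ρ σ).det = algebraMap O (sysAlg v) (r₀ σ).det := fun σ =>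
    Subtype.ext (funext fun i => by
      show pt i (ρ σ).det = pt i (algebraMap O (sysAlg v) (r₀ σ).det)
      rw [AlgHom.commutes, ← hdeteq i σ, ← hpt i]
      exact RingHom.map_det (pt i : sysAlg v →+* O) (ρ σ))
  have hcond : C (toRep ρ hc) := cond_of_points hd.rb_eq hC hR hl hc pt
    (fun x hx => Subtype.ext (funext hx)) fun i hc' =>
      cond_of_condOn hC hc' ((hpt i).symm ▸ (ht i).cond)
  have hunr : ∀ ℓ : ℕ, ℓ.Prime → ℓ ≠ p → ℓ ∉ L.primeFactors → ∀ A' : ValuationSubring QBar,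
      A'.LiesOverPrime ℓ → ∀ τ ∈ A'.inertiaSubgroupIn ℚ, ρ τ = 1 :=
    fun ℓ hℓ hℓp hℓT A' hA' τ hτ => hext fun i b c => by
      show r i τ b c = pt i ((1 : M2 (sysAlg v)) b c)
      rw [(ht i).unramified ℓ hℓ hℓp hℓT A' hA' τ hτ, Matrix.one_apply, Matrix.one_apply]
      split_ifs <;> simp
  have huni : ∀ q ∈ N₀.primeFactors, q ≠ p → ∀ A' : ValuationSubring QBar, A'.LiesOverPrime q →
      ∀ τ ∈ A'.inertiaSubgroupIn ℚ, (ρ τ).trace = 2 :=
    fun q hq hqp A' hA' τ hτ => Subtype.ext (funext fun i => by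
      show pt i (ρ τ).trace = pt i 2
      rw [map_ofNat, ← (ht i).unipotent q hq hqp A' hA' τ hτ, ← hpt i]
      exact AddMonoidHom.map_trace (pt i : sysAlg v →+* O) (ρ τ))
  -- the action
  let Φ : OpRing O L S →ₐ[O] sysAlg v := aeval (Sum.elim (fun _ => 1) t)
  have hΦ : Function.Surjective Φ := by
    rw [← AlgHom.range_eq_top, eq_top_iff, ← hadj]
    refine Algebra.adjoin_le ?_
    rintro _ ⟨ℓ, rfl⟩
    exact ⟨X (Sum.inr ℓ), by simp [Φ]⟩
  have hΦact : ∀ P, Φ P = 0 → localAct O e (Classes O S L) P = 0 := fun P hP => hker P fun j => by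
    have hh : (pt (Sum.inr j)).comp Φ = sysHom (aJ j) := by
      refine MvPolynomial.algHom_ext fun i => ?_
      rcases i with u | ℓ <;> simp [Φ, sysHom, pt, t, v, a]
    rw [← hh, AlgHom.comp_apply, hP, map_zero]
  let act : sysAlg v →ₐ[O] Module.End O (localPart O e (Classes O S L)) :=
    (Ideal.Quotient.liftₐ (RingHom.ker Φ) (localAct O e (Classes O S L)) fun P hP =>
      hΦact P hP).comp (Ideal.quotientKerAlgEquivOfSurjective hΦ).symm.toAlgHom
  refine ⟨sysAlg v, inferInstance, inferInstance, inferInstance, inferInstance, inferInstance,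
    pt (Sum.inl 0), pt (Sum.inl 1), t, act, hR, hadj, fun i => ?_, fun i => rfl, fun i => rfl,
    fun D hD => ?_⟩
  · have e1 : Φ (X (Sum.inr i)) = t i := by simp [Φ]
    rw [← e1]
    simp only [act, AlgHom.comp_apply]
    erw [Ideal.quotientKerAlgEquivOfSurjective_symm_apply hΦ]
    rfl
  · exact derBound_of_liftBound hd.p_mem hC hR ρ hc hl hn hgen (fun σ => (r₀ σ).det)
      (fun n σ b hb => hcyc (Sum.inl 0) n σ b hb) hdet hcond hunr huni (pt (Sum.inl 0))
      (hpt _) hD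

end Fermat.Agent.RT.Lifting
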