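import Fermat.Agent.RT.Lifting.SelmerCountProof
import Fermat.Agent.RT.Lifting.Interface
import Fermat.Agent.CFT.Tangent.FlatBound
import Fermat.Agent.CFT.Tangent.OrdinaryBound
import Fermat.Agent.CFT.TWPrimes.Residual
import Fermat.Agent.EC.Rep.TWHypothesis

/-!
# The Taylor–Wiles input of the lifting argument for a curve

`twSelmerInput_flat` and `twSelmerInput_ord`: for the residual datum of a
semistable curve with irreducible `E[p]`, flat classes, or ordinary ones when très ramifiée.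
-/

set_option autoImplicit false
set_option linter.style.haveILetI false

noncomputable section

namespace Fermat.Agent.RT.Lifting

open IsLocalRing Module Fermat.Agent.Deform Fermat.Agent.Arith Fermat.Agent.RT.Assembly
open Fermat.Agent.CFT.Tangent
open scoped TensorProduct Pointwise

/-- No stable line for a base change of a matrix representation, from the base changed module. -/
theorem noLine_mapM {k₀ K : Type} [Field k₀] [Field K] [Algebra k₀ K] (ρ : ResidualGaloisRep k₀)
    (b : Basis (Fin 2) k₀ ρ.V) (H : Subgroup Gal)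
    (h : ∀ V : Submodule K (ρ.baseChange K).V,
      (∀ σ ∈ H, ∀ x ∈ V, (ρ.baseChange K).ρ σ x ∈ V) → V = ⊥ ∨ V = ⊤) :
    CFT.TWPrimes.NoLine (mapM (algebraMap k₀ K) (matRes ρ b)) H := by
  rintro ⟨w, hw, hstab⟩
  let B : Basis (Fin 2) K (ρ.baseChange K).V := b.baseChange K
  let x : (ρ.baseChange K).V := B.equivFun.symm w
  have hx : x ≠ 0 := fun h0 => hw (B.equivFun.symm.injective (by rw [map_zero]; exact h0))
  have hmat : ∀ σ, LinearMap.toMatrix B B ((ρ.baseChange K).ρ σ) =
      mapM (algebraMap k₀ K) (matRes ρ b) σ := fun σ => Matrix.ext fun i j => by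
    show LinearMap.toMatrix B B ((ρ.ρ σ).baseChange K) i j = _
    rw [LinearMap.toMatrix_apply, Basis.baseChange_apply, LinearMap.baseChange_tmul,
      Basis.baseChange_repr_tmul, mapM_apply, matRes_apply, Algebra.smul_def, mul_one]
  have hact : ∀ σ, B.equivFun ((ρ.baseChange K).ρ σ x) =
      (mapM (algebraMap k₀ K) (matRes ρ b) σ).mulVec w := fun σ => by
    have e := (LinearMap.toMatrix_mulVec_repr B B ((ρ.baseChange K).ρ σ) x).symm
    rw [hmat, show (B.repr x : Fin 2 → K) = w from B.equivFun.apply_symm_apply w] at e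
    exact e
  rcases h (Submodule.span K {x}) (fun σ hσ z hz => by
    obtain ⟨c, rfl⟩ := Submodule.mem_span_singleton.mp hz
    obtain ⟨d, hd⟩ := hstab σ hσ
    rw [map_smul]
    refine Submodule.smul_mem _ c (Submodule.mem_span_singleton.mpr ⟨d, B.equivFun.injective ?_⟩)
    rw [hact σ, hd, map_smul, B.equivFun.apply_symm_apply]) with hbot | htop
  · exact hx ((Submodule.span_singleton_eq_bot).mp hbot)
  · have h1 := finrank_span_singleton (K := K) hx
    rw [htop, finrank_top, (ρ.baseChange K).finrank_eq] at h1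
    omega

variable {O : Type} [CommRing O] [IsDomain O] [IsDiscreteValuationRing O]
  [IsAdicComplete (maximalIdeal O) O] [Finite (ResidueField O)]
  {p : ℕ} [Fact p.Prime] [CharP (ResidueField O) p]
  {W : Rigid O} {ρbar : ResidualGaloisRep (ResidueField O)}
  {bb : Basis (Fin 2) (ResidueField O) ρbar.V} {S : Finset ℕ} {abar : ℕ → ResidueField O} {N₀ : ℕ}
  {E : WeierstrassCurve ℤ} {hΔ : E.Δ ≠ 0}

/-- `TWHyp` for the residual datum of a semistable curve. -/
theorem IsResidualDatum.twHyp (hD : IsResidualDatum p W ρbar bb S abar N₀)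
    (hE : IsResidualOf E hΔ p W) (hW : E.IsSemistableModel) (hirr : E.ModRepIsIrreducible p) :
    CFT.TWPrimes.TWHyp W.rb := by
  obtain ⟨b, hb⟩ := hE
  letI : Algebra (ZMod p) (ResidueField O) := (ZMod.castHom dvd_rfl (ResidueField O)).toAlgebra
  have hrb : W.rb = mapM (algebraMap (ZMod p) (ResidueField O)) (matRes _ b) := by
    refine MonoidHom.ext fun σ => Matrix.ext fun i j => ?_
    rw [mapM_apply]
    exact hb σ i j
  refine ⟨?_, hD.split, ?_, fun H hH => ?_⟩
  · exact Ring.two_ne_zero (by rw [ringChar.eq (ResidueField O) p]; exact hD.p_ne_two)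
  · rw [hrb]
    exact noLine_mapM _ b ⊤ fun V hV =>
      EC.Rep.baseChange_residualRep_isIrreducible hΔ hD.p_ne_two hirr _ V
        fun σ x hx => hV σ (Subgroup.mem_top σ) x hx
  · rw [hrb]
    exact noLine_mapM _ b H
      (EC.Rep.residualRep_indexTwo_irreducible (hΔ := hΔ) hW hD.p_ne_two hirr _ H hH)

omit [Finite (ResidueField O)] [IsAdicComplete (maximalIdeal O) O] [Fact p.Prime]
  [CharP (ResidueField O) p] in
theorem IsResidualDatum.finiteLevel_rb (hD : IsResidualDatum p W ρbar bb S abar N₀) :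
    GaloisFactorsThroughFiniteLevel W.rb := by
  rw [hD.rb_eq]
  exact CFT.TWPrimes.finiteLevel_matRes ρbar bb

omit [Finite (ResidueField O)] [IsAdicComplete (maximalIdeal O) O] [Fact p.Prime] in
theorem IsResidualDatum.det_rb (hD : IsResidualDatum p W ρbar bb S abar N₀) (σ : Gal) (n : ℕ)
    (h : ∀ μ : QBar, μ ^ p = 1 → σ μ = μ ^ n) : (W.rb σ).det = (n : ResidueField O) := by
  rw [hD.rb_eq]
  exact CFT.TWPrimes.det_matRes_of_detIsCyclotomic ρbar bb p hD.det σ n h

omit [Finite (ResidueField O)] [IsAdicComplete (maximalIdeal O) O] [Fact p.Prime]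
  [CharP (ResidueField O) p] in
theorem IsResidualDatum.rb_eq_one_iff (hD : IsResidualDatum p W ρbar bb S abar N₀) (σ : Gal) :
    W.rb σ = 1 ↔ ρbar.ρ σ = 1 := by
  rw [hD.rb_eq]
  exact (LinearMap.toMatrixAlgEquiv bb).map_eq_one_iff

omit [Finite (ResidueField O)] in
theorem IsResidualDatum.inertia_ne (hD : IsResidualDatum p W ρbar bb S abar N₀) {q : ℕ}
    (hq : q.Prime) (hqp : q ≠ p) (hqN : q ∣ N₀) {A : ValuationSubring QBar}
    (hA : A.LiesOverPrime q) :
    (∀ τ ∈ A.inertiaSubgroupIn ℚ, (W.rb τ).trace = 2 ∧ (W.rb τ).det = 1) ∧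
      ∃ τ ∈ A.inertiaSubgroupIn ℚ, W.rb τ ≠ 1 := by
  refine ⟨fun τ hτ => ⟨hD.unipotent q hq hqp hqN A hA τ hτ, ?_⟩, ?_⟩
  · rw [hD.det_rb τ 1 fun μ hμ => ?_, Nat.cast_one]
    rw [pow_one]
    exact inertia_root hA hq hτ hμ fun hd => hqp ((Nat.prime_dvd_prime_iff_eq hq Fact.out).mp hd)
  · have h := hD.ramified q hq hqp hqN
    simp only [ResidualGaloisRep.IsUnramifiedAt, not_forall] at h
    obtain ⟨B, hB, τ, hτ, hτ1⟩ := h
    obtain ⟨g, rfl⟩ := exists_smul_eq hA hB hq
    refine ⟨g⁻¹ * τ * g, ?_, fun h1 => hτ1 ((hD.rb_eq_one_iff τ).mp ?_)⟩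
    · exact EC.Rep.conj_mem_inertia hτ
    · rw [show τ = g * (g⁻¹ * τ * g) * g⁻¹ by group, map_mul, map_mul, h1, mul_one, ← map_mul,
        mul_inv_cancel, map_one]

/-- The input from a local bound at `p`. -/
theorem twSelmerInput_of_bound (hD : IsResidualDatum p W ρbar bb S abar N₀) (hE : IsResidualOf E hΔ p W)
    (hW : E.IsSemistableModel) (hirr : E.ModRepIsIrreducible p)
    (C : CondAt O)
    (hC : LocalPBound p (IsTangentClass (fun _A _ _ _ ρ => C ρ ∧ ρ.DetIsCyclotomic p) W.rb) W.rb) :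
    TWSelmerInput p C W.rb N₀.primeFactors (N₀.primeFactors.erase p) ∅ S := by
  have hN : N₀ ≠ 0 := hD.squarefree.ne_zero
  obtain ⟨m, hm⟩ := selmerCount (p := p) W.rb hD.p_ne_two (hD.twHyp hE hW hirr) hD.finiteLevel_rb hD.det_rb
    N₀.primeFactors S (fun q hq => Nat.prime_of_mem_primeFactors hq)
    (fun q hq => hD.mem_S_level q (Nat.prime_of_mem_primeFactors hq)
      (Nat.dvd_of_mem_primeFactors hq))
    hD.prime_mem hD.mem_S_p
    (fun ℓ hℓ hℓp hℓT A hA τ hτ => (hD.rb_eq_one_iff τ).mpr (hD.unramified ℓ hℓ hℓp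
      (fun hd => hℓT (Nat.mem_primeFactors.mpr ⟨hℓ, hd, hN⟩)) A hA τ hτ))
    (fun q hq hqp A hA => hD.inertia_ne (Nat.prime_of_mem_primeFactors hq) hqp
      (Nat.dvd_of_mem_primeFactors hq) hA)
    _ hC
  refine ⟨m, m, by simp, fun n => ?_⟩
  obtain ⟨qv, hqv, hZ⟩ := hm n
  exact ⟨qv, hqv, fun Z hfin hcls hcob => hZ Z hfin (fun b hb => by
    have h := hcls b hb
    exact ⟨h.cocycle, h.level, h.trace, h.unramified, fun q hq hqp => h.unipotent q (Finset.mem_erase.mpr ⟨hqp, hq⟩), h.atP⟩) hcob⟩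

omit [IsAdicComplete (maximalIdeal O) O] in
theorem localPBound_flat (hp2 : p ≠ 2) {r : Gal →* M2 (ResidueField O)}
    (hr : GaloisFactorsThroughFiniteLevel r)
    (hcyc : ∀ (σ : Gal) (n : ℕ), (∀ μ : QBar, μ ^ p = 1 → σ μ = μ ^ n) →
      (r σ).det = (n : ResidueField O))
    (hsplit : ∀ σ, ∃ α β : ResidueField O, (r σ).trace = α + β ∧ (r σ).det = α * β) :
    LocalPBound p (IsTangentClass (fun _A _ _ _ ρ => ρ.IsFlatAt p ∧ ρ.DetIsCyclotomic p) r) r :=
  fun V _ _ _ hb => finrank_le_flat hp2 hr hcyc hsplit V fun b hbV hne =>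
    let ⟨ρ, B, hρ, hB⟩ := hb b hbV hne
    ⟨ρ, B, hρ.1, hρ.2, hB⟩

theorem localPBound_ord (hD : IsResidualDatum p W ρbar bb S abar N₀)
    (htres : IsTresRamified p ρbar) :
    LocalPBound p (IsTangentClass (fun _A _ _ _ ρ => ρ.IsOrdinaryAt p ∧ ρ.DetIsCyclotomic p) W.rb)
      W.rb :=
  fun V _ hcoc hlev hb => finrank_le_ordinary hD.p_ne_two
    (Ring.two_ne_zero (by rw [ringChar.eq (ResidueField O) p]; exact hD.p_ne_two))
    hD.finiteLevel_rb hD.det_rb V hcoc hlev fun b hbV hne => by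
      letI := dualAlgebra O
      obtain ⟨ρ, B, hρ, hB⟩ := hb b hbV hne
      refine ⟨ρ, B, htres ρ ?_ hρ.2 hρ.1, hρ.2, hB⟩
      refine isEquiv_of_matRes_eq (B.baseChange (ResidueField (DualNumber (ResidueField O))))
        (letI := ((IsLocalRing.residue (DualNumber (ResidueField O))).comp
            (algebraMap (ResidueField O) (DualNumber (ResidueField O)))).toAlgebra;
          bb.baseChange (ResidueField (DualNumber (ResidueField O)))) ?_
      rw [matRes_residual, matRes_baseChangeAlong, ← hD.rb_eq]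
      refine MonoidHom.ext fun σ => Matrix.ext fun i j => ?_
      rw [mapM_apply, mapM_apply, hB, RingHom.comp_apply, ← sub_eq_zero, ← map_sub,
        residue_eq_zero_iff, mem_maximalIdeal, mem_nonunits_iff,
        TrivSqZeroExt.isUnit_iff_isUnit_fst, TrivSqZeroExt.fst_sub]
      have e : ((fstM ((1 + epsM (b σ)) * inlM (W.rb σ))) : M2 _) i j = W.rb σ i j := by
        rw [fstM_mul, fstM_add, fstM_one, fstM_epsM, fstM_inlM, add_zero, one_mul]
      rw [show TrivSqZeroExt.fst (((1 + epsM (b σ)) * inlM (W.rb σ)) i j) = W.rb σ i j from e,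
        TrivSqZeroExt.algebraMap_eq_inl, TrivSqZeroExt.fst_inl, sub_self]
      exact not_isUnit_zero

/-- The flat case. -/
theorem twSelmerInput_flat (hD : IsResidualDatum p W ρbar bb S abar N₀) (hE : IsResidualOf E hΔ p W)
    (hW : E.IsSemistableModel) (hirr : E.ModRepIsIrreducible p) :
    TWSelmerInput p (flatCond p) W.rb N₀.primeFactors (N₀.primeFactors.erase p) ∅ S :=
  twSelmerInput_of_bound hD hE hW hirr _
    (localPBound_flat hD.p_ne_two hD.finiteLevel_rb hD.det_rb hD.split)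

/-- The ordinary case, `ρbar` très ramifiée. -/
theorem twSelmerInput_ord (hD : IsResidualDatum p W ρbar bb S abar N₀) (hE : IsResidualOf E hΔ p W)
    (hW : E.IsSemistableModel) (hirr : E.ModRepIsIrreducible p)
    (htres : IsTresRamified p ρbar) :
    TWSelmerInput p (ordCond p) W.rb N₀.primeFactors (N₀.primeFactors.erase p) ∅ S :=
  twSelmerInput_of_bound hD hE hW hirr _ (localPBound_ord hD htres)

end Fermat.Agent.RT.Lifting
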