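import Fermat.Agent.RT.Assembly.Selmer
import Fermat.Agent.CFT.TWPrimes.Irred

/-!
# The Selmer count at Taylor–Wiles primes, as a proposition on a residual matrix representation
-/

set_option autoImplicit false
set_option linter.style.haveILetI false

noncomputable section

namespace Fermat.Agent.RT.Lifting

open Module Fermat.Agent.Deform Fermat.Agent.CFT.Tangent Fermat.Agent.Arith

variable {k : Type} [Field k]

/-- A class unramified outside `T ∪ {p}`, with trace zero against inertia at `U`, of type `P`. -/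
structure IsCountClass (p : ℕ) (P : (Gal → M2 k) → Prop) (r : Gal →* M2 k) (T U : Finset ℕ)
    (b : Gal → M2 k) : Prop where
  cocycle : IsAdCocycle r b
  level : IsFiniteLevel b
  trace : ∀ σ, (b σ).trace = 0
  unramified : ∀ ℓ : ℕ, ℓ.Prime → ℓ ≠ p → ℓ ∉ T → ∀ A : ValuationSubring QBar, A.LiesOverPrime ℓ →
    ∀ τ ∈ A.inertiaSubgroupIn ℚ, b τ = 0
  unipotent : ∀ q ∈ U, q ≠ p → ∀ A : ValuationSubring QBar, A.LiesOverPrime q →
    ∀ τ ∈ A.inertiaSubgroupIn ℚ, (b τ * r τ).trace = 0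
  atP : b ≠ 0 → P b

/-- Classes of type `P` exceed the invariants at `p` by at most one dimension. -/
def LocalPBound (p : ℕ) [Fact p.Prime] (P : (Gal → M2 k) → Prop) (r : Gal →* M2 k) : Prop :=
  ∀ (V : Submodule k (Gal → M2 k)) [Module.Finite k V],
    (∀ b ∈ V, IsAdCocycle r b) → (∀ b ∈ V, IsFiniteLevel b) → (∀ b ∈ V, b ≠ 0 → P b) →
    finrank k V ≤ finrank k (V ⊓ cobdOn r ((padicPlace p).decompositionSubgroup ℚ) :
        Submodule k (Gal → M2 k)) +
      finrank k (fixedOn r ((padicPlace p).decompositionSubgroup ℚ)) + 1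

/-- With the local bound at `p`, some fixed number of Taylor–Wiles primes of every depth bounds
the classes allowed to ramify at them by that number. -/
def SelmerCountProperty (p : ℕ) [Fact p.Prime] (k : Type) [Field k] [Finite k] [CharP k p] :
    Prop :=
  ∀ (r : Gal →* M2 k), p ≠ 2 → CFT.TWPrimes.TWHyp r → GaloisFactorsThroughFiniteLevel r →
    (∀ (σ : Gal) (n : ℕ), (∀ μ : QBar, μ ^ p = 1 → σ μ = μ ^ n) → (r σ).det = (n : k)) →
  ∀ (T S : Finset ℕ), (∀ q ∈ T, q.Prime) → T ⊆ S → (∀ q ∈ S, q.Prime) → p ∈ S →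
    (∀ ℓ : ℕ, ℓ.Prime → ℓ ≠ p → ℓ ∉ T → ∀ A : ValuationSubring QBar, A.LiesOverPrime ℓ →
      ∀ τ ∈ A.inertiaSubgroupIn ℚ, r τ = 1) →
    (∀ q ∈ T, q ≠ p → ∀ A : ValuationSubring QBar, A.LiesOverPrime q →
      (∀ τ ∈ A.inertiaSubgroupIn ℚ, (r τ).trace = 2 ∧ (r τ).det = 1) ∧
        ∃ τ ∈ A.inertiaSubgroupIn ℚ, r τ ≠ 1) →
  ∀ (P : (Gal → M2 k) → Prop), LocalPBound p P r →
  ∃ m : ℕ, ∀ n : ℕ, ∃ qv : Fin m → ℕ, Assembly.IsTWSet p r S n qv ∧
    ∀ Z : Submodule k (Gal → M2 k), Module.Finite k Z →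
      (∀ b ∈ Z, IsCountClass p P r (T ∪ Finset.univ.image qv) T b) →
      (∀ b ∈ Z, ∀ X, b = cobdLin r X → b = 0) → finrank k Z ≤ m

end Fermat.Agent.RT.Lifting
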