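import Fermat.Agent.RT.Lifting.SelmerCount
import Fermat.Agent.CFT.Tangent.LocalBounds
import Fermat.Agent.CFT.Selmer.Bound

/-!
# The Selmer count at Taylor–Wiles primes
-/

set_option autoImplicit false
set_option linter.style.haveILetI false

noncomputable section

namespace Fermat.Agent.RT.Lifting

open Module Fermat.Agent.Deform Fermat.Agent.CFT.Tangent Fermat.Agent.Arith

variable {k : Type} [Field k] [Finite k] {p : ℕ} [Fact p.Prime] [CharP k p]

/-- **The Selmer count** at Taylor–Wiles primes. -/
theorem selmerCount : SelmerCountProperty p k := by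
  intro r hp2 hr hrfin hcyc T S hT hTS hS hpS hrT hU P hP
  have hpp : p.Prime := Fact.out
  have hB : ∀ v ∈ insert p T, v.Prime := fun v hv =>
    (Finset.mem_insert.mp hv).elim (fun e => e ▸ hpp) (hT v)
  obtain ⟨m, hm⟩ := CFT.Selmer.exists_selmer_bound (r := r) hp2 hr hrfin hcyc (insert p T) hB (Finset.mem_insert_self p T)
    fun l hl hlB => hrT l hl (fun e => hlB (e ▸ Finset.mem_insert_self p T))
      (fun h => hlB (Finset.mem_insert_of_mem h))
  refine ⟨m, fun n => ?_⟩
  obtain ⟨qv, hinj, hq, -, hreg, hZ⟩ := hm n S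
  refine ⟨qv, ⟨hinj, fun i => (hq i).1, fun i => (hq i).2.1, fun i => (hq i).2.2.2.1,
    fun i => (hq i).2.2.2.2, fun i A hA φ hφ => ?_⟩, fun Z hfin hcls hcob => ?_⟩
  · have h1 : ((qv i - 1 : ℕ) : k) = 0 :=
      (CharP.cast_eq_zero_iff k p _).mpr ((dvd_pow_self p n.succ_ne_zero).trans (hq i).2.2.2.2)
    rw [Nat.cast_sub (hq i).1.one_le, Nat.cast_one, sub_eq_zero] at h1
    rw [h1]
    norm_num
    exact (hreg i A hA φ hφ).2.1
  · haveI := hfin
    let δ : ℕ → ℤ := fun v => if v = p then 1 else 0
    have hδ : ∑ v ∈ insert p T, δ v = 1 := by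
      rw [Finset.sum_ite_eq' (insert p T) p (fun _ => (1 : ℤ)),
        if_pos (Finset.mem_insert_self p T)]
    have h := hZ Z hfin (fun b hb => by
      have h := hcls b hb
      refine ⟨h.cocycle, h.level, h.trace, fun l hl hlB hlq => h.unramified l hl
        (fun e => hlB (e ▸ Finset.mem_insert_self p T)) fun hmem => ?_⟩
      rcases Finset.mem_union.mp hmem with h' | h'
      · exact hlB (Finset.mem_insert_of_mem h')
      · obtain ⟨i, -, hi⟩ := Finset.mem_image.mp h'
        exact hlq i hi) hcob δ fun v _ hv => ?_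
    · rw [hδ, add_sub_cancel_right] at h
      exact_mod_cast h
    · by_cases hvp : v = p
      · subst hvp
        simp only [δ, if_pos rfl]
        exact_mod_cast hP Z (fun b hb => (hcls b hb).cocycle) (fun b hb => (hcls b hb).level)
          fun b hb => (hcls b hb).atP
      · have hvT : v ∈ T := (Finset.mem_insert.mp hv).resolve_left hvp
        obtain ⟨h1, h2⟩ := hU v hvT hvp _ (CFT.Local.padicPlace_liesOverPrime v)
        simp only [δ, if_neg hvp, add_zero]
        exact_mod_cast finrank_le_unipotent p hr.two hvp hrfin Z (fun b hb => (hcls b hb).cocycle)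
          (fun b hb => (hcls b hb).level) (fun b hb => (hcls b hb).trace) h1 h2
          fun b hb => (hcls b hb).unipotent v hvT hvp _ (CFT.Local.padicPlace_liesOverPrime v)

end Fermat.Agent.RT.Lifting
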