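import Fermat.Agent.RT.Lifting.Interface
import Fermat.Agent.RT.Assembly.Coeff
import Fermat.Agent.RT.Glue.Points
import Fermat.Agent.ConductorLevel.Eigen
import Fermat.Agent.GaloisReps.PadicHom
import Fermat.Agent.IntegralStructure.HeckeFinite

/-!
# Coefficients containing the eigenvalues of the newforms of level dividing a given one
-/

set_option autoImplicit false
set_option linter.style.haveILetI false

noncomputable section

namespace Fermat.Agent.RT.Lifting

open IsLocalRing Polynomial CongruenceSubgroup ModularFormClass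

/-- A ring finite over `ℤ` has only finitely many homomorphisms to `ℂ`. -/
theorem finite_ringHom_complex (A : Type*) [CommRing A] [Module.Finite ℤ A] :
    Finite (A →+* ℂ) := by
  classical
  obtain ⟨n, t, ht⟩ := Submodule.fg_iff_exists_fin_generating_family.mp
    (Module.Finite.fg_top (R := ℤ) (M := A))
  choose P hP hP0 using fun i => Algebra.IsIntegral.isIntegral (R := ℤ) (t i)
  have hmem : ∀ (χ : A →+* ℂ) (i : Fin n),
      χ (t i) ∈ ((P i).map (Int.castRingHom ℂ)).roots.toFinset := by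
    intro χ i
    rw [Multiset.mem_toFinset, mem_roots ((hP i).map _).ne_zero, IsRoot, eval_map,
      RingHom.ext_int (Int.castRingHom ℂ) (χ.comp (algebraMap ℤ A)), ← hom_eval₂, hP0, map_zero]
  refine Finite.of_injective (β := ∀ i : Fin n, ((P i).map (Int.castRingHom ℂ)).roots.toFinset)
    (fun χ i => ⟨χ (t i), hmem χ i⟩) fun χ χ' h => RingHom.ext fun a => ?_
  have ha : a ∈ Submodule.span ℤ (Set.range t) := ht ▸ Submodule.mem_top
  induction ha using Submodule.span_induction with
  | mem x hx =>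
    obtain ⟨i, rfl⟩ := hx
    exact congrArg Subtype.val (congrFun h i)
  | zero => rw [map_zero, map_zero]
  | add x y _ _ hx hy => rw [map_add, map_add, hx, hy]
  | smul c x _ hx => rw [map_zsmul, map_zsmul, hx]

/-- A `ℤ`-finite subring of `ℂ` containing the coefficients at prime index of the newforms of
level dividing `L`. -/
theorem exists_coeff_subalgebra {L : ℕ} (hL : L ≠ 0) :
    ∃ R : Subalgebra ℤ ℂ, Module.Finite ℤ R ∧
      ∀ (M : ℕ) [NeZero M] (g : CuspForm (Gamma0 M) 2), g.IsNewform → M ∣ L →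
        ∀ ℓ : ℕ, ℓ.Prime → qCoeff g ℓ ∈ R := by
  classical
  have key : ∀ M : ℕ, ∃ s : Set ℂ, s.Finite ∧ (∀ x ∈ s, IsIntegral ℤ x) ∧
      ∀ (_ : NeZero M) (g : CuspForm (Gamma0 M) 2), g.IsNormalizedEigenform →
        ∀ ℓ : ℕ, ℓ.Prime → qCoeff g ℓ ∈ Algebra.adjoin ℤ s := by
    intro M
    by_cases hM : M = 0
    · exact ⟨∅, Set.finite_empty, by simp, fun h => absurd hM h.out⟩
    haveI : NeZero M := ⟨hM⟩
    haveI : Module.Finite ℤ (CuspForm.heckeAlgebra M 2 ∅) :=
      IntegralStructure.heckeAlgebra_finite M 2 ∅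
    haveI := finite_ringHom_complex (CuspForm.heckeAlgebra M 2 ∅)
    obtain ⟨n, t, ht⟩ := Submodule.fg_iff_exists_fin_generating_family.mp
      (Module.Finite.fg_top (R := ℤ) (M := CuspForm.heckeAlgebra M 2 ∅))
    refine ⟨Set.range fun z : (CuspForm.heckeAlgebra M 2 ∅ →+* ℂ) × Fin n => z.1 (t z.2),
      Set.finite_range _, ?_, fun _ g hg ℓ hℓ => ?_⟩
    · rintro _ ⟨⟨χ, i⟩, rfl⟩
      exact (Algebra.IsIntegral.isIntegral (R := ℤ) (t i)).map χ.toIntAlgHom
    · obtain ⟨x, hx⟩ : ∃ x, ConductorLevel.eigenChar hg ∅ x = qCoeff g ℓ := by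
        refine ⟨HeckeDuality.heckeOp M 2 ℓ hℓ, ?_⟩
        show qCoeff ((HeckeDuality.heckeOp M 2 ℓ hℓ).1 g) 1 = _
        rw [ConductorLevel.heckeOp_eigen hg hℓ, HeckeDuality.coeff_smul, hg.qCoeff_one, mul_one]
      rw [← hx]
      have hxs : x ∈ Submodule.span ℤ (Set.range t) := ht ▸ Submodule.mem_top
      generalize ConductorLevel.eigenChar hg ∅ = χ at hx ⊢
      clear hx
      induction hxs using Submodule.span_induction with
      | mem y hy =>
        obtain ⟨i, rfl⟩ := hy
        exact Algebra.subset_adjoin ⟨(χ, i), rfl⟩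
      | zero => rw [map_zero]; exact zero_mem _
      | add y z _ _ hy hz => rw [map_add]; exact add_mem hy hz
      | smul c y _ hy => rw [map_zsmul]; exact zsmul_mem hy c
  choose s hfin hint hmem using key
  refine ⟨Algebra.adjoin ℤ (⋃ M ∈ L.divisors, s M), Module.Finite.iff_fg.mpr
    (fg_adjoin_of_finite (L.divisors.finite_toSet.biUnion fun M _ => hfin M) ?_), ?_⟩
  · intro x hx
    simp only [Set.mem_iUnion] at hx
    obtain ⟨M, _, hx⟩ := hx
    exact hint M x hx
  · intro M hM g hg hML ℓ hℓ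
    refine Algebra.adjoin_mono ?_ (hmem M hM g hg.1 ℓ hℓ)
    exact Set.subset_biUnion_of_mem (u := s) (Nat.mem_divisors.2 ⟨hML, hL⟩)

/-- A coefficient ring, embedded in `ℂ`, containing the coefficients of all newforms of level
dividing `L`. -/
theorem exists_coefficients (p : ℕ) [Fact p.Prime] {L : ℕ} (hL : L ≠ 0) :
    ∃ (O : Type) (_ : CommRing O) (_ : IsDomain O) (_ : IsDiscreteValuationRing O)
      (_ : IsAdicComplete (maximalIdeal O) O) (_ : Finite (ResidueField O)) (_ : CharZero O)
      (_ : CharP (ResidueField O) p) (ι : O →+* ℂ),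
      (p : O) ∈ maximalIdeal O ∧ Function.Injective ι ∧ HasCoefficients ι L ∧
      ∀ t d : ZMod p, ∃ x : ResidueField O,
        x ^ 2 - ZMod.castHom dvd_rfl _ t * x + ZMod.castHom dvd_rfl _ d = 0 := by
  classical
  obtain ⟨O, i1, i2, i3, i4, i5, i6, i7, hpO, -, hquad, -⟩ := Assembly.exists_coeff p
  obtain ⟨ι₀⟩ := GaloisReps.exists_padicHom O hpO
  obtain ⟨e⟩ := Glue.nonempty_ringEquiv_complex O ι₀
  obtain ⟨R, hR, hRmem⟩ := exists_coeff_subalgebra hL
  obtain ⟨O', j1, j2, j3, j4, j5, j6, j7, j8, j9, j, θ', -, hjinj, -, hθ'⟩ :=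
    GaloisReps.exists_coeffExt O (e.symm.toRingHom.comp R.val.toRingHom)
  have hpO' : (p : O') ∈ maximalIdeal O' := by
    rw [← map_natCast (algebraMap O O')]
    exact map_nonunit (algebraMap O O') _ hpO
  have hchar : CharP (ResidueField O') p :=
    (CharP.charP_iff_prime_eq_zero (Fact.out : p.Prime)).2 (by
      rw [← map_natCast (residue O'), residue_eq_zero_iff]; exact hpO')
  refine ⟨O', j1, j2, j3, j4, j5, j6, hchar, e.toRingHom.comp j, hpO',
    e.injective.comp hjinj, fun M _ g hg hML ℓ hℓ _ => ⟨θ' ⟨_, hRmem M g hg hML ℓ hℓ⟩, ?_⟩,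
    fun t d => ?_⟩
  · show e (j (θ' _)) = _
    rw [← RingHom.comp_apply j θ', hθ']
    exact e.apply_symm_apply _
  · obtain ⟨x, hx⟩ := hquad (X ^ 2 - C t * X + C d) (by compute_degree!)
    refine ⟨ResidueField.map (algebraMap O O') x, ?_⟩
    simp only [IsRoot, Polynomial.map_add, Polynomial.map_sub, Polynomial.map_mul,
      Polynomial.map_pow, map_X, map_C, eval_add, eval_sub, eval_mul, eval_pow, eval_X, eval_C] at hx
    have h := congrArg (ResidueField.map (algebraMap O O')) hx
    rw [map_add, map_sub, map_mul, map_pow, map_zero] at h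
    rw [RingHom.ext_zmod ((ResidueField.map (algebraMap O O')).comp (ZMod.castHom dvd_rfl _))
      (ZMod.castHom (dvd_refl p) (ResidueField O')) |> fun e => (RingHom.congr_fun e t).symm,
      RingHom.ext_zmod ((ResidueField.map (algebraMap O O')).comp (ZMod.castHom dvd_rfl _))
      (ZMod.castHom (dvd_refl p) (ResidueField O')) |> fun e => (RingHom.congr_fun e d).symm]
    exact h

end Fermat.Agent.RT.Lifting
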