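import Mathlib

/-!
# Counting over a discrete valuation ring with finite residue field

`|O / (a b)| = |O / a| |O / b|`, and a square system `A x = 0` in `(O / I) ^ n` has at most
`|O / (det A)|` solutions.
-/

set_option autoImplicit false
set_option linter.style.haveILetI false

noncomputable section

namespace Fermat.Agent.RT.Lifting

open IsLocalRing
open scoped Pointwise

variable {O : Type} [CommRing O] [IsDomain O] [IsDiscreteValuationRing O] [Finite (ResidueField O)]

theorem finite_quotient_pow' (n : ℕ) : Finite (O ⧸ maximalIdeal O ^ n) :=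
  haveI : Finite (O ⧸ maximalIdeal O) := ‹Finite (ResidueField O)›
  Ideal.finite_quotient_pow (IsNoetherian.noetherian _) n

theorem finite_quotient_span {D : O} (hD : D ≠ 0) : Finite (O ⧸ Ideal.span {D}) := by
  obtain ⟨ϖ, hϖ⟩ := IsDiscreteValuationRing.exists_irreducible O
  obtain ⟨n, hn⟩ := IsDiscreteValuationRing.associated_pow_irreducible hD hϖ
  rw [Ideal.span_singleton_eq_span_singleton.mpr hn, ← Ideal.span_singleton_pow,
    ← hϖ.maximalIdeal_eq]
  exact finite_quotient_pow' n

theorem card_quotient_pos {D : O} (hD : D ≠ 0) : 0 < Nat.card (O ⧸ Ideal.span {D}) :=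
  haveI := finite_quotient_span hD
  Nat.card_pos

omit [IsDiscreteValuationRing O] [Finite (ResidueField O)] in
theorem card_quotient_mul {a b : O} (ha : a ≠ 0) :
    Nat.card (O ⧸ Ideal.span {a * b}) =
      Nat.card (O ⧸ Ideal.span {a}) * Nat.card (O ⧸ Ideal.span {b}) := by
  have e : (a • Ideal.span {b} : Ideal O) = Ideal.span {a * b} := by
    rw [← Ideal.submodule_span_eq, Submodule.smul_span, Set.smul_set_singleton, smul_eq_mul]
  let f := Ideal.mulQuot a (Ideal.span {b})
  let g := Ideal.quotOfMul a (Ideal.span {b})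
  have hf : Function.Injective f :=
    Ideal.mulQuot_injective _ (mem_nonZeroDivisors_of_ne_zero ha)
  have hex : Function.Exact f g := Ideal.exact_mulQuot_quotOfMul _
  have h1 := Submodule.card_eq_card_quotient_mul_card (LinearMap.ker g)
  have h2 := Nat.card_congr (LinearMap.quotKerEquivOfSurjective g
    (Ideal.quotOfMul_surjective _)).toEquiv
  have h3 : Nat.card (LinearMap.ker g) = Nat.card (O ⧸ Ideal.span {b}) := by
    rw [hex.linearMap_ker_eq, Nat.card_congr (LinearEquiv.ofInjective f hf).toEquiv.symm]
  rw [h2, h3] at h1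
  rw [← e, h1, mul_comm]

omit [Finite (ResidueField O)] in
theorem card_quotient_prod {ι : Type} (t : Finset ι) {f : ι → O} (hf : ∀ i ∈ t, f i ≠ 0) :
    Nat.card (O ⧸ Ideal.span {∏ i ∈ t, f i}) =
      ∏ i ∈ t, Nat.card (O ⧸ Ideal.span {f i}) := by
  classical
  induction t using Finset.induction with
  | empty =>
    haveI : Subsingleton (O ⧸ Ideal.span {(1 : O)}) :=
      Ideal.Quotient.subsingleton_iff.mpr Ideal.span_singleton_one
    rw [Finset.prod_empty, Finset.prod_empty, Nat.card_of_subsingleton (0 : O ⧸ Ideal.span {(1 : O)})]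
  | insert i t hi ih =>
    rw [Finset.prod_insert hi, Finset.prod_insert hi,
      card_quotient_mul (hf i (Finset.mem_insert_self i t)),
      ih fun j hj => hf j (Finset.mem_insert_of_mem hj)]

omit [Finite (ResidueField O)] in
/-- The cokernel of an injective endomorphism of `O ^ n` has `|O / (det)|` elements. -/
theorem card_coker {n : ℕ} (A : Matrix (Fin n) (Fin n) O) (hA : A.det ≠ 0) :
    Nat.card ((Fin n → O) ⧸ LinearMap.range (Matrix.toLin' A)) =
      Nat.card (O ⧸ Ideal.span {A.det}) := by
  classical
  let f := Matrix.toLin' A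
  let N := LinearMap.range f
  have hinj : Function.Injective f := by
    refine (injective_iff_map_eq_zero f).mpr fun x hx => ?_
    have h := congrArg (Matrix.toLin' A.adjugate) hx
    rw [map_zero, ← LinearMap.comp_apply, ← Matrix.toLin'_mul, Matrix.adjugate_mul,
      map_smul, Matrix.toLin'_one, LinearMap.smul_apply, LinearMap.id_apply] at h
    exact (smul_eq_zero.mp h).resolve_left hA
  have hrank : Module.finrank O N = Module.finrank O (Fin n → O) :=
    LinearMap.finrank_range_of_inj hinj
  let b := Pi.basisFun O (Fin n)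
  let a := Submodule.smithNormalFormCoeffs b hrank
  let b' := Submodule.smithNormalFormTopBasis b hrank
  let ab := Submodule.smithNormalFormBotBasis b hrank
  let g : (Fin n → O) →ₗ[O] (Fin n → O) := b'.constr O fun i => (ab i : Fin n → O)
  let e : (Fin n → O) ≃ₗ[O] (Fin n → O) :=
    ((b'.equiv ab (Equiv.refl _)).trans (LinearEquiv.ofInjective f hinj).symm)
  have hge : f ∘ₗ (e : (Fin n → O) →ₗ[O] (Fin n → O)) = g := b'.ext fun i => by
    rw [LinearMap.comp_apply, LinearEquiv.coe_coe, Module.Basis.constr_basis]
    show f ((LinearEquiv.ofInjective f hinj).symm (b'.equiv ab (Equiv.refl _) (b' i))) = _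
    rw [Module.Basis.equiv_apply, Equiv.refl_apply]
    exact congrArg Subtype.val ((LinearEquiv.ofInjective f hinj).apply_symm_apply (ab i))
  have hg : LinearMap.det g = ∏ i, a i := by
    rw [← LinearMap.det_toMatrix b' g]
    have hd : LinearMap.toMatrix b' b' g = Matrix.diagonal a := by
      refine Matrix.ext fun i j => ?_
      rw [LinearMap.toMatrix_apply, Module.Basis.constr_basis,
        Submodule.smithNormalFormBotBasis_def b hrank j, map_smul, Module.Basis.repr_self,
        Finsupp.smul_apply, Finsupp.single_apply, Matrix.diagonal_apply, smul_eq_mul]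
      rcases eq_or_ne i j with rfl | hij
      · simp [a]
      · simp [hij, Ne.symm hij]
    rw [hd, Matrix.det_diagonal]
  rw [← hge, LinearMap.det_comp, LinearMap.det_toLin'] at hg
  have hunit : IsUnit (LinearMap.det (e : (Fin n → O) →ₗ[O] (Fin n → O))) :=
    LinearEquiv.isUnit_det' e
  have hspan : Ideal.span {A.det} = Ideal.span {∏ i, a i} := by
    rw [← hg, Ideal.span_singleton_mul_right_unit hunit]
  rw [hspan, card_quotient_prod _ fun i _ => Submodule.smithNormalFormCoeffs_ne_zero b hrank i,
    Nat.card_congr (N.quotientEquivPiSpan b hrank).toEquiv, Nat.card_pi]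

/-- A square system over `O / I` has at most `|O / (det)|` solutions. -/
theorem card_solutions_le {n : ℕ} (A : Matrix (Fin n) (Fin n) O) (hA : A.det ≠ 0) (I : Ideal O)
    [Finite (O ⧸ I)] :
    Nat.card {x : Fin n → O ⧸ I // (A.map (Ideal.Quotient.mk I)).mulVec x = 0} ≤
      Nat.card (O ⧸ Ideal.span {A.det}) := by
  classical
  let π : (Fin n → O) →ₗ[O] (Fin n → O ⧸ I) := (Submodule.mkQ I).compLeft (Fin n)
  let f : (Fin n → O ⧸ I) →ₗ[O] (Fin n → O ⧸ I) :=
    (Matrix.toLin' (A.map (Ideal.Quotient.mk I))).restrictScalars O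
  have hπ : Function.Surjective π := fun y => by
    choose x hx using fun i => Ideal.Quotient.mk_surjective (y i)
    exact ⟨x, funext hx⟩
  have hfπ : ∀ x, f (π x) = π (Matrix.toLin' A x) := fun x => funext fun i => by
    show ((A.map (Ideal.Quotient.mk I)).mulVec fun j => Ideal.Quotient.mk I (x j)) i =
      Ideal.Quotient.mk I (A.mulVec x i)
    rw [RingHom.map_mulVec]
    rfl
  have h1 := Submodule.card_eq_card_quotient_mul_card (LinearMap.ker f)
  have h2 := Submodule.card_eq_card_quotient_mul_card (LinearMap.range f)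
  rw [Nat.card_congr (LinearMap.quotKerEquivRange f).toEquiv] at h1
  rw [h1, mul_comm (Nat.card (LinearMap.range f))] at h2
  have hker : Nat.card (LinearMap.ker f) =
      Nat.card ((Fin n → O ⧸ I) ⧸ LinearMap.range f) :=
    Nat.eq_of_mul_eq_mul_right (Nat.card_pos (α := LinearMap.range f)) h2
  calc Nat.card {x : Fin n → O ⧸ I // (A.map (Ideal.Quotient.mk I)).mulVec x = 0}
      = Nat.card (LinearMap.ker f) := Nat.card_congr (Equiv.subtypeEquivRight fun _ => Iff.rfl)
    _ = Nat.card ((Fin n → O ⧸ I) ⧸ LinearMap.range f) := hker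
    _ ≤ Nat.card ((Fin n → O) ⧸ LinearMap.range (Matrix.toLin' A)) := by
        haveI : Finite ((Fin n → O) ⧸ LinearMap.range (Matrix.toLin' A)) :=
          Nat.finite_of_card_ne_zero (by rw [card_coker A hA]; exact (card_quotient_pos hA).ne')
        let h : ((Fin n → O) ⧸ LinearMap.range (Matrix.toLin' A)) →ₗ[O]
            ((Fin n → O ⧸ I) ⧸ LinearMap.range f) :=
          Submodule.liftQ _ ((LinearMap.range f).mkQ.comp π) (by
            rintro _ ⟨x, rfl⟩
            rw [LinearMap.mem_ker, LinearMap.comp_apply, ← hfπ]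
            exact (Submodule.Quotient.mk_eq_zero _).mpr ⟨π x, rfl⟩)
        refine Nat.card_le_card_of_surjective h fun y => ?_
        obtain ⟨z, rfl⟩ := Submodule.Quotient.mk_surjective _ y
        obtain ⟨x, rfl⟩ := hπ z
        exact ⟨Submodule.Quotient.mk x, rfl⟩
    _ = Nat.card (O ⧸ Ideal.span {A.det}) := card_coker A hA

end Fermat.Agent.RT.Lifting
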