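import Fermat.Agent.RT.Lifting.SigmaPair
import Fermat.Agent.RT.Assembly.Tame
import Fermat.Agent.Mazur.Eisenstein.Tame

/-!
# The nilpotent part of a lift on inertia at a prime where the scalar part is unramified

It is determined by one inertia element and satisfies `G X = v X G` for `G` the scalar part at a
Frobenius.
-/

set_option autoImplicit false
set_option linter.style.haveILetI false

noncomputable section

namespace Fermat.Agent.RT.Lifting

open IsLocalRing TrivSqZeroExt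
open Fermat.Agent.Deform Fermat.Agent.Arith Fermat.Agent.RT.Assembly
open scoped Pointwise

/-- A representation of finite level factors through a finite Galois level with the same kernel. -/
theorem exists_kernelLevel {M : Type} [Monoid M] (ρ : Gal →* M)
    (hρ : ∃ L : IntermediateField ℚ QBar, FiniteDimensional ℚ L ∧
      ∀ σ : Gal, (∀ x ∈ L, σ x = x) → ρ σ = 1) :
    ∃ L : IntermediateField ℚ QBar, FiniteDimensional ℚ L ∧ IsGalois ℚ L ∧
      ∀ σ : Gal, (∀ x ∈ L, σ x = x) ↔ ρ σ = 1 := by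
  obtain ⟨L, hL, hL'⟩ := hρ
  have hopen := isOpen_galKer_of_fixing L hL'
  haveI : Normal ℚ QBar := IsAlgClosure.normal ℚ QBar
  haveI : IsGalois ℚ QBar := ⟨⟩
  let L' : IntermediateField ℚ QBar := IntermediateField.fixedField (galKer ρ)
  have hfix : L'.fixingSubgroup = galKer ρ :=
    InfiniteGalois.fixingSubgroup_fixedField ⟨galKer ρ, (galKer ρ).isClosed_of_isOpen hopen⟩
  have hle : L' ≤ L := by
    intro x hx
    rw [← InfiniteGalois.fixedField_fixingSubgroup L, IntermediateField.mem_fixedField_iff]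
    exact fun g hg => (IntermediateField.mem_fixedField_iff (galKer ρ) x).mp hx g
      (mem_galKer.mpr (hL' g ((IntermediateField.mem_fixingSubgroup_iff L g).mp hg)))
  haveI : FiniteDimensional ℚ L' :=
    FiniteDimensional.of_injective (IntermediateField.inclusion hle).toLinearMap
      (IntermediateField.inclusion hle).injective
  refine ⟨L', inferInstance,
    (InfiniteGalois.normal_iff_isGalois L').mp (hfix ▸ galKer_normal ρ), fun σ => ?_⟩
  rw [← IntermediateField.mem_fixingSubgroup_iff, hfix, mem_galKer]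

section Algebra

variable {O : Type} [CommRing O] {I : Ideal O}

theorem snd_mul_of_fst_one {X Y : M2 (TrivSqZeroExt O (O ⧸ I))}
    (hY : ∀ i j, fst (Y i j) = (1 : M2 O) i j) (i j : Fin 2) :
    snd ((X * Y) i j) =
      snd (X i j) + ∑ l, Ideal.Quotient.mk I (fst (X i l)) * snd (Y l j) := by
  rw [Matrix.mul_apply, snd_sum]
  simp only [snd_mul, op_smul_eq_smul, hY, Finset.sum_add_distrib, Algebra.smul_def,
    Ideal.Quotient.algebraMap_eq, Fin.sum_univ_two]
  fin_cases j <;> simp [Matrix.one_apply] <;> ring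

theorem snd_mul_of_fst_one' {X Y : M2 (TrivSqZeroExt O (O ⧸ I))}
    (hY : ∀ i j, fst (Y i j) = (1 : M2 O) i j) (i j : Fin 2) :
    snd ((Y * X) i j) =
      snd (X i j) + ∑ l, snd (Y i l) * Ideal.Quotient.mk I (fst (X l j)) := by
  rw [Matrix.mul_apply, snd_sum]
  simp only [snd_mul, op_smul_eq_smul, hY, Finset.sum_add_distrib, Algebra.smul_def,
    Ideal.Quotient.algebraMap_eq, Fin.sum_univ_two]
  fin_cases i <;> simp [Matrix.one_apply] <;> ring

end Algebra

variable {O : Type} [CommRing O] [IsLocalRing O] {m : ℕ}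
  [IsLocalRing (TrivSqZeroExt O (O ⧸ maximalIdeal O ^ m))]
  {r : Gal →* M2 (TrivSqZeroExt O (O ⧸ maximalIdeal O ^ m))} {r₀ : Gal →* M2 O}
  {A : ValuationSubring QBar} {v p : ℕ}

/-- The lift modulo a power of the maximal ideal seeing all of the nilpotent part. -/
def levelRep (r : Gal →* M2 (TrivSqZeroExt O (O ⧸ maximalIdeal O ^ m))) :
    Gal →* M2 (TrivSqZeroExt O (O ⧸ maximalIdeal O ^ m) ⧸
      maximalIdeal (TrivSqZeroExt O (O ⧸ maximalIdeal O ^ m)) ^ (m + 1)) :=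
  mapM (Ideal.Quotient.mk _) r

theorem levelRep_finite (hc : IsCont r) :
    ∃ L : IntermediateField ℚ QBar, FiniteDimensional ℚ L ∧
      ∀ σ : Gal, (∀ x ∈ L, σ x = x) → levelRep r σ = 1 := by
  obtain ⟨L, hL, h⟩ := hc (m + 1)
  refine ⟨L, hL, fun σ hσ => Matrix.ext fun i j => ?_⟩
  rw [levelRep, mapM_apply, ← sub_eq_zero]
  have e : Ideal.Quotient.mk (maximalIdeal (TrivSqZeroExt O (O ⧸ maximalIdeal O ^ m)) ^ (m + 1))
      (r σ i j - (1 : M2 (TrivSqZeroExt O (O ⧸ maximalIdeal O ^ m))) i j) = 0 :=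
    Ideal.Quotient.eq_zero_iff_mem.mpr (h σ hσ i j)
  rw [map_sub] at e
  rcases eq_or_ne i j with rfl | hij
  · simpa using e
  · simpa [hij] using e

theorem eq_of_levelRep (hfst : ∀ σ i j, fst (r σ i j) = r₀ σ i j) {σ τ : Gal}
    (h₀ : r₀ σ = r₀ τ) (h : levelRep r σ = levelRep r τ) : r σ = r τ := by
  refine Matrix.ext fun i j => TrivSqZeroExt.ext (by rw [hfst, hfst, h₀]) ?_
  have e := congr_fun (congr_fun h i) j
  rw [levelRep, mapM_apply, mapM_apply, Ideal.Quotient.eq] at e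
  exact sub_eq_zero.mp (by rw [← snd_sub]; exact snd_eq_zero_of_mem_pow e)

omit [IsLocalRing (TrivSqZeroExt O (O ⧸ maximalIdeal O ^ m))] in
theorem snd_map_pow (hfst : ∀ σ i j, fst (r σ i j) = r₀ σ i j) {τ : Gal} (hτ : r₀ τ = 1)
    (k : ℕ) (i j : Fin 2) : snd (r (τ ^ k) i j) = k • snd (r τ i j) := by
  induction k generalizing i j with
  | zero =>
    rw [pow_zero, map_one, zero_smul, Matrix.one_apply]
    split_ifs <;> simp
  | succ k ih =>
    rw [pow_succ, map_mul, snd_mul_of_fst_one (fun a b => by rw [hfst, hτ]) i j, ih, succ_nsmul]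
    simp only [hfst, map_pow r₀, hτ, one_pow, Fin.sum_univ_two]
    fin_cases i <;> simp [Matrix.one_apply]

omit [IsLocalRing (TrivSqZeroExt O (O ⧸ maximalIdeal O ^ m))] in
theorem natCast_pow_eq_zero (hp : (p : O) ∈ maximalIdeal O) :
    ((p ^ m : ℕ) : O ⧸ maximalIdeal O ^ m) = 0 := by
  rw [← map_natCast (Ideal.Quotient.mk (maximalIdeal O ^ m)), Ideal.Quotient.eq_zero_iff_mem,
    Nat.cast_pow]
  exact Ideal.pow_mem_pow hp m

omit [IsLocalRing (TrivSqZeroExt O (O ⧸ maximalIdeal O ^ m))] in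
theorem map_pow_prime_pow (hp : (p : O) ∈ maximalIdeal O)
    (hfst : ∀ σ i j, fst (r σ i j) = r₀ σ i j) {τ : Gal} (hτ : r₀ τ = 1) :
    r (τ ^ p ^ m) = 1 := by
  refine Matrix.ext fun i j => TrivSqZeroExt.ext ?_ ?_
  · rw [hfst, map_pow, hτ, one_pow, Matrix.one_apply, Matrix.one_apply]
    split_ifs <;> simp
  · rw [snd_map_pow hfst hτ, nsmul_eq_mul, natCast_pow_eq_zero hp, zero_mul, Matrix.one_apply]
    split_ifs <;> simp

/-- Every inertia element acts as a power of one moving a `p`-th root of `v`. -/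
theorem exists_pow_inertia (hp : p.Prime) (hpO : (p : O) ∈ maximalIdeal O)
    (hA : A.LiesOverPrime v) (hv : v.Prime) (hvp : v ≠ p) (hc : IsCont r)
    (hfst : ∀ σ i j, fst (r σ i j) = r₀ σ i j)
    (h0 : ∀ τ ∈ A.inertiaSubgroupIn ℚ, r₀ τ = 1)
    {π : QBar} (hπ : π ^ p = v) {σ₀ : Gal} (hσ₀ : σ₀ ∈ A.inertiaSubgroupIn ℚ) (hne : σ₀ π ≠ π)
    {τ : Gal} (hτ : τ ∈ A.inertiaSubgroupIn ℚ) : ∃ k : ℕ, r τ = r (σ₀ ^ k) := by
  obtain ⟨L, hL, hgal, hker⟩ := exists_kernelLevel (levelRep r) (levelRep_finite hc)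
  have hpow : ∀ σ ∈ A.inertiaSubgroupIn ℚ, ∃ b : ℕ, ∀ x ∈ L, (σ ^ p ^ b) x = x := fun σ hσ =>
    ⟨m, (hker _).mpr (by
      refine Matrix.ext fun i j => ?_
      rw [levelRep, mapM_apply, map_pow_prime_pow hpO hfst (h0 σ hσ), Matrix.one_apply,
        Matrix.one_apply]
      split_ifs <;> simp)⟩
  obtain ⟨k, hk⟩ := Fermat.Agent.Mazur.Eisenstein.exists_pow_eq hA hv hp (Ne.symm hvp) hπ hσ₀ hne L hpow hτ
  refine ⟨k, eq_of_levelRep hfst (by rw [h0 τ hτ, h0 _ (pow_mem hσ₀ k)]) ?_⟩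
  have h1 : levelRep r ((σ₀ ^ k)⁻¹ * τ) = 1 := (hker _).mp fun x hx => by
    rw [AlgEquiv.mul_apply, hk x hx]
    exact (σ₀ ^ k).symm_apply_apply x
  calc levelRep r τ = levelRep r (σ₀ ^ k) * levelRep r ((σ₀ ^ k)⁻¹ * τ) := by
        rw [← map_mul, mul_inv_cancel_left]
    _ = levelRep r (σ₀ ^ k) := by rw [h1, mul_one]

/-- The relation with a Frobenius. -/
theorem frobenius_relation (hp : p.Prime) (hpO : (p : O) ∈ maximalIdeal O)
    (hA : A.LiesOverPrime v) (hv : v.Prime) (hvp : v ≠ p) (hc : IsCont r)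
    (hfst : ∀ σ i j, fst (r σ i j) = r₀ σ i j)
    (h0 : ∀ τ ∈ A.inertiaSubgroupIn ℚ, r₀ τ = 1)
    {φ : Gal} (hφ : A.IsFrobeniusAt φ v) {σ : Gal} (hσ : σ ∈ A.inertiaSubgroupIn ℚ)
    (i j : Fin 2) :
    ∑ l, Ideal.Quotient.mk (maximalIdeal O ^ m) (r₀ φ i l) * snd (r σ l j) =
      (v : O ⧸ maximalIdeal O ^ m) *
        ∑ l, snd (r σ i l) * Ideal.Quotient.mk (maximalIdeal O ^ m) (r₀ φ l j) := by
  obtain ⟨hνI, hνt⟩ := tameTrivial_frobenius_conj hφ hσ
  have hn : ¬ v ∣ p ^ m := fun h =>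
    hvp ((Nat.prime_dvd_prime_iff_eq hv hp).mp (hv.dvd_of_dvd_pow h))
  have hν : levelRep r (φ * σ * φ⁻¹ * (σ ^ v)⁻¹) = 1 := by
    refine eq_one_of_tameTrivial (levelRep r) (levelRep_finite hc) hA hv hνI hνt hn ?_
    refine (map_pow (levelRep r) _ _).symm.trans (Matrix.ext fun a b => ?_)
    rw [levelRep, mapM_apply, map_pow_prime_pow hpO hfst (h0 _ hνI), Matrix.one_apply,
      Matrix.one_apply]
    split_ifs <;> simp
  have hν1 : r (φ * σ * φ⁻¹ * (σ ^ v)⁻¹) = 1 := by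
    rw [← map_one r]
    exact eq_of_levelRep hfst (by rw [h0 _ hνI, map_one]) (by rw [hν, map_one])
  have hrel : r φ * r σ = r (σ ^ v) * r φ := by
    rw [← map_mul, ← map_mul, ← mul_one (r (σ ^ v * φ))]
    calc r (φ * σ) = r (φ * σ * φ⁻¹ * (σ ^ v)⁻¹) * r (σ ^ v * φ) := by
          rw [← map_mul]; congr 1; group
      _ = r (σ ^ v * φ) * 1 := by rw [hν1, one_mul, mul_one]
  have e := congrArg snd (congr_fun (congr_fun hrel i) j)
  rw [snd_mul_of_fst_one (fun a b => by rw [hfst, h0 σ hσ]) i j,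
    snd_mul_of_fst_one' (fun a b => by rw [hfst, h0 _ (pow_mem hσ v)]) i j] at e
  have e' := add_left_cancel e
  simp only [hfst, snd_map_pow hfst (h0 σ hσ), nsmul_eq_mul, mul_assoc] at e'
  rw [Finset.mul_sum]
  exact e'

end Fermat.Agent.RT.Lifting
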