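import Fermat.Agent.RT.Lifting.Interface
import Fermat.Agent.RT.Lifting.SigmaCount
import Fermat.Agent.RT.Lifting.SigmaInertia

/-!
# The bound on lifts when unramified primes are allowed: `SigmaBoundProperty`

At `v ∈ V` the nilpotent part of a lift over `r₀` on inertia is given by one trace-zero matrix
killed by `X ↦ G X adj(G) - v² X`, whose determinant is a unit times
`(v - 1) ((v + 1)² - a_v²)`; lifts with the same such matrices differ by lifts unramified at `V`.
-/

set_option autoImplicit false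
set_option linter.style.haveILetI false

noncomputable section

namespace Fermat.Agent.RT.Lifting

open IsLocalRing Module TrivSqZeroExt
open Fermat.Agent.Deform Fermat.Agent.Arith Fermat.Agent.RT.Assembly
open scoped Pointwise

section Mat

variable {O : Type} [CommRing O]

/-- `X ↦ G X adj(G) - (det G)² X` on trace-zero matrices `(x, y; z, -x)`. -/
def sigmaMat (G : M2 O) : Matrix (Fin 3) (Fin 3) O :=
  !![G 0 0 * G 1 1 + G 0 1 * G 1 0 - G.det ^ 2, -(G 0 0 * G 1 0), G 0 1 * G 1 1;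
     -(2 * G 0 0 * G 0 1), G 0 0 ^ 2 - G.det ^ 2, -(G 0 1 ^ 2);
     2 * G 1 0 * G 1 1, -(G 1 0 ^ 2), G 1 1 ^ 2 - G.det ^ 2]

theorem det_sigmaMat (G : M2 O) :
    (sigmaMat G).det = -G.det ^ 3 * ((G.det - 1) * ((G.det + 1) ^ 2 - G.trace ^ 2)) := by
  rw [sigmaMat, Matrix.det_fin_three, Matrix.trace_fin_two, Matrix.det_fin_two]
  simp only [Matrix.of_apply, Matrix.cons_val', Matrix.cons_val_zero, Matrix.cons_val_one,
    Matrix.cons_val, Matrix.cons_val_fin_one]
  ring

end Mat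

variable {O : Type} [CommRing O] [IsDomain O] [IsDiscreteValuationRing O]
  [IsAdicComplete (maximalIdeal O) O]

/-- The trace-zero coordinates of the nilpotent part. -/
def sigmaCoord {I : Ideal O} (X : M2 (TrivSqZeroExt O (O ⧸ I))) : Fin 3 → O ⧸ I :=
  ![snd (X 0 0), snd (X 0 1), snd (X 1 0)]

variable [CharZero O] {p : ℕ} [Fact p.Prime] {W : Rigid O}
  {ρbar : ResidualGaloisRep (ResidueField O)} {bb : Basis (Fin 2) (ResidueField O) ρbar.V}
  {C : CondAt O} {T U : Finset ℕ} {m : ℕ}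
  [IsLocalRing (TrivSqZeroExt O (O ⧸ maximalIdeal O ^ m))]
  {hA : IsResAlg O (TrivSqZeroExt O (O ⧸ maximalIdeal O ^ m))}
  {r : Gal →* M2 (TrivSqZeroExt O (O ⧸ maximalIdeal O ^ m))} {r₀ : Gal →* M2 O}

/-- The nilpotent part has trace zero where the scalar part is trivial. -/
theorem snd_one_one (hp : (p : O) ∈ maximalIdeal O) (hr : IsTypeLift p W C T U hA r)
    (h : mapM ((fstHom O O (O ⧸ maximalIdeal O ^ m)) :
      TrivSqZeroExt O (O ⧸ maximalIdeal O ^ m) →+* O) r = r₀) {σ : Gal} (hσ : r₀ σ = 1) :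
    snd (r σ 1 1) = -snd (r σ 0 0) := by
  have e := congrArg snd (det_eq_inl hp hr h σ)
  rw [Matrix.det_fin_two, algebraMap_eq_inl, snd_inl, snd_sub, snd_mul, snd_mul] at e
  simp only [op_smul_eq_smul, fst_eq_of_mapM h, hσ, Matrix.one_apply_eq, ne_eq,
    not_false_eq_true, Matrix.one_apply_ne, one_smul, zero_smul, add_zero,
    sub_zero, Fin.isValue, one_ne_zero, zero_ne_one] at e
  exact eq_neg_of_add_eq_zero_left e

omit [IsAdicComplete (maximalIdeal O) O] [CharZero O] in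
/-- A Frobenius at a prime `v ≠ p` has determinant `v`. -/
theorem det_frobenius {hO : IsResAlg O O} (hr₀ : IsTypeLift p W C T U hO r₀)
    {A : ValuationSubring QBar} {v : ℕ} (hA' : A.LiesOverPrime v) (hv : v.Prime) (hvp : v ≠ p)
    {φ : Gal} (hφ : A.IsFrobeniusAt φ v) : (r₀ φ).det = (v : O) := by
  rw [← det_toRep hr₀.cont φ]
  refine det_eq_natCast hr₀.det fun n μ hμ => frobenius_root hA' hv hφ hμ fun h => hvp ?_
  exact (Nat.prime_dvd_prime_iff_eq hv Fact.out).mp (hv.dvd_of_dvd_pow h)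

omit [IsDomain O] [IsDiscreteValuationRing O] [IsAdicComplete (maximalIdeal O) O] [CharZero O]
  [IsLocalRing (TrivSqZeroExt O (O ⧸ maximalIdeal O ^ m))] in
theorem isUnit_natCast_of_ne [IsLocalRing O] (hp : (p : O) ∈ maximalIdeal O) {v : ℕ}
    (hv : v.Prime) (hvp : v ≠ p) : IsUnit (v : O) := by
  by_contra hu
  obtain ⟨a, b, hab⟩ := (Nat.Coprime.isCoprime ((Nat.coprime_primes hv Fact.out).mpr hvp))
  have h1 : (a : O) * (v : O) + (b : O) * (p : O) = 1 := by
    exact_mod_cast congrArg (Int.cast : ℤ → O) hab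
  exact (maximalIdeal O).ne_top_iff_one.mp (Ideal.IsPrime.ne_top inferInstance)
    (h1 ▸ add_mem (Ideal.mul_mem_left _ _ ((IsLocalRing.mem_maximalIdeal _).mpr hu))
      (Ideal.mul_mem_left _ _ hp))

/-- The nilpotent part at an inertia element is killed by the matrix of a Frobenius. -/
theorem mulVec_sigmaCoord (hr : IsTypeLift p W C T U hA r)
    (h : mapM ((fstHom O O (O ⧸ maximalIdeal O ^ m)) :
      TrivSqZeroExt O (O ⧸ maximalIdeal O ^ m) →+* O) r = r₀)
    {A : ValuationSubring QBar} {v : ℕ} (hA' : A.LiesOverPrime v) (hv : v.Prime) (hvp : v ≠ p)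
    (hp : (p : O) ∈ maximalIdeal O) (h0 : ∀ τ ∈ A.inertiaSubgroupIn ℚ, r₀ τ = 1)
    {φ : Gal} (hφ : A.IsFrobeniusAt φ v) (hdet : (r₀ φ).det = (v : O))
    {σ : Gal} (hσ : σ ∈ A.inertiaSubgroupIn ℚ) :
    ((sigmaMat (r₀ φ)).map (Ideal.Quotient.mk (maximalIdeal O ^ m))).mulVec
      (sigmaCoord (r σ)) = 0 := by
  have e := frobenius_relation Fact.out hp hA' hv hvp hr.cont (fst_eq_of_mapM h) h0 hφ hσ
  have e00 := e 0 0
  have e01 := e 0 1
  have e10 := e 1 0
  have e11 := e 1 1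
  have hD := congrArg (Ideal.Quotient.mk (maximalIdeal O ^ m)) hdet
  rw [Matrix.det_fin_two, map_sub, map_mul, map_mul, map_natCast] at hD
  simp only [Fin.sum_univ_two, snd_one_one hp hr h (h0 σ hσ)] at e00 e01 e10 e11
  set a := Ideal.Quotient.mk (maximalIdeal O ^ m) (r₀ φ 0 0)
  set b := Ideal.Quotient.mk (maximalIdeal O ^ m) (r₀ φ 0 1)
  set c := Ideal.Quotient.mk (maximalIdeal O ^ m) (r₀ φ 1 0)
  set d := Ideal.Quotient.mk (maximalIdeal O ^ m) (r₀ φ 1 1)
  set x := snd (r σ 0 0)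
  set y := snd (r σ 0 1)
  set z := snd (r σ 1 0)
  funext i
  fin_cases i <;>
    simp [Matrix.mulVec, dotProduct, Fin.sum_univ_three, sigmaMat, sigmaCoord, Matrix.det_fin_two,
      map_ofNat]
  · linear_combination d * e00 - c * e01 + (-(a * d - b * c)) * x * hD
  · linear_combination -b * e00 + a * e01 + (-(a * d - b * c)) * y * hD
  · linear_combination d * e10 - c * e11 + (-(a * d - b * c)) * z * hD

omit [IsDomain O] [IsDiscreteValuationRing O] [IsAdicComplete (maximalIdeal O) O] [CharZero O]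
  [Fact p.Prime]
  [IsLocalRing (TrivSqZeroExt O (O ⧸ maximalIdeal O ^ m))] in
/-- Lifts with the same coordinates where the scalar part is trivial agree there. -/
theorem sigmaCoord_ext {I : Ideal O} {X Y : M2 (TrivSqZeroExt O (O ⧸ I))}
    (h : sigmaCoord X = sigmaCoord Y) (hX : snd (X 1 1) = -snd (X 0 0))
    (hY : snd (Y 1 1) = -snd (Y 0 0)) (i j : Fin 2) : snd (X i j) = snd (Y i j) := by
  have h0 := congr_fun h 0
  have h1 := congr_fun h 1
  have h2 := congr_fun h 2
  simp only [sigmaCoord, Matrix.cons_val_zero, Matrix.cons_val_one, Matrix.cons_val] at h0 h1 h2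
  fin_cases i <;> fin_cases j
  · exact h0
  · exact h1
  · exact h2
  · exact hX.trans ((congrArg Neg.neg h0).trans hY.symm)

variable (p W ρbar C) in
/-- **The bound on lifts when unramified primes are allowed.** -/
theorem sigmaBoundProperty [Finite (ResidueField O)] (hW : W.rb = matRes ρbar bb) :
    SigmaBoundProperty p W ρbar C := by
  classical
  intro hC T U V r₀ hO av η hr₀ hVT hpV hVp hav hne hη hbound m _ hA s hs
  have hp : (p : O) ∈ maximalIdeal O := hr₀.det.1
  have hvp : ∀ v : V, (v : ℕ) ≠ p := fun v h => hpV (h ▸ v.2)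
  choose A hA' using fun v : V => exists_liesOverPrime (hVp v v.2)
  choose φ hφ using fun v : V => exists_isFrobeniusAt (hA' v) (hVp v v.2)
  choose π hπ using fun v : V =>
    IsAlgClosed.exists_pow_nat_eq ((v : ℕ) : QBar) (Fact.out : p.Prime).pos
  choose σ hσ hne' using fun v : V =>
    Fermat.Agent.Mazur.Eisenstein.exists_inertia_ne (hA' v) (hVp v v.2) (Fact.out : p.Prime) (hπ v)
  have h0 : ∀ v : V, ∀ τ ∈ (A v).inertiaSubgroupIn ℚ, r₀ τ = 1 := fun v =>
    hr₀.unramified v (hVp v v.2) (hvp v) (Finset.disjoint_left.mp hVT v.2) (A v) (hA' v)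
  have hdet : ∀ v : V, (r₀ (φ v)).det = ((v : ℕ) : O) := fun v =>
    det_frobenius hr₀ (hA' v) (hVp v v.2) (hvp v) (hφ v)
  have htr : ∀ v : V, (r₀ (φ v)).trace = av v := fun v => hav v v.2 (A v) (hA' v) (φ v) (hφ v)
  haveI := finite_quotient_pow' (O := O) m
  let J := O ⧸ maximalIdeal O ^ m
  let Φ : (Gal →* M2 (TrivSqZeroExt O J)) → V → Fin 3 → J := fun r v => sigmaCoord (r (σ v))
  -- the fibres
  have hfib : ∀ y ∈ s.image Φ,
      (s.filter fun r => Φ r = y).card ≤ Nat.card (O ⧸ Ideal.span {η}) := by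
    intro y hy
    obtain ⟨r₁, hr₁, rfl⟩ := Finset.mem_image.mp hy
    set F := s.filter fun r => Φ r = Φ r₁
    have hF : ∀ r ∈ F, r ∈ s ∧ Φ r = Φ r₁ := fun r hr => Finset.mem_filter.mp hr
    choose d hdc hdl hdn hdd hdC hd1 hd2 using fun r : F =>
      exists_diffLift r.1 r₁ hW hC hr₀ (hs r.1 (hF r.1 r.2).1).1 (hs r₁ hr₁).1
        (hs r.1 (hF r.1 r.2).1).2 (hs r₁ hr₁).2
    have hdinj : Function.Injective d := fun r r' e => Subtype.ext (MonoidHom.ext fun g =>
      Matrix.ext fun i j => TrivSqZeroExt.ext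
        (by rw [fst_eq_of_mapM (hs r.1 (hF r.1 r.2).1).2,
          fst_eq_of_mapM (hs r'.1 (hF r'.1 r'.2).1).2])
        (sub_left_inj.mp (((hd2 r g i j).symm.trans (by rw [e])).trans (hd2 r' g i j))))
    have hdσ : ∀ (r : F) (v : V), d r (σ v) = 1 := fun r v => by
      refine Matrix.ext fun i j => TrivSqZeroExt.ext ?_ ?_
      · rw [hd1, h0 v _ (hσ v), Matrix.one_apply, Matrix.one_apply]
        split_ifs <;> simp
      · rw [hd2, sub_eq_zero.mpr (sigmaCoord_ext (congr_fun (hF r.1 r.2).2 v)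
          (snd_one_one hp (hs r.1 (hF r.1 r.2).1).1 (hs r.1 (hF r.1 r.2).1).2 (h0 v _ (hσ v)))
          (snd_one_one hp (hs r₁ hr₁).1 (hs r₁ hr₁).2 (h0 v _ (hσ v))) i j), Matrix.one_apply]
        split_ifs <;> simp
    have hdI : ∀ (r : F) (v : V), ∀ τ ∈ (A v).inertiaSubgroupIn ℚ, d r τ = 1 := fun r v τ hτ => by
      obtain ⟨k, hk⟩ := exists_pow_inertia (Fact.out : p.Prime) hp (hA' v) (hVp v v.2) (hvp v)
        (hdc r) (hd1 r) (h0 v) (hπ v) (hσ v) (hne' v) hτ
      rw [hk, map_pow, hdσ r v, one_pow]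
    have htype : ∀ r : F, IsTypeLift p W C T U hA (d r) := fun r => by
      refine ⟨hdc r, hdl r, hdn r, hdd r, hdC r, fun ℓ hℓ hℓp hℓT A' hA'' τ hτ => ?_,
        fun q hq hqp A' hA'' τ hτ => ?_⟩
      · by_cases hℓV : ℓ ∈ V
        · obtain ⟨g, hg⟩ := exists_smul_eq (hA' ⟨ℓ, hℓV⟩) hA'' hℓ
          have hτ' : g⁻¹ * τ * g ∈ (A ⟨ℓ, hℓV⟩).inertiaSubgroupIn ℚ := by
            rw [← mem_inertia_smul_iff (g := g), hg]
            simpa [mul_assoc] using hτ
          have e : τ = g * (g⁻¹ * τ * g) * g⁻¹ := by group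
          rw [e, map_mul, map_mul, hdI r ⟨ℓ, hℓV⟩ _ hτ', mul_one, ← map_mul, mul_inv_cancel,
            map_one]
        · have hTV : ℓ ∉ T ∪ V := by simp [hℓT, hℓV]
          have e1 := (hs r.1 (hF r.1 r.2).1).1.unramified ℓ hℓ hℓp hTV A' hA'' τ hτ
          have e2 := (hs r₁ hr₁).1.unramified ℓ hℓ hℓp hTV A' hA'' τ hτ
          refine Matrix.ext fun i j => TrivSqZeroExt.ext ?_ ?_
          · rw [hd1, hr₀.unramified ℓ hℓ hℓp hℓT A' hA'' τ hτ, Matrix.one_apply, Matrix.one_apply]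
            split_ifs <;> simp
          · rw [hd2, e1, e2, sub_self, Matrix.one_apply]
            split_ifs <;> simp
      · have e1 := congrArg snd ((hs r.1 (hF r.1 r.2).1).1.unipotent q hq hqp A' hA'' τ hτ)
        have e2 := congrArg snd ((hs r₁ hr₁).1.unipotent q hq hqp A' hA'' τ hτ)
        have e0 := hr₀.unipotent q hq hqp A' hA'' τ hτ
        simp only [Matrix.trace_fin_two, snd_add] at e1 e2 e0 ⊢
        refine TrivSqZeroExt.ext ?_ ?_
        · rw [fst_add, hd1, hd1, e0,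
            ← map_ofNat (algebraMap O (TrivSqZeroExt O (O ⧸ maximalIdeal O ^ m))) 2,
            algebraMap_eq_inl, fst_inl]
        · rw [snd_add, hd2, hd2, sub_add_sub_comm, e1, e2, sub_self,
            ← map_ofNat (algebraMap O (TrivSqZeroExt O (O ⧸ maximalIdeal O ^ m))) 2,
            algebraMap_eq_inl, snd_inl]
    have hres := hbound m hA (Finset.univ.image d) fun r' hr' => by
      obtain ⟨r, -, rfl⟩ := Finset.mem_image.mp hr'
      exact ⟨htype r, MonoidHom.ext fun g => Matrix.ext fun i j => hd1 r g i j⟩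
    rwa [Finset.card_image_of_injective _ hdinj, Finset.card_univ, Fintype.card_coe] at hres
  -- the values
  have hD0 : ∀ v ∈ V, ((v : O) - 1) * (((v : O) + 1) ^ 2 - av v ^ 2) ≠ 0 := fun v hv =>
    mul_ne_zero (sub_ne_zero.mpr (by exact_mod_cast (hVp v hv).ne_one))
      (sub_ne_zero.mpr (hne v hv).symm)
  have hmat : ∀ v : V, (sigmaMat (r₀ (φ v))).det =
      -((v : ℕ) : O) ^ 3 * ((((v : ℕ) : O) - 1) * ((((v : ℕ) : O) + 1) ^ 2 - av v ^ 2)) := fun v => by
    rw [det_sigmaMat, hdet, htr]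
  have hu : ∀ v : V, IsUnit (-((v : ℕ) : O) ^ 3) := fun v =>
    ((isUnit_natCast_of_ne hp (hVp v v.2) (hvp v)).pow 3).neg
  have hMne : ∀ v : V, (sigmaMat (r₀ (φ v))).det ≠ 0 := fun v => by
    rw [hmat]
    exact mul_ne_zero (hu v).ne_zero (hD0 v v.2)
  have himg : (s.image Φ).card ≤ ∏ v : V,
      Nat.card (O ⧸ Ideal.span {(sigmaMat (r₀ (φ v))).det}) := by
    let S := fun v : V => {x : Fin 3 → J //
      ((sigmaMat (r₀ (φ v))).map (Ideal.Quotient.mk (maximalIdeal O ^ m))).mulVec x = 0}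
    have hmem : ∀ y ∈ s.image Φ, ∀ v : V,
        ((sigmaMat (r₀ (φ v))).map (Ideal.Quotient.mk (maximalIdeal O ^ m))).mulVec (y v) = 0 := by
      intro y hy v
      obtain ⟨r, hr, rfl⟩ := Finset.mem_image.mp hy
      exact mulVec_sigmaCoord (hs r hr).1 (hs r hr).2 (hA' v) (hVp v v.2) (hvp v) hp (h0 v)
        (hφ v) (hdet v) (hσ v)
    calc (s.image Φ).card = Nat.card (s.image Φ) := (Nat.card_eq_finsetCard _).symm
      _ ≤ Nat.card (∀ v, S v) :=
          Nat.card_le_card_of_injective (fun y v => (⟨y.1 v, hmem y.1 y.2 v⟩ : S v))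
            fun y y' e => Subtype.ext (funext fun v => congrArg Subtype.val (congr_fun e v))
      _ = ∏ v : V, Nat.card (S v) := Nat.card_pi
      _ ≤ _ := Finset.prod_le_prod' fun v _ => card_solutions_le _ (hMne v) _
  refine (Finset.card_le_mul_card_image s _ hfib).trans ?_
  rw [card_quotient_mul hη]
  refine Nat.mul_le_mul le_rfl (himg.trans (le_of_eq ?_))
  rw [card_quotient_prod V hD0, ← Finset.prod_coe_sort V
    (fun v => Nat.card (O ⧸ Ideal.span {((v : O) - 1) * (((v : O) + 1) ^ 2 - av v ^ 2)}))]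
  exact Finset.prod_congr rfl fun v _ => by rw [hmat, Ideal.span_singleton_mul_left_unit (hu v)]

end Fermat.Agent.RT.Lifting
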