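import Fermat.Agent.RT.Lifting.Defs
import Fermat.Agent.RT.Assembly.RepLemmas

/-!
# Translates of lifts to trivial square-zero extensions

`diffLift r r' r₀ = r₀ + (r - r')` is again a lift of type `C`, for a condition usable on pairs.
-/

set_option autoImplicit false
set_option linter.style.haveILetI false

noncomputable section

namespace Fermat.Agent.RT.Lifting

open IsLocalRing Module TrivSqZeroExt
open Fermat.Agent.Deform Fermat.Agent.Arith Fermat.Agent.RT.Assembly

variable {O : Type} [CommRing O] [IsLocalRing O]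
variable {M : Type} [AddCommGroup M] [Module O M] [Module Oᵐᵒᵖ M] [IsCentralScalar O M]

theorem isLocalRing_tsze : IsLocalRing (TrivSqZeroExt O M) := by
  haveI : Nontrivial (TrivSqZeroExt O M) := ⟨0, 1, fun h => zero_ne_one (congrArg fst h)⟩
  refine IsLocalRing.of_isUnit_or_isUnit_one_sub_self fun x => ?_
  rw [isUnit_iff_isUnit_fst, isUnit_iff_isUnit_fst, fst_sub, fst_one]
  exact IsLocalRing.isUnit_or_isUnit_one_sub_self x.fst

omit [IsLocalRing O] in
theorem isLocalHom_tsze_map {N : Type} [AddCommGroup N] [Module O N] [Module Oᵐᵒᵖ N]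
    [IsCentralScalar O N] (f : M →ₗ[O] N) :
    IsLocalHom (TrivSqZeroExt.map f : TrivSqZeroExt O M →+* TrivSqZeroExt O N) :=
  ⟨fun x hx => by
    rw [isUnit_iff_isUnit_fst] at hx ⊢
    rwa [RingHom.coe_coe, fst_map] at hx⟩

omit [IsLocalRing O] in
/-- A subalgebra contains the inverses of its units. -/
theorem isLocalHom_subalgebra_val (S : Subalgebra O (TrivSqZeroExt O M)) :
    IsLocalHom (S.val : S →+* TrivSqZeroExt O M) := by
  refine ⟨fun x hx => ?_⟩
  rw [RingHom.coe_coe, Subalgebra.coe_val, isUnit_iff_isUnit_fst] at hx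
  obtain ⟨u, hu⟩ := hx
  have hn : inr (snd (x : TrivSqZeroExt O M)) ∈ S := by
    have h : inr (snd (x : TrivSqZeroExt O M)) =
        (x : TrivSqZeroExt O M) - algebraMap O _ (fst (x : TrivSqZeroExt O M)) := by
      rw [algebraMap_eq_inl, eq_sub_iff_add_eq', inl_fst_add_inr_snd_eq]
    rw [h]
    exact S.sub_mem x.2 (S.algebraMap_mem _)
  let y : TrivSqZeroExt O M :=
    algebraMap O _ (↑u⁻¹ : O) - ((↑u⁻¹ : O) * ↑u⁻¹) • inr (snd (x : TrivSqZeroExt O M))
  have hy : y ∈ S := S.sub_mem (S.algebraMap_mem _) (S.smul_mem hn _)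
  have hxy : (x : TrivSqZeroExt O M) * y = 1 := by
    refine TrivSqZeroExt.ext ?_ ?_
    · rw [fst_mul, ← hu]
      simp [y, algebraMap_eq_inl]
    · rw [snd_mul, ← hu]
      simp only [y, algebraMap_eq_inl, snd_sub, fst_sub, snd_inl, fst_inl, snd_smul, snd_inr,
        fst_smul, fst_inr, smul_zero, sub_zero, zero_sub, snd_one,
        op_smul_eq_smul, smul_neg, smul_smul, ← mul_assoc, Units.mul_inv, one_mul, neg_add_cancel]
  exact IsUnit.of_mul_eq_one ⟨y, hy⟩ (Subtype.ext hxy)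

theorem isLocalRing_subalgebra (S : Subalgebra O (TrivSqZeroExt O M)) : IsLocalRing S :=
  haveI := isLocalRing_tsze (O := O) (M := M)
  haveI := isLocalHom_subalgebra_val S
  RingHom.domain_isLocalRing (S.val : S →+* TrivSqZeroExt O M)

theorem isResAlg_subalgebra (S : Subalgebra O (TrivSqZeroExt O M)) [IsLocalRing S] :
    IsResAlg O S := by
  have hloc : IsLocalHom (algebraMap O S) := ⟨fun o ho => by
    have h := isUnit_iff_isUnit_fst.mp (ho.map S.val)
    rwa [AlgHom.commutes, algebraMap_eq_inl, fst_inl] at h⟩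
  refine ⟨hloc, fun z => ?_⟩
  obtain ⟨x, rfl⟩ := residue_surjective z
  refine ⟨fst (x : TrivSqZeroExt O M), ?_⟩
  show residue S (algebraMap O S _) = residue S x
  rw [← sub_eq_zero, ← map_sub, residue_eq_zero_iff, IsLocalRing.mem_maximalIdeal, mem_nonunits_iff]
  intro hu
  have h := isUnit_iff_isUnit_fst.mp (hu.map S.val)
  rw [Subalgebra.coe_val, AddSubgroupClass.coe_sub, fst_sub, Subalgebra.coe_algebraMap,
    algebraMap_eq_inl, fst_inl, sub_self] at h
  exact not_isUnit_zero h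

omit [IsLocalRing O] [IsCentralScalar O M] in
theorem finite_tsze [Module.Finite O M] : Module.Finite O (TrivSqZeroExt O M) :=
  Module.Finite.of_surjective
    ({ toFun := fun x => inl x.1 + inr x.2
       map_add' := fun x y => by simp [inl_add, inr_add, add_add_add_comm]
       map_smul' := fun c x => by refine TrivSqZeroExt.ext ?_ ?_ <;> simp } :
      O × M →ₗ[O] TrivSqZeroExt O M)
    fun z => ⟨(fst z, snd z), inl_fst_add_inr_snd_eq z⟩

/-- A representation on an algebra injecting into a square-zero extension is continuous when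
its scalar part is and its nilpotent part has finite level. -/
theorem isCont_of_level {B : Type} [CommRing B] [IsLocalRing B] [Algebra O B]
    [IsLocalHom (algebraMap O B)] (φ : B →ₐ[O] TrivSqZeroExt O M) (hφ : Function.Injective φ)
    {r : Gal →* M2 B} {r₀ : Gal →* M2 O} (h₀ : IsCont r₀)
    (hfst : ∀ σ i j, fst (φ (r σ i j)) = r₀ σ i j)
    (hsnd : ∃ L : IntermediateField ℚ QBar, FiniteDimensional ℚ L ∧
      ∀ σ : Gal, (∀ x ∈ L, σ x = x) → ∀ i j, snd (φ (r σ i j)) = 0) : IsCont r := by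
  intro n
  obtain ⟨L₀, hL₀, h₀⟩ := h₀ n
  obtain ⟨L₁, hL₁, h₁⟩ := hsnd
  refine ⟨L₀ ⊔ L₁, inferInstance, fun σ hσ i j => ?_⟩
  have hx : r σ i j - (1 : M2 B) i j = algebraMap O B (r₀ σ i j - (1 : M2 O) i j) := by
    refine hφ ?_
    rw [map_sub, AlgHom.commutes, algebraMap_eq_inl]
    refine TrivSqZeroExt.ext ?_ ?_
    · rw [fst_sub, fst_inl, hfst]
      rcases eq_or_ne i j with rfl | hij <;> simp [*]
    · rw [snd_sub, snd_inl, h₁ σ (fun x hx => hσ x (le_sup_right (a := L₀) hx)) i j]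
      rcases eq_or_ne i j with rfl | hij <;> simp [*]
  rw [hx]
  refine Ideal.le_comap_of_map_le ?_ (h₀ σ (fun x hx => hσ x (le_sup_left (b := L₁) hx)) i j)
  rw [Ideal.map_pow]
  exact Ideal.pow_right_mono (Ideal.map_le_iff_le_comap.mpr fun a ha =>
    Ideal.mem_comap.mpr (map_nonunit (algebraMap O B) a ha)) n

section Square

variable {m : ℕ} [IsLocalRing (TrivSqZeroExt O (O ⧸ maximalIdeal O ^ m))]

theorem fst_mem_maximalIdeal {x : TrivSqZeroExt O (O ⧸ maximalIdeal O ^ m)}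
    (hx : x ∈ maximalIdeal (TrivSqZeroExt O (O ⧸ maximalIdeal O ^ m))) :
    fst x ∈ maximalIdeal O := by
  rw [IsLocalRing.mem_maximalIdeal, mem_nonunits_iff] at hx ⊢
  exact fun hu => hx (isUnit_iff_isUnit_fst.mpr hu)

theorem mem_bounds_of_mem_pow (n : ℕ) :
    ∀ x ∈ maximalIdeal (TrivSqZeroExt O (O ⧸ maximalIdeal O ^ m)) ^ (n + 1),
      fst x ∈ maximalIdeal O ^ (n + 1) ∧
      snd x ∈ (maximalIdeal O ^ n).map (Ideal.Quotient.mk (maximalIdeal O ^ m)) := by
  induction n with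
  | zero =>
    intro x hx
    rw [zero_add, pow_one] at hx ⊢
    exact ⟨fst_mem_maximalIdeal hx, by rw [pow_zero, Ideal.one_eq_top, Ideal.map_top]; trivial⟩
  | succ n ih =>
    intro x hx
    rw [pow_succ] at hx
    refine Submodule.mul_induction_on hx (fun a ha b hb => ?_) fun a b ha hb => ?_
    · obtain ⟨h1, h2⟩ := ih a ha
      have hb1 := fst_mem_maximalIdeal hb
      refine ⟨by rw [fst_mul, pow_succ _ (n + 1)]; exact Ideal.mul_mem_mul h1 hb1, ?_⟩
      rw [snd_mul, op_smul_eq_smul]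
      refine add_mem ?_ ?_
      · rw [Algebra.smul_def, Ideal.Quotient.algebraMap_eq]
        exact Ideal.mul_mem_right _ _ (Ideal.mem_map_of_mem _ h1)
      · rw [Algebra.smul_def, Ideal.Quotient.algebraMap_eq, pow_succ', Ideal.map_mul]
        exact Ideal.mul_mem_mul (Ideal.mem_map_of_mem _ hb1) h2
    · exact ⟨by rw [fst_add]; exact add_mem ha.1 hb.1, by rw [snd_add]; exact add_mem ha.2 hb.2⟩

theorem snd_eq_zero_of_mem_pow {x : TrivSqZeroExt O (O ⧸ maximalIdeal O ^ m)}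
    (hx : x ∈ maximalIdeal (TrivSqZeroExt O (O ⧸ maximalIdeal O ^ m)) ^ (m + 1)) : snd x = 0 := by
  have h := (mem_bounds_of_mem_pow m x hx).2
  rwa [Ideal.map_quotient_self, Ideal.mem_bot] at h

/-- A lift has nilpotent part of finite level. -/
theorem exists_level_snd {r : Gal →* M2 (TrivSqZeroExt O (O ⧸ maximalIdeal O ^ m))}
    (hr : IsCont r) : ∃ L : IntermediateField ℚ QBar, FiniteDimensional ℚ L ∧
      ∀ σ : Gal, (∀ x ∈ L, σ x = x) → ∀ i j, snd (r σ i j) = 0 := by
  obtain ⟨L, hL, h1⟩ := hr (m + 1)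
  refine ⟨L, hL, fun σ hσ i j => ?_⟩
  have h := snd_eq_zero_of_mem_pow (h1 σ hσ i j)
  rw [snd_sub, sub_eq_zero] at h
  rw [h, Matrix.one_apply]
  split_ifs
  · exact snd_one
  · exact snd_zero

end Square

section Pair

variable {N N' : Type} [AddCommGroup N] [Module O N] [Module Oᵐᵒᵖ N] [IsCentralScalar O N]
  [AddCommGroup N'] [Module O N'] [Module Oᵐᵒᵖ N'] [IsCentralScalar O N']

variable {r : Gal →* M2 (TrivSqZeroExt O N)} {r' : Gal →* M2 (TrivSqZeroExt O N')}

omit [IsLocalRing O] in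
theorem tsze_prod_ext {x y : TrivSqZeroExt O (N × N')}
    (h1 : TrivSqZeroExt.map (LinearMap.fst O N N') x = TrivSqZeroExt.map (LinearMap.fst O N N') y)
    (h2 : TrivSqZeroExt.map (LinearMap.snd O N N') x = TrivSqZeroExt.map (LinearMap.snd O N N') y) :
    x = y := by
  have e1 := congrArg fst h1
  have e2 := congrArg snd h1
  have e3 := congrArg snd h2
  rw [fst_map, fst_map] at e1
  rw [snd_map, snd_map] at e2 e3
  exact TrivSqZeroExt.ext e1 (Prod.ext e2 e3)

variable (r r')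

/-- Two lifts of the same representation as one lift to the sum of the square-zero parts. -/
def pairLift (h : ∀ σ i j, fst (r σ i j) = fst (r' σ i j)) :
    Gal →* M2 (TrivSqZeroExt O (N × N')) :=
  let f : Gal → M2 (TrivSqZeroExt O (N × N')) := fun σ =>
    Matrix.of fun i j => inl (fst (r σ i j)) + inr (snd (r σ i j), snd (r' σ i j))
  have h₁ : ∀ σ, (TrivSqZeroExt.map (LinearMap.fst O N N')).mapMatrix (f σ) = r σ := fun σ => by
    ext i j <;> simp [f]
  have h₂ : ∀ σ, (TrivSqZeroExt.map (LinearMap.snd O N N')).mapMatrix (f σ) = r' σ := fun σ => by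
    ext i j <;> simp [f, h]
  have hext : ∀ X Y : M2 (TrivSqZeroExt O (N × N')),
      (TrivSqZeroExt.map (LinearMap.fst O N N')).mapMatrix X =
        (TrivSqZeroExt.map (LinearMap.fst O N N')).mapMatrix Y →
      (TrivSqZeroExt.map (LinearMap.snd O N N')).mapMatrix X =
        (TrivSqZeroExt.map (LinearMap.snd O N N')).mapMatrix Y → X = Y := fun _ _ e e' =>
    Matrix.ext fun i j => tsze_prod_ext (congr_fun (congr_fun e i) j) (congr_fun (congr_fun e' i) j)
  { toFun := f
    map_one' := hext _ _ (by rw [h₁, map_one, map_one]) (by rw [h₂, map_one, map_one])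
    map_mul' := fun σ τ => hext _ _ (by rw [h₁, map_mul, map_mul, h₁, h₁])
      (by rw [h₂, map_mul, map_mul, h₂, h₂]) }

omit [IsLocalRing O] in
theorem mapM_pairLift_fst (h : ∀ σ i j, fst (r σ i j) = fst (r' σ i j)) :
    mapM (TrivSqZeroExt.map (LinearMap.fst O N N') : TrivSqZeroExt O (N × N') →+* _)
      (pairLift r r' h) = r := by
  ext σ i j <;> simp [pairLift]

omit [IsLocalRing O] in
theorem mapM_pairLift_snd (h : ∀ σ i j, fst (r σ i j) = fst (r' σ i j)) :
    mapM (TrivSqZeroExt.map (LinearMap.snd O N N') : TrivSqZeroExt O (N × N') →+* _)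
      (pairLift r r' h) = r' := by
  ext σ i j <;> simp [pairLift, h]

omit [IsLocalRing O] in
theorem fst_pairLift (h : ∀ σ i j, fst (r σ i j) = fst (r' σ i j)) (σ : Gal) (i j : Fin 2) :
    fst (pairLift r r' h σ i j) = fst (r σ i j) := by
  simp [pairLift]

omit [IsLocalRing O] in
theorem snd_pairLift (h : ∀ σ i j, fst (r σ i j) = fst (r' σ i j)) (σ : Gal) (i j : Fin 2) :
    snd (pairLift r r' h σ i j) = (snd (r σ i j), snd (r' σ i j)) := by
  simp [pairLift]

end Pair

section Diff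

variable {O : Type} [CommRing O] [IsDomain O] [IsDiscreteValuationRing O]
  [IsAdicComplete (maximalIdeal O) O] [CharZero O]
variable {p : ℕ} [Fact p.Prime] {W : Rigid O} {ρbar : ResidualGaloisRep (ResidueField O)}
  {bb : Basis (Fin 2) (ResidueField O) ρbar.V} {C : CondAt O} {T U : Finset ℕ}

variable {m : ℕ} [IsLocalRing (TrivSqZeroExt O (O ⧸ maximalIdeal O ^ m))]
  {hA : IsResAlg O (TrivSqZeroExt O (O ⧸ maximalIdeal O ^ m))}
  {r r' : Gal →* M2 (TrivSqZeroExt O (O ⧸ maximalIdeal O ^ m))} {r₀ : Gal →* M2 O}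

omit [IsAdicComplete (maximalIdeal O) O] [CharZero O]
  [IsLocalRing (TrivSqZeroExt O (O ⧸ maximalIdeal O ^ m))] in
theorem fst_eq_of_mapM
    (h : mapM ((fstHom O O (O ⧸ maximalIdeal O ^ m)) :
      TrivSqZeroExt O (O ⧸ maximalIdeal O ^ m) →+* O) r = r₀) (σ : Gal) (i j : Fin 2) :
    fst (r σ i j) = r₀ σ i j := by
  rw [← h]
  rfl

/-- The determinant of a lift is the scalar one. -/
theorem det_eq_inl (hp : (p : O) ∈ maximalIdeal O) (hr : IsTypeLift p W C T U hA r)
    (h : mapM ((fstHom O O (O ⧸ maximalIdeal O ^ m)) :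
      TrivSqZeroExt O (O ⧸ maximalIdeal O ^ m) →+* O) r = r₀) (σ : Gal) :
    (r σ).det = algebraMap O _ (r₀ σ).det := by
  haveI : IsHausdorff (maximalIdeal (TrivSqZeroExt O (O ⧸ maximalIdeal O ^ m)))
      (TrivSqZeroExt O (O ⧸ maximalIdeal O ^ m)) := ⟨fun x hx => by
    have hx' : ∀ n, x ∈ maximalIdeal (TrivSqZeroExt O (O ⧸ maximalIdeal O ^ m)) ^ n := fun n => by
      simpa [SModEq.zero, smul_eq_mul] using hx n
    refine TrivSqZeroExt.ext ?_ ((snd_eq_zero_of_mem_pow (hx' (m + 1))).trans snd_zero.symm)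
    rw [fst_zero]
    refine IsHausdorff.haus' (I := maximalIdeal O) _ fun n => ?_
    rw [SModEq.zero, smul_eq_mul, Ideal.mul_top]
    exact Ideal.pow_le_pow_right n.le_succ (mem_bounds_of_mem_pow n x (hx' (n + 1))).1⟩
  obtain ⟨c, hc⟩ := det_mem_range hp hr.det σ
  rw [det_toRep] at hc
  have hmap : r₀ σ = ((fstHom O O (O ⧸ maximalIdeal O ^ m)) :
      TrivSqZeroExt O (O ⧸ maximalIdeal O ^ m) →+* O).mapMatrix (r σ) := by
    rw [← h]
    rfl
  rw [← hc, hmap, ← RingHom.map_det, ← hc, RingHom.coe_coe, AlgHom.commutes, Algebra.algebraMap_self,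
    RingHom.id_apply]

end Diff

section Cond

variable {O : Type} [CommRing O] [IsDomain O] [IsDiscreteValuationRing O]
  [IsAdicComplete (maximalIdeal O) O]
variable {W : Rigid O} {ρbar : ResidualGaloisRep (ResidueField O)}
  {bb : Basis (Fin 2) (ResidueField O) ρbar.V} {C : CondAt O}
variable {T : Type} [CommRing T] [IsLocalRing T] [Algebra O T] [Module.Finite O T]
  {A : Type} [CommRing A] [IsLocalRing A] [Algebra O A]

omit [IsAdicComplete (maximalIdeal O) O] in
/-- The condition passes to the image, along any map, of a representation both of whose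
projections satisfy it. -/
theorem condOn_of_pair (hW : W.rb = matRes ρbar bb) (hC : IsPairCond ρbar C) (hT : IsResAlg O T)
    (hTloc : ∀ S : Subalgebra O T, IsLocalHom (S.val : S →+* T))
    (hAloc : ∀ S : Subalgebra O A, IsLocalHom (S.val : S →+* A))
    (π₁ π₂ g : T →ₐ[O] A) (hπ₁ : IsLocalHom (π₁ : T →+* A)) (hπ₂ : IsLocalHom (π₂ : T →+* A))
    (hg : IsLocalHom (g : T →+* A)) (hext : ∀ x, π₁ x = 0 → π₂ x = 0 → x = 0)
    (rT : Gal →* M2 T) (hlT : Lifts W hT rT)
    (hcont : ∀ (S : Subalgebra O T) [IsLocalRing S] (rS : Gal →* M2 S),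
      mapM (S.val : S →+* T) rS = rT → IsCont rS)
    (h₁ : CondOn C (mapM (π₁ : T →+* A) rT)) (h₂ : CondOn C (mapM (π₂ : T →+* A) rT)) :
    CondOn C (mapM (g : T →+* A) rT) := by
  obtain ⟨B₁, _, _, _, _, φ₁, r₁, hc₁, hφ₁, he₁, hC₁⟩ := h₁
  obtain ⟨B₂, _, _, _, _, φ₂, r₂, hc₂, hφ₂, he₂, hC₂⟩ := h₂
  let P : Subalgebra O T := φ₁.range.comap π₁ ⊓ φ₂.range.comap π₂
  have hval : IsLocalHom (P.val : P →+* T) := hTloc P
  haveI : IsLocalRing P := RingHom.domain_isLocalRing (P.val : P →+* T)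
  have hPloc : IsLocalHom (algebraMap O P) := ⟨fun o ho => by
    haveI := hT.isLocalHom
    have := ho.map P.val
    rw [AlgHom.commutes] at this
    exact IsUnit.of_map (algebraMap O T) o this⟩
  haveI := hPloc
  have hPres : IsResAlg O P := ⟨hPloc, fun z => by
    obtain ⟨x, rfl⟩ := residue_surjective z
    obtain ⟨o, ho⟩ := exists_sub_mem hT (x : T)
    refine ⟨o, ?_⟩
    show residue P (algebraMap O P o) = residue P x
    rw [eq_comm, ← sub_eq_zero, ← map_sub, residue_eq_zero_iff, IsLocalRing.mem_maximalIdeal,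
      mem_nonunits_iff]
    intro hu
    have := hu.map P.val
    rw [map_sub, AlgHom.commutes, Subalgebra.coe_val] at this
    exact (IsLocalRing.mem_maximalIdeal _).mp ho this⟩
  haveI : Module.Finite O P := inferInstanceAs (Module.Finite O (Subalgebra.toSubmodule P))
  have hmem : ∀ σ i j, rT σ i j ∈ P := fun σ i j =>
    ⟨⟨r₁ σ i j, congr_fun (congr_fun (DFunLike.congr_fun he₁ σ) i) j⟩,
      ⟨r₂ σ i j, congr_fun (congr_fun (DFunLike.congr_fun he₂ σ) i) j⟩⟩
  have hinj : Function.Injective (P.val.mapMatrix (m := Fin 2)) :=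
    Matrix.map_injective Subtype.val_injective
  let f : Gal → M2 P := fun σ => Matrix.of fun i j => ⟨rT σ i j, hmem σ i j⟩
  have hf : ∀ σ, P.val.mapMatrix (f σ) = rT σ := fun σ => rfl
  let rP : Gal →* M2 P :=
    { toFun := f
      map_one' := hinj (by rw [hf, map_one, map_one])
      map_mul' := fun σ τ => hinj (by rw [hf, map_mul, map_mul, hf, hf]) }
  have hrPT : mapM (P.val : P →+* T) rP = rT := MonoidHom.ext fun σ => hf σ
  have hcP : IsCont (A := P) rP := hcont P rP hrPT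
  have hlP : Lifts W hPres rP := Lifts.of_map (hB := hT) P.val hval (hrPT.symm ▸ hlT)
  let ψ₁ : P →ₐ[O] B₁ := (AlgEquiv.ofInjective φ₁ hφ₁).symm.toAlgHom.comp
    ((π₁.comp P.val).codRestrict φ₁.range fun x => x.2.1)
  let ψ₂ : P →ₐ[O] B₂ := (AlgEquiv.ofInjective φ₂ hφ₂).symm.toAlgHom.comp
    ((π₂.comp P.val).codRestrict φ₂.range fun x => x.2.2)
  have hψ₁ : ∀ x : P, φ₁ (ψ₁ x) = π₁ (x : T) := fun x =>
    congrArg Subtype.val ((AlgEquiv.ofInjective φ₁ hφ₁).apply_symm_apply ⟨π₁ (x : T), x.2.1⟩)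
  have hψ₂ : ∀ x : P, φ₂ (ψ₂ x) = π₂ (x : T) := fun x =>
    congrArg Subtype.val ((AlgEquiv.ofInjective φ₂ hφ₂).apply_symm_apply ⟨π₂ (x : T), x.2.2⟩)
  have hl₁ : IsLocalHom (ψ₁ : P →+* B₁) := ⟨fun x hx => by
    haveI := hval
    haveI := hπ₁
    refine IsUnit.of_map (P.val : P →+* T) x (IsUnit.of_map (π₁ : T →+* A) _ ?_)
    have := hx.map φ₁
    rwa [RingHom.coe_coe, hψ₁] at this⟩
  have hl₂ : IsLocalHom (ψ₂ : P →+* B₂) := ⟨fun x hx => by
    haveI := hval
    haveI := hπ₂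
    refine IsUnit.of_map (P.val : P →+* T) x (IsUnit.of_map (π₂ : T →+* A) _ ?_)
    have := hx.map φ₂
    rwa [RingHom.coe_coe, hψ₂] at this⟩
  have hre₁ : mapM (ψ₁ : P →+* B₁) rP = r₁ := by
    refine MonoidHom.ext fun σ => Matrix.ext fun i j => hφ₁ ?_
    rw [mapM_apply, RingHom.coe_coe, hψ₁]
    exact (congr_fun (congr_fun (DFunLike.congr_fun he₁ σ) i) j).symm
  have hre₂ : mapM (ψ₂ : P →+* B₂) rP = r₂ := by
    refine MonoidHom.ext fun σ => Matrix.ext fun i j => hφ₂ ?_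
    rw [mapM_apply, RingHom.coe_coe, hψ₂]
    exact (congr_fun (congr_fun (DFunLike.congr_fun he₂ σ) i) j).symm
  have hinj₂ : ∀ x : P, ψ₁ x = 0 → ψ₂ x = 0 → x = 0 := fun x e₁ e₂ =>
    Subtype.ext (hext _ (by rw [← hψ₁, e₁, map_zero]) (by rw [← hψ₂, e₂, map_zero]))
  have hres : (toRep rP hcP).residual.IsEquiv
      (ρbar.baseChangeAlong (ResidueField.map (algebraMap O P))) :=
    residual_isEquiv_of_lifts hW hPres _ (Pi.basisFun P (Fin 2)) (by rwa [matOf_toRep])
  have hCP : C (toRep rP hcP) :=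
    hC.pair ψ₁ ψ₂ hl₁ hl₂ _ hinj₂ hres
      (hC.of_isEquiv (isEquiv_symm (isEquiv_trans (isEquiv_baseChangeAlong_toRep _ hl₁ rP hcP)
        (isEquiv_toRep_congr hre₁ _ hc₁))) hC₁)
      (hC.of_isEquiv (isEquiv_symm (isEquiv_trans (isEquiv_baseChangeAlong_toRep _ hl₂ rP hcP)
        (isEquiv_toRep_congr hre₂ _ hc₂))) hC₂)
  let g' : P →ₐ[O] A := g.comp P.val
  have hQ : IsLocalHom (g'.range.val : g'.range →+* A) := hAloc g'.range
  haveI : IsLocalRing g'.range := RingHom.domain_isLocalRing (g'.range.val : g'.range →+* A)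
  haveI : Module.Finite O g'.range :=
    Module.Finite.of_surjective g'.rangeRestrict.toLinearMap g'.rangeRestrict_surjective
  have hgr : IsLocalHom (g'.rangeRestrict : P →+* g'.range) := ⟨fun x hx => by
    haveI := hval
    haveI := hg
    exact IsUnit.of_map (P.val : P →+* T) x
      (IsUnit.of_map (g : T →+* A) _ (hx.map g'.range.val))⟩
  refine ⟨g'.range, inferInstance, inferInstance, inferInstance, inferInstance, g'.range.val,
    mapM (g'.rangeRestrict : P →+* g'.range) rP, hcP.map _ hgr, Subtype.val_injective, ?_,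
    hC.of_isEquiv (isEquiv_baseChangeAlong_toRep _ hgr rP hcP)
      (hC.baseChange g'.rangeRestrict hgr _ g'.rangeRestrict_surjective hCP)⟩
  conv_rhs => rw [← hrPT]
  exact MonoidHom.ext fun σ => Matrix.ext fun i j => rfl

end Cond

section Translate

variable {O : Type} [CommRing O] [IsDomain O] [IsDiscreteValuationRing O]
  [IsAdicComplete (maximalIdeal O) O] [CharZero O]
variable {p : ℕ} [Fact p.Prime] {W : Rigid O} {ρbar : ResidualGaloisRep (ResidueField O)}
  {bb : Basis (Fin 2) (ResidueField O) ρbar.V} {C : CondAt O} {T U : Finset ℕ}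
variable {J : Type} [AddCommGroup J] [Module O J] [Module Oᵐᵒᵖ J] [IsCentralScalar O J]
  [Module.Finite O J] [IsLocalRing (TrivSqZeroExt O J)] {hA : IsResAlg O (TrivSqZeroExt O J)}
  (r r' : Gal →* M2 (TrivSqZeroExt O J)) {r₀ : Gal →* M2 O}

omit [IsAdicComplete (maximalIdeal O) O] [CharZero O] [Fact p.Prime] in
/-- **The translate** `r₀ + (r - r')` of two lifts over `r₀` is a lift of type `C`. -/
theorem exists_translate (hW : W.rb = matRes ρbar bb) (hC : IsPairCond ρbar C) {hO : IsResAlg O O}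
    (hr₀ : IsTypeLift p W C T U hO r₀) {T' : Finset ℕ}
    (hr : IsTypeLift p W C T' U hA r) (hr' : IsTypeLift p W C T' U hA r')
    (h : ∀ σ i j, fst (r σ i j) = r₀ σ i j) (h' : ∀ σ i j, fst (r' σ i j) = r₀ σ i j)
    (hdet₁ : ∀ σ, (r σ).det = algebraMap O _ (r₀ σ).det)
    (hdet₂ : ∀ σ, (r' σ).det = algebraMap O _ (r₀ σ).det)
    (hlev : ∃ L : IntermediateField ℚ QBar, FiniteDimensional ℚ L ∧
      ∀ σ : Gal, (∀ x ∈ L, σ x = x) → ∀ i j, snd (r σ i j) = 0)
    (hlev' : ∃ L : IntermediateField ℚ QBar, FiniteDimensional ℚ L ∧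
      ∀ σ : Gal, (∀ x ∈ L, σ x = x) → ∀ i j, snd (r' σ i j) = 0) :
    ∃ (d : Gal →* M2 (TrivSqZeroExt O J)) (hd : IsCont d),
      Lifts W hA d ∧ IsNormal W d ∧ (toRep d hd).DetIsCyclotomic p ∧ CondOn C d ∧
      (∀ σ i j, fst (d σ i j) = r₀ σ i j) ∧
      ∀ σ i j, snd (d σ i j) = snd (r σ i j) - snd (r' σ i j) := by
  have hp : (p : O) ∈ maximalIdeal O := hr₀.det.1
  have hfst : ∀ σ i j, fst (r σ i j) = fst (r' σ i j) := fun σ i j => by
    rw [h, h']
  let rT : Gal →* M2 (TrivSqZeroExt O (J × J)) := pairLift r r' hfst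
  haveI := isLocalRing_tsze (O := O) (M := J × J)
  haveI := finite_tsze (O := O) (M := J × J)
  let π₁ : TrivSqZeroExt O (J × J) →ₐ[O] TrivSqZeroExt O J :=
    TrivSqZeroExt.map (LinearMap.fst O J J)
  let π₂ : TrivSqZeroExt O (J × J) →ₐ[O] TrivSqZeroExt O J :=
    TrivSqZeroExt.map (LinearMap.snd O J J)
  let D : TrivSqZeroExt O (J × J) →ₐ[O] TrivSqZeroExt O J :=
    TrivSqZeroExt.map (LinearMap.fst O J J - LinearMap.snd O J J)
  have hπ₁ : mapM (π₁ : TrivSqZeroExt O (J × J) →+* TrivSqZeroExt O J) rT = r :=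
    mapM_pairLift_fst r r' hfst
  have hπ₂ : mapM (π₂ : TrivSqZeroExt O (J × J) →+* TrivSqZeroExt O J) rT = r' :=
    mapM_pairLift_snd r r' hfst
  have hD : IsLocalHom (D : TrivSqZeroExt O (J × J) →+* TrivSqZeroExt O J) :=
    isLocalHom_tsze_map _
  have hTres : IsResAlg O (TrivSqZeroExt O (J × J)) := by
    refine ⟨⟨fun o ho => ?_⟩, fun z => ?_⟩
    · rwa [isUnit_iff_isUnit_fst, algebraMap_eq_inl, fst_inl] at ho
    · obtain ⟨x, rfl⟩ := residue_surjective z
      refine ⟨fst x, ?_⟩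
      show residue _ (algebraMap O _ (fst x)) = residue _ x
      rw [← sub_eq_zero, ← map_sub, residue_eq_zero_iff, IsLocalRing.mem_maximalIdeal,
        mem_nonunits_iff, isUnit_iff_isUnit_fst, fst_sub, algebraMap_eq_inl, fst_inl, sub_self]
      exact not_isUnit_zero
  have hlT : Lifts W hTres rT := fun σ i j => by
    have e : IsLocalHom ((fstHom O O (J × J)) : TrivSqZeroExt O (J × J) →+* O) :=
      ⟨fun x hx => isUnit_iff_isUnit_fst.mpr hx⟩
    rw [← hr₀.lifts σ i j, ← augment_comp hTres hO (fstHom O O (J × J)) e]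
    show augment hO (fst (rT σ i j)) = _
    rw [fst_pairLift, h]
  obtain ⟨L₁, hL₁, h₁⟩ := hlev
  obtain ⟨L₂, hL₂, h₂⟩ := hlev'
  have hlevT : ∀ σ : Gal, (∀ x ∈ L₁ ⊔ L₂, σ x = x) → ∀ i j, snd (rT σ i j) = 0 :=
    fun σ hσ i j => by
      rw [snd_pairLift, h₁ σ (fun x hx => hσ x (le_sup_left (b := L₂) hx)) i j,
        h₂ σ (fun x hx => hσ x (le_sup_right (a := L₁) hx)) i j]
      rfl
  haveI := hA.isLocalHom
  have hcD : IsCont (mapM (D : TrivSqZeroExt O (J × J) →+* TrivSqZeroExt O J) rT) := by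
    refine isCont_of_level (AlgHom.id O (TrivSqZeroExt O J)) (fun x y e => e) hr₀.cont
      (fun σ i j => ?_) ⟨L₁ ⊔ L₂, inferInstance, fun σ hσ i j => ?_⟩
    · show fst (D (rT σ i j)) = _
      rw [fst_map, fst_pairLift, h]
    · show snd (D (rT σ i j)) = _
      rw [snd_map, hlevT σ hσ i j, map_zero]
  refine ⟨mapM (D : TrivSqZeroExt O (J × J) →+* TrivSqZeroExt O J) rT, hcD, hlT.map hA D hD,
    ?_, ?_, ?_, fun σ i j => ?_, fun σ i j => ?_⟩
  · refine IsNormal.map D ?_
    have e₁ := hr.normal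
    have e₂ := hr'.normal
    rw [← hπ₁] at e₁
    rw [← hπ₂] at e₂
    obtain ⟨a₁, b₁, c₁⟩ := e₁
    obtain ⟨a₂, b₂, c₂⟩ := e₂
    rw [evalC_map] at a₁ b₁ c₁ a₂ b₂ c₂
    exact ⟨tsze_prod_ext (a₁.trans (map_zero π₁).symm) (a₂.trans (map_zero π₂).symm),
      tsze_prod_ext (b₁.trans (map_zero π₁).symm) (b₂.trans (map_zero π₂).symm),
      tsze_prod_ext (c₁.trans (map_one π₁).symm) (c₂.trans (map_one π₂).symm)⟩
  · have hdet : ∀ σ, (D.mapMatrix (rT σ)).det = algebraMap O _ (r₀ σ).det := by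
      intro σ
      have hrT : (rT σ).det = algebraMap O _ (r₀ σ).det := by
        refine tsze_prod_ext ?_ ?_
        · show π₁ _ = π₁ _
          rw [AlgHom.map_det, AlgHom.commutes, ← hdet₁]
          exact congrArg Matrix.det (DFunLike.congr_fun hπ₁ σ)
        · show π₂ _ = π₂ _
          rw [AlgHom.map_det, AlgHom.commutes, ← hdet₂]
          exact congrArg Matrix.det (DFunLike.congr_fun hπ₂ σ)
      rw [← AlgHom.map_det, hrT, AlgHom.commutes]
    refine ⟨?_, fun n σ a ha => ?_⟩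
    · haveI := hA.isLocalHom
      rw [← map_natCast (algebraMap O (TrivSqZeroExt O J))]
      exact map_nonunit (algebraMap O (TrivSqZeroExt O J)) _ hp
    · rw [det_toRep]
      show (D.mapMatrix (rT σ)).det - _ ∈ _
      rw [hdet σ]
      have e := hr₀.det.2 n σ a ha
      rw [det_toRep] at e
      have := CFT.Tangent.map_mem_span_natCast (algebraMap O (TrivSqZeroExt O J)) e
      rwa [map_sub, map_natCast] at this
  · refine condOn_of_pair hW hC hTres isLocalHom_subalgebra_val isLocalHom_subalgebra_val π₁ π₂ D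
      (isLocalHom_tsze_map _) (isLocalHom_tsze_map _) hD (fun x e₁ e₂ => ?_) rT hlT ?_
      (hπ₁.symm ▸ hr.cond) (hπ₂.symm ▸ hr'.cond)
    · exact tsze_prod_ext (e₁.trans (map_zero π₁).symm) (e₂.trans (map_zero π₂).symm)
    · intro S _ rS hS
      haveI := (isResAlg_subalgebra S).isLocalHom
      refine isCont_of_level S.val Subtype.val_injective hr₀.cont (fun σ i j => ?_)
        ⟨L₁ ⊔ L₂, inferInstance, fun σ hσ i j => ?_⟩
      · have e : S.val (rS σ i j) = rT σ i j := congr_fun (congr_fun (DFunLike.congr_fun hS σ) i) j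
        rw [e, fst_pairLift, h]
      · have e : S.val (rS σ i j) = rT σ i j := congr_fun (congr_fun (DFunLike.congr_fun hS σ) i) j
        rw [e, hlevT σ hσ i j]
  · show fst (D (rT σ i j)) = _
    rw [fst_map, fst_pairLift, h]
  · show snd (D (rT σ i j)) = _
    rw [snd_map, snd_pairLift]
    rfl

end Translate

section Square

variable {O : Type} [CommRing O] [IsDomain O] [IsDiscreteValuationRing O]
  [IsAdicComplete (maximalIdeal O) O] [CharZero O]
variable {p : ℕ} [Fact p.Prime] {W : Rigid O} {ρbar : ResidualGaloisRep (ResidueField O)}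
  {bb : Basis (Fin 2) (ResidueField O) ρbar.V} {C : CondAt O} {T U : Finset ℕ}
variable {m : ℕ} [IsLocalRing (TrivSqZeroExt O (O ⧸ maximalIdeal O ^ m))]
  {hA : IsResAlg O (TrivSqZeroExt O (O ⧸ maximalIdeal O ^ m))}
  (r r' : Gal →* M2 (TrivSqZeroExt O (O ⧸ maximalIdeal O ^ m))) {r₀ : Gal →* M2 O}

/-- The translate of two lifts to `O ⊕ O / 𝔪 ^ m`. -/
theorem exists_diffLift (hW : W.rb = matRes ρbar bb) (hC : IsPairCond ρbar C) {hO : IsResAlg O O}
    (hr₀ : IsTypeLift p W C T U hO r₀) {T' : Finset ℕ}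
    (hr : IsTypeLift p W C T' U hA r) (hr' : IsTypeLift p W C T' U hA r')
    (h : mapM ((fstHom O O (O ⧸ maximalIdeal O ^ m)) :
      TrivSqZeroExt O (O ⧸ maximalIdeal O ^ m) →+* O) r = r₀)
    (h' : mapM ((fstHom O O (O ⧸ maximalIdeal O ^ m)) :
      TrivSqZeroExt O (O ⧸ maximalIdeal O ^ m) →+* O) r' = r₀) :
    ∃ (d : Gal →* M2 (TrivSqZeroExt O (O ⧸ maximalIdeal O ^ m))) (hd : IsCont d),
      Lifts W hA d ∧ IsNormal W d ∧ (toRep d hd).DetIsCyclotomic p ∧ CondOn C d ∧
      (∀ σ i j, fst (d σ i j) = r₀ σ i j) ∧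
      ∀ σ i j, snd (d σ i j) = snd (r σ i j) - snd (r' σ i j) :=
  exists_translate r r' hW hC hr₀ hr hr' (fst_eq_of_mapM h) (fst_eq_of_mapM h')
    (det_eq_inl hr₀.det.1 hr h) (det_eq_inl hr₀.det.1 hr' h') (exists_level_snd hr.cont)
    (exists_level_snd hr'.cont)

end Square

end Fermat.Agent.RT.Lifting
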